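import Mathlib
import Fermat.Agent.S18.CharStmt
import Fermat.Agent.S18.Red

/-!
# S34 — [CHAR2]: `S18.Plan.CharStmt` at a bad pair of levels (owner: helper27)

Setting of P6: `q` prime, `A` over `q`, `N = q * N₀` (bad level), top level `N' = q * M` with
`N₀ ∣ M`, `q ∤ M` (good level), residue fields `Fk A N₀ ⊆ Fk A M` at the GOOD levels.  Only the
content valuation `v₁ = Ocal A` is used here.

* `ValProp A N`   : `F_N ∩ Ocal A` is a valuation ring of `F_N`                      (input (HV));
* `RedInto A N n` : reductions of `F_N ∩ Ocal A` lie in `Fk A n`                      (input (HB));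
* `data_of`       : the generic `S18.CharStmt.Data` of the pair from (HV), (HB);
* `charStmt_of_data` : **`S18.Plan.CharStmt A N N'`** (the frozen S18 contract text) at a pair of
  levels whose residue fields are `Fk A n ⊆ Fk A n'`, provided `ψ(N')ψ(n) = ψ(N)ψ(n')`
  (no defect), via helper5's generic `S18.CharStmt.exists_char`;
* `charStmt_bad`  : the instantiation `N = q * N₀`, `N' = q * M`.

The consumer is `Fermat.Agent.S34.Desc.desc_of` (helper18).
-/
set_option autoImplicit false
set_option maxHeartbeats 400000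

noncomputable section

namespace Fermat.Agent.S34.CharBad

open ModularCurve AlgebraicCurve Fermat.Agent.S24 Fermat.Agent.S18.Content Fermat.Agent.S18.Plan
open Fermat.Agent.S18 Fermat.Agent.Lib

set_option synthInstance.maxHeartbeats 400000

variable (A : ValuationSubring Kbar)

/-- **(HV)** `F_N ∩ Ocal A` is a valuation ring of `F_N`. -/
def ValProp (N : ℕ) : Prop :=
  ∀ y : Om, y ∈ modularFunctionFieldBar N → y ∈ Ocal A ∨ y⁻¹ ∈ Ocal A

/-- **(HB)** the reductions of `F_N ∩ Ocal A` lie in `Fk A n`. -/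
def RedInto (N n : ℕ) : Prop :=
  ∀ y : Ocal A, (y : Om) ∈ modularFunctionFieldBar N → red A y ∈ Fk A n

/-- **(V1')** every non-zero element of `F_N` is a constant times a `v₁`-unit (the `hscale`
hypothesis of `S34.Desc.desc_of`). -/
def ScaleProp (N : ℕ) : Prop :=
  ∀ y : Om, y ∈ modularFunctionFieldBar N → y ≠ 0 →
    ∃ c : Kbar, c ≠ 0 ∧ ∃ h : HahnSeries.C c * y ∈ Ocal A, red A ⟨_, h⟩ ≠ 0

variable {A}

/-- (V1') ⇒ (HV). -/
theorem ScaleProp.valProp {N : ℕ} (h : ScaleProp A N) : ValProp A N := by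
  intro y hy
  by_cases hy0 : y = 0
  · left; rw [hy0]; exact zero_mem _
  obtain ⟨c, hc, hu, hred⟩ := h y hy hy0
  have hinv : (HahnSeries.C c * y)⁻¹ ∈ Ocal A := inv_mem_Ocal A ⟨_, hu⟩ hred
  have hCC : (HahnSeries.C c⁻¹ : Om) * HahnSeries.C c = 1 := by
    rw [← map_mul, inv_mul_cancel₀ hc, map_one]
  rcases A.mem_or_inv_mem c with hcA | hcA
  · right
    have e : y⁻¹ = HahnSeries.C c * (HahnSeries.C c * y)⁻¹ := by
      have hC0 : (HahnSeries.C c : Om) ≠ 0 := fun h0 => by
        rw [h0, mul_zero] at hCC; exact zero_ne_one hCC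
      rw [mul_inv, ← mul_assoc, mul_inv_cancel₀ hC0, one_mul]
    rw [e]
    exact mul_mem (C_mem_Ocal A hcA) hinv
  · left
    have e : y = HahnSeries.C c⁻¹ * (HahnSeries.C c * y) := by
      rw [← mul_assoc, hCC, one_mul]
    rw [e]
    exact mul_mem (C_mem_Ocal A hcA) hu

theorem ValProp.mono {N N' : ℕ} (h : ValProp A N')
    (hle : modularFunctionFieldBar N ≤ modularFunctionFieldBar N') : ValProp A N :=
  fun y hy => h y (hle hy)

/-- At a good level both properties are clauses of `RedStmt`. -/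
theorem scaleProp_of_redStmt {n : ℕ} (h : RedStmt A n) : ScaleProp A n := h.1

theorem valProp_of_redStmt {n : ℕ} (h : RedStmt A n) : ValProp A n :=
  CharStmt.valProp_of_redStmt A h

theorem redInto_of_redStmt {n : ℕ} (h : RedStmt A n) : RedInto A n n := h.2.1

/-- The generic `Data` of a pair of levels `(N, N')` with residue fields at levels `(n, n')`. -/
theorem data_of {N N' n n' : ℕ} (hv₁ : ValProp A N) (hv₂ : ValProp A N')
    (hb₁ : RedInto A N n) (hb₂ : RedInto A N' n') (hR' : RedStmt A n')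
    (hle' : modularFunctionFieldBar n' ≤ modularFunctionFieldBar N') :
    CharStmt.Data (Ocal A) (red A) (modularFunctionFieldBar N) (modularFunctionFieldBar N')
      (Fk A n) (Fk A n') where
  hinv := fun y hy => inv_mem_Ocal A y hy
  hv₁ := hv₁
  hv₂ := hv₂
  hb₁ := hb₁
  hb₂ := hb₂
  hc₂ := fun x hx => by
    obtain ⟨y, hy, hyx⟩ := hR'.2.2.1 x hx
    exact ⟨y, hle' hy, hyx⟩

variable (A)

/-- **`Plan.CharStmt A N N'`** for a pair of levels `N ∣ N'` whose residue fields (for the content
valuation) are `Fk A n ⊆ Fk A n'`, `n ∣ n'`, `ℓ ∤ n'`, with `ψ(N') ψ(n) = ψ(N) ψ(n')`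
(no defect). -/
theorem charStmt_of_data (N N' n n' : ℕ) [NeZero N] [NeZero N'] [NeZero n] [NeZero n']
    (hdiv : N ∣ N') (hkdiv : n ∣ n') (ℓ : ℕ) [Fact ℓ.Prime] (hℓ : ¬ ℓ ∣ n') [CharP (kk A) ℓ]
    (hψψ : dedekindPsi N' * dedekindPsi n = dedekindPsi N * dedekindPsi n')
    (hD : CharStmt.Data (Ocal A) (red A) (modularFunctionFieldBar N) (modularFunctionFieldBar N')
      (Fk A n) (Fk A n')) :
    Plan.CharStmt A N N' := by
  intro B g hg
  have hle := CharStmt.bar_le hdiv
  have hkle := CharStmt.fk_le A hkdiv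
  have h0 := CharStmt.psi_mul_finrank hle
  have hk := CharStmt.psi_mul_finrank_k A hkdiv ℓ hℓ hkle
  have hψ : 0 < dedekindPsi N := FibreCount.dedekindPsi_pos N
  have hψ' : 0 < dedekindPsi N' := FibreCount.dedekindPsi_pos N'
  have hψn : 0 < dedekindPsi n := FibreCount.dedekindPsi_pos n
  have hpos : 0 < Module.finrank (FN N) (IntermediateField.extendScalars hle) := by
    rcases Nat.eq_zero_or_pos (Module.finrank (FN N) (IntermediateField.extendScalars hle))
      with h | h
    · rw [h, mul_zero] at h0; omega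
    · exact h
  have : Module.Finite (FN N) (IntermediateField.extendScalars hle) :=
    Module.finite_of_finrank_pos hpos
  have heq : Module.finrank (Fk A n) (IntermediateField.extendScalars hkle) =
      Module.finrank (FN N) (IntermediateField.extendScalars hle) := by
    apply Nat.eq_of_mul_eq_mul_left (Nat.mul_pos hψ hψn)
    calc dedekindPsi N * dedekindPsi n *
          Module.finrank (Fk A n) (IntermediateField.extendScalars hkle)
        = dedekindPsi N * (dedekindPsi n *
          Module.finrank (Fk A n) (IntermediateField.extendScalars hkle)) := by ring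
      _ = dedekindPsi N * dedekindPsi n' := by rw [hk]
      _ = dedekindPsi N' * dedekindPsi n := hψψ.symm
      _ = dedekindPsi N * Module.finrank (FN N) (IntermediateField.extendScalars hle) *
          dedekindPsi n := by rw [h0]
      _ = dedekindPsi N * dedekindPsi n *
          Module.finrank (FN N) (IntermediateField.extendScalars hle) := by ring
  have hgN : (g : Om) ∈ modularFunctionFieldBar N' := (mem_pullRR.mp hg).1
  obtain ⟨χ, hχ, hmonic, hdeg, haeval, hO, hred⟩ :=
    CharStmt.exists_char hD hle hkle heq g hgN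
  refine ⟨χ, hmonic, ?_, haeval, ?_, hO, fun hr i => ?_⟩
  · rw [hdeg, mul_comm]; exact h0
  · intro i hi
    rw [hdeg] at hi ⊢
    rw [hχ]
    exact PullPlan.coeff_charpoly_mem hle
      ⟨(g : Om), (IntermediateField.mem_extendScalars hle).mpr hgN⟩ hg i hi
  · rw [hred hr i, algebraMap_LS_eq_C]

/-! ### The bad pair `N = q * N₀ ∣ N' = q * M`, `N₀ ∣ M`, `q ∤ M` -/

section Bad

variable (q N₀ M : ℕ) [Fact q.Prime] [NeZero N₀] [NeZero M]

theorem neZero_mul : NeZero (q * M) :=
  ⟨Nat.mul_ne_zero (Fact.out : q.Prime).ne_zero (NeZero.ne M)⟩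

/-- `ψ(qM) ψ(N₀) = ψ(qN₀) ψ(M)` for `q ∤ M`, `N₀ ∣ M`. -/
theorem psi_bad (hN₀M : N₀ ∣ M) (hqM : ¬ q ∣ M) :
    dedekindPsi (q * M) * dedekindPsi N₀ = dedekindPsi (q * N₀) * dedekindPsi M := by
  have hq : q.Prime := Fact.out
  have hqN₀ : ¬ q ∣ N₀ := fun h => hqM (h.trans hN₀M)
  rw [Lib.Gamma0Count.dedekindPsi_mul_of_not_dvd hq (NeZero.ne M) hqM,
    Lib.Gamma0Count.dedekindPsi_mul_of_not_dvd hq (NeZero.ne N₀) hqN₀]
  ring

/-- **`Plan.CharStmt A (q * N₀) (q * M)`** (the S18 contract at the bad pair, for the content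
valuation alone), from (V1') at the top level and (HB) at both bad levels. -/
theorem charStmt_bad (hN₀M : N₀ ∣ M) (hqM : ¬ q ∣ M) (hA : A.LiesOverPrime q)
    (hs : ScaleProp A (q * M)) (hb₁ : RedInto A (q * N₀) N₀) (hb₂ : RedInto A (q * M) M) :
    Plan.CharStmt A (q * N₀) (q * M) := by
  have hv : ValProp A (q * M) := hs.valProp
  have := neZero_mul q N₀
  have := neZero_mul q M
  have := charP_residueField_of_liesOverPrime A q hA
  have hdiv : q * N₀ ∣ q * M := Nat.mul_dvd_mul_left q hN₀M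
  have hRM : RedStmt A M := Red.redStmt M q hqM A hA
  have hle' : modularFunctionFieldBar M ≤ modularFunctionFieldBar (q * M) :=
    CharStmt.bar_le (dvd_mul_left M q)
  exact charStmt_of_data A (q * N₀) (q * M) N₀ M hdiv hN₀M q hqM (psi_bad q N₀ M hN₀M hqM)
    (data_of (hv.mono (CharStmt.bar_le hdiv)) hv hb₁ hb₂ hRM hle')

/-- **`Plan.CharStmt A (N₀ * q) (M * q)`**: the same statement in the level order of the Prelude
(`heckeAlphaBar Kbar M q : F_M → F_{M * q}`) and of `S34/Plan` (`N = N' * q`, top level `M * q`). -/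
theorem charStmt_bad' (hN₀M : N₀ ∣ M) (hqM : ¬ q ∣ M) (hA : A.LiesOverPrime q)
    (hs : ScaleProp A (M * q)) (hb₁ : RedInto A (N₀ * q) N₀) (hb₂ : RedInto A (M * q) M) :
    Plan.CharStmt A (N₀ * q) (M * q) := by
  rw [Nat.mul_comm N₀ q] at hb₁ ⊢
  rw [Nat.mul_comm M q] at hs hb₂ ⊢
  exact charStmt_bad A q N₀ M hN₀M hqM hA hs hb₁ hb₂

end Bad

end Fermat.Agent.S34.CharBad

end
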