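import Mathlib
import Fermat.Prelude.Def_ModularCurve_X0ModL
import Fermat.Agent.S18.Plan
import Fermat.Agent.Lib.KroneckerCong
import Fermat.Agent.Lib.ResidueAlgClosed

/-!
# P6 / S34 — [FROB]: coefficientwise field endomorphisms on `F_{n,k}` and `WJ`

For a field `k` and a ring endomorphism `φ : k →+* k`, the coefficientwise map
`coeffMap φ : k((T)) →+* k((T))` preserves

* the function field `modularFunctionFieldFullC k n` (its generators `j̄(T^d)` have prime-ring
  coefficients),
* `polyJ k = k[j̄]`, `OinfJ k`, and hence every space `WJ k (modularFunctionFieldFullC k n) c`.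

In characteristic `q` with `k` perfect, taking `φ = Frobenius⁻¹` gives for every `a ∈ WJ c` an
`a' ∈ WJ c` with `a' ^ q = a(T^q)` (`exists_root_WJ`), and the iterated form
`a'' ^ (q^2) = a(T^{q^2})` (`exists_root_sq_WJ`).
-/

set_option autoImplicit false

noncomputable section

namespace Fermat.Agent.S34.FrobCoeff

open ModularCurve Fermat.Agent.S18

variable {k : Type} [Field k]

/-- `coeffMap φ` on constants. -/
theorem coeffMap_algebraMap (φ : k →+* k) (c : k) :
    coeffMap φ (algebraMap k (LaurentSeries k) c) = algebraMap k (LaurentSeries k) (φ c) := by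
  rw [algebraMap_laurentSeries_eq_single, algebraMap_laurentSeries_eq_single, coeffMap_single]

/-- `coeffMap φ` fixes `j̄`. -/
theorem coeffMap_j (φ : k →+* k) : coeffMap φ (jqModC k) = jqModC k := coeffMap_jqModC φ

/-- `coeffMap φ` fixes `j̄(T^d)`. -/
theorem coeffMap_jd (φ : k →+* k) (d : ℕ) [NeZero d] :
    coeffMap φ (qExpand k d (jqModC k)) = qExpand k d (jqModC k) := by
  have h := coeffMap_jqNModC φ d
  rwa [jqNModC] at h

/-- **(F1)** `coeffMap φ` preserves the function field `F_{n,k}`. -/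
theorem coeffMap_mem_full (φ : k →+* k) (n : ℕ) {a : LaurentSeries k}
    (ha : a ∈ modularFunctionFieldFullC k n) : coeffMap φ a ∈ modularFunctionFieldFullC k n := by
  have key : (modularFunctionFieldFullC k n).toSubfield ≤
      ((modularFunctionFieldFullC k n).toSubfield).comap (coeffMap φ) := by
    conv_lhs => rw [modularFunctionFieldFullC, IntermediateField.adjoin_toSubfield]
    rw [Subfield.closure_le]
    rintro x (⟨c, rfl⟩ | ⟨d, hne, hd, rfl⟩)
    · show coeffMap φ (algebraMap k _ c) ∈ modularFunctionFieldFullC k n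
      rw [coeffMap_algebraMap]
      exact IntermediateField.algebraMap_mem _ _
    · have := hne
      show coeffMap φ (qExpand k d (jqModC k)) ∈ modularFunctionFieldFullC k n
      rw [coeffMap_jd]
      exact jqModCd_mem_full k n hd
  exact key ha

/-- `coeffMap φ` preserves `k(j̄)`. -/
theorem coeffMap_mem_adjoin_j (φ : k →+* k) {a : LaurentSeries k}
    (ha : a ∈ IntermediateField.adjoin k {jqModC k}) :
    coeffMap φ a ∈ IntermediateField.adjoin k {jqModC k} := by
  have key : (IntermediateField.adjoin k {jqModC k}).toSubfield ≤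
      ((IntermediateField.adjoin k {jqModC k}).toSubfield).comap (coeffMap φ) := by
    conv_lhs => rw [IntermediateField.adjoin_toSubfield]
    rw [Subfield.closure_le]
    rintro x (⟨c, rfl⟩ | hx)
    · show coeffMap φ (algebraMap k _ c) ∈ IntermediateField.adjoin k {jqModC k}
      rw [coeffMap_algebraMap]
      exact IntermediateField.algebraMap_mem _ _
    · rw [Set.mem_singleton_iff] at hx
      subst hx
      show coeffMap φ (jqModC k) ∈ IntermediateField.adjoin k {jqModC k}
      rw [coeffMap_j]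
      exact IntermediateField.subset_adjoin k _ (Set.mem_singleton _)
  exact key ha

/-- `coeffMap φ` preserves `k[j̄]`. -/
theorem coeffMap_mem_polyJ (φ : k →+* k) {a : LaurentSeries k} (ha : a ∈ Plan.polyJ k) :
    coeffMap φ a ∈ Plan.polyJ k := by
  rw [Plan.polyJ, Algebra.adjoin_singleton_eq_range_aeval] at ha ⊢
  obtain ⟨p, rfl⟩ := ha
  refine ⟨p.map φ, ?_⟩
  show Polynomial.aeval (jqModC k) (p.map φ) = coeffMap φ (Polynomial.aeval (jqModC k) p)
  rw [Polynomial.aeval_def, Polynomial.aeval_def, Polynomial.hom_eval₂, Polynomial.eval₂_map,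
    coeffMap_j]
  congr 1
  ext c
  simp [coeffMap_algebraMap]

/-- `coeffMap φ` preserves `O_∞ ∩ k(j̄)`. -/
theorem coeffMap_mem_OinfJ (φ : k →+* k) {a : LaurentSeries k} (ha : a ∈ Plan.OinfJ k) :
    coeffMap φ a ∈ Plan.OinfJ k := by
  obtain ⟨h1, ⟨p, rfl⟩⟩ := ha
  refine ⟨coeffMap_mem_adjoin_j φ h1, ⟨p.map φ, ?_⟩⟩
  exact (coeffMap_ofPowerSeries φ p).symm

/-- The restriction of `coeffMap φ` to `k[j̄]`. -/
def polyJHom (φ : k →+* k) : Plan.polyJ k →+* Plan.polyJ k :=
  RingHom.codRestrict ((coeffMap φ).comp (Plan.polyJ k).val.toRingHom) (Plan.polyJ k)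
    (fun x => coeffMap_mem_polyJ φ x.2)

/-- The restriction of `coeffMap φ` to `O_∞ ∩ k(j̄)`. -/
def OinfJHom (φ : k →+* k) : Plan.OinfJ k →+* Plan.OinfJ k :=
  RingHom.codRestrict ((coeffMap φ).comp (Plan.OinfJ k).subtype) (Plan.OinfJ k)
    (fun x => coeffMap_mem_OinfJ φ x.2)

/-- Integrality over `k[j̄]` is preserved by `coeffMap φ`. -/
theorem isIntegral_polyJ_coeffMap (φ : k →+* k) {y : LaurentSeries k}
    (hy : IsIntegral (Plan.polyJ k) y) : IsIntegral (Plan.polyJ k) (coeffMap φ y) :=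
  IsIntegral.map_of_comp_eq (polyJHom φ) (coeffMap φ) (by ext x; rfl) hy

/-- Integrality over `O_∞ ∩ k(j̄)` is preserved by `coeffMap φ`. -/
theorem isIntegral_OinfJ_coeffMap (φ : k →+* k) {y : LaurentSeries k}
    (hy : IsIntegral (Plan.OinfJ k) y) : IsIntegral (Plan.OinfJ k) (coeffMap φ y) :=
  IsIntegral.map_of_comp_eq (OinfJHom φ) (coeffMap φ) (by ext x; rfl) hy

/-- **(F2)** `coeffMap φ` preserves `WJ k F_{n,k} c = L(c (j̄)_∞)`. -/
theorem coeffMap_mem_WJ (φ : k →+* k) (n c : ℕ) {a : LaurentSeries k}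
    (ha : a ∈ Plan.WJ k (modularFunctionFieldFullC k n) c) :
    coeffMap φ a ∈ Plan.WJ k (modularFunctionFieldFullC k n) c := by
  obtain ⟨h1, h2, h3⟩ := ha
  refine ⟨coeffMap_mem_full φ n h1, isIntegral_polyJ_coeffMap φ h2, ?_⟩
  have h := isIntegral_OinfJ_coeffMap φ h3
  rwa [map_mul, map_pow, map_inv₀, coeffMap_j] at h

/-- The coefficientwise `q`-th root: `(coeffMap Frob⁻¹ a) ^ q = a(T^q)`. -/
theorem coeffMap_frobInv_pow (q : ℕ) [NeZero q] [Fact q.Prime] [CharP k q] [PerfectField k]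
    (a : LaurentSeries k) :
    (coeffMap ((frobeniusEquiv k q).symm : k →+* k) a) ^ q = qExpand k q a := by
  rw [Lib.KroneckerCong.pow_char_eq q, coeffMap_coeffMap]
  have e : (frobenius k q).comp ((frobeniusEquiv k q).symm : k →+* k) = RingHom.id k := by
    ext x
    simp
  rw [e, coeffMap_id]

/-- **(F3)** every `a ∈ WJ c` has a `q`-th "Frobenius root" `a' ∈ WJ c`: `a' ^ q = a(T^q)`. -/
theorem exists_root_WJ (q : ℕ) [NeZero q] [Fact q.Prime] [CharP k q] [PerfectField k]
    (n c : ℕ) {a : LaurentSeries k} (ha : a ∈ Plan.WJ k (modularFunctionFieldFullC k n) c) :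
    ∃ a' ∈ Plan.WJ k (modularFunctionFieldFullC k n) c, a' ^ q = qExpand k q a :=
  ⟨_, coeffMap_mem_WJ _ n c ha, coeffMap_frobInv_pow q a⟩

/-- **(F3')** iterated: `a'' ∈ WJ c` with `a'' ^ (q^2) = a(T^{q^2})`. -/
theorem exists_root_sq_WJ (q : ℕ) [NeZero q] [Fact q.Prime] [CharP k q] [PerfectField k]
    (n c : ℕ) {a : LaurentSeries k} (ha : a ∈ Plan.WJ k (modularFunctionFieldFullC k n) c) :
    ∃ a'' ∈ Plan.WJ k (modularFunctionFieldFullC k n) c,
      a'' ^ (q ^ 2) = qExpand k q (qExpand k q a) := by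
  obtain ⟨a', ha', h'⟩ := exists_root_WJ q n c ha
  obtain ⟨a'', ha'', h''⟩ := exists_root_WJ q n c ha'
  refine ⟨a'', ha'', ?_⟩
  rw [pow_two, pow_mul, h'', ← map_pow, h']

/-- The same statements for the function field itself (no pole bound). -/
theorem exists_root_full (q : ℕ) [NeZero q] [Fact q.Prime] [CharP k q] [PerfectField k]
    (n : ℕ) {a : LaurentSeries k} (ha : a ∈ modularFunctionFieldFullC k n) :
    ∃ a' ∈ modularFunctionFieldFullC k n, a' ^ q = qExpand k q a :=
  ⟨_, coeffMap_mem_full _ n ha, coeffMap_frobInv_pow q a⟩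

/-! ### Specialisation to the residue field `kk A` of a valuation subring of `Q̄` -/

section Residue

open Fermat.Agent.S24

/-- **(F3) at `k = kk A`**, in the S18 vocabulary: for `a ∈ WJ (kk A) (Fk A n) c` there is
`a' ∈ WJ (kk A) (Fk A n) c` with `a' ^ q = Φ a`, `Φ = qExpandAlgHomC (kk A) q` (`T ↦ T^q`). -/
theorem exists_root_WJ_kk (A : ValuationSubring Kbar) (q : ℕ) [NeZero q] [Fact q.Prime]
    [CharP (Plan.kk A) q] (n c : ℕ) {a : Plan.Omk A}
    (ha : a ∈ Plan.WJ (Plan.kk A) (Plan.Fk A n) c) :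
    ∃ a' ∈ Plan.WJ (Plan.kk A) (Plan.Fk A n) c, a' ^ q = qExpandAlgHomC (Plan.kk A) q a := by
  have : IsAlgClosed (Plan.kk A) := Lib.ResidueAlgClosed.isAlgClosed_residueField A
  exact exists_root_WJ q n c ha

/-- **(F3') at `k = kk A`**: `a'' ^ (q^2) = Φ (Φ a)`. -/
theorem exists_root_sq_WJ_kk (A : ValuationSubring Kbar) (q : ℕ) [NeZero q] [Fact q.Prime]
    [CharP (Plan.kk A) q] (n c : ℕ) {a : Plan.Omk A}
    (ha : a ∈ Plan.WJ (Plan.kk A) (Plan.Fk A n) c) :
    ∃ a'' ∈ Plan.WJ (Plan.kk A) (Plan.Fk A n) c,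
      a'' ^ (q ^ 2) = qExpandAlgHomC (Plan.kk A) q (qExpandAlgHomC (Plan.kk A) q a) := by
  have : IsAlgClosed (Plan.kk A) := Lib.ResidueAlgClosed.isAlgClosed_residueField A
  exact exists_root_sq_WJ q n c ha

/-- `Fk A n` is stable under the coefficientwise Frobenius root. -/
theorem exists_root_Fk (A : ValuationSubring Kbar) (q : ℕ) [NeZero q] [Fact q.Prime]
    [CharP (Plan.kk A) q] (n : ℕ) {a : Plan.Omk A} (ha : a ∈ Plan.Fk A n) :
    ∃ a' ∈ Plan.Fk A n, a' ^ q = qExpandAlgHomC (Plan.kk A) q a := by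
  have : IsAlgClosed (Plan.kk A) := Lib.ResidueAlgClosed.isAlgClosed_residueField A
  exact exists_root_full q n ha

end Residue

end Fermat.Agent.S34.FrobCoeff

end
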