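import Mathlib
import Fermat.Prelude.Def_FLTPrelim_Ramification
import Fermat.Agent.S18.Plan

/-!
# S34 / P6 — Plan: definitions and contracts (owner: helper74, P6 lead)

Goal: `S34.Top.UnipStmt N p q` (unipotent monodromy of `J₀(N)` at `q ∥ N` on `p`-power torsion),
via the divisor-level statement `UnipDiv` below.

Standing data: `q` prime, `N = N' * q` with `q ∤ N'`, `a := if q = 2 then 9 else 4`,
`M := a * N'` (good level), top level `M * q = a * N` (Prelude order `M * q`, as in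
`heckeAlphaBar Kbar M q : F_M → F_{M*q}`, `heckeBetaBar`, and `S34/ALInvol`, `S34/Sigma`).  `A` a valuation subring of `Q̄` over `q`,
`k = kk A` its residue field.  Everything lives in `Om = Q̄((T))` and `Omk A = k((T))`
(vocabulary of `S18/Plan`: `Ocal A`, `red A`, `Fk A n`, `WJ`, `pullRR`).

Two-component reduction: a subring `O ⊆ F_{qM} ∩ Ocal` and a ring hom
`ρ : O → k((T)) × k((T))`, `ρ g = (red g, red (σ g))` (`σ` the automorphism of `F_{qM}` with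
`σ|F_M = (T ↦ T^q)`, `σ (j(T^q)) = j`).  The pair `(O, ρ)` is used only through the interface
`Setup2`; `σ` is internal to the block [VAL].

All spaces are pull-back Riemann–Roch spaces `pullRR N (M * q) B` of divisors `B` of `F_N`
(as in S18), with the cusp divisor `E = (j)_∞ + (j_q)_∞` of `F_N`.

Contracts are `def … : Prop`; providers prove `theorem … : Plan.X …`.
-/

set_option autoImplicit false

noncomputable section

namespace Fermat.Agent.S34.Plan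

open ModularCurve AlgebraicCurve Fermat.Agent.S24 Fermat.Agent.S18.Content Fermat.Agent.S18.Plan

/-! ## Level data -/

/-- The auxiliary level of S18: `9` if `q = 2`, `4` otherwise. -/
def aux (q : ℕ) : ℕ := if q = 2 then 9 else 4

/-- The standing hypotheses on the levels: `q` prime, `N = N' * q`, `q ∤ N'`, `M = aux q * N'`. -/
structure Levels (q N' N M : ℕ) : Prop where
  prime : q.Prime
  N'_pos : 0 < N'
  not_dvd : ¬ q ∣ N'
  N_eq : N = N' * q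
  M_eq : M = aux q * N'

/-! ## Divisors of `F_N` attached to `j` and `j_q` -/

section Divisors

variable (N q : ℕ) [NeZero N] [NeZero q] (hqN : q ∣ N)

/-- `Cj = (j)_∞` on `F_N`. -/
def IsPoleJ (Cj : Divisor Kbar (FN N)) : Prop :=
  ∀ P : Place Kbar (FN N), Cj P = max 0 (-(P.ord (jBar N)))

/-- `Cq = (j_q)_∞` on `F_N`, `j_q = j(T^q)`. -/
def IsPoleJq (Cq : Divisor Kbar (FN N)) : Prop :=
  ∀ P : Place Kbar (FN N), Cq P = max 0 (-(P.ord (jBarLevel N q hqN)))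

/-- `E = (j)_∞ + (j_q)_∞` on `F_N`. -/
def IsE (E : Divisor Kbar (FN N)) : Prop :=
  ∀ P : Place Kbar (FN N),
    E P = max 0 (-(P.ord (jBar N))) + max 0 (-(P.ord (jBarLevel N q hqN)))

/-- **[POLE]** (char. 0, level `N`, `q ∣ N`): `(j_q)_∞ ≤ q (j)_∞`, `(j)_∞ ≤ q (j_q)_∞`, and
`deg (j_q)_∞ = ψ(N)`  (recall `deg (j)_∞ = ψ(N)`: `S18.Plan.Char0Stmt`). -/
def PoleStmt : Prop :=
  ∀ Cj Cq : Divisor Kbar (FN N), IsPoleJ N Cj → IsPoleJq N q hqN Cq →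
    (∀ P, Cq P ≤ q * Cj P) ∧ (∀ P, Cj P ≤ q * Cq P) ∧
      Divisor.degree Cq = (dedekindPsi N : ℤ)

end Divisors

/-! ## The two-component reduction -/

section Red

variable (A : ValuationSubring Kbar)

/-- The residue ring `k((T)) × k((T))`. -/
abbrev R2 : Type := Omk A × Omk A

variable {A}

/-- The reductions of the elements of `W ∩ O`. -/
def redSet (O : Subring Om) (ρ : O →+* R2 A) (W : Submodule Kbar Om) : Set (R2 A) :=
  {x | ∃ y : O, (y : Om) ∈ W ∧ ρ y = x}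

theorem mem_redSet {O : Subring Om} {ρ : O →+* R2 A} {W : Submodule Kbar Om} {x : R2 A} :
    x ∈ redSet O ρ W ↔ ∃ y : O, (y : Om) ∈ W ∧ ρ y = x := Iff.rfl

variable (A)

/-- `W(c) = WJ(c (q+1)) × WJ(c (q+1))` at the good level `M`. -/
def WW (q M c : ℕ) : Set (R2 A) :=
  {x | x.1 ∈ WJ (kk A) (Fk A M) (c * (q + 1)) ∧ x.2 ∈ WJ (kk A) (Fk A M) (c * (q + 1))}

/-- `B_κ`: the integral closure of `k[j̄]` in `F_{M,k}` (regular functions on `X₀(M)_k` minus the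
cusps; `= ⋃ WJ m`). -/
def BK (M : ℕ) : Subalgebra (kk A) (Omk A) :=
  (Fk A M).toSubalgebra ⊓ (integralClosure (polyJ (kk A)) (Omk A)).restrictScalars (kk A)

variable (N q M : ℕ) [NeZero N] [NeZero q] (hqN : q ∣ N)

/-- **The interface of the block [VAL]**: the two-component reduction `(O, ρ)` of `F_{qM}`.

* `O ⊆ F_{qM} ∩ Ocal`, first component of `ρ` is `red`;
* constants, scaling, `(Dim)` (the inputs of `LiftCore2.RedData`/`HasDim`);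
* `range`: `ρ` takes values in `F_{M,k} × F_{M,k}`; `inv_mem`: units for both valuations;
* `incl`: `ρ (L(cE) ∩ O) ⊆ W(c)`;
* `lift₁`/`lift₂`: lifts through the two projections with control of the poles
  (`h ∈ L_{F_M}(m (j)_∞)` resp. `σ⁻¹ h`), for `m ≥ m₀` (S18 `Surj` at level `M`);
* `exists_z`, `exists_x`: `z = j - j_q^q`, `x = j_q - j^q`;
* `ρ_j`, `ρ_jq`;
* `inertia`, `inertia_ratio`: the coefficientwise action of the inertia group of `A`. -/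
structure Setup2 (O : Subring Om) (ρ : O →+* R2 A) : Prop where
  mem_field : ∀ g : O, (g : Om) ∈ modularFunctionFieldBar (M * q)
  mem_Ocal : ∀ g : O, (g : Om) ∈ Ocal A
  fst_eq : ∀ (g : O) (h : (g : Om) ∈ Ocal A), (ρ g).1 = red A ⟨(g : Om), h⟩
  C_mem_iff : ∀ c : Kbar, (HahnSeries.C c : Om) ∈ O ↔ c ∈ A
  ρ_C : ∀ (a : A) (h : (HahnSeries.C (a : Kbar) : Om) ∈ O),
    ρ ⟨_, h⟩ = (HahnSeries.C (IsLocalRing.residue A a), HahnSeries.C (IsLocalRing.residue A a))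
  scale : ∀ g : Om, g ∈ modularFunctionFieldBar (M * q) → g ≠ 0 →
    ∃ c : Kbar, c ≠ 0 ∧ ∃ h : HahnSeries.C c * g ∈ O, ρ ⟨_, h⟩ ≠ 0
  dim : ∀ W : Submodule Kbar Om, (∀ w ∈ W, w ∈ modularFunctionFieldBar (M * q)) →
    Module.Finite Kbar W →
      ∃ (r : ℕ) (b : Fin r → O), Submodule.span Kbar (Set.range fun i => (b i : Om)) = W ∧
        LinearIndependent (kk A) (fun i => ρ (b i))
  range : ∀ g : O, (ρ g).1 ∈ Fk A M ∧ (ρ g).2 ∈ Fk A M
  inv_mem : ∀ g : O, (ρ g).1 ≠ 0 → (ρ g).2 ≠ 0 → ((g : Om))⁻¹ ∈ O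
  incl : ∀ E : Divisor Kbar (FN N), IsE N q hqN E → ∀ (c : ℕ) (g : O),
    (g : Om) ∈ pullRR N (M * q) (c • E) → ρ g ∈ WW A q M c
  lift₁ : ∃ m₀ : ℕ, ∀ Cj : Divisor Kbar (FN N), IsPoleJ N Cj → ∀ m : ℕ, m₀ ≤ m → ∀ a : Omk A,
    a ∈ WJ (kk A) (Fk A M) m →
      ∃ g : O, (g : Om) ∈ pullRR N (M * q) (m • Cj) ∧ ρ g = (a, qExpand (kk A) q a)
  lift₂ : ∃ m₀ : ℕ, ∀ Cq : Divisor Kbar (FN N), IsPoleJq N q hqN Cq → ∀ m : ℕ, m₀ ≤ m →
    ∀ a : Omk A, a ∈ WJ (kk A) (Fk A M) m →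
      ∃ g : O, (g : Om) ∈ pullRR N (M * q) (m • Cq) ∧ (ρ g).2 = a
  exists_z : ∀ Cq : Divisor Kbar (FN N), IsPoleJq N q hqN Cq →
    ∃ z : O, (z : Om) ∈ pullRR N (M * q) (q • Cq) ∧ ρ z = (jk A - jk A ^ (q ^ 2), 0)
  exists_x : ∀ Cj : Divisor Kbar (FN N), IsPoleJ N Cj →
    ∃ x : O, (x : Om) ∈ pullRR N (M * q) (q • Cj) ∧ ρ x = (0, jk A - jk A ^ (q ^ 2))
  ρ_j : ∃ h : (jK : Om) ∈ O, ρ ⟨_, h⟩ = (jk A, jk A ^ q)
  ρ_jq : ∃ h : (qExpand Kbar q jK : Om) ∈ O, ρ ⟨_, h⟩ = (jk A ^ q, jk A)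
  inertia : ∀ τ : Kbar ≃ₐ[ℚ] Kbar, τ ∈ A.inertiaSubgroupIn ℚ → ∀ g : O,
    ∃ h : coeffMap (τ : Kbar →+* Kbar) (g : Om) ∈ O, ρ ⟨_, h⟩ = ρ g
  inertia_ratio : ∀ τ : Kbar ≃ₐ[ℚ] Kbar, τ ∈ A.inertiaSubgroupIn ℚ →
    ∀ f : Om, f ∈ modularFunctionFieldBar (M * q) → f ≠ 0 →
      ∃ (h : coeffMap (τ : Kbar →+* Kbar) f * f⁻¹ ∈ O) (c₁ c₂ : kk A), c₁ ≠ 0 ∧ c₂ ≠ 0 ∧
        ρ ⟨_, h⟩ = (HahnSeries.C c₁, HahnSeries.C c₂)

/-- **[VAL]** the two-component reduction exists. -/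
def ValStmt : Prop := ∃ (O : Subring Om) (ρ : O →+* R2 A), Setup2 A N q M hqN O ρ

end Red

/-! ## Riemann–Roch inputs -/

section RR

variable (A : ValuationSubring Kbar) (N q M : ℕ) [NeZero N] [NeZero q] (hqN : q ∣ N)

/-- **[RRE]** (char. 0): the exact dimension of `L(cE)` at level `q M` for `c` large:
`12 l(cE) = 24 c ψ(qM) + 6 c(qM) - ψ(qM)`  (`deg π^*E = 2 ψ(qM)`, genus `= 1 + ψ/12 - c/2`).
Together with `S18.Plan.RR0 N (M * q)` (Riemann's inequality) this gives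
`l(D + cE) ≥ l(cE)` for `deg D = 0`. -/
def RiemannE : Prop :=
  ∀ E : Divisor Kbar (FN N), IsE N q hqN E → ∃ c₀ : ℕ, ∀ c : ℕ, c₀ ≤ c →
    Module.Finite Kbar (pullRR N (M * q) (c • E)) ∧
    12 * (Module.finrank Kbar (pullRR N (M * q) (c • E)) : ℤ) =
      24 * (c : ℤ) * (dedekindPsi (M * q) : ℤ) + 6 * (cuspCount (M * q) : ℤ)
        - (dedekindPsi (M * q) : ℤ)

/-- **[RRK]** (char. `q`, good level `M`): the exact dimension of `WJ m = L(m (j̄)_∞)` for `m`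
large: `12 dim WJ m = 12 m ψ(M) - ψ(M) + 6 c(M)`  (S18: `RRl` above, `RR0` + `(Dim)` below). -/
def RiemannK : Prop :=
  ∃ m₀ : ℕ, ∀ m : ℕ, m₀ ≤ m → Module.Finite (kk A) (WJ (kk A) (Fk A M) m) ∧
    12 * (Module.finrank (kk A) (WJ (kk A) (Fk A M) m) : ℤ) =
      12 * (m : ℤ) * (dedekindPsi M : ℤ) - (dedekindPsi M : ℤ) + 6 * (cuspCount M : ℤ)

/-- **[NUM]** `ψ(qM) = (q+1) ψ(M)` and `c(qM) = 2 c(M)` for a prime `q ∤ M`. -/
def NumStmt : Prop :=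
  q.Prime → ¬ q ∣ M → dedekindPsi (M * q) = (q + 1) * dedekindPsi M ∧
    cuspCount (M * q) = 2 * cuspCount M

/-- **[FROB]** (char. `q`, level `M`): `WJ m` is stable under the coefficientwise `q`-th root:
for `a ∈ WJ m` there is `a' ∈ WJ m` with `a' ^ q = a(T^q)`. -/
def FrobRoot : Prop :=
  ∀ (m : ℕ) (a : Omk A), a ∈ WJ (kk A) (Fk A M) m →
    ∃ a' : Omk A, a' ∈ WJ (kk A) (Fk A M) m ∧ a' ^ q = qExpand (kk A) q a

end RR

/-! ## Geometry of the special fibre -/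

section Geometry

variable {A : ValuationSubring Kbar} (N q M : ℕ) [NeZero N] [NeZero q] (hqN : q ∣ N)
variable (O : Subring Om) (ρ : O →+* R2 A)

/-- `B̄(c) = ρ(L(cE) ∩ O)`. -/
def Bbar (E : Divisor Kbar (FN N)) (c : ℕ) : Set (R2 A) :=
  redSet O ρ (pullRR N (M * q) (c • E))

/-- `M(D)(c) = ρ(L(D + cE) ∩ O)`. -/
def MD (E D : Divisor Kbar (FN N)) (c : ℕ) : Set (R2 A) :=
  redSet O ρ (pullRR N (M * q) (D + c • E))

variable (A)

/-- **[CR]** cusp regularity: `B̄(c') ∩ W(c) = B̄(c)` for `c' ≥ c ≥ c₀`. -/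
def CuspReg : Prop :=
  ∀ E : Divisor Kbar (FN N), IsE N q hqN E → ∃ c₀ : ℕ, ∀ c : ℕ, c₀ ≤ c → ∀ c' : ℕ, c ≤ c' →
    Bbar N q M O ρ E c' ∩ WW A q M c ⊆ Bbar N q M O ρ E c

/-- The nodes of the special fibre: two injective families of `k`-points of `B_κ` such that
`B̄ = ⋃ B̄(c) = {(a, b) ∈ B_κ² : a(e₁ i) = b(e₂ i) ∀ i}`. -/
def IsNodes (E : Divisor Kbar (FN N)) {ι : Type} (e₁ e₂ : ι → (BK A M →ₐ[kk A] kk A)) : Prop :=
  Function.Injective e₁ ∧ Function.Injective e₂ ∧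
    ∀ a b : BK A M, (∃ c : ℕ, ((a : Omk A), (b : Omk A)) ∈ Bbar N q M O ρ E c) ↔
      ∀ i, e₁ i a = e₂ i b

/-- **[NODE]** the special fibre is a nodal union of two copies of `X₀(M)_k` minus cusps, and it
is connected (`ι` nonempty). -/
def NodeStmt : Prop :=
  ∀ E : Divisor Kbar (FN N), IsE N q hqN E →
    ∃ (ι : Type) (_ : Fintype ι) (_ : Nonempty ι) (e₁ e₂ : ι → (BK A M →ₐ[kk A] kk A)),
      IsNodes A N q M O ρ E e₁ e₂

/-- **[TW]** twisted modules: for `D` of degree `0` with `n D = div u`, `u ∈ O`,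
`ρ u ∈ k^× × k^×`: `M(D)(c) = {(a,b) ∈ W(c) : a(e₁ i) = ζ i · b(e₂ i)}` for `c` large. -/
def TwistStmt : Prop :=
  ∀ E : Divisor Kbar (FN N), IsE N q hqN E →
  ∀ {ι : Type} [Fintype ι] (e₁ e₂ : ι → (BK A M →ₐ[kk A] kk A)), IsNodes A N q M O ρ E e₁ e₂ →
  ∀ (D : Divisor Kbar (FN N)) (n : ℕ) (u : FN N), Divisor.degree D = 0 → 0 < n → u ≠ 0 →
    (∀ P : Place Kbar (FN N), P.ord u = n * D P) →
    ∀ (hu : (u : Om) ∈ O) (c₁ c₂ : kk A), c₁ ≠ 0 → c₂ ≠ 0 →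
      ρ ⟨_, hu⟩ = (HahnSeries.C c₁, HahnSeries.C c₂) →
      ∃ ζ : ι → kk A, (∀ i, ζ i ≠ 0) ∧ ∃ c₀ : ℕ, ∀ c : ℕ, c₀ ≤ c →
        MD N q M O ρ E D c ⊆ WW A q M c ∧
        ∀ a b : BK A M, ((a : Omk A), (b : Omk A)) ∈ MD N q M O ρ E D c ↔
          (((a : Omk A), (b : Omk A)) ∈ WW A q M c ∧ ∀ i, e₁ i a = ζ i * e₂ i b)

/-- The coefficientwise Galois action on `F_N` as a semilinear automorphism. -/
abbrev gal (τ : Kbar ≃ₐ[ℚ] Kbar) : SemilinearAut Kbar (FN N) :=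
  arithmeticGalois (modularFunctionFieldFull N) τ

/-- `(τ - 1)² D`. -/
def unipDiv (τ : Kbar ≃ₐ[ℚ] Kbar) (D : Divisor Kbar (FN N)) : Divisor Kbar (FN N) :=
  gal N τ • gal N τ • D - 2 • (gal N τ • D) + D

/-- **[TAU]** the τ-trick: for `τ` in inertia and `D₀` of degree `0` with `n D₀` principal,
`D'' = (τ-1)² D₀` satisfies `n D'' = div w` with `ρ w = (1,1)` and `M(D'')(c) = B̄(c)` for `c`
large. -/
def TauStmt : Prop :=
  ∀ E : Divisor Kbar (FN N), IsE N q hqN E →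
  ∀ τ : Kbar ≃ₐ[ℚ] Kbar, τ ∈ A.inertiaSubgroupIn ℚ →
  ∀ (D₀ : Divisor Kbar (FN N)) (n : ℕ), Divisor.degree D₀ = 0 → 0 < n →
    n • D₀ ∈ Divisor.principal (K := Kbar) (F := FN N) →
    ∃ w : FN N, w ≠ 0 ∧ (∀ P : Place Kbar (FN N), P.ord w = n * unipDiv N τ D₀ P) ∧
      ∃ hw : (w : Om) ∈ O, ρ ⟨_, hw⟩ = 1 ∧
        ∃ c₀ : ℕ, ∀ c : ℕ, c₀ ≤ c →
          MD N q M O ρ E (unipDiv N τ D₀) c = Bbar N q M O ρ E c

/-- **[LIFT]** the lifting step (`LiftCore2` with `R = k((T)) × k((T))`): if `n D = div w`,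
`ρ w = (1,1)`, `q ∤ n` and `M(D)(c) = B̄(c)` for `c` large, then `L(π^* D) ≠ 0`. -/
def LiftStmt : Prop :=
  ∀ E : Divisor Kbar (FN N), IsE N q hqN E →
  ∀ (D : Divisor Kbar (FN N)) (n : ℕ), Divisor.degree D = 0 → 0 < n → ¬ q ∣ n →
  ∀ w : FN N, w ≠ 0 → (∀ P : Place Kbar (FN N), P.ord w = n * D P) →
  ∀ hw : (w : Om) ∈ O, ρ ⟨_, hw⟩ = 1 →
    (∃ c₀ : ℕ, ∀ c : ℕ, c₀ ≤ c → MD N q M O ρ E D c = Bbar N q M O ρ E c) →
    ∃ g : Om, g ∈ pullRR N (M * q) D ∧ g ≠ 0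

end Geometry

/-! ## Descent and the top -/

section Top

variable (A : ValuationSubring Kbar) (N q M : ℕ) [NeZero N] [NeZero q]

/-- **[DESC]** descent from level `q M` to level `N` (first valuation only, as `S18/MainDesc`):
if `deg D = 0`, `n D` is principal with `q ∤ n`, and `L(π^* D) ≠ 0`, then `D` is principal. -/
def DescStmt : Prop :=
  ∀ (D : Divisor Kbar (FN N)) (n : ℕ), Divisor.degree D = 0 → 0 < n → ¬ q ∣ n →
    n • D ∈ Divisor.principal (K := Kbar) (F := FN N) →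
    (∃ g : Om, g ∈ pullRR N (M * q) D ∧ g ≠ 0) →
    D ∈ Divisor.principal (K := Kbar) (F := FN N)

/-- **(U), divisor form**: for `τ` in the inertia group of `A` and `D` of degree `0` with `n D`
principal, `q ∤ n`: `(τ - 1)² D` is principal. -/
def UnipDiv : Prop :=
  ∀ τ : Kbar ≃ₐ[ℚ] Kbar, τ ∈ A.inertiaSubgroupIn ℚ →
  ∀ (D : Divisor Kbar (FN N)) (n : ℕ), Divisor.degree D = 0 → 0 < n → ¬ q ∣ n →
    n • D ∈ Divisor.principal (K := Kbar) (F := FN N) →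
    unipDiv N τ D ∈ Divisor.principal (K := Kbar) (F := FN N)

end Top

end Fermat.Agent.S34.Plan

end
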