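import Mathlib
import Fermat.Agent.S34.Plan
import Fermat.Agent.S34.FrobCoeff
import Fermat.Agent.S18.ContentMain

/-!
# S34 / P6 — `F_{M,k}` is stable under `T ↦ T^q` (helper81)

`qExpand_mem_Fk` : for a prime `q` and a valuation subring `A` of `Q̄` over `q`,
`a ∈ Fk A M → a(T^q) ∈ Fk A M`  (`a(T^q) = (a')^q` with `a'` the coefficientwise `q`-th root,
`FrobCoeff.exists_root_Fk`).  This is the hypothesis `hΦ` of `ValDSR.range_of`.
-/

set_option autoImplicit false

namespace Fermat.Agent.S34.FkFrob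

open ModularCurve Fermat.Agent.S24 Fermat.Agent.S18.Content Fermat.Agent.S18.Plan

/-- `F_{M,k}` is stable under `T ↦ T^q` in characteristic `q`. -/
theorem qExpand_mem_Fk (A : ValuationSubring Kbar) (q M : ℕ) [NeZero q] (hq : q.Prime)
    (hA : A.LiesOverPrime q) :
    ∀ a : Omk A, a ∈ Fk A M → qExpand (kk A) q a ∈ Fk A M := by
  intro a ha
  have : Fact q.Prime := ⟨hq⟩
  have : CharP (kk A) q := charP_residueField_of_liesOverPrime A q hA
  obtain ⟨a', ha', h⟩ := Fermat.Agent.S34.FrobCoeff.exists_root_Fk A q M ha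
  have e : qExpand (kk A) q a = a' ^ q := h.symm
  rw [e]
  exact pow_mem ha' q

end Fermat.Agent.S34.FkFrob
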