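import Mathlib
import Fermat.Agent.S37.IntDescent
import Fermat.Agent.S37.ChartRedOf
import Fermat.Agent.S37.PoleClear
import Fermat.Agent.S18.WJPlaces

/-!
# P6 / S34 — [INCL]: reduction of `L(m (j)_∞)` at a level ABOVE a good level (owner: helper23)

Setting: `A` a valuation ring of `Q̄` over the prime `ℓ`, `M` a GOOD level (`ℓ ∤ M`), `N'` ANY level
with `M ∣ N'` (in P6: `N' = q * M`, `ℓ = q`, so `N'` is a bad level).  `O_M := F_M ∩ Ocal`.

The only information used about the top level is an integrality hypothesis over `O_M`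
(in P6 it is provided by [ORTHO2]/[VAL] (V4): `O₂` is integral over `O_M`).

* `OM A M`                      : `F_M ∩ Ocal` as a subring of `Q̄((q))`;
* `mem_Ocal_of_isIntegral`      : `O_M` is integrally closed in `F_M` (valuation-ring argument);
* `isIntegral_AX`               : no-defect integrality descent above a good level: `z ∈ F_{N'}`
                                  integral over `O_M` and over `Q̄[x]` is integral over `A[x]`
                                  (`x = j` or `x = j⁻¹`), via the characteristic polynomial over `F_M`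
                                  and `S37/IntDescent` at level `M`;
* `isIntegral_AJ`, `isIntegral_AJinv` : the two charts;
* `isIntegral_polyJinv_of_mem_riemannRochSpace` : for `g ∈ L(D)`, `D ≤ m (j)_∞`, the function
                                  `j⁻ᵐ g` is integral over `Q̄[j⁻¹]`;
* **`red_mem_WJ`**              : for `g ∈ L(D) ⊆ F_{N'}`, `D ≤ m (j)_∞`, `g ∈ Ocal`, `g` integral
                                  over `O_M`, `red g ∈ L`: `red g ∈ WJ k L m`.
-/

set_option autoImplicit false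

noncomputable section

namespace Fermat.Agent.S34.Incl

open ModularCurve AlgebraicCurve Fermat.Agent.S24 Fermat.Agent.S18.Content Fermat.Agent.S18.Plan
open Fermat.Agent.S37.Plan2 Fermat.Agent.S18 Fermat.Agent.S37 Fermat.Agent.Lib Polynomial
open IntermediateField

set_option synthInstance.maxHeartbeats 400000
set_option maxHeartbeats 1600000

variable (A : ValuationSubring Kbar)

/-! ## `O_M` and its integral closedness -/

/-- `O_M = F_M ∩ Ocal`, as a subring of `Q̄((q))`. -/
def OM (M : ℕ) : Subring Om := Ocal A ⊓ (modularFunctionFieldBar M).toSubring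

theorem mem_OM {M : ℕ} {y : Om} : y ∈ OM A M ↔ y ∈ Ocal A ∧ y ∈ modularFunctionFieldBar M :=
  Iff.rfl

/-- A constant times an element of `Ocal` with nonzero reduction, integral over a subring of
`Ocal`, lies in `Ocal`. -/
theorem mem_Ocal_of_isIntegral {R : Subring Om} (hR : ∀ r ∈ R, r ∈ Ocal A) {y : Om}
    (hy : ∃ c : Kbar, c ≠ 0 ∧ ∃ h : HahnSeries.C c * y ∈ Ocal A, red A ⟨_, h⟩ ≠ 0)
    (hint : IsIntegral R y) : y ∈ Ocal A := by
  obtain ⟨c, hc0, hu, hru⟩ := hy
  by_cases hcA : c⁻¹ ∈ A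
  · have e : y = HahnSeries.C c⁻¹ * (HahnSeries.C c * y) := by
      rw [← mul_assoc, ← map_mul, inv_mul_cancel₀ hc0, map_one, one_mul]
    rw [e]
    exact (Ocal A).mul_mem (C_mem_Ocal A hcA) hu
  · exfalso
    have hcA' : c ∈ A := (A.mem_or_inv_mem c).resolve_right hcA
    have hres : IsLocalRing.residue A ⟨c, hcA'⟩ = 0 := by
      rw [IsLocalRing.residue_eq_zero_iff, IsLocalRing.mem_maximalIdeal, mem_nonunits_iff]
      intro hunit
      obtain ⟨b, hb⟩ := isUnit_iff_exists_inv.mp hunit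
      apply hcA
      have hb' : c * (b : Kbar) = 1 := congrArg Subtype.val hb
      rw [← eq_inv_of_mul_eq_one_right hb']
      exact b.2
    -- `u := C c * y`, `t := y⁻¹ = C c * u⁻¹ ∈ Ocal` with `red t = 0`
    set u : Ocal A := ⟨HahnSeries.C c * y, hu⟩ with hudef
    have hu0 : (u : Om) ≠ 0 := ne_zero_of_red_ne_zero A u hru
    have hy0 : y ≠ 0 := by
      rintro rfl
      exact hu0 (mul_zero _)
    have hCc0 : (HahnSeries.C c : Om) ≠ 0 := by
      intro h0
      exact hu0 (by show HahnSeries.C c * y = 0; rw [h0, zero_mul])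
    have huinv : (u : Om)⁻¹ ∈ Ocal A := inv_mem_Ocal A u hru
    have ht : y⁻¹ = HahnSeries.C c * (u : Om)⁻¹ := by
      show y⁻¹ = HahnSeries.C c * (HahnSeries.C c * y)⁻¹
      rw [mul_inv, ← mul_assoc, mul_inv_cancel₀ hCc0, one_mul]
    have htO : y⁻¹ ∈ Ocal A := by
      rw [ht]
      exact (Ocal A).mul_mem (C_mem_Ocal A hcA') huinv
    have hredt : red A ⟨y⁻¹, htO⟩ = 0 := by
      have e : (⟨y⁻¹, htO⟩ : Ocal A) = ⟨HahnSeries.C c, C_mem_Ocal A hcA'⟩ * ⟨(u : Om)⁻¹, huinv⟩ :=
        Subtype.ext ht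
      rw [e, map_mul, red_C A hcA', hres, map_zero, zero_mul]
    -- the reversed polynomial
    obtain ⟨P, hPm, hP⟩ := hint
    letI : Invertible y := invertibleOfNonzero hy0
    have hrev : eval₂ (algebraMap R Om) y⁻¹ P.reverse = 0 := by
      have := (eval₂_reverse_eq_zero_iff (algebraMap R Om) y P).mpr hP
      rwa [invOf_eq_inv] at this
    let φ : R →+* Ocal A := Subring.inclusion (fun r hr => hR r hr)
    have hφ : (Ocal A).subtype.comp φ = algebraMap R Om := RingHom.ext fun r => rfl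
    have h1 : eval₂ φ (⟨y⁻¹, htO⟩ : Ocal A) P.reverse = 0 := by
      apply Subtype.ext
      have h2 := hom_eval₂ P.reverse φ (Ocal A).subtype (⟨y⁻¹, htO⟩ : Ocal A)
      rw [hφ] at h2
      exact h2.trans hrev
    have h3 := hom_eval₂ P.reverse φ (red A) (⟨y⁻¹, htO⟩ : Ocal A)
    rw [h1, map_zero, hredt, eval₂_at_zero, coeff_zero_reverse, hPm.leadingCoeff,
      map_one] at h3
    exact zero_ne_one h3

/-- **`O_M` is integrally closed in `F_M`**: an element of `F_M` integral over `O_M` lies in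
`Ocal`. -/
theorem mem_Ocal_of_isIntegral_OM {M : ℕ} (hRed : RedStmt A M) {y : Om}
    (hy : y ∈ modularFunctionFieldBar M) (hint : IsIntegral (OM A M) y) : y ∈ Ocal A := by
  rcases eq_or_ne y 0 with rfl | hy0
  · exact (Ocal A).zero_mem
  · exact mem_Ocal_of_isIntegral A (R := OM A M) (fun r hr => ((mem_OM A).mp hr).1)
      (hRed.1 y hy hy0) hint

/-! ## The characteristic polynomial of a pair of fields -/

section Generic

attribute [local instance 2000] Module.Free.of_divisionRing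

/-- An element of `E₂` is a root of its characteristic polynomial over `E₁`. -/
theorem aeval_charpoly_pair {K₀ Ω : Type*} [Field K₀] [Field Ω] [Algebra K₀ Ω]
    {E₁ E₂ : IntermediateField K₀ Ω} (hle : E₁ ≤ E₂)
    [Module.Finite E₁ (IntermediateField.extendScalars hle)]
    (g₂ : IntermediateField.extendScalars hle) :
    aeval (g₂ : Ω)
      (LinearMap.charpoly (Algebra.lmul E₁ (IntermediateField.extendScalars hle) g₂)) = 0 := by
  have h3 := LinearMap.aeval_self_charpoly
    (Algebra.lmul E₁ (IntermediateField.extendScalars hle) g₂)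
  have h4 : aeval (Algebra.lmul E₁ (IntermediateField.extendScalars hle) g₂)
      (LinearMap.charpoly (Algebra.lmul E₁ (IntermediateField.extendScalars hle) g₂)) =
      Algebra.lmul E₁ (IntermediateField.extendScalars hle) (aeval g₂
        (LinearMap.charpoly (Algebra.lmul E₁ (IntermediateField.extendScalars hle) g₂))) := by
    rw [← aeval_algHom_apply]
  rw [h4] at h3
  have h5 : aeval g₂
      (LinearMap.charpoly (Algebra.lmul E₁ (IntermediateField.extendScalars hle) g₂)) = 0 := by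
    have := congrArg (fun f : (IntermediateField.extendScalars hle) →ₗ[E₁]
      (IntermediateField.extendScalars hle) => f 1) h3
    simpa using this
  have h6 := aeval_algHom_apply (IntermediateField.extendScalars hle).val g₂
    (LinearMap.charpoly (Algebra.lmul E₁ (IntermediateField.extendScalars hle) g₂))
  rw [h5, map_zero] at h6
  exact h6

end Generic

/-! ## Integrality descent above a good level -/

attribute [local instance 2000] Module.Free.of_divisionRing

/-- **No-defect integrality descent above a good level, generic coordinate.**  Let `ℓ ∤ M`,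
`M ∣ N'`, and `x ∈ Ocal ∩ F_1` a coordinate with `F_1 ⊆ Q̄(x)` and `x̄` transcendental over `k`.
If `z ∈ F_{N'}` is integral over `O_M = F_M ∩ Ocal` and over `Q̄[x]`, then `z` is integral over
`A[x]`. -/
theorem isIntegral_AX (M N' : ℕ) [NeZero M] [NeZero N'] (hdiv : M ∣ N') (ℓ : ℕ) [Fact ℓ.Prime]
    (hℓ : ¬ ℓ ∣ M) (hA : A.LiesOverPrime ℓ) (x : Ocal A)
    (hx1 : (x : Om) ∈ modularFunctionFieldBar 1)
    (hgen : modularFunctionFieldBar 1 ≤ IntermediateField.adjoin Kbar {(x : Om)})
    (htr : Transcendental (kk A) (red A x))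
    {z : Om} (hzN : z ∈ modularFunctionFieldBar N') (hzM : IsIntegral (OM A M) z)
    (hint : IsIntegral (Algebra.adjoin Kbar {(x : Om)}) z) :
    IsIntegral (IntDescent.AX A (x : Om)) z := by
  classical
  have : CharP (kk A) ℓ := charP_residueField_of_liesOverPrime A ℓ hA
  have hRM : RedStmt A M := Red.redStmt M ℓ hℓ A hA
  have hle : modularFunctionFieldBar M ≤ modularFunctionFieldBar N' := CharStmt.bar_le hdiv
  have hle1 : modularFunctionFieldBar 1 ≤ modularFunctionFieldBar M :=
    CharStmt.bar_le (one_dvd M)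
  have h0 := CharStmt.psi_mul_finrank hle
  have hψ' : 0 < dedekindPsi N' := FibreCount.dedekindPsi_pos N'
  have hpos : 0 < Module.finrank (FN M) (IntermediateField.extendScalars hle) := by
    rcases Nat.eq_zero_or_pos (Module.finrank (FN M) (IntermediateField.extendScalars hle))
      with h | h
    · rw [h, mul_zero] at h0; omega
    · exact h
  have : Module.Finite (FN M) (IntermediateField.extendScalars hle) :=
    Module.finite_of_finrank_pos hpos
  set g₂ : IntermediateField.extendScalars hle :=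
    ⟨z, (IntermediateField.mem_extendScalars hle).mpr hzN⟩ with hg₂
  set χ : (FN M)[X] :=
    LinearMap.charpoly (Algebra.lmul (FN M) (IntermediateField.extendScalars hle) g₂) with hχ
  -- the coefficients are integral over `Q̄[x]`
  set R : Subring Om := (Algebra.adjoin Kbar {(x : Om)}).toSubring with hRdef
  have hRE : ∀ r ∈ R, r ∈ modularFunctionFieldBar M := by
    intro r hr
    have hle' : Algebra.adjoin Kbar {(x : Om)} ≤ (modularFunctionFieldBar M).toSubalgebra :=
      Algebra.adjoin_le (by rintro _ rfl; exact hle1 hx1)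
    exact hle' hr
  have hintR : IsIntegral R z := IntDescent.isIntegral_toSubring _ hint
  have hci : ∀ i : ℕ, IsIntegral R (((χ.coeff i : FN M)) : Om) := fun i =>
    Rad.isIntegral_coeff_charpoly_pair hle R hRE g₂ hintR i
  -- the coefficients lie in `Ocal`
  have hcO : ∀ i : ℕ, (((χ.coeff i : FN M)) : Om) ∈ Ocal A := by
    intro i
    have h1 : IsIntegral (OM A M) (((χ.coeff i : FN M)) : Om) :=
      Rad.isIntegral_coeff_charpoly_pair hle (OM A M) (fun r hr => ((mem_OM A).mp hr).2) g₂ hzM i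
    exact mem_Ocal_of_isIntegral_OM A hRM (χ.coeff i).2 h1
  -- descent at the good level `M`
  have hcA : ∀ i : ℕ, IsIntegral (IntDescent.AX A (x : Om)) (((χ.coeff i : FN M)) : Om) := by
    intro i
    have h2 : IsIntegral (Algebra.adjoin Kbar {(x : Om)}) (((χ.coeff i : FN M)) : Om) := hci i
    exact IntDescent.isIntegral_closure A M ℓ hℓ hA x hx1 hgen htr (χ.coeff i).2 (hcO i) h2
  -- conclusion
  refine OrthoDesc.isIntegral_of_monic_root (χ.map (algebraMap (FN M) Om))
    ((LinearMap.charpoly_monic _).map _) (fun k => ?_) z ?_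
  · rw [coeff_map]
    exact hcA k
  · rw [eval_map, ← aeval_def]
    exact aeval_charpoly_pair hle g₂

/-- **Finite chart**: `z ∈ F_{N'}` integral over `O_M` and over `Q̄[j]` is integral over `A[j]`. -/
theorem isIntegral_AJ (M N' : ℕ) [NeZero M] [NeZero N'] (hdiv : M ∣ N') (ℓ : ℕ) [Fact ℓ.Prime]
    (hℓ : ¬ ℓ ∣ M) (hA : A.LiesOverPrime ℓ) {z : Om} (hzN : z ∈ modularFunctionFieldBar N')
    (hzM : IsIntegral (OM A M) z) (hint : IsIntegral (polyJ Kbar) z) : IsIntegral (AJ A) z :=
  isIntegral_AX A M N' hdiv ℓ hℓ hA (Main.jO A) IntDescent.jK_mem_bar_one IntDescent.bar_one_le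
    (by rw [Main.red_jO]; exact IntDescent.transcendental_jk A) hzN hzM hint

/-- **Chart at infinity**: `z ∈ F_{N'}` integral over `O_M` and over `Q̄[j⁻¹]` is integral over
`A[j⁻¹]`. -/
theorem isIntegral_AJinv (M N' : ℕ) [NeZero M] [NeZero N'] (hdiv : M ∣ N') (ℓ : ℕ)
    [Fact ℓ.Prime] (hℓ : ¬ ℓ ∣ M) (hA : A.LiesOverPrime ℓ) {z : Om}
    (hzN : z ∈ modularFunctionFieldBar N') (hzM : IsIntegral (OM A M) z)
    (hint : IsIntegral (polyJinv Kbar) z) : IsIntegral (AJinv A) z :=
  isIntegral_AX A M N' hdiv ℓ hℓ hA (Main.jInvO A)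
    ((modularFunctionFieldBar 1).inv_mem IntDescent.jK_mem_bar_one) IntDescent.bar_one_le_inv
    (by rw [Main.red_jInvO]; exact IntDescent.transcendental_jk_inv A) hzN hzM hint

/-! ## `j⁻ᵐ · L(m (j)_∞)` is integral over `Q̄[j⁻¹]` -/

/-- For `g ∈ L(D)` with `D ≤ m (j)_∞`, the function `j⁻ᵐ g` is regular wherever `j⁻¹` is, hence
integral over `Q̄[j⁻¹]`. -/
theorem isIntegral_polyJinv_of_mem_riemannRochSpace (N' : ℕ) [NeZero N'] (m : ℕ)
    (D : Divisor Kbar (FN N'))
    (hD : ∀ v : Place Kbar (FN N'), D v ≤ m * max 0 (-(v.ord (jBar N'))))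
    (g : FN N') (hg : g ∈ riemannRochSpace D) :
    IsIntegral (polyJinv Kbar) (jK⁻¹ ^ m * (g : Om)) := by
  have hfd := FibreCount.finiteDimensional N'
  have hsep := Char0.isSeparable_jBar N'
  have hadj : Kbar⟮(jBar N')⁻¹⟯ = Kbar⟮jBar N'⟯ := FFPlaces.adjoin_inv (K := Kbar) (jBar N')
  have : FiniteDimensional Kbar⟮(jBar N')⁻¹⟯ (FN N') := by rw [hadj]; exact hfd
  have : Algebra.IsSeparable Kbar⟮(jBar N')⁻¹⟯ (FN N') := by rw [hadj]; exact hsep
  have hj0 : jBar N' ≠ 0 := Main.jBar_ne_zero N'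
  have hf : ∀ v : Place Kbar (FN N'), (jBar N')⁻¹ ∈ v.toValuationSubring →
      (jBar N')⁻¹ ^ m * g ∈ v.toValuationSubring := by
    intro v hv
    by_cases hx : jBar N' ∈ v.toValuationSubring
    · exact mul_mem (pow_mem hv m)
        (FFPoles.mem_of_mem_riemannRochSpace_of_mem (jBar N') m hg v (hD v) hx)
    · have h := FFPoles.zpow_mul_mem_of_mem_riemannRochSpace (jBar N') m hg v (hD v) hx
      rwa [zpow_neg, zpow_natCast, ← inv_pow] at h
  have h1 := FFPoles.isIntegral_polyRing_of_forall_mem (x := (jBar N')⁻¹) hf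
  have h2 := PoleClear.isIntegral_coe (modularFunctionFieldBar N') ((jBar N')⁻¹)
    ((jBar N')⁻¹ ^ m * g) h1
  have e1 : (((jBar N')⁻¹ : FN N') : Om) = jK⁻¹ := by
    show ((jBar N' : FN N') : Om)⁻¹ = jK⁻¹
    rw [Main.coe_jBar]
  have e2 : ((((jBar N')⁻¹ ^ m * g : FN N')) : Om) = jK⁻¹ ^ m * (g : Om) := by
    show (((jBar N')⁻¹ : FN N') : Om) ^ m * (g : Om) = jK⁻¹ ^ m * (g : Om)
    rw [e1]
  rw [e1, e2] at h2
  exact h2

/-! ## The inclusion -/

/-- `j⁻¹ ∈ O_M`. -/
theorem jInv_mem_OM (M : ℕ) [NeZero M] : (jK⁻¹ : Om) ∈ OM A M :=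
  ⟨(Main.jInvO A).2, (modularFunctionFieldBar M).inv_mem (Rad.jK_mem M)⟩

/-- **[INCL]**: let `ℓ ∤ M`, `M ∣ N'`, `g ∈ L(D) ⊆ F_{N'}` with `D ≤ m (j)_∞`, `g ∈ Ocal`
integral over `O_M = F_M ∩ Ocal`.  If `red g` lies in the intermediate field `L ⊆ k((q))`, then
`red g ∈ WJ k L m`. -/
theorem red_mem_WJ (M N' : ℕ) [NeZero M] [NeZero N'] (hdiv : M ∣ N') (ℓ : ℕ) [Fact ℓ.Prime]
    (hℓ : ¬ ℓ ∣ M) (hA : A.LiesOverPrime ℓ) (m : ℕ) (D : Divisor Kbar (FN N'))
    (hD : ∀ v : Place Kbar (FN N'), D v ≤ m * max 0 (-(v.ord (jBar N'))))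
    (g : FN N') (hg : g ∈ riemannRochSpace D) (hgO : (g : Om) ∈ Ocal A)
    (hgM : IsIntegral (OM A M) (g : Om))
    (L : IntermediateField (kk A) (Omk A)) (hκ : red A ⟨(g : Om), hgO⟩ ∈ L) :
    red A ⟨(g : Om), hgO⟩ ∈ WJ (kk A) L m := by
  have hfd := FibreCount.finiteDimensional N'
  have hsep := Char0.isSeparable_jBar N'
  -- finite chart
  have hW := WJPlaces.isIntegral_of_mem_riemannRochSpace (ι := (modularFunctionFieldBar N').val)
    (x := jBar N') (Main.coe_jBar N') m D hD g hg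
  have h1 : IsIntegral (AJ A) (g : Om) :=
    isIntegral_AJ A M N' hdiv ℓ hℓ hA g.2 hgM hW.1
  have hfin : IsIntegral (polyJ (kk A)) (red A ⟨(g : Om), hgO⟩) :=
    ChartRedOf.isIntegral_polyJ_red A hgO h1
  -- chart at infinity
  have h2 : IsIntegral (polyJinv Kbar) (jK⁻¹ ^ m * (g : Om)) :=
    isIntegral_polyJinv_of_mem_riemannRochSpace N' m D hD g hg
  have hjm : IsIntegral (OM A M) ((jK⁻¹ : Om) ^ m) :=
    IntDescent.isIntegral_of_mem_subring (OM A M) (Subring.pow_mem _ (jInv_mem_OM A M) m)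
  have h3 : IsIntegral (OM A M) (jK⁻¹ ^ m * (g : Om)) := hjm.mul hgM
  have hmemN : jK⁻¹ ^ m * (g : Om) ∈ modularFunctionFieldBar N' :=
    mul_mem (pow_mem ((modularFunctionFieldBar N').inv_mem (Rad.jK_mem N')) m) g.2
  have h4 : IsIntegral (AJinv A) (jK⁻¹ ^ m * (g : Om)) :=
    isIntegral_AJinv A M N' hdiv ℓ hℓ hA hmemN h3 h2
  have hO' : jK⁻¹ ^ m * (g : Om) ∈ Ocal A :=
    (Ocal A).mul_mem (Subring.pow_mem _ (Main.jInvO A).2 m) hgO
  have hinf := ChartRedOf.isIntegral_OinfJ_red A hO' h4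
  have e : red A ⟨jK⁻¹ ^ m * (g : Om), hO'⟩ = (jqModC (kk A))⁻¹ ^ m * red A ⟨(g : Om), hgO⟩ := by
    have e' : (⟨jK⁻¹ ^ m * (g : Om), hO'⟩ : Ocal A) = Main.jInvO A ^ m * ⟨(g : Om), hgO⟩ :=
      Subtype.ext rfl
    rw [e', map_mul, map_pow, Main.red_jInvO]
  rw [e] at hinf
  exact ⟨hκ, hfin, hinf⟩

end Fermat.Agent.S34.Incl

end
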