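import Mathlib
import Fermat.Agent.S34.Incl
import Fermat.Agent.S34.Plan
import Fermat.Agent.S18.PullStep
import Fermat.Agent.S18.RR0.Step

/-!
# P6 / S34 — [INCL], pull-back form (owner: helper23)

`Setup2.incl` of `S34/Plan.lean`: `ρ (L(cE) ∩ O) ⊆ W(c) = WJ(c(q+1)) × WJ(c(q+1))`.

* `transcendental_jBarLevel`     : `j(T^d)` is transcendental over `Q̄`;
* `isIntegral_adjoin_of_mem_riemannRochSpace` : for a transcendental `x ∈ F_N` and `g ∈ L(D)`,
  `D ≤ m (x)_∞`: `g` is integral over `Q̄[x]` and `x⁻ᵐ g` is integral over `Q̄[x⁻¹]`;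
* `isIntegral_adjoin_of_mem_pullRR` : the same for `g ∈ pullRR N N₂ B ⊆ F_{N₂}` (characteristic
  polynomial over `F_N`);
* `isIntegral_adjoin_algHom`     : transport of integrality over `Q̄[x]` along an algebra hom;
* `red_mem_WJ_of_isIntegral`     : [INCL] core of `S34/Incl.lean` in integrality-hypothesis form;
* `red_mem_WJ_of_mem_pullRR`     : first component;
* `red_sigma_mem_WJ_of_mem_pullRR` : second component (through an endomorphism `σ` of `F_{N₂}`
  sending a coordinate `x` to `j`);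
* `incl_of`                      : the field `Setup2.incl` for `ρ g = (red g, red (σ g))`.
-/

set_option autoImplicit false

noncomputable section

namespace Fermat.Agent.S34.InclPull

open ModularCurve AlgebraicCurve Fermat.Agent.S24 Fermat.Agent.S18.Content Fermat.Agent.S18.Plan
open Fermat.Agent.S37.Plan2 Fermat.Agent.S18 Fermat.Agent.S37 Fermat.Agent.Lib Polynomial
open IntermediateField Fermat.Agent.S34.Incl

set_option synthInstance.maxHeartbeats 400000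
set_option maxHeartbeats 1600000

variable (A : ValuationSubring Kbar)

/-! ## Coordinates of `F_N` -/

/-- `j(T^d)` is transcendental over `Q̄`. -/
theorem transcendental_jBarLevel (N : ℕ) [NeZero N] (d : ℕ) [NeZero d] (hd : d ∣ N) :
    Transcendental Kbar (jBarLevel N d hd) := by
  intro halg
  have hint : IsIntegral Kbar (jBarLevel N d hd) := halg.isIntegral
  have hdeg : (minpoly Kbar (jBarLevel N d hd)).degree = 1 :=
    IsAlgClosed.degree_eq_one_of_irreducible Kbar (minpoly.irreducible hint)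
  obtain ⟨a, ha⟩ := minpoly.mem_range_of_degree_eq_one Kbar (jBarLevel N d hd) hdeg
  have hd0 : (d : ℤ) * (-1) ≠ 0 := by
    have := NeZero.ne d
    simp only [mul_neg, mul_one, ne_eq, neg_eq_zero, Nat.cast_eq_zero]
    exact this
  have h1 : ((jBarLevel N d hd : FN N) : LaurentSeries Kbar).coeff ((d : ℤ) * (-1)) = 1 := by
    show (coeffEmb Kbar (qExpand ℚ d jq)).coeff ((d : ℤ) * (-1)) = 1
    rw [coeffEmb_coeff, qExpand_coeff_mul, coeff_jq_neg_one, map_one]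
  have h2 : ((algebraMap Kbar (FN N) a : FN N) : LaurentSeries Kbar).coeff ((d : ℤ) * (-1)) = 0 := by
    show (algebraMap Kbar (LaurentSeries Kbar) a).coeff ((d : ℤ) * (-1)) = 0
    rw [HahnSeries.algebraMap_apply']
    simp only [PowerSeries.algebraMap_eq, HahnSeries.ofPowerSeries_C, HahnSeries.C_apply]
    exact HahnSeries.coeff_single_of_ne hd0
  rw [ha, h1] at h2
  exact one_ne_zero h2

/-- `F_N` is finite over `Q̄(x)` for every transcendental `x`. -/
theorem finiteDimensional_adjoin (N : ℕ) [NeZero N] {x : FN N} (hxt : Transcendental Kbar x) :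
    FiniteDimensional Kbar⟮x⟯ (FN N) := by
  have := FibreCount.finiteDimensional N
  exact (RR0.isFunctionField1 (x := jBar N) (FibreCount.transcendental_jBar N)).finite hxt

/-- `F_N` is separable over `Q̄(x)` for every transcendental `x`. -/
theorem isSeparable_adjoin (N : ℕ) [NeZero N] {x : FN N} (hxt : Transcendental Kbar x) :
    Algebra.IsSeparable Kbar⟮x⟯ (FN N) := by
  have := finiteDimensional_adjoin N hxt
  have : CharZero Kbar⟮x⟯ :=
    charZero_of_injective_algebraMap (algebraMap Kbar Kbar⟮x⟯).injective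
  have : Algebra.IsAlgebraic Kbar⟮x⟯ (FN N) := Algebra.IsAlgebraic.of_finite _ _
  exact Algebra.IsAlgebraic.isSeparable_of_perfectField

/-! ## Integrality over `Q̄[x]` and `Q̄[x⁻¹]` -/

/-- For a transcendental `x ∈ F_N` and `g ∈ L(D)` with `D ≤ m (x)_∞`: `g` is integral over
`Q̄[x]` and `x⁻ᵐ g` is integral over `Q̄[x⁻¹]`. -/
theorem isIntegral_adjoin_of_mem_riemannRochSpace (N : ℕ) [NeZero N] {x : FN N}
    (hxt : Transcendental Kbar x) (m : ℕ) (D : Divisor Kbar (FN N))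
    (hD : ∀ v : Place Kbar (FN N), D v ≤ m * max 0 (-(v.ord x))) (g : FN N)
    (hg : g ∈ riemannRochSpace D) :
    IsIntegral (Algebra.adjoin Kbar {(x : Om)}) (g : Om) ∧
      IsIntegral (Algebra.adjoin Kbar {(x : Om)⁻¹}) ((x : Om)⁻¹ ^ m * (g : Om)) := by
  have hfd := finiteDimensional_adjoin N hxt
  have hsep := isSeparable_adjoin N hxt
  have hxt' : Transcendental Kbar x⁻¹ := FFPlaces.transcendental_inv hxt
  have hfd' := finiteDimensional_adjoin N hxt'
  have hsep' := isSeparable_adjoin N hxt'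
  have hx0 : x ≠ 0 := fun h => hxt (h ▸ isAlgebraic_zero)
  refine ⟨?_, ?_⟩
  · have h1 := FFPoles.isIntegral_polyRing_of_forall_mem (x := x) (f := g) fun v hv =>
      FFPoles.mem_of_mem_riemannRochSpace_of_mem x m hg v (hD v) hv
    exact PoleClear.isIntegral_coe (modularFunctionFieldBar N) x g h1
  · have hf : ∀ v : Place Kbar (FN N), x⁻¹ ∈ v.toValuationSubring →
        x⁻¹ ^ m * g ∈ v.toValuationSubring := by
      intro v hv
      by_cases hx : x ∈ v.toValuationSubring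
      · exact mul_mem (pow_mem hv m)
          (FFPoles.mem_of_mem_riemannRochSpace_of_mem x m hg v (hD v) hx)
      · have h := FFPoles.zpow_mul_mem_of_mem_riemannRochSpace x m hg v (hD v) hx
        rwa [zpow_neg, zpow_natCast, ← inv_pow] at h
    have h1 := FFPoles.isIntegral_polyRing_of_forall_mem (x := x⁻¹) hf
    exact PoleClear.isIntegral_coe (modularFunctionFieldBar N) x⁻¹ (x⁻¹ ^ m * g) h1

attribute [local instance 2000] Module.Free.of_divisionRing

/-- For a transcendental `x ∈ F_N` and `g ∈ pullRR N N₂ B ⊆ F_{N₂}` with `B ≤ m (x)_∞`: `g` is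
integral over `Q̄[x]` and `x⁻ᵐ g` is integral over `Q̄[x⁻¹]`. -/
theorem isIntegral_adjoin_of_mem_pullRR (N N₂ : ℕ) [NeZero N] [NeZero N₂] (hdiv : N ∣ N₂)
    {x : FN N} (hxt : Transcendental Kbar x) (m : ℕ) (B : Divisor Kbar (FN N))
    (hB : ∀ v : Place Kbar (FN N), B v ≤ m * max 0 (-(v.ord x))) {g : Om}
    (hg : g ∈ pullRR N N₂ B) :
    IsIntegral (Algebra.adjoin Kbar {(x : Om)}) g ∧
      IsIntegral (Algebra.adjoin Kbar {(x : Om)⁻¹}) ((x : Om)⁻¹ ^ m * g) := by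
  classical
  have hle : modularFunctionFieldBar N ≤ modularFunctionFieldBar N₂ := PullStep.bar_le hdiv
  have hfin : FiniteDimensional (FN N) ↥(PullPlan.Ext hle) := PullStep.finiteDimensional_ext hdiv
  set g₂ : ↥(PullPlan.Ext hle) := PullPlan.lift hle hg with hg₂
  set χ : (FN N)[X] :=
    LinearMap.charpoly (Algebra.lmul (FN N) ↥(PullPlan.Ext hle) g₂) with hχ
  set d : ℕ := Module.finrank (FN N) ↥(PullPlan.Ext hle) with hd
  have hχd : χ.natDegree = d := LinearMap.charpoly_natDegree _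
  have hχm : χ.Monic := LinearMap.charpoly_monic _
  have hcoef : ∀ i : ℕ, i ≤ d →
      IsIntegral (Algebra.adjoin Kbar {(x : Om)}) ((χ.coeff (d - i) : FN N) : Om) ∧
      IsIntegral (Algebra.adjoin Kbar {(x : Om)⁻¹})
        ((x : Om)⁻¹ ^ (i * m) * ((χ.coeff (d - i) : FN N) : Om)) := by
    intro i hi
    have h1 : χ.coeff (d - i) ∈ riemannRochSpace (i • B) :=
      PullPlan.coeff_charpoly_mem hle g₂ hg i hi
    refine isIntegral_adjoin_of_mem_riemannRochSpace N hxt (i * m) (i • B) (fun v => ?_) _ h1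
    rw [Finsupp.smul_apply, nsmul_eq_mul]
    push_cast
    rw [mul_assoc]
    exact mul_le_mul_of_nonneg_left (hB v) (Nat.cast_nonneg i)
  have hroot : (χ.map (algebraMap (FN N) Om)).eval g = 0 := by
    rw [eval_map, ← aeval_def]
    exact aeval_charpoly_pair hle g₂
  have hmm : (χ.map (algebraMap (FN N) Om)).Monic := hχm.map _
  have hmd : (χ.map (algebraMap (FN N) Om)).natDegree = d := by
    rw [hχm.natDegree_map, hχd]
  refine ⟨?_, ?_⟩
  · refine OrthoDesc.isIntegral_of_monic_root _ hmm (fun k => ?_) g hroot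
    rw [coeff_map]
    rcases le_or_gt k d with hk | hk
    · have h := (hcoef (d - k) (Nat.sub_le d k)).1
      rw [Nat.sub_sub_self hk] at h
      exact h
    · rw [coeff_eq_zero_of_natDegree_lt (by rw [hχd]; exact hk), map_zero]
      exact isIntegral_zero
  · refine OrthoDesc.isIntegral_mul_of_monic_root _ hmm ((x : Om)⁻¹ ^ m) (fun k => ?_) g hroot
    rw [coeff_map, hmd]
    rcases le_or_gt k d with hk | hk
    · have h := (hcoef (d - k) (Nat.sub_le d k)).2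
      rw [Nat.sub_sub_self hk] at h
      rw [← pow_mul, mul_comm m (d - k), mul_comm]
      exact h
    · rw [coeff_eq_zero_of_natDegree_lt (by rw [hχd]; exact hk), map_zero, zero_mul]
      exact isIntegral_zero

/-! ## Transport of integrality along an algebra homomorphism -/

/-- Integrality over `K[x]` is preserved by algebra homomorphisms. -/
theorem isIntegral_adjoin_algHom {K B C : Type*} [Field K] [CommRing B] [CommRing C]
    [Algebra K B] [Algebra K C] (ψ : B →ₐ[K] C) (x y : B)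
    (h : IsIntegral (Algebra.adjoin K {x}) y) :
    IsIntegral (Algebra.adjoin K {ψ x}) (ψ y) := by
  have hmap : ∀ r : Algebra.adjoin K {x}, ψ (r : B) ∈ Algebra.adjoin K {ψ x} := by
    intro r
    have h1 : (Algebra.adjoin K {x}).map ψ = Algebra.adjoin K {ψ x} := by
      rw [AlgHom.map_adjoin, Set.image_singleton]
    rw [← h1]
    exact ⟨(r : B), r.2, rfl⟩
  let φ : Algebra.adjoin K {x} →+* Algebra.adjoin K {ψ x} :=
    { toFun := fun r => ⟨ψ (r : B), hmap r⟩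
      map_one' := Subtype.ext (map_one ψ)
      map_mul' := fun a b => Subtype.ext (map_mul ψ _ _)
      map_zero' := Subtype.ext (map_zero ψ)
      map_add' := fun a b => Subtype.ext (map_add ψ _ _) }
  exact IsIntegral.map_of_comp_eq φ (ψ : B →+* C) (RingHom.ext fun r => rfl) h

/-- Integrality over `K[x]` is reflected by injective algebra homomorphisms. -/
theorem isIntegral_adjoin_of_algHom {K B C : Type*} [Field K] [CommRing B] [CommRing C]
    [Algebra K B] [Algebra K C] (ψ : B →ₐ[K] C) (hψ : Function.Injective ψ) (x y : B)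
    (h : IsIntegral (Algebra.adjoin K {ψ x}) (ψ y)) :
    IsIntegral (Algebra.adjoin K {x}) y := by
  have h1 : (Algebra.adjoin K {x}).map ψ = Algebra.adjoin K {ψ x} := by
    rw [AlgHom.map_adjoin, Set.image_singleton]
  have hmap : ∀ r : Algebra.adjoin K {x}, ψ (r : B) ∈ Algebra.adjoin K {ψ x} := by
    intro r
    rw [← h1]
    exact ⟨(r : B), r.2, rfl⟩
  let φ : Algebra.adjoin K {x} →+* Algebra.adjoin K {ψ x} :=
    { toFun := fun r => ⟨ψ (r : B), hmap r⟩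
      map_one' := Subtype.ext (map_one ψ)
      map_mul' := fun a b => Subtype.ext (map_mul ψ _ _)
      map_zero' := Subtype.ext (map_zero ψ)
      map_add' := fun a b => Subtype.ext (map_add ψ _ _) }
  have hφ : Function.Surjective φ := by
    rintro ⟨s, hs⟩
    rw [← h1] at hs
    obtain ⟨r, hr, rfl⟩ := hs
    exact ⟨⟨r, hr⟩, rfl⟩
  exact (PullPlan.isIntegral_iff_of_surj_inj φ hφ (ψ : B →+* C) hψ (fun r => rfl) y).mp h

/-- Transport along an endomorphism of `F_{N₂}`, in `Q̄((q))`-vocabulary. -/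
theorem isIntegral_adjoin_sigma {N₂ : ℕ} (σ : FN N₂ →ₐ[Kbar] FN N₂) (x g : FN N₂)
    (h : IsIntegral (Algebra.adjoin Kbar {(x : Om)}) (g : Om)) :
    IsIntegral (Algebra.adjoin Kbar {((σ x : FN N₂) : Om)}) ((σ g : FN N₂) : Om) := by
  have h1 : IsIntegral (Algebra.adjoin Kbar {x}) g :=
    isIntegral_adjoin_of_algHom (modularFunctionFieldBar N₂).val Subtype.val_injective x g h
  exact isIntegral_adjoin_algHom ((modularFunctionFieldBar N₂).val.comp σ) x g h1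

/-! ## The inclusion, integrality-hypothesis form -/

/-- **[INCL] core, integrality form**: let `ℓ ∤ M`, `M ∣ N₂`, `g ∈ F_{N₂} ∩ Ocal` integral over
`O_M = F_M ∩ Ocal`, integral over `Q̄[j]`, with `j⁻ᵐ g` integral over `Q̄[j⁻¹]`.  If `red g ∈ L`,
then `red g ∈ WJ k L m`. -/
theorem red_mem_WJ_of_isIntegral (M N₂ : ℕ) [NeZero M] [NeZero N₂] (hdiv : M ∣ N₂) (ℓ : ℕ)
    [Fact ℓ.Prime] (hℓ : ¬ ℓ ∣ M) (hA : A.LiesOverPrime ℓ) (m : ℕ) {g : Om}
    (hgN : g ∈ modularFunctionFieldBar N₂) (hgO : g ∈ Ocal A) (hgM : IsIntegral (OM A M) g)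
    (hW1 : IsIntegral (polyJ Kbar) g) (hW2 : IsIntegral (polyJinv Kbar) (jK⁻¹ ^ m * g))
    (L : IntermediateField (kk A) (Omk A)) (hκ : red A ⟨g, hgO⟩ ∈ L) :
    red A ⟨g, hgO⟩ ∈ WJ (kk A) L m := by
  -- finite chart
  have h1 : IsIntegral (AJ A) g := isIntegral_AJ A M N₂ hdiv ℓ hℓ hA hgN hgM hW1
  have hfin : IsIntegral (polyJ (kk A)) (red A ⟨g, hgO⟩) :=
    ChartRedOf.isIntegral_polyJ_red A hgO h1
  -- chart at infinity
  have hjm : IsIntegral (OM A M) ((jK⁻¹ : Om) ^ m) :=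
    IntDescent.isIntegral_of_mem_subring (OM A M) (Subring.pow_mem _ (jInv_mem_OM A M) m)
  have h3 : IsIntegral (OM A M) (jK⁻¹ ^ m * g) := hjm.mul hgM
  have hmemN : jK⁻¹ ^ m * g ∈ modularFunctionFieldBar N₂ :=
    mul_mem (pow_mem ((modularFunctionFieldBar N₂).inv_mem (Rad.jK_mem N₂)) m) hgN
  have h4 : IsIntegral (AJinv A) (jK⁻¹ ^ m * g) :=
    isIntegral_AJinv A M N₂ hdiv ℓ hℓ hA hmemN h3 hW2
  have hO' : jK⁻¹ ^ m * g ∈ Ocal A :=
    (Ocal A).mul_mem (Subring.pow_mem _ (Main.jInvO A).2 m) hgO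
  have hinf := ChartRedOf.isIntegral_OinfJ_red A hO' h4
  have e : red A ⟨jK⁻¹ ^ m * g, hO'⟩ = (jqModC (kk A))⁻¹ ^ m * red A ⟨g, hgO⟩ := by
    have e' : (⟨jK⁻¹ ^ m * g, hO'⟩ : Ocal A) = Main.jInvO A ^ m * ⟨g, hgO⟩ :=
      Subtype.ext rfl
    rw [e', map_mul, map_pow, Main.red_jInvO]
  rw [e] at hinf
  exact ⟨hκ, hfin, hinf⟩

/-! ## The two components -/

/-- **First component**: for `g ∈ pullRR N N₂ B ∩ Ocal` with `B ≤ m (j)_∞`, integral over
`O_M`, with `red g ∈ L`: `red g ∈ WJ k L m`. -/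
theorem red_mem_WJ_of_mem_pullRR (M N N₂ : ℕ) [NeZero M] [NeZero N] [NeZero N₂] (hdiv : N ∣ N₂)
    (hM : M ∣ N₂) (ℓ : ℕ) [Fact ℓ.Prime] (hℓ : ¬ ℓ ∣ M) (hA : A.LiesOverPrime ℓ) (m : ℕ)
    (B : Divisor Kbar (FN N))
    (hB : ∀ v : Place Kbar (FN N), B v ≤ m * max 0 (-(v.ord (jBar N))))
    {g : Om} (hg : g ∈ pullRR N N₂ B) (hgO : g ∈ Ocal A) (hgM : IsIntegral (OM A M) g)
    (L : IntermediateField (kk A) (Omk A)) (hκ : red A ⟨g, hgO⟩ ∈ L) :
    red A ⟨g, hgO⟩ ∈ WJ (kk A) L m := by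
  obtain ⟨h1, h2⟩ := isIntegral_adjoin_of_mem_pullRR N N₂ hdiv
    (FibreCount.transcendental_jBar N) m B hB hg
  rw [Main.coe_jBar N] at h1 h2
  exact red_mem_WJ_of_isIntegral A M N₂ hM ℓ hℓ hA m hg.1 hgO hgM h1 h2 L hκ

/-- **Second component**: let `σ` be an endomorphism of `F_{N₂}` sending the coordinate `x ∈ F_N`
to `j`.  For `g ∈ pullRR N N₂ B` with `B ≤ m (x)_∞`, `σ g ∈ Ocal` integral over `O_M`, with
`red (σ g) ∈ L`: `red (σ g) ∈ WJ k L m`. -/
theorem red_sigma_mem_WJ_of_mem_pullRR (M N N₂ : ℕ) [NeZero M] [NeZero N] [NeZero N₂]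
    (hdiv : N ∣ N₂) (hM : M ∣ N₂) (ℓ : ℕ) [Fact ℓ.Prime] (hℓ : ¬ ℓ ∣ M)
    (hA : A.LiesOverPrime ℓ) (m : ℕ) {x : FN N} (hxt : Transcendental Kbar x)
    (σ : FN N₂ →ₐ[Kbar] FN N₂) (x₂ : FN N₂) (hx₂ : (x₂ : Om) = (x : Om))
    (hσ : ((σ x₂ : FN N₂) : Om) = jK) (B : Divisor Kbar (FN N))
    (hB : ∀ v : Place Kbar (FN N), B v ≤ m * max 0 (-(v.ord x)))
    (g : FN N₂) (hg : (g : Om) ∈ pullRR N N₂ B) (hgO : ((σ g : FN N₂) : Om) ∈ Ocal A)
    (hgM : IsIntegral (OM A M) ((σ g : FN N₂) : Om))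
    (L : IntermediateField (kk A) (Omk A)) (hκ : red A ⟨((σ g : FN N₂) : Om), hgO⟩ ∈ L) :
    red A ⟨((σ g : FN N₂) : Om), hgO⟩ ∈ WJ (kk A) L m := by
  obtain ⟨h1, h2⟩ := isIntegral_adjoin_of_mem_pullRR N N₂ hdiv hxt m B hB hg
  rw [← hx₂] at h1 h2
  have h1' := isIntegral_adjoin_sigma σ x₂ g h1
  rw [hσ] at h1'
  have h2a : IsIntegral (Algebra.adjoin Kbar {((x₂⁻¹ : FN N₂) : Om)})
      (((x₂⁻¹ ^ m * g : FN N₂)) : Om) := h2
  have h2' := isIntegral_adjoin_sigma σ x₂⁻¹ (x₂⁻¹ ^ m * g) h2a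
  have e4 : ((σ x₂⁻¹ : FN N₂) : Om) = jK⁻¹ := by
    rw [map_inv₀]
    show ((σ x₂ : FN N₂) : Om)⁻¹ = jK⁻¹
    rw [hσ]
  have e5 : ((σ (x₂⁻¹ ^ m * g) : FN N₂) : Om) = jK⁻¹ ^ m * ((σ g : FN N₂) : Om) := by
    rw [map_mul, map_pow, map_inv₀]
    show ((σ x₂ : FN N₂) : Om)⁻¹ ^ m * ((σ g : FN N₂) : Om) = jK⁻¹ ^ m * ((σ g : FN N₂) : Om)
    rw [hσ]
  rw [e4, e5] at h2'
  exact red_mem_WJ_of_isIntegral A M N₂ hM ℓ hℓ hA m (σ g).2 hgO hgM h1' h2' L hκ

/-! ## Plan form -/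

section PlanForm

open Fermat.Agent.S34.Plan

/-- `c E ≤ c (q+1) (j)_∞`, from `(j_q)_∞ ≤ q (j)_∞`. -/
theorem smul_E_le_j (N q : ℕ) [NeZero N] [NeZero q] (hqN : q ∣ N) {E : Divisor Kbar (FN N)}
    (hE : IsE N q hqN E)
    (hP1a : ∀ v : Place Kbar (FN N),
      max 0 (-(v.ord (jBarLevel N q hqN))) ≤ q * max 0 (-(v.ord (jBar N))))
    (c : ℕ) (v : Place Kbar (FN N)) :
    (c • E) v ≤ ((c * (q + 1) : ℕ) : ℤ) * max 0 (-(v.ord (jBar N))) := by
  rw [Finsupp.smul_apply, nsmul_eq_mul, hE v]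
  push_cast
  have h := hP1a v
  have hc : (0 : ℤ) ≤ (c : ℤ) := Int.natCast_nonneg c
  nlinarith [mul_le_mul_of_nonneg_left h hc]

/-- `c E ≤ c (q+1) (j_q)_∞`, from `(j)_∞ ≤ q (j_q)_∞`. -/
theorem smul_E_le_jq (N q : ℕ) [NeZero N] [NeZero q] (hqN : q ∣ N) {E : Divisor Kbar (FN N)}
    (hE : IsE N q hqN E)
    (hP1b : ∀ v : Place Kbar (FN N),
      max 0 (-(v.ord (jBar N))) ≤ q * max 0 (-(v.ord (jBarLevel N q hqN))))
    (c : ℕ) (v : Place Kbar (FN N)) :
    (c • E) v ≤ ((c * (q + 1) : ℕ) : ℤ) * max 0 (-(v.ord (jBarLevel N q hqN))) := by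
  rw [Finsupp.smul_apply, nsmul_eq_mul, hE v]
  push_cast
  have h := hP1b v
  have hc : (0 : ℤ) ≤ (c : ℤ) := Int.natCast_nonneg c
  nlinarith [mul_le_mul_of_nonneg_left h hc]

/-- `q ∤ M` for the good level `M = aux q * N'`. -/
theorem not_dvd_of_levels {q N' N M : ℕ} (h : Levels q N' N M) : ¬ q ∣ M := by
  rw [h.M_eq]
  intro hd
  rcases (Nat.Prime.dvd_mul h.prime).mp hd with h1 | h1
  · unfold aux at h1
    split_ifs at h1 with h2
    · rw [h2] at h1
      omega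
    · have h3 : q ∣ 2 ^ 2 := h1
      have h4 := (Nat.prime_dvd_prime_iff_eq h.prime Nat.prime_two).mp (h.prime.dvd_of_dvd_pow h3)
      exact h2 h4
  · exact h.not_dvd h1

/-- `N ∣ M * q`. -/
theorem dvd_of_levels {q N' N M : ℕ} (h : Levels q N' N M) : N ∣ M * q := by
  rw [h.M_eq, h.N_eq, mul_assoc]
  exact Dvd.intro_left _ rfl

/-- **`Setup2.incl`** for a `σ`-stable `O ⊆ F_{Mq} ∩ Ocal`, integral over `O_M`, with
`ρ g = (red g, red (σ g))`, `σ j_q = j`, values in `F_{M,k} × F_{M,k}`; from the crude pole bounds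
`(j_q)_∞ ≤ q (j)_∞`, `(j)_∞ ≤ q (j_q)_∞` on `F_N`. -/
theorem incl_of (N q M : ℕ) [NeZero N] [NeZero q] [NeZero M] (hqN : q ∣ N) (hNdvd : N ∣ M * q)
    [Fact q.Prime] (hqM : ¬ q ∣ M) (hA : A.LiesOverPrime q)
    (hP1a : ∀ v : Place Kbar (FN N),
      max 0 (-(v.ord (jBarLevel N q hqN))) ≤ q * max 0 (-(v.ord (jBar N))))
    (hP1b : ∀ v : Place Kbar (FN N),
      max 0 (-(v.ord (jBar N))) ≤ q * max 0 (-(v.ord (jBarLevel N q hqN))))
    (σ : FN (M * q) →ₐ[Kbar] FN (M * q)) (xq : FN (M * q))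
    (hxq : (xq : Om) = ((jBarLevel N q hqN : FN N) : Om))
    (hσ : ((σ xq : FN (M * q)) : Om) = jK)
    (O : Subring Om) (ρ : O →+* R2 A)
    (hF : ∀ g : O, (g : Om) ∈ modularFunctionFieldBar (M * q))
    (hOcal : ∀ g : O, (g : Om) ∈ Ocal A)
    (hint : ∀ g : O, IsIntegral (OM A M) (g : Om))
    (hσO : ∀ g : O, ((σ ⟨(g : Om), hF g⟩ : FN (M * q)) : Om) ∈ O)
    (hρ : ∀ g : O, ρ g = (red A ⟨(g : Om), hOcal g⟩,
      red A ⟨((σ ⟨(g : Om), hF g⟩ : FN (M * q)) : Om), hOcal ⟨_, hσO g⟩⟩))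
    (hrange : ∀ g : O, (ρ g).1 ∈ Fk A M ∧ (ρ g).2 ∈ Fk A M) :
    ∀ E : Divisor Kbar (FN N), IsE N q hqN E → ∀ (c : ℕ) (g : O),
      (g : Om) ∈ pullRR N (M * q) (c • E) → ρ g ∈ WW A q M c := by
  intro E hE c g hg
  have hMdvd : M ∣ M * q := Dvd.intro _ rfl
  have hr := hrange g
  rw [hρ g] at hr ⊢
  refine ⟨?_, ?_⟩
  · exact red_mem_WJ_of_mem_pullRR A M N (M * q) hNdvd hMdvd q hqM hA (c * (q + 1)) (c • E)
      (smul_E_le_j N q hqN hE hP1a c) hg (hOcal g) (hint g) (Fk A M) hr.1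
  · exact red_sigma_mem_WJ_of_mem_pullRR A M N (M * q) hNdvd hMdvd q hqM hA (c * (q + 1))
      (transcendental_jBarLevel N q hqN) σ xq hxq hσ (c • E)
      (smul_E_le_jq N q hqN hE hP1b c) ⟨(g : Om), hF g⟩ hg (hOcal ⟨_, hσO g⟩)
      (hint ⟨_, hσO g⟩) (Fk A M) hr.2

end PlanForm

end Fermat.Agent.S34.InclPull

end
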