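/-
P6 / S34 SETUP (helper58): **the Atkin–Lehner involution `σ` of `F_{Mq}`** in the Prelude
vocabulary, `q` prime, `q ∤ M`.

`F := FN (M * q)`, `α := heckeAlphaBar Kbar M q` (the inclusion `F_M → F`),
`β := heckeBetaBar Kbar M q` (`V_q : T ↦ T^q`).

* `sigma`            : `F ≃ₐ[Q̄] F` with `σ ∘ α = β`, `σ ∘ β = α` (helper60's `exists_atkinLehner`);
* `sigma_sigma`      : `σ² = id`;
* `galois_smul_sigma`: `σ` commutes with the coefficientwise action of `Gal(Q̄/ℚ)`;
* the elements `j = α j`, `j_q = β j`, `z = j - j_q^q`, `σ z = j_q - j^q` and their reductions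
  modulo a valuation subring `A` of `Q̄` over `q`: `red j_q = j̄^q`, `red z = j̄ - j̄^(q²)`,
  `red (σ z) = 0`.
-/
import Mathlib
import Fermat.Agent.S37.Kron.AtkinLehner
import Fermat.Agent.S37.Gal
import Fermat.Agent.P5.GalHecke
import Fermat.Agent.Lib.KroneckerCong
import Fermat.Agent.Lib.KroneckerCongOcal
import Fermat.Agent.S37.KronMain

set_option autoImplicit false
set_option linter.style.haveILetI false
set_option linter.unusedSectionVars false

noncomputable section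

namespace Fermat.Agent.S34.Sigma

open ModularCurve AlgebraicCurve Fermat.Agent.S24 Fermat.Agent.Lib
open Fermat.Agent.S37.Kron.AtkinLehner

set_option synthInstance.maxHeartbeats 400000
set_option maxHeartbeats 1600000

variable (M q : ℕ) [NeZero M] [NeZero q]

/-! ### The involution -/

/-- **The Atkin–Lehner involution** of `F_{Mq}` (`M`, `q` coprime). -/
def sigma (h : Nat.Coprime M q) : FN (M * q) ≃ₐ[Kbar] FN (M * q) :=
  (exists_atkinLehner M q h).choose

variable {M q}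

theorem sigma_alpha (h : Nat.Coprime M q) (f : FN M) :
    sigma M q h (heckeAlphaBar Kbar M q f) = heckeBetaBar Kbar M q f :=
  (exists_atkinLehner M q h).choose_spec.1 f

theorem sigma_beta (h : Nat.Coprime M q) (f : FN M) :
    sigma M q h (heckeBetaBar Kbar M q f) = heckeAlphaBar Kbar M q f :=
  (exists_atkinLehner M q h).choose_spec.2 f

/-! ### Generators -/

/-- For `q` prime, a divisor of `M q` is `d₁` or `q d₁` with `d₁ ∣ M`. -/
theorem dvd_cases (hq : q.Prime) {d : ℕ} (hd : d ∣ M * q) :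
    ∃ d₁ : ℕ, d₁ ∣ M ∧ (d = d₁ ∨ d = q * d₁) := by
  obtain ⟨d₁, m, hd₁, hm, rfl⟩ := Nat.dvd_mul.mp hd
  rcases (Nat.dvd_prime hq).mp hm with rfl | rfl
  · exact ⟨d₁, hd₁, Or.inl (mul_one d₁)⟩
  · exact ⟨d₁, hd₁, Or.inr (mul_comm d₁ m)⟩

/-- Every generator `j(T^d)`, `d ∣ M q`, of `F_{Mq}` is `α` or `β` of a generator of `F_M`. -/
theorem gen_cases (hq : q.Prime) {d : ℕ} [NeZero d] (hd : d ∣ M * q) :
    ∃ (d₁ : ℕ) (_ : NeZero d₁) (hd₁ : d₁ ∣ M),
      (⟨FFBridge.gen d, FFBridge.gen_mem hd⟩ : FN (M * q)) =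
          heckeAlphaBar Kbar M q ⟨FFBridge.gen d₁, FFBridge.gen_mem hd₁⟩ ∨
        (⟨FFBridge.gen d, FFBridge.gen_mem hd⟩ : FN (M * q)) =
          heckeBetaBar Kbar M q ⟨FFBridge.gen d₁, FFBridge.gen_mem hd₁⟩ := by
  obtain ⟨d₁, hd₁, hcase⟩ := dvd_cases hq hd
  have hne : NeZero d₁ := ⟨fun h0 => NeZero.ne M (Nat.eq_zero_of_zero_dvd (h0 ▸ hd₁))⟩
  refine ⟨d₁, hne, hd₁, ?_⟩
  rcases hcase with rfl | rfl
  · left
    rw [alpha_gen M q hd₁]
  · right
    rw [beta_gen M q hd₁]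

/-- The Galois group fixes the generators. -/
theorem galois_smul_gen (n : ℕ) (τ : Kbar ≃ₐ[ℚ] Kbar) {d : ℕ} [NeZero d] (hd : d ∣ n) :
    arithmeticGalois (modularFunctionFieldFull n) τ •
        (⟨FFBridge.gen d, FFBridge.gen_mem hd⟩ : FN n) =
      ⟨FFBridge.gen d, FFBridge.gen_mem hd⟩ :=
  Subtype.ext (coeffMap_coeffEmb _ _)

/-! ### `σ² = id` -/

/-- **`σ² = id`** (`q` prime). -/
theorem sigma_sigma (h : Nat.Coprime M q) (hq : q.Prime) (x : FN (M * q)) :
    sigma M q h (sigma M q h x) = x := by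
  have key : ((sigma M q h : FN (M * q) ≃+* FN (M * q)) : FN (M * q) →+* FN (M * q)).comp
      ((sigma M q h : FN (M * q) ≃+* FN (M * q)) : FN (M * q) →+* FN (M * q)) =
      RingHom.id (FN (M * q)) := by
    refine FFBridge.ringHom_ext (M * q) _ _ (fun a => ?_) (fun d _ hd => ?_)
    · show sigma M q h (sigma M q h (algebraMap Kbar (FN (M * q)) a)) =
        algebraMap Kbar (FN (M * q)) a
      rw [AlgEquiv.commutes, AlgEquiv.commutes]
    · show sigma M q h (sigma M q h ⟨FFBridge.gen d, FFBridge.gen_mem hd⟩) =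
        ⟨FFBridge.gen d, FFBridge.gen_mem hd⟩
      obtain ⟨d₁, _, hd₁, hc | hc⟩ := gen_cases hq hd
      · rw [hc, sigma_alpha, sigma_beta]
      · rw [hc, sigma_beta, sigma_alpha]
  exact congrArg (fun φ : FN (M * q) →+* FN (M * q) => φ x) key

theorem sigma_symm (h : Nat.Coprime M q) (hq : q.Prime) : (sigma M q h).symm = sigma M q h := by
  refine AlgEquiv.ext fun x => ?_
  exact (AlgEquiv.symm_apply_eq _).mpr (sigma_sigma h hq x).symm

/-! ### `σ` commutes with the Galois action -/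

/-- **`σ` commutes with the coefficientwise action of `Gal(Q̄/ℚ)`** (`q` prime). -/
theorem galois_smul_sigma (h : Nat.Coprime M q) (hq : q.Prime) (τ : Kbar ≃ₐ[ℚ] Kbar)
    (x : FN (M * q)) :
    arithmeticGalois (modularFunctionFieldFull (M * q)) τ • sigma M q h x =
      sigma M q h (arithmeticGalois (modularFunctionFieldFull (M * q)) τ • x) := by
  set g : SemilinearAut Kbar (FN (M * q)) :=
    arithmeticGalois (modularFunctionFieldFull (M * q)) τ with hg
  have hα := Fermat.Agent.P5.GalHecke.intertwines_alpha M q τ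
  have hβ := Fermat.Agent.P5.GalHecke.intertwines_beta M q τ
  have key : ((SemilinearAut.toRingAut g : FN (M * q) ≃+* FN (M * q)) :
        FN (M * q) →+* FN (M * q)).comp
        ((sigma M q h : FN (M * q) ≃+* FN (M * q)) : FN (M * q) →+* FN (M * q)) =
      ((sigma M q h : FN (M * q) ≃+* FN (M * q)) : FN (M * q) →+* FN (M * q)).comp
        ((SemilinearAut.toRingAut g : FN (M * q) ≃+* FN (M * q)) :
          FN (M * q) →+* FN (M * q)) := by
    refine FFBridge.ringHom_ext (M * q) _ _ (fun a => ?_) (fun d _ hd => ?_)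
    · show g • sigma M q h (algebraMap Kbar (FN (M * q)) a) =
        sigma M q h (g • algebraMap Kbar (FN (M * q)) a)
      rw [AlgEquiv.commutes, SemilinearAut.smul_algebraMap, AlgEquiv.commutes]
    · show g • sigma M q h ⟨FFBridge.gen d, FFBridge.gen_mem hd⟩ =
        sigma M q h (g • ⟨FFBridge.gen d, FFBridge.gen_mem hd⟩)
      rw [hg, galois_smul_gen (M * q) τ hd]
      obtain ⟨d₁, _, hd₁, hc | hc⟩ := gen_cases hq hd
      · rw [hc, sigma_alpha]
        exact (hβ _).trans (by rw [galois_smul_gen M τ hd₁]; rfl)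
      · rw [hc, sigma_beta]
        exact (hα _).trans (by rw [galois_smul_gen M τ hd₁]; rfl)
  exact congrArg (fun φ : FN (M * q) →+* FN (M * q) => φ x) key

/-! ### Reductions: `α`, `β`, `σ` and the content valuation -/

section Reduction

open Fermat.Agent.S18.Content Fermat.Agent.S18.Plan Fermat.Agent.Lib.KroneckerCong

variable (A : ValuationSubring Kbar)

theorem coe_alpha (f : FN M) :
    ((heckeAlphaBar Kbar M q f : FN (M * q)) : Om) = (f : Om) :=
  coe_heckeAlphaBar M q f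

theorem coe_beta (f : FN M) :
    ((heckeBetaBar Kbar M q f : FN (M * q)) : Om) = qExpand Kbar q (f : Om) :=
  rfl

/-- `α f` has the reduction of `f`. -/
theorem red_alpha {f : FN M} (hf : (f : Om) ∈ Ocal A) :
    ∃ hc : ((heckeAlphaBar Kbar M q f : FN (M * q)) : Om) ∈ Ocal A,
      red A ⟨_, hc⟩ = red A ⟨(f : Om), hf⟩ := by
  have hc : ((heckeAlphaBar Kbar M q f : FN (M * q)) : Om) ∈ Ocal A := by
    rw [coe_alpha]; exact hf
  exact ⟨hc, red_congr A (coe_alpha f) hc hf⟩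

/-- `β f = f(T^q)` has the reduction `f̄(T^q)`. -/
theorem red_beta {f : FN M} (hf : (f : Om) ∈ Ocal A) :
    ∃ hc : ((heckeBetaBar Kbar M q f : FN (M * q)) : Om) ∈ Ocal A,
      red A ⟨_, hc⟩ = qExpand (kk A) q (red A ⟨(f : Om), hf⟩) :=
  ⟨qExpand_mem_Ocal A q hf, red_qExpand A q ⟨_, hf⟩⟩

/-- `σ (α f) = β f` has the reduction `f̄(T^q)`. -/
theorem red_sigma_alpha (h : Nat.Coprime M q) {f : FN M} (hf : (f : Om) ∈ Ocal A) :
    ∃ hc : ((sigma M q h (heckeAlphaBar Kbar M q f) : FN (M * q)) : Om) ∈ Ocal A,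
      red A ⟨_, hc⟩ = qExpand (kk A) q (red A ⟨(f : Om), hf⟩) := by
  rw [sigma_alpha]
  exact red_beta A hf

/-- `σ (β f) = α f` has the reduction of `f`. -/
theorem red_sigma_beta (h : Nat.Coprime M q) {f : FN M} (hf : (f : Om) ∈ Ocal A) :
    ∃ hc : ((sigma M q h (heckeBetaBar Kbar M q f) : FN (M * q)) : Om) ∈ Ocal A,
      red A ⟨_, hc⟩ = red A ⟨(f : Om), hf⟩ := by
  rw [sigma_beta]
  exact red_alpha A hf

/-! ### The elements `j`, `j_q`, `z` -/

variable (M q)

/-- `j_q = j(T^q)` as an element of `F_{Mq}`. -/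
def jQ : FN (M * q) := heckeBetaBar Kbar M q (jBar M)

/-- `z = j - j_q^q`. -/
def zEl : FN (M * q) := jBar (M * q) - jQ M q ^ q

variable {M q}

theorem alpha_jBar : heckeAlphaBar Kbar M q (jBar M) = jBar (M * q) := Subtype.ext rfl

theorem sigma_jBar (h : Nat.Coprime M q) : sigma M q h (jBar (M * q)) = jQ M q := by
  rw [← alpha_jBar, sigma_alpha]; rfl

theorem sigma_jQ (h : Nat.Coprime M q) : sigma M q h (jQ M q) = jBar (M * q) := by
  rw [jQ, sigma_beta, alpha_jBar]

theorem sigma_zEl (h : Nat.Coprime M q) :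
    sigma M q h (zEl M q) = jQ M q - jBar (M * q) ^ q := by
  rw [zEl, map_sub, map_pow, sigma_jBar, sigma_jQ]

/-- In characteristic `q`, `j̄(T^q) = j̄^q`. -/
theorem qExpand_jqModC (k : Type*) [Field k] (hq : q.Prime) [CharP k q] :
    qExpand k q (jqModC k) = jqModC k ^ q := by
  haveI : Fact q.Prime := ⟨hq⟩
  rw [pow_char_eq, ModularCurve.coeffMap_jqModC]

/-- `j_q` lies in `Ocal` and reduces to `j̄^q` (`A` over `q`). -/
theorem red_jQ (hq : q.Prime) (hA : A.LiesOverPrime q) :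
    ∃ hc : ((jQ M q : FN (M * q)) : Om) ∈ Ocal A, red A ⟨_, hc⟩ = jqModC (kk A) ^ q := by
  haveI : CharP (kk A) q := Fermat.Agent.S37.KronMain.charP_kk A hq hA
  obtain ⟨hc, hred⟩ := red_beta (q := q) A (Fermat.Agent.S37.EvalBasic.jBar_mem_Ocal A M)
  exact ⟨hc, hred.trans (by
    rw [Fermat.Agent.S37.EvalBasic.red_jBar, qExpand_jqModC (kk A) hq])⟩

/-- `z = j - j_q^q` lies in `Ocal` and reduces to `j̄ - j̄^(q²)`. -/
theorem red_zEl (hq : q.Prime) (hA : A.LiesOverPrime q) :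
    ∃ hc : ((zEl M q : FN (M * q)) : Om) ∈ Ocal A,
      red A ⟨_, hc⟩ = jqModC (kk A) - jqModC (kk A) ^ (q ^ 2) := by
  obtain ⟨hc, hred⟩ := red_jQ (M := M) A hq hA
  have hj := Fermat.Agent.S37.EvalBasic.jBar_mem_Ocal A (M * q)
  have hz : ((zEl M q : FN (M * q)) : Om) ∈ Ocal A :=
    (Ocal A).sub_mem hj ((Ocal A).pow_mem hc q)
  refine ⟨hz, ?_⟩
  have e : (⟨_, hz⟩ : Ocal A) = ⟨_, hj⟩ - ⟨_, hc⟩ ^ q := rfl
  rw [e, map_sub, map_pow, hred, Fermat.Agent.S37.EvalBasic.red_jBar, ← pow_mul, sq]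

/-- `σ z = j_q - j^q` lies in `Ocal` and reduces to `0`. -/
theorem red_sigma_zEl (h : Nat.Coprime M q) (hq : q.Prime) (hA : A.LiesOverPrime q) :
    ∃ hc : ((sigma M q h (zEl M q) : FN (M * q)) : Om) ∈ Ocal A, red A ⟨_, hc⟩ = 0 := by
  rw [sigma_zEl]
  obtain ⟨hc, hred⟩ := red_jQ (M := M) A hq hA
  have hj := Fermat.Agent.S37.EvalBasic.jBar_mem_Ocal A (M * q)
  have hz : ((jQ M q - jBar (M * q) ^ q : FN (M * q)) : Om) ∈ Ocal A :=
    (Ocal A).sub_mem hc ((Ocal A).pow_mem hj q)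
  refine ⟨hz, ?_⟩
  have e : (⟨_, hz⟩ : Ocal A) = ⟨_, hc⟩ - ⟨_, hj⟩ ^ q := rfl
  rw [e, map_sub, map_pow, hred, Fermat.Agent.S37.EvalBasic.red_jBar, sub_self]

end Reduction

/-! ### The decomposition group, `σ` and the content valuation -/

section Decomp

open Fermat.Agent.S18.Content Fermat.Agent.S18.Plan

variable (A : ValuationSubring Kbar) (s : A.decompositionSubgroup ℚ)

/-- If `σ g ∈ Ocal` then `σ (τ g) ∈ Ocal` and `red (σ (τ g)) = τ̄ (red (σ g))`, for `τ` in the
decomposition group of `A`. -/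
theorem red_sigma_galois (h : Nat.Coprime M q) (hq : q.Prime) (g : FN (M * q))
    (hg : ((sigma M q h g : FN (M * q)) : Om) ∈ Ocal A) :
    ∃ hc : ((sigma M q h (Fermat.Agent.S37.Gal.gK A (M * q) s • g) : FN (M * q)) : Om) ∈ Ocal A,
      red A ⟨_, hc⟩ = coeffMap (Fermat.Agent.S37.Gal.sigmaBar A s) (red A ⟨_, hg⟩) := by
  rw [← galois_smul_sigma h hq]
  exact ⟨Fermat.Agent.S37.Gal.coeffMap_mem_Ocal A s hg,
    Fermat.Agent.S37.Gal.red_coeffMap A s _ hg⟩

end Decomp

/-! ### Places, divisors and Riemann–Roch spaces -/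

section Generic

variable {K F : Type*} [Field K] [Field F] [Algebra K F]

/-- A semilinear automorphism transports Riemann–Roch spaces: `g (L(D)) = L(g D)`. -/
theorem smul_mem_riemannRochSpace_iff (g : SemilinearAut K F) (D : Divisor K F) (f : F) :
    g • f ∈ riemannRochSpace (g • D) ↔ f ∈ riemannRochSpace D := by
  rw [mem_riemannRochSpace_iff, mem_riemannRochSpace_iff]
  have key : ∀ v : Place K F, (g • D) (g • v) = D v ∧ (g • v).ord (g • f) = v.ord f :=
    fun v => ⟨SemilinearAut.divisor_smul_apply_smul g D v, SemilinearAut.ord_smul g v f⟩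
  constructor
  · intro hw v
    have h1 := hw (g • v)
    rw [(key v).1, (key v).2, smul_eq_zero_iff_eq] at h1
    exact h1
  · intro hv w
    have h1 := hv (g⁻¹ • w)
    have h2 := key (g⁻¹ • w)
    rw [smul_inv_smul] at h2
    rw [h2.1, h2.2, smul_eq_zero_iff_eq]
    exact h1

/-- A semilinear automorphism transports pole divisors: if `Cp = (y)_∞` and `Cp' = (g y)_∞`
then `g • Cp = Cp'`. -/
theorem smul_poleDivisor (g : SemilinearAut K F) (y : F) (Cp Cp' : Divisor K F)
    (hCp : ∀ P, Cp P = max 0 (-(P.ord y))) (hCp' : ∀ P, Cp' P = max 0 (-(P.ord (g • y)))) :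
    g • Cp = Cp' := by
  ext w
  have h1 := SemilinearAut.ord_smul g (g⁻¹ • w) y
  rw [smul_inv_smul] at h1
  rw [SemilinearAut.divisor_smul_apply, hCp, hCp', h1]

end Generic

variable (M q)

/-- `σ` as a semilinear automorphism of `F_{Mq}` (acting on places and divisors). -/
def sigmaS (h : Nat.Coprime M q) : SemilinearAut Kbar (FN (M * q)) :=
  SemilinearAut.ofAlgAut (sigma M q h)

variable {M q}

theorem sigmaS_smul (h : Nat.Coprime M q) (x : FN (M * q)) :
    sigmaS M q h • x = sigma M q h x := rfl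

/-- `σ` is an involution on functions, places and divisors. -/
theorem sigmaS_mul_self (h : Nat.Coprime M q) (hq : q.Prime) :
    sigmaS M q h * sigmaS M q h = 1 := by
  refine Subtype.ext (Prod.ext (RingEquiv.ext fun x => ?_) rfl)
  exact sigma_sigma h hq x

/-- `σ` commutes with the Galois action, as semilinear automorphisms (hence on places, divisors
and divisor classes). -/
theorem galois_mul_sigmaS (h : Nat.Coprime M q) (hq : q.Prime) (τ : Kbar ≃ₐ[ℚ] Kbar) :
    arithmeticGalois (modularFunctionFieldFull (M * q)) τ * sigmaS M q h =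
      sigmaS M q h * arithmeticGalois (modularFunctionFieldFull (M * q)) τ := by
  refine Subtype.ext (Prod.ext (RingEquiv.ext fun x => ?_) ?_)
  · exact galois_smul_sigma h hq τ x
  · show (arithmeticGalois (modularFunctionFieldFull (M * q)) τ).val.2 * 1 =
      1 * (arithmeticGalois (modularFunctionFieldFull (M * q)) τ).val.2
    rw [mul_one, one_mul]

/-- `σ` exchanges the pole divisors of `j` and `j_q`. -/
theorem sigmaS_smul_poleDivisor_j (h : Nat.Coprime M q) (Cj Cq : Divisor Kbar (FN (M * q)))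
    (hCj : ∀ P, Cj P = max 0 (-(P.ord (jBar (M * q)))))
    (hCq : ∀ P, Cq P = max 0 (-(P.ord (jQ M q)))) : sigmaS M q h • Cj = Cq :=
  smul_poleDivisor (sigmaS M q h) (jBar (M * q)) Cj Cq hCj (fun P => by
    rw [sigmaS_smul, sigma_jBar]; exact hCq P)

theorem sigmaS_smul_poleDivisor_jQ (h : Nat.Coprime M q) (Cj Cq : Divisor Kbar (FN (M * q)))
    (hCj : ∀ P, Cj P = max 0 (-(P.ord (jBar (M * q)))))
    (hCq : ∀ P, Cq P = max 0 (-(P.ord (jQ M q)))) : sigmaS M q h • Cq = Cj :=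
  smul_poleDivisor (sigmaS M q h) (jQ M q) Cq Cj hCq (fun P => by
    rw [sigmaS_smul, sigma_jQ]; exact hCj P)

/-- `E = (j)_∞ + (j_q)_∞` is `σ`-stable. -/
theorem sigmaS_smul_E (h : Nat.Coprime M q) (Cj Cq : Divisor Kbar (FN (M * q)))
    (hCj : ∀ P, Cj P = max 0 (-(P.ord (jBar (M * q)))))
    (hCq : ∀ P, Cq P = max 0 (-(P.ord (jQ M q)))) :
    sigmaS M q h • (Cj + Cq) = Cj + Cq := by
  rw [smul_add, sigmaS_smul_poleDivisor_j h Cj Cq hCj hCq,
    sigmaS_smul_poleDivisor_jQ h Cj Cq hCj hCq, add_comm]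

/-- The Galois group fixes `j` and `j_q`, hence their pole divisors. -/
theorem galois_smul_jQ (τ : Kbar ≃ₐ[ℚ] Kbar) :
    arithmeticGalois (modularFunctionFieldFull (M * q)) τ • jQ M q = jQ M q := by
  have h1 := Fermat.Agent.P5.GalHecke.intertwines_beta M q τ (jBar M)
  have h2 : arithmeticGalois (modularFunctionFieldFull M) τ • jBar M = jBar M :=
    Subtype.ext (coeffMap_coeffEmb _ jq)
  rw [h2] at h1
  exact h1

theorem galois_smul_jBar (n : ℕ) [NeZero n] (τ : Kbar ≃ₐ[ℚ] Kbar) :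
    arithmeticGalois (modularFunctionFieldFull n) τ • jBar n = jBar n :=
  Subtype.ext (coeffMap_coeffEmb _ jq)

/-- `E = (j)_∞ + (j_q)_∞` is Galois-stable. -/
theorem galois_smul_E (τ : Kbar ≃ₐ[ℚ] Kbar) (Cj Cq : Divisor Kbar (FN (M * q)))
    (hCj : ∀ P, Cj P = max 0 (-(P.ord (jBar (M * q)))))
    (hCq : ∀ P, Cq P = max 0 (-(P.ord (jQ M q)))) :
    arithmeticGalois (modularFunctionFieldFull (M * q)) τ • (Cj + Cq) = Cj + Cq := by
  rw [smul_add,
    smul_poleDivisor _ (jBar (M * q)) Cj Cj hCj (fun P => by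
      rw [galois_smul_jBar]; exact hCj P),
    smul_poleDivisor _ (jQ M q) Cq Cq hCq (fun P => by
      rw [galois_smul_jQ]; exact hCq P)]

end Fermat.Agent.S34.Sigma

end
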