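import Mathlib
import Fermat.Prelude.Def_ModularCurve_HeckeOperator
import Fermat.Agent.S34.Plan
import Fermat.Agent.S18.MainLemmas
import Fermat.Agent.Lib.KroneckerCongOcal

/-!
# S34 / P6 — [VAL] part 1: the two-component reduction `(O2, Red)` (helper49)

`σ` an automorphism of `F_{Mq}` (the Atkin–Lehner involution, `S34/ALInvol`);
`O2 = {g ∈ F_{Mq} | g ∈ Ocal, σ g ∈ Ocal}` and `Red g = (red g, red (σ g))`.

* `O2F`, `RedF` : the subring of the field `F_{Mq}` and its reduction;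
* `O2`, `Red`   : the same as a subring of `Q̄((T))` (the shape of `S34.Plan.Setup2`);
* `IsAL σ`      : `σ ∘ α = β`, `σ ∘ β = α`, `σ ∘ σ = id` (`α` = inclusion of `F_M`, `β = (T ↦ T^q)`);
* basic fields of `Setup2`: `mem_field`, `mem_Ocal`, `fst_eq`, `snd_eq`, `C_mem_iff`, `Red_C`,
  `inv_mem`, `Red_level` (V5), `Red_level_beta`, `Red_j`, `Red_jq`, `Red_z`, `Red_x`.
-/

set_option autoImplicit false
set_option maxHeartbeats 400000

noncomputable section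

namespace Fermat.Agent.S34.Val

open ModularCurve AlgebraicCurve Fermat.Agent.S24 Fermat.Agent.S18.Content Fermat.Agent.S18.Plan
open Fermat.Agent.S34.Plan

variable (A : ValuationSubring Kbar) (M q : ℕ)
variable (σ : FN (M * q) ≃ₐ[Kbar] FN (M * q))

/-! ## Definitions -/

/-- `F_{Mq} ∩ Ocal`, as a subring of the field `F_{Mq}`. -/
def OF : Subring (FN (M * q)) := (Ocal A).comap (algebraMap (FN (M * q)) Om)

/-- `O2F = {g ∈ F_{Mq} | g ∈ Ocal ∧ σ g ∈ Ocal}`. -/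
def O2F : Subring (FN (M * q)) :=
  OF A M q ⊓ (OF A M q).comap (σ : FN (M * q) →+* FN (M * q))

variable {A M q σ} in
theorem mem_O2F {g : FN (M * q)} :
    g ∈ O2F A M q σ ↔ (g : Om) ∈ Ocal A ∧ ((σ g : FN (M * q)) : Om) ∈ Ocal A := Iff.rfl

/-- First projection `O2F → Ocal`. -/
def fstO : O2F A M q σ →+* Ocal A :=
  ((algebraMap (FN (M * q)) Om).comp (O2F A M q σ).subtype).codRestrict (Ocal A)
    (fun g => g.2.1)

/-- Second projection `O2F → Ocal`, `g ↦ σ g`. -/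
def sndO : O2F A M q σ →+* Ocal A :=
  ((algebraMap (FN (M * q)) Om).comp
    ((σ : FN (M * q) →+* FN (M * q)).comp (O2F A M q σ).subtype)).codRestrict (Ocal A)
    (fun g => g.2.2)

/-- The two-component reduction on `O2F`. -/
def RedF : O2F A M q σ →+* R2 A :=
  ((red A).comp (fstO A M q σ)).prod ((red A).comp (sndO A M q σ))

theorem RedF_apply (g : O2F A M q σ) :
    RedF A M q σ g = (red A ⟨((g : FN (M * q)) : Om), g.2.1⟩,
      red A ⟨((σ (g : FN (M * q)) : FN (M * q)) : Om), g.2.2⟩) := rfl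

/-- `O2` as a subring of `Q̄((T))`. -/
def O2 : Subring Om := (O2F A M q σ).map (algebraMap (FN (M * q)) Om)

variable {A M q σ} in
theorem mem_O2 {g : Om} : g ∈ O2 A M q σ ↔
    ∃ h : g ∈ modularFunctionFieldBar (M * q),
      g ∈ Ocal A ∧ ((σ ⟨g, h⟩ : FN (M * q)) : Om) ∈ Ocal A := by
  constructor
  · rintro ⟨g', hg', rfl⟩
    exact ⟨g'.2, hg'.1, hg'.2⟩
  · rintro ⟨h, h1, h2⟩
    exact ⟨⟨g, h⟩, ⟨h1, h2⟩, rfl⟩

/-- `O2F ≃ O2`. -/
def toO2 : O2F A M q σ ≃+* O2 A M q σ :=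
  (O2F A M q σ).equivMapOfInjective (algebraMap (FN (M * q)) Om)
    (algebraMap (FN (M * q)) Om).injective

theorem coe_toO2 (g : O2F A M q σ) :
    ((toO2 A M q σ g : O2 A M q σ) : Om) = ((g : FN (M * q)) : Om) := rfl

/-- The two-component reduction `Red : O2 → k((T)) × k((T))`. -/
def Red : O2 A M q σ →+* R2 A :=
  (RedF A M q σ).comp ((toO2 A M q σ).symm : O2 A M q σ →+* O2F A M q σ)

theorem Red_toO2 (g : O2F A M q σ) : Red A M q σ (toO2 A M q σ g) = RedF A M q σ g := by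
  show RedF A M q σ ((toO2 A M q σ).symm (toO2 A M q σ g)) = _
  rw [RingEquiv.symm_apply_apply]

theorem coe_mem_O2 {g : FN (M * q)} (hg : g ∈ O2F A M q σ) : (g : Om) ∈ O2 A M q σ :=
  ⟨g, hg, rfl⟩

theorem Red_mk (g : FN (M * q)) (hg : g ∈ O2F A M q σ) (h : (g : Om) ∈ O2 A M q σ) :
    Red A M q σ ⟨(g : Om), h⟩ = RedF A M q σ ⟨g, hg⟩ :=
  Red_toO2 A M q σ ⟨g, hg⟩

theorem exists_eq_toO2 (g : O2 A M q σ) : ∃ g' : O2F A M q σ, toO2 A M q σ g' = g :=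
  (toO2 A M q σ).surjective g

/-! ## Basic fields -/

theorem mem_field (g : O2 A M q σ) : (g : Om) ∈ modularFunctionFieldBar (M * q) := by
  obtain ⟨h, -, -⟩ := mem_O2.mp g.2
  exact h

theorem mem_Ocal (g : O2 A M q σ) : (g : Om) ∈ Ocal A := by
  obtain ⟨-, h, -⟩ := mem_O2.mp g.2
  exact h

theorem sigma_mem_Ocal (g : O2 A M q σ) (h : (g : Om) ∈ modularFunctionFieldBar (M * q)) :
    ((σ ⟨(g : Om), h⟩ : FN (M * q)) : Om) ∈ Ocal A := by
  obtain ⟨_, _, h2⟩ := mem_O2.mp g.2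
  exact h2

theorem fst_eq (g : O2 A M q σ) (h : (g : Om) ∈ Ocal A) :
    (Red A M q σ g).1 = red A ⟨(g : Om), h⟩ := by
  obtain ⟨g', rfl⟩ := exists_eq_toO2 A M q σ g
  rw [Red_toO2]
  rfl

theorem snd_eq (g : O2 A M q σ) (h : (g : Om) ∈ modularFunctionFieldBar (M * q))
    (h2 : ((σ ⟨(g : Om), h⟩ : FN (M * q)) : Om) ∈ Ocal A) :
    (Red A M q σ g).2 = red A ⟨_, h2⟩ := by
  obtain ⟨g', rfl⟩ := exists_eq_toO2 A M q σ g
  rw [Red_toO2]
  rfl

/-- `Red` in terms of its two components. -/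
theorem Red_eq (g : O2 A M q σ) :
    Red A M q σ g = (red A ⟨(g : Om), mem_Ocal A M q σ g⟩,
      red A ⟨_, sigma_mem_Ocal A M q σ g (mem_field A M q σ g)⟩) :=
  Prod.ext (fst_eq A M q σ g _) (snd_eq A M q σ g _ _)

/-- Membership in `O2` from the two integrality conditions, with the value of `Red`. -/
theorem Red_of_mem {g : Om} (h : g ∈ modularFunctionFieldBar (M * q)) (h1 : g ∈ Ocal A)
    (h2 : ((σ ⟨g, h⟩ : FN (M * q)) : Om) ∈ Ocal A) :
    ∃ hg : g ∈ O2 A M q σ, Red A M q σ ⟨g, hg⟩ = (red A ⟨g, h1⟩, red A ⟨_, h2⟩) :=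
  ⟨mem_O2.mpr ⟨h, h1, h2⟩, Red_eq A M q σ ⟨g, mem_O2.mpr ⟨h, h1, h2⟩⟩⟩

theorem coe_algebraMap_FN (n : ℕ) (c : Kbar) :
    ((algebraMap Kbar (FN n) c : FN n) : Om) = HahnSeries.C c := by
  rw [← algebraMap_LS_eq_C]
  rfl

theorem sigma_C (c : Kbar) (h : (HahnSeries.C c : Om) ∈ modularFunctionFieldBar (M * q)) :
    ((σ ⟨(HahnSeries.C c : Om), h⟩ : FN (M * q)) : Om) = HahnSeries.C c := by
  have e : (⟨(HahnSeries.C c : Om), h⟩ : FN (M * q)) = algebraMap Kbar (FN (M * q)) c :=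
    Subtype.ext (coe_algebraMap_FN (M * q) c).symm
  rw [e, AlgEquiv.commutes, coe_algebraMap_FN]

theorem C_mem_field (n : ℕ) (c : Kbar) : (HahnSeries.C c : Om) ∈ modularFunctionFieldBar n := by
  rw [← coe_algebraMap_FN n c]
  exact (algebraMap Kbar (FN n) c).2

theorem C_mem_iff (c : Kbar) : (HahnSeries.C c : Om) ∈ O2 A M q σ ↔ c ∈ A := by
  constructor
  · intro h
    exact (C_mem_Ocal_iff A c).mp (mem_Ocal A M q σ ⟨_, h⟩)
  · intro h
    refine mem_O2.mpr ⟨C_mem_field _ c, C_mem_Ocal A h, ?_⟩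
    rw [sigma_C]
    exact C_mem_Ocal A h

theorem Red_C (a : A) (h : (HahnSeries.C (a : Kbar) : Om) ∈ O2 A M q σ) :
    Red A M q σ ⟨_, h⟩ =
      (HahnSeries.C (IsLocalRing.residue A a), HahnSeries.C (IsLocalRing.residue A a)) := by
  rw [Red_eq]
  refine Prod.ext ?_ ?_
  · exact red_C A a.2
  · show red A ⟨_, _⟩ = _
    rw [red_congr A (sigma_C M q σ (a : Kbar) (C_mem_field _ _)) _ (C_mem_Ocal A a.2)]
    exact red_C A a.2

theorem inv_mem (g : O2 A M q σ) (h1 : (Red A M q σ g).1 ≠ 0) (h2 : (Red A M q σ g).2 ≠ 0) :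
    ((g : Om))⁻¹ ∈ O2 A M q σ := by
  have hF := mem_field A M q σ g
  have hO := mem_Ocal A M q σ g
  have hσ := sigma_mem_Ocal A M q σ g hF
  rw [fst_eq A M q σ g hO] at h1
  rw [snd_eq A M q σ g hF hσ] at h2
  refine mem_O2.mpr ⟨(modularFunctionFieldBar (M * q)).inv_mem hF, inv_mem_Ocal A ⟨_, hO⟩ h1, ?_⟩
  have e : (⟨((g : Om))⁻¹, (modularFunctionFieldBar (M * q)).inv_mem hF⟩ : FN (M * q)) = (⟨(g : Om), hF⟩ : FN (M * q))⁻¹ := rfl
  rw [e, map_inv₀]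
  exact inv_mem_Ocal A ⟨_, hσ⟩ h2

/-! ## The Atkin–Lehner hypotheses on `σ` -/

section AL

variable [NeZero M] [NeZero q]

/-- `σ` exchanges the two degeneracy maps `α` (inclusion of `F_M`) and `β` (`T ↦ T^q`) and is an
involution (`S34/ALInvol.exists_atkinLehner_invol`). -/
structure IsAL (σ : FN (M * q) ≃ₐ[Kbar] FN (M * q)) : Prop where
  alpha : ∀ f : FN M, σ (heckeAlphaBar Kbar M q f) = heckeBetaBar Kbar M q f
  beta : ∀ f : FN M, σ (heckeBetaBar Kbar M q f) = heckeAlphaBar Kbar M q f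
  invol : ∀ x : FN (M * q), σ (σ x) = x

/-- `F_M ⊆ F_{Mq}`. -/
theorem mem_top {f : Om} (hf : f ∈ modularFunctionFieldBar M) :
    f ∈ modularFunctionFieldBar (M * q) := by
  have h := (heckeAlphaBar Kbar M q ⟨f, hf⟩).2
  rwa [coe_heckeAlphaBar] at h

omit [NeZero M] in
/-- `F_M(T^q) ⊆ F_{Mq}`. -/
theorem qExpand_mem_top {f : Om} (hf : f ∈ modularFunctionFieldBar M) :
    qExpand Kbar q f ∈ modularFunctionFieldBar (M * q) :=
  (heckeBetaBar Kbar M q ⟨f, hf⟩).2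

theorem jK_mem_level : (jK : Om) ∈ modularFunctionFieldBar M := by
  have h := (jBar M).2
  rwa [Fermat.Agent.S18.Main.coe_jBar] at h

variable {M q σ}

theorem IsAL.sigma_level (hσ : IsAL M q σ) {f : Om} (hf : f ∈ modularFunctionFieldBar M)
    (hf' : f ∈ modularFunctionFieldBar (M * q)) :
    ((σ ⟨f, hf'⟩ : FN (M * q)) : Om) = qExpand Kbar q f := by
  have e : (⟨f, hf'⟩ : FN (M * q)) = heckeAlphaBar Kbar M q ⟨f, hf⟩ :=
    Subtype.ext (coe_heckeAlphaBar M q ⟨f, hf⟩).symm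
  rw [e, hσ.alpha, coe_heckeBetaBar]

theorem IsAL.sigma_level_beta (hσ : IsAL M q σ) {f : Om} (hf : f ∈ modularFunctionFieldBar M)
    (hf' : qExpand Kbar q f ∈ modularFunctionFieldBar (M * q)) :
    ((σ ⟨qExpand Kbar q f, hf'⟩ : FN (M * q)) : Om) = f := by
  have e : (⟨qExpand Kbar q f, hf'⟩ : FN (M * q)) = heckeBetaBar Kbar M q ⟨f, hf⟩ :=
    Subtype.ext rfl
  rw [e, hσ.beta, coe_heckeAlphaBar]

/-- `σ` preserves `O2F`. -/
theorem IsAL.sigma_mem (hσ : IsAL M q σ) {g : FN (M * q)} (hg : g ∈ O2F A M q σ) :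
    σ g ∈ O2F A M q σ := by
  refine mem_O2F.mpr ⟨hg.2, ?_⟩
  rw [hσ.invol]
  exact hg.1

/-- `RedF (σ g)` is the swap of `RedF g`. -/
theorem IsAL.RedF_sigma (hσ : IsAL M q σ) (g : O2F A M q σ) :
    RedF A M q σ ⟨σ (g : FN (M * q)), hσ.sigma_mem A g.2⟩ = (RedF A M q σ g).swap := by
  rw [RedF_apply, RedF_apply]
  refine Prod.ext rfl ?_
  exact red_congr A (congrArg (fun x : FN (M * q) => (x : Om)) (hσ.invol _)) _ _

/-- **(V5)** elements of `F_M ∩ Ocal` lie in `O2`, with `Red h = (red h, (red h)(T^q))`. -/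
theorem IsAL.Red_level (hσ : IsAL M q σ) {h : Om} (hM : h ∈ modularFunctionFieldBar M)
    (hO : h ∈ Ocal A) :
    ∃ hh : h ∈ O2 A M q σ,
      Red A M q σ ⟨h, hh⟩ = (red A ⟨h, hO⟩, qExpand (kk A) q (red A ⟨h, hO⟩)) := by
  have hq := Fermat.Agent.Lib.KroneckerCong.qExpand_mem_Ocal A q hO
  have h2 : ((σ ⟨h, mem_top M q hM⟩ : FN (M * q)) : Om) ∈ Ocal A := by
    rw [hσ.sigma_level hM]; exact hq
  obtain ⟨hg, e⟩ := Red_of_mem A M q σ (mem_top M q hM) hO h2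
  refine ⟨hg, ?_⟩
  rw [e, red_congr A (hσ.sigma_level hM _) h2 hq]
  exact Prod.ext rfl (Fermat.Agent.Lib.KroneckerCong.red_qExpand A q ⟨h, hO⟩)

/-- **(V5′)** for `h ∈ F_M ∩ Ocal`: `h(T^q) ∈ O2`, with `Red = ((red h)(T^q), red h)`. -/
theorem IsAL.Red_level_beta (hσ : IsAL M q σ) {h : Om} (hM : h ∈ modularFunctionFieldBar M)
    (hO : h ∈ Ocal A) :
    ∃ hh : qExpand Kbar q h ∈ O2 A M q σ,
      Red A M q σ ⟨_, hh⟩ = (qExpand (kk A) q (red A ⟨h, hO⟩), red A ⟨h, hO⟩) := by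
  have hq := Fermat.Agent.Lib.KroneckerCong.qExpand_mem_Ocal A q hO
  have h2 : ((σ ⟨qExpand Kbar q h, qExpand_mem_top M q hM⟩ : FN (M * q)) : Om) ∈ Ocal A := by
    rw [hσ.sigma_level_beta hM]; exact hO
  obtain ⟨hg, e⟩ := Red_of_mem A M q σ (qExpand_mem_top M q hM) hq h2
  refine ⟨hg, ?_⟩
  rw [e, red_congr A (hσ.sigma_level_beta hM _) h2 hO]
  exact Prod.ext (Fermat.Agent.Lib.KroneckerCong.red_qExpand A q ⟨h, hO⟩) rfl

/-- `Red j = (j̄, j̄(T^q))`. -/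
theorem IsAL.Red_j (hσ : IsAL M q σ) :
    ∃ h : (jK : Om) ∈ O2 A M q σ,
      Red A M q σ ⟨_, h⟩ = (jk A, qExpand (kk A) q (jk A)) := by
  obtain ⟨hh, e⟩ := hσ.Red_level A (jK_mem_level M) (Fermat.Agent.S18.Main.jK_mem_Ocal A)
  refine ⟨hh, ?_⟩
  rw [e, Fermat.Agent.S18.Main.red_jK]

/-- `Red j(T^q) = (j̄(T^q), j̄)`. -/
theorem IsAL.Red_jq (hσ : IsAL M q σ) :
    ∃ h : (qExpand Kbar q jK : Om) ∈ O2 A M q σ,
      Red A M q σ ⟨_, h⟩ = (qExpand (kk A) q (jk A), jk A) := by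
  obtain ⟨hh, e⟩ := hσ.Red_level_beta A (jK_mem_level M) (Fermat.Agent.S18.Main.jK_mem_Ocal A)
  refine ⟨hh, ?_⟩
  rw [e, Fermat.Agent.S18.Main.red_jK]

/-- In characteristic `q`: `j̄(T^q) = j̄^q`. -/
theorem qExpand_jk [Fact q.Prime] [CharP (kk A) q] :
    qExpand (kk A) q (jk A) = jk A ^ q := by
  rw [Fermat.Agent.Lib.KroneckerCong.pow_char_eq q, coeffMap_jqModC]

end AL

end Fermat.Agent.S34.Val
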