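import Mathlib
import Fermat.Agent.S18.ContentBase
import Fermat.Agent.Lib.RankOneQbar
import Fermat.Prelude.Def_FLTPrelim_Ramification

/-!
# S34 / P6 — [VAL-ARCH]: one-valuation scaling from joint scaling (owner: helper48)

Generic setting: `K` a field, `A : ValuationSubring K`, `Ocal A ⊂ K((T))` the content ring with
its reduction `red A` (`S18/ContentBase`), `F` an intermediate field of `K((T))/K` and
`σ : F ≃ₐ[K] F`.  (Instance of P6: `K = Q̄`, `F = F_{mq}`, `σ` the Atkin–Lehner involution, so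
that `v₁ = Ocal`, `v₂ = v₁ ∘ σ`.)

Hypotheses:
* `JointScale A F σ` (V1): every `y ≠ 0` of `F` has a constant multiple `c y` with
  `c y, σ (c y) ∈ Ocal` and `red (c y) ≠ 0 ∨ red (σ (c y)) ≠ 0`;
* an element `e` with `red e = 1`, `red (σ e) = 0`, `σ (σ e) = e`;
* `RankOne A`: the value group of `A` is archimedean.

Conclusions:
* `scale₁` (V1'): every `y ≠ 0` of `F` is a constant times a unit of `Ocal`;
* `exists_pow_mul_mem`: for `y ∈ F ∩ Ocal` some `y e^s` has `σ (y e^s) ∈ Ocal`;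
* `redInto` (HB): a property of the reductions of the `g` with `g, σ g ∈ Ocal` holds for the
  reductions of all of `F ∩ Ocal`.
-/

set_option autoImplicit false

noncomputable section

namespace Fermat.Agent.S34.ValArch

open Fermat.Agent.S18.Content

variable {K : Type*} [Field K] (A : ValuationSubring K)

/-! ### Small facts on `Ocal` -/

lemma red_mul_mk {x y : LaurentSeries K} (hx : x ∈ Ocal A) (hy : y ∈ Ocal A)
    (hxy : x * y ∈ Ocal A) :
    red A ⟨x * y, hxy⟩ = red A ⟨x, hx⟩ * red A ⟨y, hy⟩ := by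
  rw [← map_mul]; rfl

/-- If `x * e` is a unit of `Ocal` and `e` is a unit of `Ocal`, then `x` is a unit of `Ocal`. -/
lemma unit_of_mul_unit (x e : LaurentSeries K) (he : e ∈ Ocal A) (he1 : red A ⟨e, he⟩ ≠ 0)
    (h : x * e ∈ Ocal A) (hr : red A ⟨_, h⟩ ≠ 0) :
    ∃ h' : x ∈ Ocal A, red A ⟨x, h'⟩ ≠ 0 := by
  have he0 : e ≠ 0 := ne_zero_of_red_ne_zero A ⟨e, he⟩ he1
  have hinv : e⁻¹ ∈ Ocal A := inv_mem_Ocal A ⟨e, he⟩ he1
  have hx : x = x * e * e⁻¹ := by rw [mul_assoc, mul_inv_cancel₀ he0, mul_one]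
  have h' : x ∈ Ocal A := by rw [hx]; exact (Ocal A).mul_mem h hinv
  refine ⟨h', fun h0 => hr ?_⟩
  rw [red_mul_mk A h' he h, h0, zero_mul]

/-- If `C c * v` is a unit of `Ocal` and `v` is a unit of `Ocal`, then `c` is a unit of `A`. -/
lemma inv_mem_of_C_mul_unit (c : K) (v : Ocal A) (hv : red A v ≠ 0)
    (h : HahnSeries.C c * (v : LaurentSeries K) ∈ Ocal A) (hr : red A ⟨_, h⟩ ≠ 0) :
    c ∈ A ∧ c⁻¹ ∈ A := by
  have hc : c ∈ A := (C_mul_mem_Ocal_iff A c v hv).1 h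
  refine ⟨hc, ?_⟩
  have hnm : (⟨c, hc⟩ : A) ∉ IsLocalRing.maximalIdeal A := fun hm =>
    hr ((red_C_mul_eq_zero_iff A hc v hv h).2 hm)
  have hu : IsUnit (⟨c, hc⟩ : A) := by
    by_contra hnu
    exact hnm ((IsLocalRing.mem_maximalIdeal _).2 hnu)
  obtain ⟨u, hu⟩ := hu
  have h1 : ((u⁻¹ : Aˣ) : A) * (⟨c, hc⟩ : A) = 1 := by rw [← hu]; exact Units.inv_mul u
  have h2 : (((u⁻¹ : Aˣ) : A) : K) * c = 1 := by
    have := congrArg (Subtype.val) h1
    simpa using this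
  have h3 : c⁻¹ = (((u⁻¹ : Aˣ) : A) : K) := by
    have hc0 : c ≠ 0 := fun h0 => by rw [h0, mul_zero] at h2; exact zero_ne_one h2
    field_simp
    rw [mul_comm]; exact h2.symm
  rw [h3]
  exact ((u⁻¹ : Aˣ) : A).2

/-- If `C c * v` lies in `Ocal` with zero reduction and `v` is a unit of `Ocal`, then `c` is a
non-unit of `A`. -/
lemma inv_not_mem_of_C_mul_unit (c : K) (v : Ocal A) (hv : red A v ≠ 0)
    (h : HahnSeries.C c * (v : LaurentSeries K) ∈ Ocal A) (hr : red A ⟨_, h⟩ = 0)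
    (hc0 : c ≠ 0) : c⁻¹ ∉ A := by
  have hc : c ∈ A := (C_mul_mem_Ocal_iff A c v hv).1 h
  have hm : (⟨c, hc⟩ : A) ∈ IsLocalRing.maximalIdeal A :=
    (red_C_mul_eq_zero_iff A hc v hv h).1 hr
  intro hinv
  have hu : IsUnit (⟨c, hc⟩ : A) := by
    refine IsUnit.of_mul_eq_one (⟨c⁻¹, hinv⟩ : A) ?_
    exact Subtype.ext (by simp [hc0])
  exact ((IsLocalRing.mem_maximalIdeal _).1 hm) hu

/-- A product of two elements of `Ocal` equal to a unit constant: the first factor is a unit. -/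
lemma red_ne_zero_of_mul_eq_C {x y : LaurentSeries K} (hx : x ∈ Ocal A) (hy : y ∈ Ocal A)
    {a : K} (h : x * y = HahnSeries.C a) (ha0 : a ≠ 0) (ha : a⁻¹ ∈ A) :
    red A ⟨x, hx⟩ ≠ 0 := by
  intro h0
  have hCa : HahnSeries.C a ∈ Ocal A := h ▸ (Ocal A).mul_mem hx hy
  have haA : a ∈ A := (C_mem_Ocal_iff A a).1 hCa
  have e2 : red A ⟨x * y, (Ocal A).mul_mem hx hy⟩ = red A ⟨HahnSeries.C a, C_mem_Ocal A haA⟩ :=
    red_congr A h _ _
  rw [red_mul_mk A hx hy, h0, zero_mul, red_C A haA] at e2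
  have h3 : IsLocalRing.residue A ⟨a, haA⟩ = 0 :=
    HahnSeries.C_injective (by rw [← e2, map_zero])
  have hm : (⟨a, haA⟩ : A) ∈ IsLocalRing.maximalIdeal A :=
    (IsLocalRing.residue_eq_zero_iff _).1 h3
  have hu : IsUnit (⟨a, haA⟩ : A) := by
    refine IsUnit.of_mul_eq_one (⟨a⁻¹, ha⟩ : A) ?_
    exact Subtype.ext (by simp [ha0])
  exact ((IsLocalRing.mem_maximalIdeal _).1 hm) hu

/-! ### The contracts -/

variable (F : IntermediateField K (LaurentSeries K)) (σ : F ≃ₐ[K] F)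

/-- **(V1)** joint scaling for the pair `(v₁, v₁ ∘ σ)`. -/
def JointScale : Prop :=
  ∀ y : F, y ≠ 0 → ∃ c : K, c ≠ 0 ∧
    ∃ (h₁ : HahnSeries.C c * (y : LaurentSeries K) ∈ Ocal A)
      (h₂ : HahnSeries.C c * ((σ y : F) : LaurentSeries K) ∈ Ocal A),
      red A ⟨_, h₁⟩ ≠ 0 ∨ red A ⟨_, h₂⟩ ≠ 0

/-- The value group of `A` is archimedean. -/
def RankOne : Prop :=
  ∀ a d : K, a ≠ 0 → d ≠ 0 → d⁻¹ ∉ A → ∃ n : ℕ, d ^ n * a⁻¹ ∈ A

/-- **(V1')** one-valuation scaling. -/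
def Scale₁ : Prop :=
  ∀ y : F, y ≠ 0 → ∃ c : K, c ≠ 0 ∧
    ∃ h : HahnSeries.C c * (y : LaurentSeries K) ∈ Ocal A, red A ⟨_, h⟩ ≠ 0

variable {A F σ}

lemma coe_algebraMap_eq (c : K) :
    ((algebraMap K F c : F) : LaurentSeries K) = HahnSeries.C c := by
  rw [← algebraMap_LS_eq_C]; rfl

lemma coe_const_mul (c : K) (y : F) :
    ((algebraMap K F c * y : F) : LaurentSeries K) = HahnSeries.C c * (y : LaurentSeries K) := by
  rw [← coe_algebraMap_eq (F := F) c]; rfl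

lemma sigma_const_mul (c : K) (y : F) :
    σ (algebraMap K F c * y) = algebraMap K F c * σ y := by
  rw [map_mul, AlgEquiv.commutes]

/-- The descent step: induction on the archimedean bound. -/
theorem descend (hJ : JointScale A F σ) (e : F) (he : (e : LaurentSeries K) ∈ Ocal A)
    (he1 : red A ⟨_, he⟩ = 1) (d : K) (hd : d ≠ 0) (u₁ : LaurentSeries K) (hu₁ : u₁ ∈ Ocal A)
    (hu₁r : red A ⟨u₁, hu₁⟩ ≠ 0)
    (hσe : ((σ e : F) : LaurentSeries K) = HahnSeries.C d * u₁) :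
    ∀ (n : ℕ) (g : F) (hg₂ : ((σ g : F) : LaurentSeries K) ∈ Ocal A), red A ⟨_, hg₂⟩ ≠ 0 →
      ∀ (a : K) (g' : LaurentSeries K), g' ∈ Ocal A → (g : LaurentSeries K) ∈ Ocal A →
        (g : LaurentSeries K) * g' = HahnSeries.C a → a ≠ 0 → d ^ n * a⁻¹ ∈ A →
        ∃ c : K, c ≠ 0 ∧
          ∃ h : HahnSeries.C c * (g : LaurentSeries K) ∈ Ocal A, red A ⟨_, h⟩ ≠ 0 := by
  have he1' : red A ⟨(e : LaurentSeries K), he⟩ ≠ 0 := by rw [he1]; exact one_ne_zero
  have he0 : (e : LaurentSeries K) ≠ 0 := ne_zero_of_red_ne_zero A ⟨_, he⟩ he1'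
  have heF : e ≠ 0 := fun h0 => he0 (by rw [h0]; rfl)
  intro n
  induction n with
  | zero =>
    intro g hg₂ _ a g' hg' hg₁ hgg' ha0 han
    rw [pow_zero, one_mul] at han
    have hr := red_ne_zero_of_mul_eq_C A hg₁ hg' hgg' ha0 han
    have hE : HahnSeries.C (1 : K) * (g : LaurentSeries K) = (g : LaurentSeries K) := by
      rw [map_one, one_mul]
    have hm : HahnSeries.C (1 : K) * (g : LaurentSeries K) ∈ Ocal A := by rw [hE]; exact hg₁
    exact ⟨1, one_ne_zero, hm, fun h0 => hr ((red_congr A hE hm hg₁).symm.trans h0)⟩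
  | succ n ih =>
    intro g hg₂ hg₂r a g' hg' hg₁ hgg' ha0 han
    have hg0 : (g : LaurentSeries K) ≠ 0 := by
      intro h0
      rw [h0, zero_mul] at hgg'
      exact ha0 (HahnSeries.C_injective (by rw [← hgg', map_zero]))
    have hgF : g ≠ 0 := fun h0 => hg0 (by rw [h0]; rfl)
    have hge : g * e ≠ 0 := mul_ne_zero hgF heF
    obtain ⟨c₁, hc₁, h₁, h₂, hor⟩ := hJ (g * e) hge
    have hcoe : ((g * e : F) : LaurentSeries K) = (g : LaurentSeries K) * (e : LaurentSeries K) :=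
      rfl
    by_cases hA : red A ⟨_, h₁⟩ ≠ 0
    · -- the first component is already a unit
      have hE : HahnSeries.C c₁ * ((g * e : F) : LaurentSeries K) =
          HahnSeries.C c₁ * (g : LaurentSeries K) * (e : LaurentSeries K) := by
        rw [hcoe, mul_assoc]
      have h₁' : HahnSeries.C c₁ * (g : LaurentSeries K) * (e : LaurentSeries K) ∈ Ocal A := by
        rw [← hE]; exact h₁
      have hr' : red A ⟨_, h₁'⟩ ≠ 0 := fun h0 => hA ((red_congr A hE h₁ h₁').trans h0)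
      obtain ⟨h', hr''⟩ := unit_of_mul_unit A _ _ he he1' h₁' hr'
      exact ⟨c₁, hc₁, h', hr''⟩
    · have hA' : red A ⟨_, h₁⟩ = 0 := not_not.mp hA
      have h₂r : red A ⟨_, h₂⟩ ≠ 0 := hor.resolve_left hA
      -- the `σ`-component: `c₁ d` is a unit of `A`
      have hv : ((σ g : F) : LaurentSeries K) * u₁ ∈ Ocal A := (Ocal A).mul_mem hg₂ hu₁
      have hvr : red A ⟨_, hv⟩ ≠ 0 := by
        rw [red_mul_mk A hg₂ hu₁]; exact mul_ne_zero hg₂r hu₁r
      have hEq : HahnSeries.C c₁ * ((σ (g * e) : F) : LaurentSeries K) =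
          HahnSeries.C (c₁ * d) * (((σ g : F) : LaurentSeries K) * u₁) := by
        have : ((σ (g * e) : F) : LaurentSeries K) =
            ((σ g : F) : LaurentSeries K) * ((σ e : F) : LaurentSeries K) := by
          rw [map_mul]; rfl
        rw [this, hσe, map_mul]; ring
      have h₂' : HahnSeries.C (c₁ * d) * (((σ g : F) : LaurentSeries K) * u₁) ∈ Ocal A := by
        rw [← hEq]; exact h₂
      have h₂r' : red A ⟨_, h₂'⟩ ≠ 0 := fun h0 => h₂r ((red_congr A hEq h₂ h₂').trans h0)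
      obtain ⟨-, hcdinv⟩ := inv_mem_of_C_mul_unit A (c₁ * d) ⟨_, hv⟩ hvr h₂' h₂r'
      -- apply the induction hypothesis to `g₁ = c₁ • (g * e)`
      have hg₁c : ((algebraMap K F c₁ * (g * e) : F) : LaurentSeries K) =
          HahnSeries.C c₁ * ((g * e : F) : LaurentSeries K) := coe_const_mul c₁ (g * e)
      have hσg₁ : ((σ (algebraMap K F c₁ * (g * e)) : F) : LaurentSeries K) =
          HahnSeries.C c₁ * ((σ (g * e) : F) : LaurentSeries K) := by
        rw [sigma_const_mul]; exact coe_const_mul c₁ (σ (g * e))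
      have hm₂ : ((σ (algebraMap K F c₁ * (g * e)) : F) : LaurentSeries K) ∈ Ocal A := by
        rw [hσg₁]; exact h₂
      have hm₂r : red A ⟨_, hm₂⟩ ≠ 0 := fun h0 =>
        h₂r ((red_congr A hσg₁ hm₂ h₂).symm.trans h0)
      have hm₁ : ((algebraMap K F c₁ * (g * e) : F) : LaurentSeries K) ∈ Ocal A := by
        rw [hg₁c]; exact h₁
      have hinv : (e : LaurentSeries K)⁻¹ ∈ Ocal A :=
        inv_mem_Ocal A ⟨(e : LaurentSeries K), he⟩ he1'
      have hprod : ((algebraMap K F c₁ * (g * e) : F) : LaurentSeries K) *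
          (g' * (e : LaurentSeries K)⁻¹) =
          HahnSeries.C (c₁ * a) := by
        rw [hg₁c, hcoe, map_mul, ← hgg']
        have : (e : LaurentSeries K) * (e : LaurentSeries K)⁻¹ = 1 := mul_inv_cancel₀ he0
        calc HahnSeries.C c₁ * ((g : LaurentSeries K) * (e : LaurentSeries K)) *
              (g' * (e : LaurentSeries K)⁻¹)
            = HahnSeries.C c₁ * ((g : LaurentSeries K) * g') *
              ((e : LaurentSeries K) * (e : LaurentSeries K)⁻¹) := by ring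
          _ = HahnSeries.C c₁ * ((g : LaurentSeries K) * g') := by rw [this, mul_one]
      have hbound : d ^ n * (c₁ * a)⁻¹ ∈ A := by
        have : d ^ n * (c₁ * a)⁻¹ = d ^ (n + 1) * a⁻¹ * (c₁ * d)⁻¹ := by
          field_simp
          ring
        rw [this]
        exact A.mul_mem _ _ han hcdinv
      obtain ⟨c₂, hc₂, h, hr⟩ := ih (algebraMap K F c₁ * (g * e)) hm₂ hm₂r (c₁ * a)
        (g' * (e : LaurentSeries K)⁻¹)
        ((Ocal A).mul_mem hg' hinv) hm₁ hprod (mul_ne_zero hc₁ ha0) hbound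
      have hE : HahnSeries.C c₂ * ((algebraMap K F c₁ * (g * e) : F) : LaurentSeries K) =
          HahnSeries.C (c₂ * c₁) * (g : LaurentSeries K) * (e : LaurentSeries K) := by
        rw [hg₁c, hcoe, map_mul]; ring
      have h' : HahnSeries.C (c₂ * c₁) * (g : LaurentSeries K) * (e : LaurentSeries K) ∈ Ocal A := by
        rw [← hE]; exact h
      have hr' : red A ⟨_, h'⟩ ≠ 0 := fun h0 => hr ((red_congr A hE h h').trans h0)
      obtain ⟨h'', hr''⟩ := unit_of_mul_unit A _ _ he he1' h' hr'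
      exact ⟨c₂ * c₁, mul_ne_zero hc₂ hc₁, h'', hr''⟩

/-- `σ e` is a non-unit constant times a unit of `Ocal` (the product `e * σ e` is `σ`-fixed). -/
theorem exists_sigma_e_eq (hJ : JointScale A F σ) (e : F) (he : (e : LaurentSeries K) ∈ Ocal A)
    (he1 : red A ⟨_, he⟩ = 1) (hσe : ((σ e : F) : LaurentSeries K) ∈ Ocal A)
    (hσe0 : red A ⟨_, hσe⟩ = 0) (hσσ : σ (σ e) = e) :
    ∃ d : K, d ≠ 0 ∧ d⁻¹ ∉ A ∧ ∃ (u₁ : LaurentSeries K) (hu₁ : u₁ ∈ Ocal A),
      red A ⟨u₁, hu₁⟩ ≠ 0 ∧ ((σ e : F) : LaurentSeries K) = HahnSeries.C d * u₁ := by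
  have he1' : red A ⟨(e : LaurentSeries K), he⟩ ≠ 0 := by rw [he1]; exact one_ne_zero
  have he0 : (e : LaurentSeries K) ≠ 0 := ne_zero_of_red_ne_zero A ⟨_, he⟩ he1'
  have heF : e ≠ 0 := fun h0 => he0 (by rw [h0]; rfl)
  have hσeF : σ e ≠ 0 := fun h0 => heF ((map_eq_zero_iff σ σ.injective).1 h0)
  have hr0 : e * σ e ≠ 0 := mul_ne_zero heF hσeF
  have hσr : σ (e * σ e) = e * σ e := by rw [map_mul, hσσ, mul_comm]
  obtain ⟨c, hc, h₁, h₂, hor⟩ := hJ (e * σ e) hr0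
  have hcoe : ((e * σ e : F) : LaurentSeries K) =
      (e : LaurentSeries K) * ((σ e : F) : LaurentSeries K) := rfl
  have hEq : HahnSeries.C c * ((σ (e * σ e) : F) : LaurentSeries K) =
      HahnSeries.C c * ((e * σ e : F) : LaurentSeries K) := by rw [hσr]
  have hr : red A ⟨_, h₁⟩ ≠ 0 := by
    rcases hor with h | h
    · exact h
    · exact fun h0 => h ((red_congr A hEq h₂ h₁).trans h0)
  have hinv : (e : LaurentSeries K)⁻¹ ∈ Ocal A :=
    inv_mem_Ocal A ⟨(e : LaurentSeries K), he⟩ he1'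
  have hinvr : red A ⟨_, hinv⟩ ≠ 0 := by
    rw [red_inv A ⟨(e : LaurentSeries K), he⟩ he1']
    exact inv_ne_zero he1'
  have hu₁ : HahnSeries.C c * ((e * σ e : F) : LaurentSeries K) * (e : LaurentSeries K)⁻¹ ∈
      Ocal A := (Ocal A).mul_mem h₁ hinv
  have hu₁r : red A ⟨_, hu₁⟩ ≠ 0 := by
    rw [red_mul_mk A h₁ hinv]; exact mul_ne_zero hr hinvr
  have hCC : (HahnSeries.C c⁻¹ : LaurentSeries K) * HahnSeries.C c = 1 := by
    rw [← map_mul, inv_mul_cancel₀ hc, map_one]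
  have hfac : ((σ e : F) : LaurentSeries K) = HahnSeries.C c⁻¹ *
      (HahnSeries.C c * ((e * σ e : F) : LaurentSeries K) * (e : LaurentSeries K)⁻¹) := by
    rw [hcoe]
    have h1 : (e : LaurentSeries K) * (e : LaurentSeries K)⁻¹ = 1 := mul_inv_cancel₀ he0
    calc ((σ e : F) : LaurentSeries K)
        = (HahnSeries.C c⁻¹ * HahnSeries.C c) * ((σ e : F) : LaurentSeries K) *
          ((e : LaurentSeries K) * (e : LaurentSeries K)⁻¹) := by rw [hCC, h1, one_mul, mul_one]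
      _ = _ := by ring
  refine ⟨c⁻¹, inv_ne_zero hc, ?_, _, hu₁, hu₁r, hfac⟩
  have hmem : HahnSeries.C c⁻¹ *
      (HahnSeries.C c * ((e * σ e : F) : LaurentSeries K) * (e : LaurentSeries K)⁻¹) ∈ Ocal A := by
    rw [← hfac]; exact hσe
  have hred0 : red A ⟨_, hmem⟩ = 0 := (red_congr A hfac hσe hmem).symm.trans hσe0
  exact inv_not_mem_of_C_mul_unit A c⁻¹ ⟨_, hu₁⟩ hu₁r hmem hred0 (inv_ne_zero hc)

/-- **(V1')**: every non-zero element of `F` is a constant times a unit of `Ocal`. -/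
theorem scale₁ (hJ : JointScale A F σ) (hR : RankOne A) (e : F)
    (he : (e : LaurentSeries K) ∈ Ocal A) (he1 : red A ⟨_, he⟩ = 1)
    (hσe : ((σ e : F) : LaurentSeries K) ∈ Ocal A) (hσe0 : red A ⟨_, hσe⟩ = 0)
    (hσσ : σ (σ e) = e) : Scale₁ A F := by
  obtain ⟨d, hd, hdinv, u₁, hu₁, hu₁r, hfac⟩ := exists_sigma_e_eq hJ e he he1 hσe hσe0 hσσ
  intro y hy
  obtain ⟨c₀, hc₀, h₁, h₂, hor⟩ := hJ y hy
  by_cases hA : red A ⟨_, h₁⟩ ≠ 0
  · exact ⟨c₀, hc₀, h₁, hA⟩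
  have h₂r : red A ⟨_, h₂⟩ ≠ 0 := hor.resolve_left hA
  -- `g = c₀ y`
  have hgc : ((algebraMap K F c₀ * y : F) : LaurentSeries K) =
      HahnSeries.C c₀ * (y : LaurentSeries K) := coe_const_mul c₀ y
  have hσgc : ((σ (algebraMap K F c₀ * y) : F) : LaurentSeries K) =
      HahnSeries.C c₀ * ((σ y : F) : LaurentSeries K) := by
    rw [sigma_const_mul]; exact coe_const_mul c₀ (σ y)
  have hg₁ : ((algebraMap K F c₀ * y : F) : LaurentSeries K) ∈ Ocal A := by rw [hgc]; exact h₁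
  have hg₂ : ((σ (algebraMap K F c₀ * y) : F) : LaurentSeries K) ∈ Ocal A := by
    rw [hσgc]; exact h₂
  have hg₂r : red A ⟨_, hg₂⟩ ≠ 0 := fun h0 => h₂r ((red_congr A hσgc hg₂ h₂).symm.trans h0)
  have hc₀F : (algebraMap K F c₀ : F) ≠ 0 := by
    intro h0
    exact hc₀ ((map_eq_zero_iff _ (algebraMap K F).injective).1 h0)
  have hgF : algebraMap K F c₀ * y ≠ 0 := mul_ne_zero hc₀F hy
  have hg0 : ((algebraMap K F c₀ * y : F) : LaurentSeries K) ≠ 0 := fun h0 =>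
    hgF (Subtype.ext h0)
  -- the bound: `g * g' = C a`
  obtain ⟨a, ha, k₁, -, -⟩ := hJ (algebraMap K F c₀ * y)⁻¹ (inv_ne_zero hgF)
  have hcoeinv : (((algebraMap K F c₀ * y)⁻¹ : F) : LaurentSeries K) =
      ((algebraMap K F c₀ * y : F) : LaurentSeries K)⁻¹ := rfl
  have hprod : ((algebraMap K F c₀ * y : F) : LaurentSeries K) *
      (HahnSeries.C a * (((algebraMap K F c₀ * y)⁻¹ : F) : LaurentSeries K)) = HahnSeries.C a := by
    rw [hcoeinv, mul_left_comm, mul_inv_cancel₀ hg0, mul_one]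
  obtain ⟨n, hn⟩ := hR a d ha hd hdinv
  obtain ⟨c, hc, h, hr⟩ := descend hJ e he he1 d hd u₁ hu₁ hu₁r hfac n (algebraMap K F c₀ * y)
    hg₂ hg₂r a _ k₁ hg₁ hprod ha hn
  have hE : HahnSeries.C c * ((algebraMap K F c₀ * y : F) : LaurentSeries K) =
      HahnSeries.C (c * c₀) * (y : LaurentSeries K) := by
    rw [hgc, map_mul, mul_assoc]
  have h' : HahnSeries.C (c * c₀) * (y : LaurentSeries K) ∈ Ocal A := by rw [← hE]; exact h
  exact ⟨c * c₀, mul_ne_zero hc hc₀, h', fun h0 => hr ((red_congr A hE h h').trans h0)⟩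

/-- For `y ∈ F ∩ Ocal` some `y * e ^ s` lies in `Ocal` together with its `σ`-image, and has the
same reduction as `y`. -/
theorem exists_pow_mul_mem (hJ : JointScale A F σ) (hR : RankOne A) (e : F)
    (he : (e : LaurentSeries K) ∈ Ocal A) (he1 : red A ⟨_, he⟩ = 1)
    (hσe : ((σ e : F) : LaurentSeries K) ∈ Ocal A) (hσe0 : red A ⟨_, hσe⟩ = 0)
    (hσσ : σ (σ e) = e) (y : F) (hy : (y : LaurentSeries K) ∈ Ocal A) :
    ∃ (s : ℕ) (h₁ : ((y * e ^ s : F) : LaurentSeries K) ∈ Ocal A),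
      ((σ (y * e ^ s) : F) : LaurentSeries K) ∈ Ocal A ∧ red A ⟨_, h₁⟩ = red A ⟨_, hy⟩ := by
  have hpow : ∀ s : ℕ, ((e ^ s : F) : LaurentSeries K) ∈ Ocal A := fun s => by
    have : ((e ^ s : F) : LaurentSeries K) = (e : LaurentSeries K) ^ s := rfl
    rw [this]; exact (Ocal A).pow_mem he s
  have hpowr : ∀ s : ℕ, red A ⟨_, hpow s⟩ = 1 := fun s => by
    have h1 : (⟨_, hpow s⟩ : Ocal A) = (⟨(e : LaurentSeries K), he⟩ : Ocal A) ^ s :=
      Subtype.ext rfl
    rw [h1, map_pow, he1, one_pow]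
  have hmem : ∀ s : ℕ, ((y * e ^ s : F) : LaurentSeries K) ∈ Ocal A := fun s => by
    have : ((y * e ^ s : F) : LaurentSeries K) =
        (y : LaurentSeries K) * ((e ^ s : F) : LaurentSeries K) := rfl
    rw [this]; exact (Ocal A).mul_mem hy (hpow s)
  have hred : ∀ s : ℕ, red A ⟨_, hmem s⟩ = red A ⟨_, hy⟩ := fun s => by
    have h1 : (⟨_, hmem s⟩ : Ocal A) = (⟨(y : LaurentSeries K), hy⟩ : Ocal A) * ⟨_, hpow s⟩ :=
      Subtype.ext rfl
    rw [h1, map_mul, hpowr, mul_one]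
  by_cases hy0 : y = 0
  · refine ⟨0, hmem 0, ?_, hred 0⟩
    rw [hy0, zero_mul, map_zero]
    exact (Ocal A).zero_mem
  obtain ⟨d, hd, hdinv, u₁, hu₁, hu₁r, hfac⟩ := exists_sigma_e_eq hJ e he he1 hσe hσe0 hσσ
  have hσy : σ y ≠ 0 := fun h0 => hy0 ((map_eq_zero_iff σ σ.injective).1 h0)
  obtain ⟨c, hc, hv, hvr⟩ := scale₁ hJ hR e he he1 hσe hσe0 hσσ (σ y) hσy
  obtain ⟨s, hs⟩ := hR c d hc hd hdinv
  refine ⟨s, hmem s, ?_, hred s⟩
  have hE : ((σ (y * e ^ s) : F) : LaurentSeries K) =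
      HahnSeries.C (d ^ s * c⁻¹) * ((HahnSeries.C c * ((σ y : F) : LaurentSeries K)) * u₁ ^ s) := by
    have h1 : ((σ (y * e ^ s) : F) : LaurentSeries K) =
        ((σ y : F) : LaurentSeries K) * ((σ e : F) : LaurentSeries K) ^ s := by
      rw [map_mul, map_pow]; rfl
    have hCC : (HahnSeries.C c⁻¹ : LaurentSeries K) * HahnSeries.C c = 1 := by
      rw [← map_mul, inv_mul_cancel₀ hc, map_one]
    rw [h1, hfac, mul_pow, map_mul, map_pow]
    calc ((σ y : F) : LaurentSeries K) * ((HahnSeries.C d : LaurentSeries K) ^ s * u₁ ^ s)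
        = (HahnSeries.C c⁻¹ * HahnSeries.C c) *
            (((σ y : F) : LaurentSeries K) * ((HahnSeries.C d : LaurentSeries K) ^ s * u₁ ^ s)) := by
          rw [hCC, one_mul]
      _ = _ := by ring
  rw [hE]
  exact (Ocal A).mul_mem (C_mem_Ocal A hs) ((Ocal A).mul_mem hv ((Ocal A).pow_mem hu₁ s))

/-- **(HB)**: a property of the reductions of the elements `g` of `F` with `g, σ g ∈ Ocal` holds
for the reductions of all elements of `F ∩ Ocal`. -/
theorem redInto (hJ : JointScale A F σ) (hR : RankOne A) (e : F)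
    (he : (e : LaurentSeries K) ∈ Ocal A) (he1 : red A ⟨_, he⟩ = 1)
    (hσe : ((σ e : F) : LaurentSeries K) ∈ Ocal A) (hσe0 : red A ⟨_, hσe⟩ = 0)
    (hσσ : σ (σ e) = e) (P : LaurentSeries (IsLocalRing.ResidueField A) → Prop)
    (hP : ∀ (g : F) (h₁ : (g : LaurentSeries K) ∈ Ocal A),
      ((σ g : F) : LaurentSeries K) ∈ Ocal A → P (red A ⟨_, h₁⟩)) :
    ∀ y : Ocal A, (y : LaurentSeries K) ∈ F → P (red A y) := by
  intro y hy
  obtain ⟨s, h₁, h₂, hr⟩ := exists_pow_mul_mem hJ hR e he he1 hσe hσe0 hσσ ⟨(y : LaurentSeries K), hy⟩ y.2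
  have := hP _ h₁ h₂
  rw [hr] at this
  exact this

/-- (V1') in the spelling of `S34.CharBad.ScaleProp` and of the hypothesis `hscale` of
`S34.Desc.desc_of` (take `F := modularFunctionFieldBar L`). -/
theorem scaleProp_of_scale₁ (h : Scale₁ A F) :
    ∀ y : LaurentSeries K, y ∈ F → y ≠ 0 →
      ∃ c : K, c ≠ 0 ∧ ∃ h : HahnSeries.C c * y ∈ Ocal A, red A ⟨_, h⟩ ≠ 0 :=
  fun y hy hy0 => h ⟨y, hy⟩ (fun h0 => hy0 (congrArg Subtype.val h0))

/-- (V1') for the second valuation `v₁ ∘ σ`. -/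
theorem scale₂_of_scale₁ (h : Scale₁ A F) :
    ∀ y : F, y ≠ 0 → ∃ c : K, c ≠ 0 ∧
      ∃ h : HahnSeries.C c * ((σ y : F) : LaurentSeries K) ∈ Ocal A, red A ⟨_, h⟩ ≠ 0 :=
  fun y hy => h (σ y) (fun h0 => hy ((map_eq_zero_iff σ σ.injective).1 h0))

/-! ### Rank one for valuation subrings of `Q̄` -/

/-- Valuation subrings of algebraic extensions of `ℚ` over a prime are of rank one. -/
theorem rankOne_of_nonunit {L : Type*} [Field L] [CharZero L] [Algebra.IsAlgebraic ℤ L]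
    (B : ValuationSubring L) (ℓ : ℕ) [Fact ℓ.Prime] (hℓ : (ℓ : L) ∈ B.nonunits) : RankOne B := by
  intro a d ha hd hdinv
  by_contra hcon
  push Not at hcon
  apply hdinv
  refine Fermat.Agent.Lib.RankOneQbar.mem_of_forall_mul_pow_mem B ℓ hℓ d⁻¹ a ha (fun n => ?_)
  rcases B.mem_or_inv_mem (d ^ n * a⁻¹) with h | h
  · exact absurd h (hcon n)
  · have : a * d⁻¹ ^ n = (d ^ n * a⁻¹)⁻¹ := by
      rw [mul_inv, inv_inv, inv_pow, mul_comm]
    rw [this]; exact h

/-- Rank one for the valuation subrings of `Q̄` over a prime `q` (the setting of P6). -/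
theorem rankOne_algClosure (B : ValuationSubring (AlgebraicClosure ℚ)) (q : ℕ) [Fact q.Prime]
    (hB : B.LiesOverPrime q) : RankOne B :=
  @rankOne_of_nonunit _ _ _ Fermat.Agent.Lib.RankOneQbar.isAlgebraic_int_algebraicClosure_rat
    B q _ hB

end Fermat.Agent.S34.ValArch

end
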