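/-
P6 / (9) (helper81): generic transfer of the property `(Dim)` along an orthonormal family.

`(Dim)` for a subring `O` of a `K`-algebra with a reduction `red : O → R` (relative to a valuation
subring `A` of `K` with residue map `π : A → k`): every finite-dimensional `K`-subspace has a
`K`-spanning family in `O` whose reductions are `k`-linearly independent.

* `exists_orthonormal_of_le_span` : if `u : J → O'` (`J` finite) has `k`-independent reductions,
  then every `K`-subspace `W` of the `K`-span of `u` has a spanning family in `O'` with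
  `k`-independent reductions (echelon form over the valuation ring `A`,
  `Lib.EchelonLattice.exists_family_echelon`).
* `dim_transfer` : fields `K ⊆ F ⊆ F'`; `O ⊆ F` with `red : O → κ`, `O' ⊆ F'` a subring containing
  `O` with `red' : O' → R'` extending `red` (`R'` a `κ`-algebra), and `w : ι → O'` spanning `F'`
  over `F` with `κ`-independent reductions.  Then `(Dim)` for `(F, O, red)` implies `(Dim)` for
  `(F', O', red')`.
-/
import Mathlib
import Fermat.Agent.Lib.EchelonLattice

set_option autoImplicit false

namespace Fermat.Agent.S34.DimTransfer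

open Fermat.Agent.Lib

section Core

variable {K F' k R' J : Type*} [Field K] [Field F'] [Algebra K F'] [Field k] [CommRing R']
  [Algebra k R'] [Fintype J]
  (A : ValuationSubring K) (π : A →+* k) (O' : Subring F') (red' : O' →+* R')

omit [Field k] [CommRing R'] [Algebra k R'] in
/-- `A`-combinations of elements of `O'` lie in `O'`. -/
theorem sum_smul_mem (hA : ∀ a : A, algebraMap K F' (a : K) ∈ O') (u : J → O') (a : J → A) :
    ∑ j, ((a j : A) : K) • ((u j : O') : F') ∈ O' := by
  refine O'.sum_mem fun j _ => ?_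
  rw [Algebra.smul_def]
  exact O'.mul_mem (hA (a j)) (u j).2

/-- The reduction of an `A`-combination. -/
theorem red'_sum_smul (hA : ∀ a : A, algebraMap K F' (a : K) ∈ O')
    (hredA : ∀ a : A, red' ⟨_, hA a⟩ = algebraMap k R' (π a))
    (u : J → O') (a : J → A) :
    red' ⟨_, sum_smul_mem A O' hA u a⟩ = ∑ j, π (a j) • red' (u j) := by
  have e : (⟨_, sum_smul_mem A O' hA u a⟩ : O') = ∑ j, ⟨_, hA (a j)⟩ * u j := by
    apply Subtype.ext
    rw [AddSubmonoidClass.coe_finsetSum]
    exact Finset.sum_congr rfl fun j _ => by rw [MulMemClass.coe_mul, Algebra.smul_def]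
  rw [e, map_sum]
  exact Finset.sum_congr rfl fun j _ => by rw [map_mul, hredA, Algebra.smul_def]

/-- **Echelon form.** If `u : J → O'` has `k`-independent reductions, every `K`-subspace of the
`K`-span of `u` has a spanning family in `O'` with `k`-independent reductions. -/
theorem exists_orthonormal_of_le_span (hA : ∀ a : A, algebraMap K F' (a : K) ∈ O')
    (hπs : Function.Surjective π)
    (hπ : ∀ a : A, π a = 0 ↔ ¬ IsUnit a)
    (hredA : ∀ a : A, red' ⟨_, hA a⟩ = algebraMap k R' (π a))
    (u : J → O') (hu : LinearIndependent k (fun j => red' (u j)))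
    (W : Submodule K F')
    (hW : W ≤ Submodule.span K (Set.range fun j => ((u j : O') : F'))) :
    ∃ (r : ℕ) (b : Fin r → O'),
      Submodule.span K (Set.range fun i => ((b i : O') : F')) = W ∧
        LinearIndependent k (fun i => red' (b i)) := by
  classical
  -- the parametrisation `Ψ : K^J → F'`
  let Ψ : (J → K) →ₗ[K] F' := Fintype.linearCombination K (fun j => ((u j : O') : F'))
  have hΨ : ∀ γ : J → K, Ψ γ = ∑ j, γ j • ((u j : O') : F') := fun γ =>
    Fintype.linearCombination_apply K _ γ
  -- primitive multiples in `K^J`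
  have hprim : ∀ y : J → K, y ≠ 0 →
      ∃ c : K, (∀ n, c * (LinearMap.id : (J → K) →ₗ[K] (J → K)) y n ∈ A) ∧
        ∃ n, A.valuation (c * (LinearMap.id : (J → K) →ₗ[K] (J → K)) y n) = 1 := by
    intro y hy
    obtain ⟨j₀, hj₀⟩ : ∃ j, y j ≠ 0 := by
      by_contra hcon
      push Not at hcon
      exact hy (funext hcon)
    obtain ⟨j, -, hj⟩ := Finset.exists_max_image Finset.univ (fun i => A.valuation (y i))
      ⟨j₀, Finset.mem_univ _⟩
    have hj0 : y j ≠ 0 := by
      intro h
      have h1 := hj j₀ (Finset.mem_univ _)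
      rw [h, map_zero] at h1
      exact hj₀ ((map_eq_zero _).mp (le_antisymm h1 zero_le))
    have hv0 : A.valuation (y j) ≠ 0 := (Valuation.ne_zero_iff _).2 hj0
    refine ⟨(y j)⁻¹, fun n => ?_, j, ?_⟩
    · rw [LinearMap.id_apply, ← A.valuation_le_one_iff, map_mul, map_inv₀,
        inv_mul_le_iff₀ (zero_lt_iff.2 hv0), mul_one]
      exact hj n (Finset.mem_univ _)
    · rw [LinearMap.id_apply, inv_mul_cancel₀ hj0, map_one]
  obtain ⟨r, bt, hbW, -, hbA, hbrep, hbind⟩ :=
    EchelonLattice.exists_family_echelon A (LinearMap.id : (J → K) →ₗ[K] (J → K)) hprim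
      (W.comap Ψ)
  simp only [LinearMap.id_apply] at hbA hbrep hbind
  -- the family `b i = Ψ (bt i)`
  let at' : Fin r → J → A := fun i j => ⟨bt i j, hbA i j⟩
  let b : Fin r → O' := fun i => ⟨_, sum_smul_mem A O' hA u (at' i)⟩
  have hbΨ : ∀ i, ((b i : O') : F') = Ψ (bt i) := fun i => (hΨ (bt i)).symm
  refine ⟨r, b, le_antisymm ?_ ?_, ?_⟩
  · rw [Submodule.span_le]
    rintro _ ⟨i, rfl⟩
    show ((b i : O') : F') ∈ W
    rw [hbΨ]
    exact hbW i
  · intro y hy
    obtain ⟨γ, hγ⟩ := (Submodule.mem_span_range_iff_exists_fun K).1 (hW hy)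
    have hγy : Ψ γ = y := by rw [hΨ]; exact hγ
    have hγW : γ ∈ W.comap Ψ := by
      rw [Submodule.mem_comap, hγy]
      exact hy
    -- `γ` is a `K`-combination of the `bt i`
    have hγspan : ∃ a : Fin r → K, γ = ∑ i, a i • bt i := by
      by_cases h0 : γ = 0
      · exact ⟨0, by simp [h0]⟩
      · obtain ⟨c, hcA, n₀, hn₀⟩ := hprim γ h0
        simp only [LinearMap.id_apply] at hcA hn₀
        have hc0 : c ≠ 0 := by
          intro h
          rw [h, zero_mul, map_zero] at hn₀
          exact zero_ne_one hn₀
        obtain ⟨a, -, ha⟩ := hbrep (c • γ) ((W.comap Ψ).smul_mem c hγW) (fun n => hcA n)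
        refine ⟨fun i => c⁻¹ * a i, ?_⟩
        have h1 : γ = c⁻¹ • (c • γ) := by rw [smul_smul, inv_mul_cancel₀ hc0, one_smul]
        rw [h1, ha, Finset.smul_sum]
        exact Finset.sum_congr rfl fun i _ => by rw [smul_smul]
    obtain ⟨a, ha⟩ := hγspan
    rw [← hγy, ha, map_sum]
    refine Submodule.sum_mem _ fun i _ => ?_
    rw [map_smul, ← hbΨ]
    exact Submodule.smul_mem _ _ (Submodule.subset_span ⟨i, rfl⟩)
  · rw [Fintype.linearIndependent_iff]
    intro lam hlam
    choose a ha using fun i => hπs (lam i)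
    -- expand in the reductions of `u`
    have h1 : ∀ i, red' (b i) = ∑ j, π (at' i j) • red' (u j) := fun i =>
      red'_sum_smul A π O' red' hA hredA u (at' i)
    have h2 : ∑ j, π (∑ i, a i * at' i j) • red' (u j) = 0 := by
      rw [← hlam]
      simp only [h1, map_sum, map_mul, Finset.sum_smul, Finset.smul_sum, ha]
      rw [Finset.sum_comm]
      exact Finset.sum_congr rfl fun i _ => Finset.sum_congr rfl fun j _ => by
        rw [smul_smul]
    have h3 := Fintype.linearIndependent_iff.mp hu _ h2
    have h4 : ∀ n, A.valuation (∑ i, ((a i : A) : K) * bt i n) < 1 := by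
      intro n
      have h5 := (hπ _).mp (h3 n)
      have h6 : (∑ i, a i * at' i n : A) ∈ IsLocalRing.maximalIdeal A := h5
      rw [A.valuation_lt_one_iff] at h6
      have h7 : (((∑ i, a i * at' i n : A) : A) : K) = ∑ i, ((a i : A) : K) * bt i n := by
        push_cast
        rfl
      rw [← h7]
      exact h6
    have h8 := hbind (fun i => ((a i : A) : K)) (fun i => (a i).2) h4
    intro i
    rw [← ha i, hπ]
    have h9 : a i ∈ IsLocalRing.maximalIdeal A := (A.valuation_lt_one_iff (a i)).mpr (h8 i)
    exact h9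

end Core

section Transfer

variable {K F F' k κ R' ι : Type*} [Field K] [Field F] [Field F'] [Algebra K F] [Algebra F F']
  [Algebra K F'] [IsScalarTower K F F'] [Field k] [Field κ] [CommRing R'] [Algebra k κ]
  [Algebra κ R'] [Algebra k R'] [IsScalarTower k κ R']

/-- **(Dim) transfer.** -/
theorem dim_transfer (A : ValuationSubring K) (π : A →+* k) (hπs : Function.Surjective π)
    (hπ : ∀ a : A, π a = 0 ↔ ¬ IsUnit a)
    (O : ValuationSubring F) (red : O →+* κ)
    (hAO : ∀ a : A, algebraMap K F (a : K) ∈ O)
    (hredA : ∀ a : A, red ⟨_, hAO a⟩ = algebraMap k κ (π a))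
    (O' : Subring F') (red' : O' →+* R')
    (hOO' : ∀ x : O, algebraMap F F' (x : F) ∈ O')
    (hcompat : ∀ x : O, red' ⟨_, hOO' x⟩ = algebraMap κ R' (red x))
    [Fintype ι] (w : ι → O') (hw : LinearIndependent κ (fun i => red' (w i)))
    (hspan : Submodule.span F (Set.range fun i => ((w i : O') : F')) = ⊤)
    (hDim : ∀ W : Submodule K F, Module.Finite K W →
      ∃ (r : ℕ) (b : Fin r → O), Submodule.span K (Set.range fun i => ((b i : O) : F)) = W ∧
        LinearIndependent k (fun i => red (b i))) :
    ∀ W' : Submodule K F', Module.Finite K W' →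
      ∃ (r : ℕ) (b : Fin r → O'), Submodule.span K (Set.range fun i => ((b i : O') : F')) = W' ∧
        LinearIndependent k (fun i => red' (b i)) := by
  classical
  intro W' hfin
  -- constants of `A` in `O'`
  have hA' : ∀ a : A, algebraMap K F' (a : K) ∈ O' := by
    intro a
    rw [IsScalarTower.algebraMap_apply K F F']
    exact hOO' ⟨_, hAO a⟩
  have hredA' : ∀ a : A, red' ⟨_, hA' a⟩ = algebraMap k R' (π a) := by
    intro a
    have e : (⟨_, hA' a⟩ : O') = ⟨_, hOO' ⟨_, hAO a⟩⟩ :=
      Subtype.ext (IsScalarTower.algebraMap_apply K F F' _)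
    rw [e, hcompat, hredA, ← IsScalarTower.algebraMap_apply]
  -- a finite spanning set of `W'` and its coordinates in `w`
  obtain ⟨s, hs⟩ : W'.FG := (Submodule.fg_top W').mp (Module.finite_def.mp hfin)
  have hcoord : ∀ g : F', ∃ c : ι → F, ∑ i, c i • ((w i : O') : F') = g := by
    intro g
    have hg : g ∈ Submodule.span F (Set.range fun i => ((w i : O') : F')) := by
      rw [hspan]; exact Submodule.mem_top
    exact (Submodule.mem_span_range_iff_exists_fun F).1 hg
  choose c hc using hcoord
  -- the space of coordinates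
  let V : Submodule K F := Submodule.span K
    ((s.product (Finset.univ : Finset ι)).image fun p => c p.1 p.2 : Finset F)
  have hVfin : Module.Finite K V := Module.Finite.span_finset K _
  have hcV : ∀ g ∈ s, ∀ i, c g i ∈ V := by
    intro g hg i
    refine Submodule.subset_span ?_
    rw [Finset.coe_image]
    exact ⟨(g, i), by simp [hg], rfl⟩
  obtain ⟨m, v, hvspan, hvli⟩ := hDim V hVfin
  -- the orthonormal family `u (i, l) = v l * w i`
  let u : ι × Fin m → O' := fun p => ⟨_, hOO' (v p.2)⟩ * w p.1
  have hu_coe : ∀ p : ι × Fin m, ((u p : O') : F') = ((v p.2 : O) : F) • ((w p.1 : O') : F') := by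
    intro p
    rw [Algebra.smul_def]
    rfl
  have hu_red : ∀ p : ι × Fin m, red' (u p) = red (v p.2) • red' (w p.1) := by
    intro p
    rw [Algebra.smul_def, ← hcompat]
    exact map_mul red' _ _
  have hu : LinearIndependent k (fun p => red' (u p)) := by
    rw [Fintype.linearIndependent_iff]
    intro lam hlam
    have h1 : ∑ i, (∑ l, lam (i, l) • red (v l)) • red' (w i) = 0 := by
      rw [← hlam, Fintype.sum_prod_type]
      refine Finset.sum_congr rfl fun i _ => ?_
      rw [Finset.sum_smul]
      exact Finset.sum_congr rfl fun l _ => by rw [hu_red, smul_assoc]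
    have h2 := Fintype.linearIndependent_iff.mp hw _ h1
    rintro ⟨i, l⟩
    exact Fintype.linearIndependent_iff.mp hvli (fun l => lam (i, l)) (h2 i) l
  -- `W'` lies in the span of `u`
  have hW : W' ≤ Submodule.span K (Set.range fun p => ((u p : O') : F')) := by
    rw [← hs, Submodule.span_le]
    intro g hg
    rw [SetLike.mem_coe, ← hc g]
    refine Submodule.sum_mem _ fun i _ => ?_
    have hci : c g i ∈ Submodule.span K (Set.range fun l => ((v l : O) : F)) := by
      rw [hvspan]; exact hcV g hg i
    obtain ⟨γ, hγ⟩ := (Submodule.mem_span_range_iff_exists_fun K).1 hci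
    rw [← hγ, Finset.sum_smul]
    refine Submodule.sum_mem _ fun l _ => ?_
    rw [smul_assoc]
    refine Submodule.smul_mem _ _ (Submodule.subset_span ⟨(i, l), ?_⟩)
    exact hu_coe (i, l)
  exact exists_orthonormal_of_le_span A π O' red' hA' hπs hπ hredA' u hu W' hW

end Transfer

end Fermat.Agent.S34.DimTransfer
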