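import Mathlib
import Fermat.Agent.S34.Plan
import Fermat.Agent.S34.DimTransfer

/-!
# S34 / P6 — the fields `dim`, `scale`, `range` of `Plan.Setup2` (helper81)

Hypothesis form over an abstract two-component reduction `(O, ρ)` and a family `w : Fin d → O`:

* `hRed`  : `S18.Plan.RedStmt A M` at the good level `M` (clauses (a), (b), (d) are used);
* `hV5`   : for `h ∈ F_M ∩ Ocal`: `h ∈ O` and `ρ h = (red h, (red h)(T^q))`   ([VAL] (V5));
* `hspan` : `w` spans `F_{Mq}` over `F_M`;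
* `hind`  : the reductions `ρ (w i)` are independent over `κ = F_{M,k}` for the `κ`-structure
  `a ↦ (a, a(T^q))` on `k((T)) × k((T))` (spelled without any `Algebra` instance);
* for `range`: `hfield` (`O ⊆ F_{Mq}`), `hwr` (`ρ (w i) ∈ κ × κ`) and `hΦ` (`κ(T^q) ⊆ κ`).

The conclusions `dim_of`, `scale_of`, `range_of` are the three fields of `Plan.Setup2` verbatim;
`coeff_mem_of` is the integrality of the coordinates of the elements of `O` in the family `w`.
-/

set_option autoImplicit false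

noncomputable section

namespace Fermat.Agent.S34.ValDSR

open ModularCurve AlgebraicCurve Fermat.Agent.S24 Fermat.Agent.S18.Content Fermat.Agent.S18.Plan
open Fermat.Agent.S34.Plan

variable (A : ValuationSubring Kbar) (M q : ℕ) [NeZero q] (O : Subring Om) (ρ : O →+* R2 A)

/-- `T ↦ T^q` is `k`-linear. -/
theorem qExpand_smul (c : kk A) (x : Omk A) :
    qExpand (kk A) q (c • x) = c • qExpand (kk A) q x := by
  rw [← HahnSeries.C_mul_eq_smul, ← HahnSeries.C_mul_eq_smul, map_mul, qExpand_C]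

/-- `F_n` is stable under scalar multiplication. -/
theorem smul_mem_bar (n : ℕ) (c : Kbar) {x : Om} (hx : x ∈ modularFunctionFieldBar n) :
    c • x ∈ modularFunctionFieldBar n := by
  rw [← HahnSeries.C_mul_eq_smul, ← algebraMap_LS_eq_C]
  exact mul_mem ((modularFunctionFieldBar n).algebraMap_mem c) hx

/-- `F_{n,k}` is stable under scalar multiplication. -/
theorem smul_mem_Fk (n : ℕ) (c : kk A) {x : Omk A} (hx : x ∈ Fk A n) : c • x ∈ Fk A n := by
  rw [← HahnSeries.C_mul_eq_smul, ← algebraMap_LS_eq_C]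
  exact mul_mem ((Fk A n).algebraMap_mem c) hx

/-- Scalars pass through products in `k((T)) × k((T))`. -/
theorem smul_mul_R2 (c : kk A) (x y : R2 A) : (c • x) * y = c • (x * y) := by
  refine Prod.ext ?_ ?_
  · show c • x.1 * y.1 = c • (x.1 * y.1)
    rw [← HahnSeries.C_mul_eq_smul, ← HahnSeries.C_mul_eq_smul, mul_assoc]
  · show c • x.2 * y.2 = c • (x.2 * y.2)
    rw [← HahnSeries.C_mul_eq_smul, ← HahnSeries.C_mul_eq_smul, mul_assoc]

/-- The coefficientwise `k`-algebra structure on `k((T)) × k((T))`. -/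
abbrev algR2 : Algebra (kk A) (R2 A) :=
  @Prod.algebra (kk A) (Omk A) (Omk A) _ _ HahnSeries.instAlgebra _ HahnSeries.instAlgebra

variable {A M q O ρ}

section Const

variable (hV5 : ∀ h : Om, h ∈ modularFunctionFieldBar M → ∀ hO : h ∈ Ocal A,
    ∃ hh : h ∈ O, ρ ⟨h, hh⟩ = (red A ⟨h, hO⟩, qExpand (kk A) q (red A ⟨h, hO⟩)))

include hV5

/-- Constants of `A` lie in `O`. -/
theorem C_mem_of (a : A) : (HahnSeries.C (a : Kbar) : Om) ∈ O := by
  have h1 : (HahnSeries.C (a : Kbar) : Om) ∈ modularFunctionFieldBar M := by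
    rw [← algebraMap_LS_eq_C]
    exact (modularFunctionFieldBar M).algebraMap_mem _
  obtain ⟨hh, -⟩ := hV5 _ h1 (C_mem_Ocal A a.2)
  exact hh

/-- The reduction of a constant. -/
theorem ρ_C_of (a : A) (h : (HahnSeries.C (a : Kbar) : Om) ∈ O) :
    ρ ⟨_, h⟩ = (HahnSeries.C (IsLocalRing.residue A a), HahnSeries.C (IsLocalRing.residue A a)) := by
  have h1 : (HahnSeries.C (a : Kbar) : Om) ∈ modularFunctionFieldBar M := by
    rw [← algebraMap_LS_eq_C]
    exact (modularFunctionFieldBar M).algebraMap_mem _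
  obtain ⟨hh, e⟩ := hV5 _ h1 (C_mem_Ocal A a.2)
  rw [e, red_C A a.2, qExpand_C]

end Const

section Main

variable {d : ℕ} (w : Fin d → O)
  (hRed : RedStmt A M)
  (hV5 : ∀ h : Om, h ∈ modularFunctionFieldBar M → ∀ hO : h ∈ Ocal A,
    ∃ hh : h ∈ O, ρ ⟨h, hh⟩ = (red A ⟨h, hO⟩, qExpand (kk A) q (red A ⟨h, hO⟩)))
  (hspan : ∀ g : Om, g ∈ modularFunctionFieldBar (M * q) →
    ∃ c : Fin d → Om, (∀ i, c i ∈ modularFunctionFieldBar M) ∧ g = ∑ i, c i * (w i : Om))
  (hind : ∀ a : Fin d → Omk A, (∀ i, a i ∈ Fk A M) →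
    ∑ i, (a i, qExpand (kk A) q (a i)) * ρ (w i) = 0 → ∀ i, a i = 0)

include hRed hV5 hspan hind

/-- **`Setup2.dim`**: every finite-dimensional `Q̄`-subspace of `F_{Mq}` has a spanning family in
`O` whose reductions are `k`-linearly independent. -/
theorem dim_of :
    ∀ W : Submodule Kbar Om, (∀ w ∈ W, w ∈ modularFunctionFieldBar (M * q)) →
      Module.Finite Kbar W →
        ∃ (r : ℕ) (b : Fin r → O), Submodule.span Kbar (Set.range fun i => (b i : Om)) = W ∧
          LinearIndependent (kk A) (fun i => ρ (b i)) := by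
  classical
  intro W hWF hfin
  obtain ⟨-, hredM, -, hDimM, -⟩ := hRed
  -- a finite spanning set of `W` and its coordinates in `w`
  obtain ⟨s, hs⟩ : W.FG := (Submodule.fg_top W).mp (Module.finite_def.mp hfin)
  have hcoord : ∀ g : Om, ∃ c : Fin d → Om, g ∈ modularFunctionFieldBar (M * q) →
      (∀ i, c i ∈ modularFunctionFieldBar M) ∧ g = ∑ i, c i * (w i : Om) := by
    intro g
    by_cases hg : g ∈ modularFunctionFieldBar (M * q)
    · obtain ⟨c, hc⟩ := hspan g hg
      exact ⟨c, fun _ => hc⟩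
    · exact ⟨fun _ => 0, fun h => absurd h hg⟩
  choose c hc using hcoord
  have hsW : ∀ g ∈ s, g ∈ modularFunctionFieldBar (M * q) := fun g hg =>
    hWF g (by rw [← hs]; exact Submodule.subset_span hg)
  -- the space of coordinates
  let V : Submodule Kbar Om := Submodule.span Kbar
    ((s.product (Finset.univ : Finset (Fin d))).image fun p => c p.1 p.2 : Finset Om)
  have hVfin : Module.Finite Kbar V := Module.Finite.span_finset Kbar _
  have hcV : ∀ g ∈ s, ∀ i, c g i ∈ V := by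
    intro g hg i
    refine Submodule.subset_span ?_
    rw [Finset.coe_image]
    exact ⟨(g, i), by simp [hg], rfl⟩
  have hVM : ∀ v ∈ V, v ∈ modularFunctionFieldBar M := by
    intro v hv
    refine Submodule.span_induction (p := fun x _ => x ∈ modularFunctionFieldBar M)
      ?_ (zero_mem _) (fun x y _ _ hx hy => add_mem hx hy)
      (fun a x _ hx => smul_mem_bar M a hx) hv
    intro x hx
    rw [Finset.coe_image] at hx
    obtain ⟨p, hp, rfl⟩ := hx
    have hp1 : p.1 ∈ s := (Finset.mem_product.mp (Finset.mem_coe.mp hp)).1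
    exact (hc p.1 (hsW p.1 hp1)).1 p.2
  obtain ⟨m, v, hvspan, hvli⟩ := hDimM V hVM hVfin
  have hvM : ∀ l, ((v l : Ocal A) : Om) ∈ modularFunctionFieldBar M := fun l =>
    hVM _ (by rw [← hvspan]; exact Submodule.subset_span ⟨l, rfl⟩)
  have hvO : ∀ l, ∃ hh : ((v l : Ocal A) : Om) ∈ O,
      ρ ⟨_, hh⟩ = (red A (v l), qExpand (kk A) q (red A (v l))) := fun l =>
    hV5 _ (hvM l) (v l).2
  choose hvO' hvρ using hvO
  -- the orthonormal family `u (i, l) = v l * w i`
  let u : Fin d × Fin m → O := fun p => ⟨_, hvO' p.2⟩ * w p.1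
  have hu_coe : ∀ p : Fin d × Fin m, ((u p : O) : Om) = ((v p.2 : Ocal A) : Om) * (w p.1 : Om) :=
    fun p => rfl
  have hu_red : ∀ p : Fin d × Fin m,
      ρ (u p) = (red A (v p.2), qExpand (kk A) q (red A (v p.2))) * ρ (w p.1) := by
    intro p
    show ρ (⟨_, hvO' p.2⟩ * w p.1) = _
    rw [map_mul, hvρ]
  have hu : LinearIndependent (kk A) (fun p => ρ (u p)) := by
    rw [Fintype.linearIndependent_iff]
    intro lam hlam
    have ha : ∀ i, (∑ l, lam (i, l) • red A (v l)) ∈ Fk A M := fun i =>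
      sum_mem fun l _ => smul_mem_Fk A M _ (hredM (v l) (hvM l))
    have h1 : ∑ i, ((∑ l, lam (i, l) • red A (v l)),
        qExpand (kk A) q (∑ l, lam (i, l) • red A (v l))) * ρ (w i) = 0 := by
      rw [← hlam, Fintype.sum_prod_type]
      refine Finset.sum_congr rfl fun i _ => ?_
      have e : ((∑ l, lam (i, l) • red A (v l)),
          qExpand (kk A) q (∑ l, lam (i, l) • red A (v l))) =
          ∑ l, lam (i, l) • ((red A (v l), qExpand (kk A) q (red A (v l))) : R2 A) := by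
        refine Prod.ext ?_ ?_
        · rw [Prod.fst_sum]
          rfl
        · rw [Prod.snd_sum]
          show qExpand (kk A) q (∑ l, lam (i, l) • red A (v l)) =
            ∑ l, lam (i, l) • qExpand (kk A) q (red A (v l))
          rw [map_sum]
          exact Finset.sum_congr rfl fun l _ => qExpand_smul A q _ _
      rw [e, Finset.sum_mul]
      refine Finset.sum_congr rfl fun l _ => ?_
      rw [hu_red (i, l), smul_mul_R2]
    have h2 := hind _ ha h1
    rintro ⟨i, l⟩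
    exact Fintype.linearIndependent_iff.mp hvli (fun l => lam (i, l)) (h2 i) l
  -- `W` lies in the span of `u`
  have hW : W ≤ Submodule.span Kbar (Set.range fun p => ((u p : O) : Om)) := by
    rw [← hs, Submodule.span_le]
    intro g hg
    rw [SetLike.mem_coe, (hc g (hsW g hg)).2]
    refine Submodule.sum_mem _ fun i _ => ?_
    have hci : c g i ∈ Submodule.span Kbar (Set.range fun l => ((v l : Ocal A) : Om)) := by
      rw [hvspan]; exact hcV g hg i
    obtain ⟨γ, hγ⟩ := (Submodule.mem_span_range_iff_exists_fun Kbar).1 hci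
    rw [← hγ, Finset.sum_mul]
    refine Submodule.sum_mem _ fun l _ => ?_
    have e3 : γ l • ((v l : Ocal A) : Om) * (w i : Om) =
        γ l • (((v l : Ocal A) : Om) * (w i : Om)) := by
      rw [← HahnSeries.C_mul_eq_smul, ← HahnSeries.C_mul_eq_smul, mul_assoc]
    rw [e3]
    refine Submodule.smul_mem _ _ (Submodule.subset_span ⟨(i, l), ?_⟩)
    exact hu_coe (i, l)
  -- echelon form over `A`
  have hA : ∀ a : A, @algebraMap Kbar Om _ _ HahnSeries.instAlgebra (a : Kbar) ∈ O :=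
    fun a => C_mem_of hV5 a
  have hπ : ∀ a : A, IsLocalRing.residue A a = 0 ↔ ¬ IsUnit a := by
    intro a
    rw [IsLocalRing.residue_eq_zero_iff, IsLocalRing.mem_maximalIdeal, mem_nonunits_iff]
  have hredA : ∀ a : A, ρ ⟨_, hA a⟩ =
      @algebraMap (kk A) (R2 A) _ _ (algR2 A) (IsLocalRing.residue A a) := by
    intro a
    have e : ρ ⟨_, hA a⟩ = ρ ⟨_, C_mem_of hV5 a⟩ := rfl
    rw [e, ρ_C_of hV5 a]
    rfl
  exact @Fermat.Agent.S34.DimTransfer.exists_orthonormal_of_le_span Kbar Om (kk A) (R2 A)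
    (Fin d × Fin m) _ _ HahnSeries.instAlgebra _ _ (algR2 A) _ A (IsLocalRing.residue A) O ρ
    hA IsLocalRing.residue_surjective hπ hredA u hu W hW

/-- **`Setup2.scale`**: every nonzero element of `F_{Mq}` has a constant multiple in `O` with
nonzero reduction. -/
theorem scale_of :
    ∀ g : Om, g ∈ modularFunctionFieldBar (M * q) → g ≠ 0 →
      ∃ c : Kbar, c ≠ 0 ∧ ∃ h : HahnSeries.C c * g ∈ O, ρ ⟨_, h⟩ ≠ 0 := by
  intro g hg hg0
  have hWF : ∀ x ∈ Submodule.span Kbar ({g} : Set Om), x ∈ modularFunctionFieldBar (M * q) := by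
    intro x hx
    obtain ⟨c, rfl⟩ := Submodule.mem_span_singleton.mp hx
    rw [← HahnSeries.C_mul_eq_smul, ← algebraMap_LS_eq_C]
    exact mul_mem ((modularFunctionFieldBar (M * q)).algebraMap_mem c) hg
  have hfin : Module.Finite Kbar (Submodule.span Kbar ({g} : Set Om)) :=
    Module.Finite.span_singleton Kbar g
  obtain ⟨r, b, hb, hli⟩ := dim_of w hRed hV5 hspan hind _ hWF hfin
  have hr : 0 < r := by
    rcases Nat.eq_zero_or_pos r with rfl | h
    · exfalso
      have h0 : Submodule.span Kbar (Set.range fun i : Fin 0 => ((b i : O) : Om)) = ⊥ := by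
        rw [Set.range_eq_empty, Submodule.span_empty]
      rw [h0] at hb
      have : g ∈ (⊥ : Submodule Kbar Om) := by
        rw [hb]; exact Submodule.mem_span_singleton_self g
      exact hg0 ((Submodule.mem_bot Kbar).mp this)
    · exact h
  have hb0 : ((b ⟨0, hr⟩ : O) : Om) ∈ Submodule.span Kbar ({g} : Set Om) := by
    rw [← hb]; exact Submodule.subset_span ⟨_, rfl⟩
  obtain ⟨c, hc⟩ := Submodule.mem_span_singleton.mp hb0
  have hne : ρ (b ⟨0, hr⟩) ≠ 0 := hli.ne_zero _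
  have hmem : HahnSeries.C c * g ∈ O := by
    rw [HahnSeries.C_mul_eq_smul, hc]; exact (b ⟨0, hr⟩).2
  have e : (⟨_, hmem⟩ : O) = b ⟨0, hr⟩ := by
    apply Subtype.ext
    show HahnSeries.C c * g = _
    rw [HahnSeries.C_mul_eq_smul, hc]
  refine ⟨c, ?_, hmem, by rw [e]; exact hne⟩
  rintro rfl
  apply hne
  have : b ⟨0, hr⟩ = 0 := Subtype.ext (by rw [← hc, zero_smul]; rfl)
  rw [this, map_zero]

/-- The coordinates in `w` of an element of `O` (lying in `F_{Mq}`) are integral. -/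
theorem coeff_mem_of (g : O) (hgF : (g : Om) ∈ modularFunctionFieldBar (M * q)) :
    ∃ c : Fin d → Om, (∀ i, c i ∈ modularFunctionFieldBar M ∧ c i ∈ Ocal A) ∧
      (g : Om) = ∑ i, c i * (w i : Om) := by
  classical
  obtain ⟨hscaleM, hredM, -, -, -⟩ := hRed
  obtain ⟨c, hcM, hgc⟩ := hspan (g : Om) hgF
  refine ⟨c, ?_, hgc⟩
  by_cases hall : ∀ i, c i = 0
  · intro i
    rw [hall i]
    exact ⟨zero_mem _, zero_mem _⟩
  push Not at hall
  -- normalise each nonzero coordinate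
  have hnorm : ∀ i, ∃ μ : Kbar, (c i ≠ 0 → μ ≠ 0) ∧ (c i = 0 → μ = 0) ∧
      ∃ e : Ocal A, (c i ≠ 0 → red A e ≠ 0) ∧ c i = HahnSeries.C μ * (e : Om) := by
    intro i
    by_cases hi : c i = 0
    · exact ⟨0, fun h => absurd hi h, fun _ => rfl, 0, fun h => absurd hi h, by
        rw [hi, map_zero, zero_mul]⟩
    · obtain ⟨lam, hlam, hmem, hred⟩ := hscaleM (c i) (hcM i) hi
      refine ⟨lam⁻¹, fun _ => inv_ne_zero hlam, fun h => absurd h hi, ⟨_, hmem⟩, fun _ => hred, ?_⟩
      show c i = HahnSeries.C lam⁻¹ * (HahnSeries.C lam * c i)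
      rw [← mul_assoc, ← map_mul, inv_mul_cancel₀ hlam, map_one, one_mul]
  choose μ hμ1 hμ0 e he1 he2 using hnorm
  obtain ⟨j, hj⟩ := hall
  obtain ⟨i₀, hi₀, hdiv⟩ := exists_content A μ ⟨j, hμ1 j hj⟩
  have hci₀ : c i₀ ≠ 0 := fun h => hi₀ (hμ0 i₀ h)
  -- the primitive coordinates `c' i = C (μ i / μ i₀) * e i`
  have hc' : ∀ i, HahnSeries.C (μ i₀)⁻¹ * c i = HahnSeries.C (μ i / μ i₀) * (e i : Om) := by
    intro i
    rw [he2 i, ← mul_assoc, ← map_mul, inv_mul_eq_div]
  have hc'O : ∀ i, HahnSeries.C (μ i₀)⁻¹ * c i ∈ Ocal A := fun i => by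
    rw [hc' i]
    exact (Ocal A).mul_mem (C_mem_Ocal A (hdiv i)) (e i).2
  have hc'M : ∀ i, HahnSeries.C (μ i₀)⁻¹ * c i ∈ modularFunctionFieldBar M := fun i => by
    rw [← algebraMap_LS_eq_C]
    exact mul_mem ((modularFunctionFieldBar M).algebraMap_mem _) (hcM i)
  have hc'ρ := fun i => hV5 _ (hc'M i) (hc'O i)
  choose hc'mem hc'red using hc'ρ
  -- the reduction of the primitive multiple of `g`
  have hsum : HahnSeries.C (μ i₀)⁻¹ * (g : Om) =
      ((∑ i, (⟨_, hc'mem i⟩ : O) * w i : O) : Om) := by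
    rw [hgc, Finset.mul_sum, AddSubmonoidClass.coe_finsetSum]
    refine Finset.sum_congr rfl fun i _ => ?_
    show _ = HahnSeries.C (μ i₀)⁻¹ * c i * (w i : Om)
    rw [mul_assoc]
  have hne : ρ (∑ i, (⟨_, hc'mem i⟩ : O) * w i) ≠ 0 := by
    intro h0
    rw [map_sum] at h0
    have h1 : ∑ i, (red A ⟨_, hc'O i⟩, qExpand (kk A) q (red A ⟨_, hc'O i⟩)) * ρ (w i) = 0 := by
      rw [← h0]
      exact Finset.sum_congr rfl fun i _ => by rw [map_mul, hc'red]
    have h2 := hind _ (fun i => hredM ⟨_, hc'O i⟩ (hc'M i)) h1 i₀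
    -- but `red (c' i₀) = red (e i₀) ≠ 0`
    have h3 : (⟨_, hc'O i₀⟩ : Ocal A) = e i₀ := by
      apply Subtype.ext
      show HahnSeries.C (μ i₀)⁻¹ * c i₀ = _
      rw [hc' i₀, div_self hi₀, map_one, one_mul]
    rw [h3] at h2
    exact he1 i₀ hci₀ h2
  -- hence `μ i₀ ∈ A`
  have hμA : μ i₀ ∈ A := by
    by_contra hnot
    have hinv : (μ i₀)⁻¹ ∈ A := (A.mem_or_inv_mem (μ i₀)).resolve_left hnot
    have hnu : ¬ IsUnit (⟨(μ i₀)⁻¹, hinv⟩ : A) := by
      intro hu
      obtain ⟨y, hy⟩ := hu.exists_right_inv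
      have hy' : (μ i₀)⁻¹ * (y : Kbar) = 1 := congrArg Subtype.val hy
      have : (y : Kbar) = μ i₀ := by
        field_simp at hy'
        exact hy'.symm ▸ rfl
      exact hnot (this ▸ y.2)
    have hres : IsLocalRing.residue A ⟨(μ i₀)⁻¹, hinv⟩ = 0 := by
      rw [IsLocalRing.residue_eq_zero_iff, IsLocalRing.mem_maximalIdeal, mem_nonunits_iff]
      exact hnu
    have hCO := C_mem_of hV5 (⟨(μ i₀)⁻¹, hinv⟩ : A)
    have hprod : (∑ i, (⟨_, hc'mem i⟩ : O) * w i) = (⟨_, hCO⟩ : O) * g :=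
      Subtype.ext hsum.symm
    apply hne
    rw [hprod, map_mul, ρ_C_of hV5 _ hCO, hres, map_zero]
    exact zero_mul _
  intro i
  refine ⟨hcM i, ?_⟩
  have e1 : c i = HahnSeries.C (μ i₀) * (HahnSeries.C (μ i₀)⁻¹ * c i) := by
    rw [← mul_assoc, ← map_mul, mul_inv_cancel₀ hi₀, map_one, one_mul]
  rw [e1]
  exact (Ocal A).mul_mem (C_mem_Ocal A hμA) (hc'O i)

/-- **`Setup2.range`**: the two-component reduction takes its values in `F_{M,k} × F_{M,k}`. -/
theorem range_of (hfield : ∀ g : O, (g : Om) ∈ modularFunctionFieldBar (M * q))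
    (hwr : ∀ i, (ρ (w i)).1 ∈ Fk A M ∧ (ρ (w i)).2 ∈ Fk A M)
    (hΦ : ∀ a : Omk A, a ∈ Fk A M → qExpand (kk A) q a ∈ Fk A M) :
    ∀ g : O, (ρ g).1 ∈ Fk A M ∧ (ρ g).2 ∈ Fk A M := by
  intro g
  obtain ⟨c, hc, hgc⟩ := coeff_mem_of w hRed hV5 hspan hind g (hfield g)
  obtain ⟨-, hredM, -, -, -⟩ := hRed
  have hcρ := fun i => hV5 _ (hc i).1 (hc i).2
  choose hcmem hcred using hcρ
  have hg : g = ∑ i, (⟨_, hcmem i⟩ : O) * w i := by
    apply Subtype.ext
    rw [hgc, AddSubmonoidClass.coe_finsetSum]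
    exact Finset.sum_congr rfl fun i _ => rfl
  have hρ : ρ g = ∑ i, (red A ⟨_, (hc i).2⟩, qExpand (kk A) q (red A ⟨_, (hc i).2⟩)) * ρ (w i) := by
    rw [hg, map_sum]
    exact Finset.sum_congr rfl fun i _ => by rw [map_mul, hcred]
  have ha : ∀ i, red A ⟨_, (hc i).2⟩ ∈ Fk A M := fun i => hredM ⟨_, (hc i).2⟩ (hc i).1
  rw [hρ, Prod.fst_sum, Prod.snd_sum]
  exact ⟨sum_mem fun i _ => mul_mem (ha i) (hwr i).1,
    sum_mem fun i _ => mul_mem (hΦ _ (ha i)) (hwr i).2⟩

end Main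

end Fermat.Agent.S34.ValDSR

end
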