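import Mathlib
import Fermat.Agent.S34.Plan
import Fermat.Agent.S18.WJCalc

/-!
# S34 / P6 — [VAL-HIND]: `κ`-independence of the orthonormal family `{e, (1-e) j_q^i}` (helper78)

* `sum_qExpand_mul_pow_eq_zero` : for any field `k` and `q ≥ 1`, if
  `∑_{i<q} b_i(T^q) · j̄^i = 0` in `k((T))` then all `b_i = 0`  (the `T`-orders of the nonzero
  terms are `q · ord b_i - i`, pairwise distinct);
* `hind` : for a family `w : Fin (q+1) → O` with `ρ (w 0) = (1, 0)` and
  `ρ (w (i+1)) = (0, j̄^i)`: `∑ (a_i, a_i(T^q)) * ρ (w i) = 0` implies `a = 0`.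
-/

set_option autoImplicit false

noncomputable section

namespace Fermat.Agent.S34.ValIndep

open ModularCurve Fermat.Agent.S24 Fermat.Agent.S18.Content Fermat.Agent.S18.Plan

/-! ### No cancellation between terms of pairwise distinct valuation -/

section AddVal

variable {R : Type*} [DivisionRing R] {Γ : Type*} [LinearOrderedAddCommMonoidWithTop Γ]
  [Nontrivial Γ]

/-- If finitely many elements sum to zero and the valuations of the nonzero ones are pairwise
distinct, then all of them vanish. -/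
theorem eq_zero_of_sum_eq_zero (v : AddValuation R Γ) {ι : Type*} (s : Finset ι) (f : ι → R)
    (hdist : ∀ i ∈ s, ∀ j ∈ s, f i ≠ 0 → f j ≠ 0 → v (f i) = v (f j) → i = j)
    (hsum : ∑ i ∈ s, f i = 0) : ∀ i ∈ s, f i = 0 := by
  classical
  by_contra hne
  obtain ⟨i₁, hi₁'⟩ := not_forall.mp hne
  obtain ⟨hi₁, hi₁0⟩ := Classical.not_imp.mp hi₁'
  obtain ⟨i₀, hi₀, hmin⟩ := Finset.exists_min_image s (fun i => v (f i)) ⟨i₁, hi₁⟩
  have hi₀0 : f i₀ ≠ 0 := by
    intro h0
    have h1 := hmin i₁ hi₁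
    rw [h0, AddValuation.map_zero, top_le_iff] at h1
    exact hi₁0 ((AddValuation.top_iff v).mp h1)
  have hvne : v (f i₀) ≠ ⊤ := fun h => hi₀0 ((AddValuation.top_iff v).mp h)
  have hlt : v (f i₀) < v (∑ i ∈ s.erase i₀, f i) := by
    apply AddValuation.map_lt_sum v hvne
    intro i hi
    obtain ⟨hii, his⟩ := Finset.mem_erase.mp hi
    rcases eq_or_ne (f i) 0 with h0 | h0
    · rw [h0, AddValuation.map_zero]
      exact lt_of_le_of_ne le_top hvne
    · refine lt_of_le_of_ne (hmin i his) fun heq => hii ?_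
      exact (hdist i₀ hi₀ i his hi₀0 h0 heq).symm
  have hsplit : ∑ i ∈ s.erase i₀, f i = - f i₀ := by
    rw [← Finset.add_sum_erase s f hi₀] at hsum
    exact eq_neg_of_add_eq_zero_right hsum
  rw [hsplit, AddValuation.map_neg] at hlt
  exact lt_irrefl _ hlt

end AddVal

/-! ### The series lemma -/

section Series

variable {k : Type} [Field k]

/-- The `T`-order of `b(T^q)`. -/
theorem orderTop_qExpand (q : ℕ) [NeZero q] (b : LaurentSeries k) :
    (qExpand k q b).orderTop = WithTop.map (fun n : ℤ => (q : ℤ) * n) b.orderTop := by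
  exact HahnSeries.orderTop_embDomain

/-- **No cancellation**: if `∑_{i<q} b_i(T^q) · j̄^i = 0` in `k((T))`, then all `b_i` vanish
(so `1, j̄, …, j̄^(q-1)` are linearly independent over the image of `T ↦ T^q`). -/
theorem sum_qExpand_mul_pow_eq_zero (q : ℕ) [NeZero q] (b : Fin q → LaurentSeries k)
    (h : ∑ i : Fin q, qExpand k q (b i) * jqModC k ^ (i : ℕ) = 0) : ∀ i, b i = 0 := by
  have hj0 : jqModC k ≠ 0 := Fermat.Agent.S18.WJCalc.j_ne_zero (κ := k)
  have hjv : HahnSeries.addVal ℤ k (jqModC k) = ((-1 : ℤ) : WithTop ℤ) := by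
    rw [HahnSeries.addVal_apply_of_ne hj0, Fermat.Agent.S28.Tower.order_jqModC]
  have hval : ∀ i : Fin q, b i ≠ 0 →
      HahnSeries.addVal ℤ k (qExpand k q (b i) * jqModC k ^ (i : ℕ))
        = (((q : ℤ) * (b i).order - (i : ℕ) : ℤ) : WithTop ℤ) := by
    intro i hi
    have h1 : HahnSeries.addVal ℤ k (qExpand k q (b i)) = (((q : ℤ) * (b i).order : ℤ) : WithTop ℤ) := by
      rw [HahnSeries.addVal_apply, orderTop_qExpand, ← HahnSeries.order_eq_orderTop_of_ne_zero hi]
      rfl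
    rw [AddValuation.map_mul, AddValuation.map_pow, h1, hjv, ← WithTop.coe_nsmul,
      ← WithTop.coe_add]
    congr 1
    simp only [nsmul_eq_mul]
    ring
  have hx0 : ∀ i : Fin q, qExpand k q (b i) * jqModC k ^ (i : ℕ) ≠ 0 → b i ≠ 0 := by
    intro i hi h0
    apply hi
    rw [h0, map_zero, zero_mul]
  have hall := eq_zero_of_sum_eq_zero (HahnSeries.addVal ℤ k) Finset.univ
    (fun i : Fin q => qExpand k q (b i) * jqModC k ^ (i : ℕ)) (by
      intro i _ j _ hi hj hij
      rw [hval i (hx0 i hi), hval j (hx0 j hj)] at hij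
      have hij' : (q : ℤ) * (b i).order - (i : ℕ) = (q : ℤ) * (b j).order - (j : ℕ) :=
        WithTop.coe_injective hij
      have hdvd : (q : ℤ) ∣ ((i : ℕ) : ℤ) - ((j : ℕ) : ℤ) :=
        ⟨(b i).order - (b j).order, by linarith⟩
      have habs : |((i : ℕ) : ℤ) - ((j : ℕ) : ℤ)| < (q : ℤ) := by
        have hi' : ((i : ℕ) : ℤ) < q := by exact_mod_cast i.2
        have hj' : ((j : ℕ) : ℤ) < q := by exact_mod_cast j.2
        have hi0 : (0 : ℤ) ≤ ((i : ℕ) : ℤ) := by positivity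
        have hj0' : (0 : ℤ) ≤ ((j : ℕ) : ℤ) := by positivity
        rw [abs_lt]
        constructor <;> linarith
      have h0 := Int.eq_zero_of_abs_lt_dvd hdvd habs
      apply Fin.ext
      have : ((i : ℕ) : ℤ) = ((j : ℕ) : ℤ) := by linarith
      exact_mod_cast this) h
  intro i
  have hi := hall i (Finset.mem_univ i)
  rcases mul_eq_zero.mp hi with h1 | h1
  · exact qExpand_injective q (by rw [h1, map_zero])
  · exact absurd h1 (pow_ne_zero _ hj0)

end Series

/-! ### `κ`-independence of the reductions of the orthonormal family -/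

section Indep

variable (A : ValuationSubring Kbar) (q : ℕ) [NeZero q] {O : Subring Om} (ρ : O →+* Plan.R2 A)

/-- **(hind), general form**: if `ρ (w 0) = (u₀, 0)` and `ρ (w (i+1)) = (0, u · j̄^i)` with
`u₀, u ≠ 0`, then the reductions of `w` are independent for the structure `a ↦ (a, a(T^q))`. -/
theorem hind_of_units (w : Fin (q + 1) → O) (u₀ u : Omk A) (hu₀ : u₀ ≠ 0) (hu : u ≠ 0)
    (hw0 : ρ (w 0) = (u₀, 0))
    (hws : ∀ i : Fin q, ρ (w i.succ) = (0, u * jk A ^ (i : ℕ))) :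
    ∀ a : Fin (q + 1) → Omk A,
      ∑ i, ((a i, qExpand (kk A) q (a i)) : Plan.R2 A) * ρ (w i) = 0 → ∀ i, a i = 0 := by
  intro a h
  rw [Fin.sum_univ_succ, hw0] at h
  simp only [hws] at h
  have h1 := congrArg Prod.fst h
  have h2 := congrArg Prod.snd h
  simp only [Prod.fst_add, Prod.snd_add, Prod.fst_sum, Prod.snd_sum, Prod.fst_mul, Prod.snd_mul,
    Prod.fst_zero, Prod.snd_zero, mul_zero, Finset.sum_const_zero, add_zero, zero_add] at h1 h2
  have ha0 : a 0 = 0 := (mul_eq_zero.mp h1).resolve_right hu₀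
  have h3 : u * ∑ i : Fin q, qExpand (kk A) q (a i.succ) * jk A ^ (i : ℕ) = 0 := by
    rw [Finset.mul_sum, ← h2]
    exact Finset.sum_congr rfl fun i _ => by ring
  have h4 := (mul_eq_zero.mp h3).resolve_left hu
  have has := sum_qExpand_mul_pow_eq_zero q (fun i : Fin q => a i.succ) h4
  intro i
  refine Fin.cases ha0 (fun j => has j) i

/-- **(hind)**: if `ρ (w 0) = (1, 0)` and `ρ (w (i+1)) = (0, j̄^i)`, then
`∑ (a_i, a_i(T^q)) * ρ (w i) = 0` forces `a = 0`. -/
theorem hind (w : Fin (q + 1) → O) (hw0 : ρ (w 0) = (1, 0))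
    (hws : ∀ i : Fin q, ρ (w i.succ) = (0, jk A ^ (i : ℕ))) :
    ∀ a : Fin (q + 1) → Omk A,
      ∑ i, ((a i, qExpand (kk A) q (a i)) : Plan.R2 A) * ρ (w i) = 0 → ∀ i, a i = 0 :=
  hind_of_units A q ρ w 1 1 one_ne_zero one_ne_zero hw0 (fun i => by rw [hws i, one_mul])

omit [NeZero q] in
/-- The family `{e, (1-e) j_q^i}` exists in any `(O, ρ)` with `z`, `x`, `j_q` and inverses:
`z`, `x` with `ρ z = (u, 0)`, `ρ x = (0, u)`, `u ≠ 0`; `j_q` with `ρ j_q = (∗, j̄)`;
`e := z / (z + x)`. -/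
theorem exists_family
    (hinv : ∀ g : O, (ρ g).1 ≠ 0 → (ρ g).2 ≠ 0 → ((g : Om))⁻¹ ∈ O)
    (z x jq : O) (u v : Omk A) (hu : u ≠ 0) (hz : ρ z = (u, 0)) (hx : ρ x = (0, u))
    (hjq : ρ jq = (v, jk A)) :
    ∃ w : Fin (q + 1) → O, ρ (w 0) = (1, 0) ∧ ∀ i : Fin q, ρ (w i.succ) = (0, jk A ^ (i : ℕ)) := by
  have hzx : ρ (z + x) = (u, u) := by
    rw [map_add, hz, hx]
    exact Prod.ext (by simp) (by simp)
  have hmem : (((z + x : O) : Om))⁻¹ ∈ O := hinv (z + x) (by rw [hzx]; exact hu) (by rw [hzx]; exact hu)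
  have hzx0 : ((z + x : O) : Om) ≠ 0 := by
    intro h0
    have : (z + x : O) = 0 := Subtype.ext h0
    rw [this, map_zero] at hzx
    exact hu (congrArg Prod.fst hzx).symm
  obtain ⟨y, hy⟩ : ∃ y : O, (y : Om) = (((z + x : O) : Om))⁻¹ := ⟨⟨_, hmem⟩, rfl⟩
  have hy1 : (z + x) * y = 1 := by
    apply Subtype.ext
    rw [Subring.coe_mul, hy, Subring.coe_one, mul_inv_cancel₀ hzx0]
  have hρy : ρ y = (u⁻¹, u⁻¹) := by
    have h1 : ρ (z + x) * ρ y = 1 := by rw [← map_mul, hy1, map_one]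
    rw [hzx] at h1
    have h11 := congrArg Prod.fst h1
    have h12 := congrArg Prod.snd h1
    simp only [Prod.fst_mul, Prod.snd_mul, Prod.fst_one, Prod.snd_one] at h11 h12
    exact Prod.ext (eq_inv_of_mul_eq_one_right h11) (eq_inv_of_mul_eq_one_right h12)
  have he : ρ (z * y) = (1, 0) := by
    rw [map_mul, hz, hρy]
    exact Prod.ext (by simp [hu]) (by simp)
  have he' : ρ (1 - z * y) = (0, 1) := by
    rw [map_sub, map_one, he]
    exact Prod.ext (by simp) (by simp)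
  refine ⟨Fin.cases (z * y) (fun i : Fin q => (1 - z * y) * jq ^ (i : ℕ)), ?_, fun i => ?_⟩
  · exact he
  · show ρ ((1 - z * y) * jq ^ (i : ℕ)) = (0, jk A ^ (i : ℕ))
    rw [map_mul, map_pow, he', hjq]
    exact Prod.ext (by simp) (by simp)

end Indep

end Fermat.Agent.S34.ValIndep
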