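import Mathlib
import Fermat.Prelude.Def_ModularCurve_GenusNumerics
import Fermat.Agent.Lib.Gamma0Count
import Fermat.Agent.S34.Plan

/-!
# S34 / P6 — [NUM]: `ψ(qM) = (q+1) ψ(M)` and `c(qM) = 2 c(M)` for a prime `q ∤ M`

Provider of `Fermat.Agent.S34.Plan.NumStmt` (owner: helper81).

* `dedekindPsi_mul_prime` : `dedekindPsi (M * q) = (q + 1) * dedekindPsi M`;
* `cuspCount_mul_prime` : `cuspCount (M * q) = 2 * cuspCount M`;
* `numStmt` : `Plan.NumStmt q M`.
-/

set_option autoImplicit false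

namespace Fermat.Agent.S34.Num

open ModularCurve

/-- The divisors of `M * q` for a prime `q`: the divisors `d` of `M` and their multiples
`d * q`. -/
theorem divisors_mul_prime {q M : ℕ} (hq : q.Prime) (hM : M ≠ 0) :
    Nat.divisors (M * q) = Nat.divisors M ∪ (Nat.divisors M).image (· * q) := by
  ext d
  simp only [Nat.mem_divisors, Finset.mem_union, Finset.mem_image]
  constructor
  · rintro ⟨hd, -⟩
    by_cases hqd : q ∣ d
    · right
      obtain ⟨d', rfl⟩ := hqd
      refine ⟨d', ⟨?_, hM⟩, mul_comm _ _⟩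
      rw [mul_comm M q] at hd
      exact (Nat.mul_dvd_mul_iff_left hq.pos).mp hd
    · left
      exact ⟨Nat.Coprime.dvd_of_dvd_mul_right
        ((Nat.Prime.coprime_iff_not_dvd hq).mpr hqd).symm hd, hM⟩
  · rintro (⟨hd, -⟩ | ⟨d', ⟨hd, -⟩, rfl⟩)
    · exact ⟨dvd_mul_of_dvd_left hd q, mul_ne_zero hM hq.ne_zero⟩
    · exact ⟨Nat.mul_dvd_mul_right hd q, mul_ne_zero hM hq.ne_zero⟩

/-- For `q ∤ M` the two families of divisors of `M * q` are disjoint. -/
theorem disjoint_divisors_image {q M : ℕ} (h : ¬ q ∣ M) :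
    Disjoint (Nat.divisors M) ((Nat.divisors M).image (· * q)) := by
  rw [Finset.disjoint_left]
  intro d hd hd'
  obtain ⟨d', -, rfl⟩ := Finset.mem_image.mp hd'
  exact h (dvd_trans (dvd_mul_left q d') (Nat.dvd_of_mem_divisors hd))

/-- `c(qM) = 2 c(M)` for a prime `q ∤ M`. -/
theorem cuspCount_mul_prime {q M : ℕ} (hq : q.Prime) (h : ¬ q ∣ M) :
    cuspCount (M * q) = 2 * cuspCount M := by
  have hM : M ≠ 0 := by rintro rfl; exact h (dvd_zero q)
  unfold cuspCount
  rw [divisors_mul_prime hq hM, Finset.sum_union (disjoint_divisors_image h),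
    Finset.sum_image, two_mul]
  · congr 1
    · refine Finset.sum_congr rfl fun d hd => ?_
      obtain ⟨e, rfl⟩ := Nat.dvd_of_mem_divisors hd
      have hd0 : 0 < d := Nat.pos_of_ne_zero (fun h0 => hM (by rw [h0, zero_mul]))
      have hqd : Nat.Coprime q d :=
        (Nat.Prime.coprime_iff_not_dvd hq).mpr fun h' => h (dvd_trans h' (dvd_mul_right d e))
      rw [mul_assoc, Nat.mul_div_cancel_left _ hd0, Nat.mul_div_cancel_left _ hd0,
        Nat.Coprime.gcd_mul_right_cancel_right e hqd]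
    · refine Finset.sum_congr rfl fun d hd => ?_
      obtain ⟨e, rfl⟩ := Nat.dvd_of_mem_divisors hd
      have hd0 : 0 < d := Nat.pos_of_ne_zero (fun h0 => hM (by rw [h0, zero_mul]))
      have hqe : Nat.Coprime q e :=
        (Nat.Prime.coprime_iff_not_dvd hq).mpr fun h' => h (dvd_trans h' (dvd_mul_left e d))
      rw [Nat.mul_div_mul_right _ _ hq.pos, Nat.mul_div_cancel_left _ hd0,
        Nat.Coprime.gcd_mul_right_cancel d hqe]
  · intro a _ b _ hab
    exact Nat.eq_of_mul_eq_mul_right hq.pos hab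

/-- `ψ(qM) = (q+1) ψ(M)` for a prime `q ∤ M`. -/
theorem dedekindPsi_mul_prime {q M : ℕ} (hq : q.Prime) (h : ¬ q ∣ M) :
    dedekindPsi (M * q) = (q + 1) * dedekindPsi M := by
  have hM : M ≠ 0 := by rintro rfl; exact h (dvd_zero q)
  rw [mul_comm M q]
  exact Fermat.Agent.Lib.Gamma0Count.dedekindPsi_mul_of_not_dvd hq hM h

/-- **[NUM]** `ψ(qM) = (q+1) ψ(M)` and `c(qM) = 2 c(M)` for a prime `q ∤ M`. -/
theorem numStmt (q M : ℕ) : Fermat.Agent.S34.Plan.NumStmt q M :=
  fun hq h => ⟨dedekindPsi_mul_prime hq h, cuspCount_mul_prime hq h⟩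

end Fermat.Agent.S34.Num
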