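import Mathlib
import Fermat.Agent.S34.Plan
import Fermat.Agent.S34.Num
import Fermat.Agent.S18.CharStmt

/-!
# S34 / P6 [VAL-HSPAN] (helper5): a family with `κ`-independent two-component reductions spans

Abstract in `(O, ρ)` (no `σ`, no `O2`): for a good level `M` (`S18.Plan.RedStmt A M`), a prime
`q ∤ M`, a subring `O` of `Q̄((T))` with a ring hom `ρ : O → k((T)) × k((T))` such that

* (hV5) `F_M ∩ Ocal ⊆ O` with `ρ h = (red h, (red h)(T^q))`,
* (hind) the family `w : Fin d → O` has `κ`-independent `ρ`-values for the `κ = F_{M,k}`-structure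
  `a ↦ (a, a(T^q))`,

the family `w` is linearly independent over `F_M` (`eq_zero_of_sum_eq_zero`); since
`[F_{Mq} : F_M] = q + 1` (`finrank_ext`), a family of `d = q + 1` such elements of `F_{Mq}` spans
`F_{Mq}` over `F_M` (`span_of` = the hypothesis (hspan) of `S34/ValDSR`).
-/

set_option autoImplicit false
set_option synthInstance.maxHeartbeats 400000
set_option maxHeartbeats 1000000

noncomputable section

namespace Fermat.Agent.S34.ValSpan

open ModularCurve AlgebraicCurve Fermat.Agent.S24 Fermat.Agent.S18.Content Fermat.Agent.S18.Plan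

variable (A : ValuationSubring Kbar)

/-- In a finite nonempty family of nonzero elements of `F_M` (whose intersection with `Ocal` is a
valuation ring) some element divides all the others inside `Ocal`. -/
theorem exists_max {ι : Type*} (M : ℕ)
    (hv : ∀ y : Om, y ∈ modularFunctionFieldBar M → y ∈ Ocal A ∨ y⁻¹ ∈ Ocal A)
    (c : ι → Om) (s : Finset ι) (hs : s.Nonempty)
    (hc : ∀ i ∈ s, c i ∈ modularFunctionFieldBar M) (hc0 : ∀ i ∈ s, c i ≠ 0) :
    ∃ i₀ ∈ s, ∀ i ∈ s, c i * (c i₀)⁻¹ ∈ Ocal A := by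
  induction hs using Finset.Nonempty.cons_induction with
  | singleton a =>
    refine ⟨a, Finset.mem_singleton_self a, fun i hi => ?_⟩
    rw [Finset.mem_singleton] at hi
    rw [hi, mul_inv_cancel₀ (hc0 a (Finset.mem_singleton_self a))]
    exact one_mem _
  | cons a s ha hs ih =>
    obtain ⟨i₀, hi₀, hmax⟩ := ih (fun i hi => hc i (Finset.mem_cons.mpr (Or.inr hi)))
      (fun i hi => hc0 i (Finset.mem_cons.mpr (Or.inr hi)))
    have ha' : a ∈ Finset.cons a s ha := Finset.mem_cons_self a s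
    have hi₀' : i₀ ∈ Finset.cons a s ha := Finset.mem_cons.mpr (Or.inr hi₀)
    have hyF : c a * (c i₀)⁻¹ ∈ modularFunctionFieldBar M :=
      (modularFunctionFieldBar M).mul_mem (hc a ha')
        ((modularFunctionFieldBar M).inv_mem (hc i₀ hi₀'))
    rcases hv _ hyF with h | h
    · refine ⟨i₀, hi₀', fun i hi => ?_⟩
      rcases Finset.mem_cons.mp hi with rfl | hi
      · exact h
      · exact hmax i hi
    · refine ⟨a, ha', fun i hi => ?_⟩
      rcases Finset.mem_cons.mp hi with rfl | hi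
      · rw [mul_inv_cancel₀ (hc0 i ha')]
        exact one_mem _
      · have e : c i * (c a)⁻¹ = c i * (c i₀)⁻¹ * (c a * (c i₀)⁻¹)⁻¹ := by
          have h1 := hc0 i₀ hi₀'
          have h2 := hc0 a ha'
          field_simp
        rw [e]
        exact (Ocal A).mul_mem (hmax i hi) h

/-- **`F_M`-independence** of a family with `κ`-independent two-component reductions. -/
theorem eq_zero_of_sum_eq_zero (M q : ℕ) [NeZero q] (O : Subring Om) (ρ : O →+* Fermat.Agent.S34.Plan.R2 A)
    {d : ℕ} (w : Fin d → O)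
    (hv : ∀ y : Om, y ∈ modularFunctionFieldBar M → y ∈ Ocal A ∨ y⁻¹ ∈ Ocal A)
    (hredM : ∀ y : Ocal A, (y : Om) ∈ modularFunctionFieldBar M → red A y ∈ Fk A M)
    (hV5 : ∀ h : Om, h ∈ modularFunctionFieldBar M → ∀ hO : h ∈ Ocal A, ∃ hh : h ∈ O,
      ρ ⟨h, hh⟩ = (red A ⟨h, hO⟩, qExpand (kk A) q (red A ⟨h, hO⟩)))
    (hind : ∀ a : Fin d → Omk A, (∀ i, a i ∈ Fk A M) →
      ∑ i, (a i, qExpand (kk A) q (a i)) * ρ (w i) = 0 → ∀ i, a i = 0)
    (c : Fin d → Om) (hc : ∀ i, c i ∈ modularFunctionFieldBar M)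
    (hsum : ∑ i, c i * (w i : Om) = 0) : ∀ i, c i = 0 := by
  by_contra hne
  push Not at hne
  obtain ⟨i₁, hi₁⟩ := hne
  classical
  set s : Finset (Fin d) := Finset.univ.filter fun i => c i ≠ 0 with hs
  have hsne : s.Nonempty := ⟨i₁, by rw [hs, Finset.mem_filter]; exact ⟨Finset.mem_univ _, hi₁⟩⟩
  obtain ⟨i₀, hi₀, hmax⟩ := exists_max A M hv c s hsne (fun i _ => hc i)
    (fun i hi => (Finset.mem_filter.mp hi).2)
  have hci₀ : c i₀ ≠ 0 := (Finset.mem_filter.mp hi₀).2
  -- the normalised coefficients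
  have hO : ∀ i, c i * (c i₀)⁻¹ ∈ Ocal A := by
    intro i
    by_cases hi : c i = 0
    · rw [hi, zero_mul]; exact zero_mem _
    · exact hmax i (Finset.mem_filter.mpr ⟨Finset.mem_univ _, hi⟩)
  have hF : ∀ i, c i * (c i₀)⁻¹ ∈ modularFunctionFieldBar M := fun i =>
    (modularFunctionFieldBar M).mul_mem (hc i) ((modularFunctionFieldBar M).inv_mem (hc i₀))
  choose hh hρ using fun i => hV5 _ (hF i) (hO i)
  have hsum' : ∑ i, (⟨c i * (c i₀)⁻¹, hh i⟩ : O) * w i = 0 := by
    apply Subtype.ext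
    rw [AddSubmonoidClass.coe_finsetSum]
    simp only [Subring.coe_mul, ZeroMemClass.coe_zero]
    have e : ∀ i, c i * (c i₀)⁻¹ * (w i : Om) = (c i₀)⁻¹ * (c i * (w i : Om)) := fun i => by ring
    rw [Finset.sum_congr rfl fun i _ => e i, ← Finset.mul_sum, hsum, mul_zero]
  have hρsum := congrArg ρ hsum'
  rw [map_sum, map_zero] at hρsum
  simp only [map_mul, hρ] at hρsum
  have h0 := hind (fun i => red A ⟨_, hO i⟩) (fun i => hredM ⟨_, hO i⟩ (hF i)) hρsum i₀
  have h1 : red A ⟨_, hO i₀⟩ = 1 := by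
    rw [red_congr A (mul_inv_cancel₀ hci₀) (hO i₀) (one_mem _)]
    exact map_one (red A)
  rw [h1] at h0
  exact one_ne_zero h0

/-- `[F_{Mq} : F_M] = q + 1` for a prime `q ∤ M`. -/
theorem finrank_ext (M q : ℕ) [NeZero M] [NeZero q] (hq : q.Prime) (hqM : ¬ q ∣ M)
    (hle : modularFunctionFieldBar M ≤ modularFunctionFieldBar (M * q)) :
    Module.finrank (FN M) (IntermediateField.extendScalars hle) = q + 1 := by
  have h1 := Fermat.Agent.S18.CharStmt.psi_mul_finrank hle
  have h2 := (Fermat.Agent.S34.Num.numStmt q M hq hqM).1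
  have hpos : 0 < dedekindPsi M := Fermat.Agent.S18.FibreCount.dedekindPsi_pos M
  rw [h2, mul_comm] at h1
  exact Nat.eq_of_mul_eq_mul_right hpos h1

/-- **(hspan)**: a family of `q + 1` elements of `O ∩ F_{Mq}` with `κ`-independent reductions
spans `F_{Mq}` over `F_M`. -/
theorem span_of (M q : ℕ) [NeZero M] [NeZero q] (hq : q.Prime) (hqM : ¬ q ∣ M)
    (O : Subring Om) (ρ : O →+* Fermat.Agent.S34.Plan.R2 A) {d : ℕ} (hd : d = q + 1)
    (w : Fin d → O) (hwF : ∀ i, (w i : Om) ∈ modularFunctionFieldBar (M * q))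
    (hRedM : RedStmt A M)
    (hV5 : ∀ h : Om, h ∈ modularFunctionFieldBar M → ∀ hO : h ∈ Ocal A, ∃ hh : h ∈ O,
      ρ ⟨h, hh⟩ = (red A ⟨h, hO⟩, qExpand (kk A) q (red A ⟨h, hO⟩)))
    (hind : ∀ a : Fin d → Omk A, (∀ i, a i ∈ Fk A M) →
      ∑ i, (a i, qExpand (kk A) q (a i)) * ρ (w i) = 0 → ∀ i, a i = 0) :
    ∀ g : Om, g ∈ modularFunctionFieldBar (M * q) →
      ∃ c : Fin d → Om, (∀ i, c i ∈ modularFunctionFieldBar M) ∧ g = ∑ i, c i * (w i : Om) := by
  have hle : modularFunctionFieldBar M ≤ modularFunctionFieldBar (M * q) :=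
    Fermat.Agent.S18.CharStmt.bar_le (Dvd.intro q rfl)
  set E : IntermediateField (FN M) Om := IntermediateField.extendScalars hle with hE
  let v : Fin d → E := fun i => ⟨(w i : Om), (IntermediateField.mem_extendScalars hle).mpr (hwF i)⟩
  have hcoe : ∀ (a : FN M) (x : E), ((a • x : E) : Om) = (a : Om) * (x : Om) := fun a x => rfl
  have hli : LinearIndependent (FN M) v := by
    rw [Fintype.linearIndependent_iff]
    intro c hc i
    have hc' : ∑ i, ((c i : FN M) : Om) * (w i : Om) = 0 := by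
      have := congrArg (Subtype.val : E → Om) hc
      rw [AddSubmonoidClass.coe_finsetSum] at this
      simpa [hcoe] using this
    have h0 := eq_zero_of_sum_eq_zero A M q O ρ w
      (Fermat.Agent.S18.CharStmt.valProp_of_redStmt A hRedM) hRedM.2.1 hV5 hind
      (fun i => ((c i : FN M) : Om)) (fun i => (c i).2) hc' i
    exact Subtype.ext h0
  have hcard : Fintype.card (Fin d) = Module.finrank (FN M) E := by
    rw [Fintype.card_fin, hd, hE, finrank_ext M q hq hqM hle]
  have : Nonempty (Fin d) := ⟨⟨0, by omega⟩⟩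
  let b := basisOfLinearIndependentOfCardEqFinrank hli hcard
  intro g hg
  set x : E := ⟨g, (IntermediateField.mem_extendScalars hle).mpr hg⟩ with hx
  refine ⟨fun i => ((b.repr x i : FN M) : Om), fun i => (b.repr x i).2, ?_⟩
  have hsum := b.sum_repr x
  have := congrArg (Subtype.val : E → Om) hsum
  rw [AddSubmonoidClass.coe_finsetSum] at this
  simp only [hcoe] at this
  have hgx : g = (x : Om) := rfl
  rw [hgx, ← this]
  refine Finset.sum_congr rfl fun i _ => ?_
  rw [show b i = v i from congrFun (coe_basisOfLinearIndependentOfCardEqFinrank hli hcard) i]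

end Fermat.Agent.S34.ValSpan
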