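import Mathlib
import Fermat.Agent.S34.Val
import Fermat.Agent.S34.Sigma
import Fermat.Agent.S34.ValArch
import Fermat.Agent.S34.ValDSR
import Fermat.Agent.S34.ValSpan
import Fermat.Agent.S34.ValIndep
import Fermat.Agent.S34.FkFrob
import Fermat.Agent.S34.CharBad
import Fermat.Agent.S34.InclPull
import Fermat.Agent.S18.ConstWPlan
import Fermat.Agent.S18.Red

/-!
# S34 / P6 — [CHAR-INST]: `S18.Plan.CharStmt` and (V1') at the Plan levels (owner: helper77)

`DescInst.unipDiv_of` needs `hChar : S18.Plan.CharStmt A N (M * q)` and the one-valuation scaling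
`hscale` at the top level `M * q`.  By `CharBad.charStmt_bad'` these follow from

* `CharBad.ScaleProp A (M * q)`,
* `CharBad.RedInto A (M * q) M`,
* `CharBad.RedInto A (N' * q) N'`     — a fact at the LOWER good level `N'`.

All three are instances of one statement at an ARBITRARY good level `m` (`q ∤ m`, no condition of
torsion-freeness): the two-component reduction `(Val.O2, Val.Red)` of `F_{mq}` for the
Atkin–Lehner involution `Sigma.sigma m q` has

* a family `w₀, …, w_q` with `Red w₀ = (1, 0)`, `Red w_{i+1} = (0, j̄^i)` (`exists_family`, from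
  `j`, `j_q`, `z = j - j_q^q`, `x = j_q - j^q` and `ValIndep.exists_family`),
* hence joint scaling and range in `F_{m,k}²` (`ValSpan.span_of`, `ValDSR.scale_of/range_of`),
* hence (V1') and (HB) for the first valuation (`ValArch.scale₁`, `ValArch.redInto`).

Main results: `scaleProp_good`, `redInto_good`, `charStmt`, `hscale`.
-/

set_option autoImplicit false
set_option linter.unusedSectionVars false
set_option linter.style.haveILetI false

noncomputable section

namespace Fermat.Agent.S34.CharInst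

open ModularCurve AlgebraicCurve Fermat.Agent.S24 Fermat.Agent.S18.Content Fermat.Agent.S18.Plan
open Fermat.Agent.S34.Plan Fermat.Agent.S34

set_option synthInstance.maxHeartbeats 400000
set_option maxHeartbeats 1600000

variable (A : ValuationSubring Kbar) (m q : ℕ) [NeZero m] [NeZero q]

/-- `Sigma.sigma` satisfies the Atkin–Lehner hypotheses of `Val`. -/
theorem isAL (h : Nat.Coprime m q) (hq : q.Prime) : Val.IsAL m q (Sigma.sigma m q h) :=
  ⟨Sigma.sigma_alpha h, Sigma.sigma_beta h, Sigma.sigma_sigma h hq⟩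

omit [NeZero m] [NeZero q] in
/-- `j̄ ≠ j̄^(q²)`. -/
theorem jk_sub_ne (hq : q.Prime) : jk A - jk A ^ (q ^ 2) ≠ 0 := by
  intro h0
  have htr := Fermat.Agent.S18.ConstWPlan.transcendental_jqModC (kk A)
  have hinj := transcendental_iff_injective.mp htr
  have h2 : 2 ≤ q ^ 2 := by
    have := hq.two_le
    nlinarith
  have hp : (Polynomial.X - Polynomial.X ^ (q ^ 2) : Polynomial (kk A)) ≠ 0 := by
    intro hp0
    have hc := congrArg (fun p : Polynomial (kk A) => p.coeff 1) hp0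
    simp only [Polynomial.coeff_sub, Polynomial.coeff_X_one, Polynomial.coeff_X_pow,
      Polynomial.coeff_zero] at hc
    rw [if_neg (by omega)] at hc
    simp at hc
  apply hp
  apply hinj
  rw [map_zero, map_sub, map_pow, Polynomial.aeval_X]
  exact h0

/-- **The family** `w₀ = e`, `w_{i+1} = (1 - e) j_q^i` in `O2` at an arbitrary good level. -/
theorem exists_family (h : Nat.Coprime m q) (hq : q.Prime) (hA : A.LiesOverPrime q) :
    ∃ w : Fin (q + 1) → Val.O2 A m q (Sigma.sigma m q h),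
      Val.Red A m q (Sigma.sigma m q h) (w 0) = (1, 0) ∧
      ∀ i : Fin q, Val.Red A m q (Sigma.sigma m q h) (w i.succ) = (0, jk A ^ (i : ℕ)) := by
  have hσ := isAL m q h hq
  haveI : Fact q.Prime := ⟨hq⟩
  haveI : CharP (kk A) q := charP_residueField_of_liesOverPrime A q hA
  obtain ⟨hj, ej⟩ := hσ.Red_j A
  obtain ⟨hjq, ejq⟩ := hσ.Red_jq A
  rw [Val.qExpand_jk] at ej ejq
  refine ValIndep.exists_family A q (Val.Red A m q (Sigma.sigma m q h))
    (Val.inv_mem A m q (Sigma.sigma m q h))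
    ((⟨_, hj⟩ : Val.O2 A m q (Sigma.sigma m q h)) - (⟨_, hjq⟩ : Val.O2 A m q (Sigma.sigma m q h)) ^ q)
    ((⟨_, hjq⟩ : Val.O2 A m q (Sigma.sigma m q h)) - (⟨_, hj⟩ : Val.O2 A m q (Sigma.sigma m q h)) ^ q)
    ⟨_, hjq⟩ (jk A - jk A ^ (q ^ 2)) (jk A ^ q) (jk_sub_ne A q hq) ?_ ?_ ejq
  · rw [map_sub, map_pow, ej, ejq]
    refine Prod.ext ?_ ?_
    · show jk A - (jk A ^ q) ^ q = jk A - jk A ^ (q ^ 2)
      rw [← pow_mul, sq]
    · show jk A ^ q - jk A ^ q = 0
      exact sub_self _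
  · rw [map_sub, map_pow, ej, ejq]
    refine Prod.ext ?_ ?_
    · show jk A ^ q - jk A ^ q = 0
      exact sub_self _
    · show jk A - (jk A ^ q) ^ q = jk A - jk A ^ (q ^ 2)
      rw [← pow_mul, sq]

/-- Joint scaling, range and the idempotent lift for `(Val.O2, Val.Red)` at a good level `m`. -/
theorem scale_range (h : Nat.Coprime m q) (hq : q.Prime) (hA : A.LiesOverPrime q) :
    (∀ g : Om, g ∈ modularFunctionFieldBar (m * q) → g ≠ 0 →
      ∃ c : Kbar, c ≠ 0 ∧ ∃ h' : HahnSeries.C c * g ∈ Val.O2 A m q (Sigma.sigma m q h),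
        Val.Red A m q (Sigma.sigma m q h) ⟨_, h'⟩ ≠ 0) ∧
    (∀ g : Val.O2 A m q (Sigma.sigma m q h),
      (Val.Red A m q (Sigma.sigma m q h) g).1 ∈ Fk A m ∧
      (Val.Red A m q (Sigma.sigma m q h) g).2 ∈ Fk A m) ∧
    ∃ e : Val.O2 A m q (Sigma.sigma m q h), Val.Red A m q (Sigma.sigma m q h) e = (1, 0) := by
  have hσ := isAL m q h hq
  haveI : Fact q.Prime := ⟨hq⟩
  have hqm : ¬ q ∣ m := (Nat.Prime.coprime_iff_not_dvd hq).mp h.symm
  obtain ⟨w, hw0, hws⟩ := exists_family A m q h hq hA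
  have hRed : RedStmt A m := Fermat.Agent.S18.Red.redStmt m q hqm A hA
  have hV5 : ∀ f : Om, f ∈ modularFunctionFieldBar m → ∀ hO : f ∈ Ocal A,
      ∃ hh : f ∈ Val.O2 A m q (Sigma.sigma m q h),
        Val.Red A m q (Sigma.sigma m q h) ⟨f, hh⟩ =
          (red A ⟨f, hO⟩, qExpand (kk A) q (red A ⟨f, hO⟩)) :=
    fun f hM hO => hσ.Red_level A hM hO
  have hind : ∀ a : Fin (q + 1) → Omk A, (∀ i, a i ∈ Fk A m) →
      ∑ i, ((a i, qExpand (kk A) q (a i)) : R2 A) * Val.Red A m q (Sigma.sigma m q h) (w i) = 0 →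
      ∀ i, a i = 0 :=
    fun a _ ha => ValIndep.hind A q (Val.Red A m q (Sigma.sigma m q h)) w hw0 hws a ha
  have hspan := ValSpan.span_of A m q hq hqm (Val.O2 A m q (Sigma.sigma m q h))
    (Val.Red A m q (Sigma.sigma m q h)) rfl w
    (fun i => Val.mem_field A m q (Sigma.sigma m q h) (w i)) hRed hV5 hind
  have hjk : jk A ∈ Fk A m := jqModC_mem_full _ m
  have hwr : ∀ i, (Val.Red A m q (Sigma.sigma m q h) (w i)).1 ∈ Fk A m ∧
      (Val.Red A m q (Sigma.sigma m q h) (w i)).2 ∈ Fk A m := by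
    intro i
    refine Fin.cases ?_ (fun j => ?_) i
    · rw [hw0]
      exact ⟨one_mem _, zero_mem _⟩
    · rw [hws j]
      exact ⟨zero_mem _, pow_mem hjk _⟩
  refine ⟨ValDSR.scale_of w hRed hV5 hspan hind, ?_, ⟨w 0, hw0⟩⟩
  exact ValDSR.range_of w hRed hV5 hspan hind (Val.mem_field A m q (Sigma.sigma m q h)) hwr
    (FkFrob.qExpand_mem_Fk A q m hq hA)

/-- **(V1') and (HB) for the content valuation at a good level `m`**: every nonzero element of
`F_{mq}` is a constant times a unit of `Ocal A`, and the reductions of `F_{mq} ∩ Ocal A` lie in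
`F_{m,k}`. -/
theorem scaleProp_redInto (hq : q.Prime) (hqm : ¬ q ∣ m) (hA : A.LiesOverPrime q) :
    CharBad.ScaleProp A (m * q) ∧ CharBad.RedInto A (m * q) m := by
  haveI : Fact q.Prime := ⟨hq⟩
  have h : Nat.Coprime m q := ((Nat.Prime.coprime_iff_not_dvd hq).mpr hqm).symm
  obtain ⟨hscale, hrange, e, he⟩ := scale_range A m q h hq hA
  -- joint scaling in the `ValArch` form
  have hJ : ValArch.JointScale A (modularFunctionFieldBar (m * q)) (Sigma.sigma m q h) := by
    intro y hy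
    have hy0 : (y : Om) ≠ 0 := fun h0 => hy (Subtype.ext h0)
    obtain ⟨c, hc, h', hne⟩ := hscale (y : Om) y.2 hy0
    obtain ⟨hF, h1, h2⟩ := Val.mem_O2.mp h'
    have e1 : (⟨HahnSeries.C c * (y : Om), hF⟩ : FN (m * q)) =
        algebraMap Kbar (FN (m * q)) c * y :=
      Subtype.ext (ValArch.coe_const_mul c y).symm
    have e2 : ((Sigma.sigma m q h ⟨HahnSeries.C c * (y : Om), hF⟩ : FN (m * q)) : Om) =
        HahnSeries.C c * ((Sigma.sigma m q h y : FN (m * q)) : Om) := by
      rw [e1, ValArch.sigma_const_mul, ValArch.coe_const_mul]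
    have h2' : HahnSeries.C c * ((Sigma.sigma m q h y : FN (m * q)) : Om) ∈ Ocal A := by
      rw [← e2]; exact h2
    refine ⟨c, hc, h1, h2', ?_⟩
    by_contra hcon
    rw [not_or, not_not, not_not] at hcon
    apply hne
    rw [Val.Red_eq]
    refine Prod.ext hcon.1 ?_
    show red A ⟨_, _⟩ = 0
    rw [← hcon.2]
    exact red_congr A e2 _ _
  have hR : ValArch.RankOne A := ValArch.rankOne_algClosure A q hA
  -- the idempotent lift
  have heF : (e : Om) ∈ modularFunctionFieldBar (m * q) := Val.mem_field A m q _ e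
  have heO : (e : Om) ∈ Ocal A := Val.mem_Ocal A m q _ e
  have hσO : ((Sigma.sigma m q h ⟨(e : Om), heF⟩ : FN (m * q)) : Om) ∈ Ocal A :=
    Val.sigma_mem_Ocal A m q _ e heF
  have he1 : red A ⟨(e : Om), heO⟩ = 1 := by
    rw [← Val.fst_eq A m q _ e heO, he]
  have he0 : red A ⟨_, hσO⟩ = 0 := by
    rw [← Val.snd_eq A m q _ e heF hσO, he]
  have hσσ : Sigma.sigma m q h (Sigma.sigma m q h ⟨(e : Om), heF⟩) = ⟨(e : Om), heF⟩ :=
    Sigma.sigma_sigma h hq _
  refine ⟨?_, ?_⟩
  · exact ValArch.scaleProp_of_scale₁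
      (ValArch.scale₁ hJ hR ⟨(e : Om), heF⟩ heO he1 hσO he0 hσσ)
  · refine ValArch.redInto hJ hR ⟨(e : Om), heF⟩ heO he1 hσO he0 hσσ (fun x => x ∈ Fk A m) ?_
    intro g h₁ h₂
    have hg : ((g : FN (m * q)) : Om) ∈ Val.O2 A m q (Sigma.sigma m q h) :=
      Val.mem_O2.mpr ⟨g.2, h₁, h₂⟩
    have := (hrange ⟨_, hg⟩).1
    rwa [Val.fst_eq A m q _ ⟨_, hg⟩ h₁] at this

/-- (V1') at the level `m * q`, `q ∤ m`. -/
theorem scaleProp_good (hq : q.Prime) (hqm : ¬ q ∣ m) (hA : A.LiesOverPrime q) :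
    CharBad.ScaleProp A (m * q) :=
  (scaleProp_redInto A m q hq hqm hA).1

/-- (HB) at the level `m * q`, `q ∤ m`: the reductions of `F_{mq} ∩ Ocal A` lie in `F_{m,k}`. -/
theorem redInto_good (hq : q.Prime) (hqm : ¬ q ∣ m) (hA : A.LiesOverPrime q) :
    CharBad.RedInto A (m * q) m :=
  (scaleProp_redInto A m q hq hqm hA).2

end Fermat.Agent.S34.CharInst

namespace Fermat.Agent.S34.CharInst

open ModularCurve AlgebraicCurve Fermat.Agent.S24 Fermat.Agent.S18.Content Fermat.Agent.S18.Plan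
open Fermat.Agent.S34

/-- `0 < M` at the Plan levels. -/
theorem levels_M_pos' {q N' N M : ℕ} (hL : Plan.Levels q N' N M) : 0 < M := by
  rw [hL.M_eq]
  refine Nat.mul_pos ?_ hL.N'_pos
  unfold Plan.aux
  split_ifs <;> norm_num

/-- **(V1') at the Plan top level** (the `hscale` of `DescInst.unipDiv_of` / `DescInst.descW`). -/
theorem hscale {q N' N M : ℕ} (hL : Plan.Levels q N' N M) (A : ValuationSubring Kbar)
    (hA : A.LiesOverPrime q) :
    ∀ y : Om, y ∈ modularFunctionFieldBar (M * q) → y ≠ 0 →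
      ∃ c : Kbar, c ≠ 0 ∧ ∃ h : HahnSeries.C c * y ∈ Ocal A, red A ⟨_, h⟩ ≠ 0 := by
  haveI : NeZero q := ⟨hL.prime.ne_zero⟩
  haveI : NeZero M := ⟨(levels_M_pos' hL).ne'⟩
  exact scaleProp_good A M q hL.prime (InclPull.not_dvd_of_levels hL) hA

/-- **`S18.Plan.CharStmt` at the Plan levels** (the `hChar` of `DescInst.unipDiv_of`). -/
theorem charStmt {q N' N M : ℕ} [NeZero N] (hL : Plan.Levels q N' N M)
    (A : ValuationSubring Kbar) (hA : A.LiesOverPrime q) :
    Fermat.Agent.S18.Plan.CharStmt A N (M * q) := by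
  haveI : Fact q.Prime := ⟨hL.prime⟩
  haveI : NeZero q := ⟨hL.prime.ne_zero⟩
  haveI : NeZero M := ⟨(levels_M_pos' hL).ne'⟩
  haveI : NeZero N' := ⟨hL.N'_pos.ne'⟩
  have hqM : ¬ q ∣ M := InclPull.not_dvd_of_levels hL
  have hN'M : N' ∣ M := by rw [hL.M_eq]; exact Dvd.intro_left _ rfl
  have hs := scaleProp_good A M q hL.prime hqM hA
  have hb₁ := redInto_good A N' q hL.prime hL.not_dvd hA
  have hb₂ := redInto_good A M q hL.prime hqM hA
  have key := CharBad.charStmt_bad' A q N' M hN'M hqM hA hs hb₁ hb₂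
  have hN : N = N' * q := hL.N_eq
  subst hN
  exact key

end Fermat.Agent.S34.CharInst

end
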