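import Mathlib
import Fermat.Prelude.Def_GaloisRep_LocalConditions
import Fermat.Agent.S31.Top

/-!
# S34 in hypothesis form (owner: helper74)

`result_of_plan` : the frozen S34 statement (a Hecke–Galois datum is unipotent on inertia at a
prime `q ≠ p` with `q ∥ N`) from

* `UnipStmt N p q`                  — **(U)**: `(τ - 1)² = 0` on the `p`-power torsion of `J₀(N)`
                                      for every inertia element `τ` at `q`,
* `S37.Core.CoreAll N p`            — Eichler–Shimura on `p`-power torsion of `J₀(N)` (S37 core),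
* `P5.WeakChebLift.WeakChebStmt`    — weak Chebotarev,
* `S31.Plan.HeckeShift N S p`       — transfer with a shift,

by the trace method of `S31/Top` (helper79): for `τ` in inertia, `tr ρ(τ) ≡ π(V_j(T_ℓ, ℓ))` for a
Frobenius power `σ^j` agreeing with `τ` on a finite level, and `V_j(T_ℓ, ℓ) = τ + ℓ^j τ⁻¹ = τ + τ⁻¹
= 2` on the relevant torsion, by (U) and `ℓ^j ≡ 1`.  The determinant is recovered from
`tr ρ(τ) = tr ρ(τ²) = 2` (`T` has no `2`-torsion).
-/

set_option autoImplicit false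

open ModularCurve CuspForm AlgebraicCurve Polynomial

namespace Fermat.Agent.S34.Top

local notation "Qb" => AlgebraicClosure ℚ

local instance isAlgebraicQbar_s34 : Algebra.IsAlgebraic ℚ (AlgebraicClosure ℚ) :=
  AlgebraicClosure.isAlgebraic ℚ
local instance isAlgClosureQbar_s34 : IsAlgClosure ℚ (AlgebraicClosure ℚ) :=
  ⟨inferInstance, inferInstance⟩
local instance normalQbar_s34 : Normal ℚ (AlgebraicClosure ℚ) :=
  IsAlgClosure.normal ℚ (AlgebraicClosure ℚ)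

/-- **(U)**: unipotent monodromy of `J₀(N)` at `q` on `p`-power torsion: every inertia element
`τ` at a place over `q` satisfies `(τ - 1)² = 0` on the `p`-power torsion of `J₀(N)(ℚ̄)`. -/
def UnipStmt (N : ℕ) [NeZero N] (p q : ℕ) : Prop :=
  ∀ P : ValuationSubring Qb, P.LiesOverPrime q → ∀ τ ∈ P.inertiaSubgroupIn ℚ,
    ∀ x : JZero N, (∃ m : ℕ, p ^ m • x = 0) → τ • τ • x - 2 • (τ • x) + x = 0

section Algebra

variable {T : Type*} [CommRing T] {V : Type*} [AddCommGroup V] [Module T V]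
  [Module.Free T V] [Module.Finite T V]

/-- For an endomorphism of a free module of rank `2`: the characteristic polynomial is
`X² - tr·X + det`, and `tr(f²) = tr(f)² - 2 det(f)`. -/
theorem charpoly_and_trace_sq (f : Module.End T V) (hrank : Module.finrank T V = 2) :
    f.charpoly = X ^ 2 - C (LinearMap.trace T V f) * X + C (LinearMap.det f) ∧
    LinearMap.trace T V (f * f) = LinearMap.trace T V f ^ 2 - 2 * LinearMap.det f := by
  nontriviality T
  let b : Module.Basis (Fin 2) T V := Module.finBasisOfFinrankEq T V hrank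
  refine ⟨?_, ?_⟩
  · rw [← LinearMap.charpoly_toMatrix f b, Matrix.charpoly_fin_two,
      LinearMap.trace_eq_matrix_trace T b, ← LinearMap.det_toMatrix b]
  · rw [LinearMap.trace_eq_matrix_trace T b, LinearMap.trace_eq_matrix_trace T b,
      ← LinearMap.det_toMatrix b, LinearMap.toMatrix_mul, Matrix.trace_fin_two,
      Matrix.trace_fin_two, Matrix.det_fin_two, Matrix.mul_apply, Matrix.mul_apply,
      Fin.sum_univ_two, Fin.sum_univ_two]
    ring

/-- An endomorphism `f` of a free module of rank `2` over a ring without `2`-torsion with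
`tr f = tr f² = 2` has characteristic polynomial `(X - 1)²`. -/
theorem charpoly_eq_of_trace (f : Module.End T V) (hrank : Module.finrank T V = 2)
    (h2 : ∀ y : T, 2 * y = 0 → y = 0) (h1 : LinearMap.trace T V f = 2)
    (h1' : LinearMap.trace T V (f * f) = 2) : f.charpoly = (X - 1) ^ 2 := by
  obtain ⟨hc, ht⟩ := charpoly_and_trace_sq f hrank
  have hdet : LinearMap.det f = 1 := by
    have : 2 * (LinearMap.det f - 1) = 0 := by
      rw [h1, h1'] at ht
      linear_combination ht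
    exact sub_eq_zero.1 (h2 _ this)
  rw [hc, h1, hdet, map_one]
  have : (C (2 : T) : T[X]) = 2 := by exact map_ofNat C 2
  rw [this]
  ring

end Algebra

section Main

variable {p : ℕ} {N : ℕ} [NeZero N] {S : Finset ℕ}
  {𝒪 : Type} [CommRing 𝒪] [IsDomain 𝒪] [IsDiscreteValuationRing 𝒪]
  [IsAdicComplete (IsLocalRing.maximalIdeal 𝒪) 𝒪]
  {θ : CuspForm.heckeAlgebra N 2 (↑S : Set ℕ) →+* IsLocalRing.ResidueField 𝒪}
  {T : Type} [CommRing T] [IsLocalRing T] [IsNoetherianRing T]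
  [IsAdicComplete (IsLocalRing.maximalIdeal T) T] [Algebra 𝒪 T] [IsLocalHom (algebraMap 𝒪 T)]
  [Module.Finite 𝒪 T] [Module.Free 𝒪 T]

/-- **The trace of inertia at `q ∥ N` is `2`**, from (U) and the S31 trace machinery. -/
theorem trace_eq_two [HasPrincipalDivisors Qb (modularFunctionFieldBar N)]
    (hcore : S37.Core.CoreAll N p) (hcheb : P5.WeakChebLift.WeakChebStmt)
    (hHS : S31.Plan.HeckeShift N (↑S : Set ℕ) p)
    (hp : p.Prime) (hp𝒪 : (p : 𝒪) ∈ IsLocalRing.maximalIdeal 𝒪) (hpS : p ∈ S)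
    (hNS : ∀ q : ℕ, q.Prime → q ∣ N → q ∈ S)
    (H : CuspForm.HeckeGaloisRepDatum N (↑S : Set ℕ) 𝒪 θ T)
    (q : ℕ) (hq : q.Prime) (hqp : q ≠ p) (hU : UnipStmt N p q)
    (P : ValuationSubring Qb) (hP : P.LiesOverPrime q) (τ : Qb ≃ₐ[ℚ] Qb)
    (hτ : τ ∈ P.inertiaSubgroupIn ℚ) :
    H.ρ.trace τ = 2 := by
  have : Fact p.Prime := ⟨hp⟩
  rw [← sub_eq_zero]
  refine S31.Alg.eq_zero_of_forall_mem_pow (IsLocalRing.maximalIdeal T) _ fun n => ?_
  obtain ⟨c, hc⟩ := hHS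
  obtain ⟨Λ, hΛfin, hΛtors, hΛ⟩ := hc (n + c)
  obtain ⟨L₁, hL₁fin, hL₁⟩ := H.ρ.isAdicContinuous n
  obtain ⟨L₂, hL₂fin, hL₂normal, hL₂⟩ := P5.OpenStab.exists_normal_fixing_jzero_finite N hΛfin
  -- the common finite Galois level
  let M₀ : IntermediateField ℚ Qb := L₁ ⊔ L₂ ⊔ P5.CycloDelta.level p (n + c)
  have : FiniteDimensional ℚ ↥(L₁ ⊔ L₂) := IntermediateField.finiteDimensional_sup L₁ L₂
  have : FiniteDimensional ℚ M₀ :=
    IntermediateField.finiteDimensional_sup (L₁ ⊔ L₂) (P5.CycloDelta.level p (n + c))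
  let M : IntermediateField ℚ Qb := IntermediateField.normalClosure ℚ M₀ Qb
  have : FiniteDimensional ℚ M := normalClosure.is_finiteDimensional ℚ M₀ Qb
  have : Normal ℚ M := normalClosure.normal ℚ M₀ Qb
  have : IsGalois ℚ M := ⟨⟩
  have hM₀ : M₀ ≤ M := IntermediateField.le_normalClosure M₀
  have hL₁M : L₁ ≤ M := le_trans (le_trans le_sup_left le_sup_left) hM₀
  have hL₂M : L₂ ≤ M := le_trans (le_trans le_sup_right le_sup_left) hM₀
  have hL₃M : P5.CycloDelta.level p (n + c) ≤ M := le_trans le_sup_right hM₀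
  -- weak Chebotarev
  obtain ⟨ℓ, hℓ, hℓS, A, hA, σ, hσ, j, hj⟩ := hcheb M τ S
  have hℓp : ℓ ≠ p := fun h => hℓS (h ▸ hpS)
  have hℓN : ¬ ℓ ∣ N := fun h => hℓS (hNS ℓ hℓ h)
  have hℓNp : ¬ ℓ ∣ N * p := fun h => (hℓ.dvd_mul.1 h).elim hℓN
    (fun h' => hℓp ((Nat.prime_dvd_prime_iff_eq hℓ hp).1 h'))
  have hℓS' : ℓ ∉ (↑S : Set ℕ) := fun h => hℓS (Finset.mem_coe.1 h)
  -- a primitive root of unity and the congruence `ℓ^j ≡ 1 mod p^(n+c)`
  have : NeZero (p ^ (n + c) : ℕ) := ⟨pow_ne_zero _ hp.ne_zero⟩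
  obtain ⟨ζ, hζ⟩ := HasEnoughRootsOfUnity.exists_primitiveRoot Qb (p ^ (n + c))
  have hζ1 : ζ ^ p ^ (n + c) = 1 := hζ.pow_eq_one
  have hζM : ζ ∈ M := hL₃M (P5.CycloDelta.mem_level p hζ1)
  have hpow : ζ ^ (ℓ ^ j) = ζ ^ 1 := by
    rw [pow_one, ← S31.Top.frob_pow_apply p hℓ hℓp A hA σ hσ (n + c) j ζ hζ1, hj ζ hζM]
    exact P5.CycloDelta.inertia_apply_rootOfUnity p hq hqp P hP τ hτ (n + c) ζ hζ1
  -- the Hecke polynomial `V_j(T_ℓ, ℓ)` acts as `2` on `Λ`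
  have hJ : ∀ x ∈ Λ, aeval (heckeOperatorBar N ⟨ℓ, hℓ⟩) (S31.Alg.lucas ℓ j) x
      = aeval (heckeOperatorBar N ⟨ℓ, hℓ⟩) (C (2 : ℤ)) x := by
    intro x hx
    have hxt : ∃ m : ℕ, p ^ m • x = 0 := ⟨n + c, hΛtors x hx⟩
    have hxfix : ∀ η : Qb ≃ₐ[ℚ] Qb, (∀ y ∈ M, η y = y) → η • x = x :=
      fun η hη => hL₂ η (fun y hy => hη y (hL₂M hy)) x hx
    have hinv : p ^ (n + c) • (τ⁻¹ • x) = 0 := by
      rw [smul_comm, hΛtors x hx]; exact S31.Top.gal_smul_zero τ⁻¹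
    rw [S31.Top.aeval_lucas_eq hcore hℓ hℓNp A hA σ hσ j τ M hj x hxt hxfix]
    have h1 := S31.Top.zsmul_eq_of_pow_eq ζ (p ^ (n + c)) (pow_ne_zero _ hp.ne_zero) hζ (ℓ ^ j) 1
      hpow (τ⁻¹ • x) hinv
    push_cast at h1
    rw [h1, one_smul]
    have hU' := hU P hP τ hτ (τ⁻¹ • x) ⟨n + c, hinv⟩
    rw [smul_inv_smul] at hU'
    rw [aeval_C, Module.algebraMap_end_apply]
    have h2 : τ • x + τ⁻¹ • x - (2 : ℤ) • x = 0 := by
      rw [← hU']
      rw [show (2 : ℤ) • x = (2 : ℕ) • x from by norm_cast]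
      abel
    exact sub_eq_zero.1 h2
  obtain ⟨R, hR⟩ := hΛ ℓ ℓ hℓ hℓ hℓN hℓN hℓS' hℓS' (S31.Alg.lucas ℓ j) (C 2) hJ
  -- traces
  have ht1 : H.ρ.trace τ - H.ρ.trace (σ ^ j) ∈ IsLocalRing.maximalIdeal T ^ n :=
    S31.Top.trace_sub_mem_of_agree H.ρ n L₁ hL₁ τ (σ ^ j) fun x hx => (hj x (hL₁M hx)).symm
  have htr : H.ρ.trace (σ ^ j)
      = H.π (aeval (heckeAlgebra.T hℓ hℓN hℓS' : heckeAlgebra N 2 (↑S : Set ℕ))
        (S31.Alg.lucas ℓ j)) := by
    have h := S31.Alg.trace_pow_eq_aeval_lucas (H.ρ.ρ σ) (H.π (heckeAlgebra.T hℓ hℓN hℓS'))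
      (ℓ : ℤ) H.ρ.finrank_eq (by rw [H.charpoly_frob ℓ hℓ hℓN hℓS' A hA σ hσ]; simp) j
    rw [GaloisRepAdic.trace, map_pow, h]
    exact Polynomial.aeval_algHom_apply (H.π.toIntAlgHom) _ _
  have hpT : (p : T) ∈ IsLocalRing.maximalIdeal T := by
    have : (p : T) = algebraMap 𝒪 T (p : 𝒪) := (map_natCast _ _).symm
    rw [this, IsLocalRing.mem_maximalIdeal, mem_nonunits_iff]
    intro hu
    exact (IsLocalRing.mem_maximalIdeal _).1 hp𝒪 (isUnit_of_map_unit (algebraMap 𝒪 T) _ hu)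
  have ht5 : H.π (aeval (heckeAlgebra.T hℓ hℓN hℓS' : heckeAlgebra N 2 (↑S : Set ℕ))
        (S31.Alg.lucas ℓ j)) - 2 ∈ IsLocalRing.maximalIdeal T ^ n := by
    have e : H.π (aeval (heckeAlgebra.T hℓ hℓN hℓS' : heckeAlgebra N 2 (↑S : Set ℕ))
        (S31.Alg.lucas ℓ j)) - 2
        = H.π (aeval (heckeAlgebra.T hℓ hℓN hℓS' : heckeAlgebra N 2 (↑S : Set ℕ))
            (S31.Alg.lucas ℓ j)
          - aeval (heckeAlgebra.T hℓ hℓN hℓS' : heckeAlgebra N 2 (↑S : Set ℕ)) (C (2 : ℤ))) := by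
      rw [map_sub, aeval_C, map_ofNat, map_ofNat]
    rw [e, hR, Nat.add_sub_cancel, zsmul_eq_mul, map_mul, map_intCast]
    push_cast
    exact Ideal.mul_mem_right _ _ (Ideal.pow_mem_pow hpT n)
  have hfinal : H.ρ.trace τ - 2
      = (H.ρ.trace τ - H.ρ.trace (σ ^ j))
        + (H.π (aeval (heckeAlgebra.T hℓ hℓN hℓS' : heckeAlgebra N 2 (↑S : Set ℕ))
            (S31.Alg.lucas ℓ j)) - 2) := by
    rw [htr]
    ring
  rw [hfinal]
  exact Ideal.add_mem _ ht1 ht5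

/-- **S34 from the plan**: the frozen conclusion from (U), the S37 core, weak Chebotarev and the
Hecke shift. -/
theorem result_of_plan [HasPrincipalDivisors Qb (modularFunctionFieldBar N)] [CharZero 𝒪]
    (hcore : S37.Core.CoreAll N p) (hcheb : P5.WeakChebLift.WeakChebStmt)
    (hHS : S31.Plan.HeckeShift N (↑S : Set ℕ) p)
    (hp : p.Prime) (hp𝒪 : (p : 𝒪) ∈ IsLocalRing.maximalIdeal 𝒪) (hpS : p ∈ S)
    (hNS : ∀ q : ℕ, q.Prime → q ∣ N → q ∈ S)
    (H : CuspForm.HeckeGaloisRepDatum N (↑S : Set ℕ) 𝒪 θ T)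
    (q : ℕ) (hq : q.Prime) (hqp : q ≠ p) (hU : UnipStmt N p q) :
    H.ρ.IsUnipotentOnInertiaAt q := by
  intro P hP τ hτ
  have h1 := trace_eq_two hcore hcheb hHS hp hp𝒪 hpS hNS H q hq hqp hU P hP τ hτ
  have h2 := trace_eq_two hcore hcheb hHS hp hp𝒪 hpS hNS H q hq hqp hU P hP (τ * τ)
    (mul_mem hτ hτ)
  have h2T : ∀ y : T, 2 * y = 0 → y = 0 := by
    intro y hy
    have h20 : (2 : 𝒪) ≠ 0 := by exact_mod_cast (two_ne_zero : ((2 : ℕ) : 𝒪) ≠ 0)
    have hy' : (2 : 𝒪) • y = 0 := by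
      rw [Algebra.smul_def, map_ofNat]; exact hy
    let b := Module.Free.chooseBasis 𝒪 T
    apply b.repr.injective
    ext i
    have := congrArg (fun z => b.repr z i) hy'
    simp only [map_smul, Finsupp.smul_apply, smul_eq_mul, map_zero, Finsupp.zero_apply] at this
    simpa using (mul_eq_zero.1 this).resolve_left h20
  refine charpoly_eq_of_trace (H.ρ.ρ τ) H.ρ.finrank_eq h2T h1 ?_
  have : H.ρ.ρ τ * H.ρ.ρ τ = H.ρ.ρ (τ * τ) := (map_mul _ _ _).symm
  rw [this]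
  exact h2

end Main

end Fermat.Agent.S34.Top
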