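/-
P6 [GAL] (helper68): **(U) from a divisor-level statement**.

`UnipStmt N p q` (every inertia element `τ` at a place over `q` satisfies `(τ - 1)² = 0` on the
`p`-power torsion of `JZero N`) from

  `DivUnip A N q` : for `s` in the decomposition group of `A` acting trivially on the residue
  field, if `m • D = div f` with `q ∤ m` and `deg D = 0`, then `s s D - 2 s D + D` is principal
  (`s` acting coefficientwise on `F_N`: `S37.Gal.gK A N s`).

No normalisation of `f` and no level other than `N` occurs in `DivUnip`.  The file also gives the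
two Kummer relations used by the core: `m • (g D - D) = div (g f / f)` and
`m • (g g D - 2 g D + D) = div (g g f · f / (g f)²)`.
-/
import Mathlib
import Fermat.Agent.P5.CoreT
import Fermat.Agent.S34.Top

set_option autoImplicit false
set_option linter.style.haveILetI false
set_option linter.unusedSectionVars false

noncomputable section

namespace Fermat.Agent.S34.GalTop

open ModularCurve AlgebraicCurve Fermat.Agent.S24 Fermat.Agent.S18.Content Fermat.Agent.S18.Plan

set_option synthInstance.maxHeartbeats 400000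
set_option maxHeartbeats 1600000

/-! ### Kummer relations under a semilinear automorphism -/

section Generic

variable {K F : Type*} [Field K] [Field F] [Algebra K F]

/-- From `m • D = div f`: `m • (g D - D) = div (g f / f)`. -/
theorem kummer_sub (g : SemilinearAut K F) (m : ℤ) (D : Divisor K F) (f : F) (hf : f ≠ 0)
    (hD : ∀ v : Place K F, m * D v = v.ord f) (v : Place K F) :
    m * (g • D - D) v = v.ord (g • f * f⁻¹) := by
  have hgf : g • f ≠ 0 := by
    rw [Ne, smul_eq_zero_iff_eq]; exact hf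
  rw [v.ord_mul hgf (inv_ne_zero hf), v.ord_inv,
    ← Fermat.Agent.P5.CoreT.kummer_smul g m D f hD v, ← hD v]
  simp only [Finsupp.coe_sub, Pi.sub_apply]
  ring

/-- From `m • D = div f`: `m • (g g D - 2 g D + D) = div (g g f · f · ((g f)⁻¹)²)`. -/
theorem kummer_unip (g : SemilinearAut K F) (m : ℤ) (D : Divisor K F) (f : F) (hf : f ≠ 0)
    (hD : ∀ v : Place K F, m * D v = v.ord f) (v : Place K F) :
    m * (g • (g • D) - 2 • (g • D) + D) v = v.ord (g • (g • f) * f * ((g • f)⁻¹) ^ 2) := by
  have hgf : g • f ≠ 0 := by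
    rw [Ne, smul_eq_zero_iff_eq]; exact hf
  have hggf : g • (g • f) ≠ 0 := by
    rw [Ne, smul_eq_zero_iff_eq]; exact hgf
  have h1 := Fermat.Agent.P5.CoreT.kummer_smul g m D f hD
  have h2 := Fermat.Agent.P5.CoreT.kummer_smul g m (g • D) (g • f) h1 v
  rw [v.ord_mul (mul_ne_zero hggf hf) (pow_ne_zero 2 (inv_ne_zero hgf)),
    v.ord_mul hggf hf, Fermat.Agent.P5.CoreT.ord_npow, v.ord_inv, ← h2, ← h1 v, ← hD v]
  simp only [Finsupp.coe_add, Finsupp.coe_sub, Pi.add_apply, Pi.sub_apply, Finsupp.smul_apply,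
    nsmul_eq_mul, Nat.cast_ofNat]
  ring

end Generic

/-! ### The divisor-level statement and the top -/

section Top

/-- **(U) at the divisor level**: for `s` in the decomposition group of `A` acting trivially on
the residue field, if `m • D = div f` with `q ∤ m` and `deg D = 0`, then
`s s D - 2 s D + D` is principal. -/
def DivUnip (A : ValuationSubring Kbar) (N q : ℕ) [NeZero N] : Prop :=
  ∀ s : A.decompositionSubgroup ℚ, Fermat.Agent.S37.Gal.sigmaBar A s = RingHom.id _ →
    ∀ m : ℕ, ¬ q ∣ m → ∀ D : Divisor Kbar (FN N), Divisor.degree D = 0 →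
      ∀ f : FN N, f ≠ 0 → (∀ P : Place Kbar (FN N), (m • D) P = P.ord f) →
        (Fermat.Agent.S37.Gal.gK A N s • (Fermat.Agent.S37.Gal.gK A N s • D)
            - 2 • (Fermat.Agent.S37.Gal.gK A N s • D) + D)
          ∈ Divisor.principal (K := Kbar) (F := FN N)

/-- **(U) from the divisor-level statement.** -/
theorem unipStmt_of_divUnip (N p q : ℕ) [NeZero N] (hq : q.Prime) (hqp : ¬ q ∣ p)
    (h : ∀ A : ValuationSubring Kbar, A.LiesOverPrime q → DivUnip A N q) :
    Fermat.Agent.S34.Top.UnipStmt N p q := by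
  intro P hP τ hτ x hx
  obtain ⟨m, hm⟩ := hx
  have hpm : ¬ q ∣ p ^ m := fun hd => hqp (hq.dvd_of_dvd_pow hd)
  obtain ⟨D, rfl⟩ := Pic0.mk_surjective x
  have h1 : ((p ^ m • D : Divisor.degZero (K := Kbar) (F := FN N)) : Divisor Kbar (FN N)) ∈
      Divisor.principal (K := Kbar) (F := FN N) := by
    have h2 : (Pic0.mk (p ^ m • D) : JZero N) = 0 := hm
    exact AddSubgroup.mem_addSubgroupOf.mp ((QuotientAddGroup.eq_zero_iff _).mp h2)
  obtain ⟨f, hf0, hDf⟩ := h1
  obtain ⟨s, rfl, hs⟩ := Fermat.Agent.P5.CoreT.exists_decomp_of_inertia P hτ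
  set g : SemilinearAut Kbar (FN N) := Fermat.Agent.S37.Gal.gK P N s with hg
  set E : Divisor.degZero (K := Kbar) (F := FN N) :=
    SemilinearAut.degZeroSMulHom g (SemilinearAut.degZeroSMulHom g D)
      - 2 • SemilinearAut.degZeroSMulHom g D + D with hE
  have hprin : (E : Divisor Kbar (FN N)) ∈ Divisor.principal (K := Kbar) (F := FN N) := by
    have h3 := h P hP s hs (p ^ m) hpm (D : Divisor Kbar (FN N)) (Divisor.mem_degZero.mp D.2)
      f hf0 (fun Q => by rw [← hDf Q]; rfl)
    have e : (E : Divisor Kbar (FN N)) =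
        g • (g • (D : Divisor Kbar (FN N))) - 2 • (g • (D : Divisor Kbar (FN N))) + D := by
      simp only [hE, AddSubgroup.coe_add, AddSubgroup.coe_sub, AddSubgroup.coe_nsmul,
        SemilinearAut.coe_degZeroSMulHom]
    rw [e]
    exact h3
  have h0 : (Pic0.mk E : JZero N) = 0 := Fermat.Agent.P5.CoreT.mk_eq_zero_of_principal N E hprin
  have h4 : ((s : Kbar ≃ₐ[ℚ] Kbar) • ((s : Kbar ≃ₐ[ℚ] Kbar) • (Pic0.mk D : JZero N)))
      - 2 • ((s : Kbar ≃ₐ[ℚ] Kbar) • (Pic0.mk D : JZero N)) + Pic0.mk D = Pic0.mk E := rfl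
  exact h4.trans h0

end Top

end Fermat.Agent.S34.GalTop

end
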