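import Mathlib
import Fermat.Agent.S34.Top
import Fermat.Agent.S34.Plan
import Fermat.Agent.S34.GalTop
import Fermat.Agent.S31.Final
import Fermat.Agent.P5.LambdaFinal
import Fermat.Agent.P5.CoreTFinal

/-!
# S34 / P6 — assembly, part 1 (owner: helper74)

* `levels_of` : the standing level data `Plan.Levels q (N / q) N (aux q * (N / q))` from `q ∥ N`;
* `divUnip_of_unipDiv` : `Plan.UnipDiv A N q ⟹ GalTop.DivUnip A N q`;
* `result_of_unipDiv` : the frozen S34 conclusion from `∀ A over q, Plan.UnipDiv A N q`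
  (all other inputs — `CoreT.coreAll`, `Lambda.lambdaStmt`, weak Chebotarev — are unconditional).
-/

set_option autoImplicit false

open ModularCurve CuspForm AlgebraicCurve

namespace Fermat.Agent.S34.Assemble

open Fermat.Agent.S24 Fermat.Agent.S18.Content Fermat.Agent.S18.Plan

/-- The level data of `S34/Plan` from `q ∥ N`. -/
theorem levels_of (N q : ℕ) [NeZero N] (hq : q.Prime) (hqN : q ∣ N) (hq2 : ¬ q ^ 2 ∣ N) :
    Plan.Levels q (N / q) N (Plan.aux q * (N / q)) where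
  prime := hq
  N'_pos := Nat.div_pos (Nat.le_of_dvd (Nat.pos_of_ne_zero (NeZero.ne N)) hqN) hq.pos
  not_dvd := by
    intro h
    apply hq2
    obtain ⟨c, hc⟩ := h
    refine ⟨c, ?_⟩
    have h1 : N = q * (N / q) := (Nat.mul_div_cancel' hqN).symm
    rw [h1, hc, sq, mul_assoc]
  N_eq := (Nat.div_mul_cancel hqN).symm
  M_eq := rfl

/-- `Plan.UnipDiv` (inertia group of the Prelude, coefficientwise action `Plan.gal`) gives
`GalTop.DivUnip` (decomposition group elements acting trivially on the residue field, `gK`). -/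
theorem divUnip_of_unipDiv (A : ValuationSubring Kbar) (N q : ℕ) [NeZero N]
    (h : Plan.UnipDiv A N q) : GalTop.DivUnip A N q := by
  intro s hs m hqm D hdeg f hf hDf
  have hm : 0 < m := Nat.pos_of_ne_zero (fun h0 => hqm (h0 ▸ dvd_zero q))
  have hsI : s ∈ A.inertiaSubgroup ℚ := by
    rw [ValuationSubring.inertiaSubgroup, MonoidHom.mem_ker]
    apply RingEquiv.ext
    intro x
    exact RingHom.congr_fun hs x
  have hτ : (s : Kbar ≃ₐ[ℚ] Kbar) ∈ A.inertiaSubgroupIn ℚ := ⟨s, hsI, rfl⟩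
  exact h (s : Kbar ≃ₐ[ℚ] Kbar) hτ D m hdeg hm hqm ⟨f, hf, hDf⟩

/-- `(U)` from its divisor form. -/
theorem unipStmt_of_unipDiv (N p q : ℕ) [NeZero N] (hq : q.Prime) (hqp : ¬ q ∣ p)
    (h : ∀ A : ValuationSubring Kbar, A.LiesOverPrime q → Plan.UnipDiv A N q) :
    Top.UnipStmt N p q :=
  GalTop.unipStmt_of_divUnip N p q hq hqp fun A hA => divUnip_of_unipDiv A N q (h A hA)

variable {p : ℕ} {N : ℕ} [NeZero N] {S : Finset ℕ}
  {𝒪 : Type} [CommRing 𝒪] [IsDomain 𝒪] [IsDiscreteValuationRing 𝒪]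
  [IsAdicComplete (IsLocalRing.maximalIdeal 𝒪) 𝒪]
  {θ : CuspForm.heckeAlgebra N 2 (↑S : Set ℕ) →+* IsLocalRing.ResidueField 𝒪}
  {T : Type} [CommRing T] [IsLocalRing T] [IsNoetherianRing T]
  [IsAdicComplete (IsLocalRing.maximalIdeal T) T] [Algebra 𝒪 T] [IsLocalHom (algebraMap 𝒪 T)]
  [Module.Finite 𝒪 T] [Module.Free 𝒪 T]

/-- **The frozen S34 conclusion from the divisor form of `(U)`** at every valuation ring over
`q`. -/
theorem result_of_unipDiv [CharZero 𝒪] (hp : p.Prime)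
    (hp𝒪 : (p : 𝒪) ∈ IsLocalRing.maximalIdeal 𝒪) (hpS : p ∈ S)
    (hNS : ∀ q : ℕ, q.Prime → q ∣ N → q ∈ S)
    (H : CuspForm.HeckeGaloisRepDatum N (↑S : Set ℕ) 𝒪 θ T)
    (q : ℕ) (hq : q.Prime) (hqp : q ≠ p)
    (hU : ∀ A : ValuationSubring Kbar, A.LiesOverPrime q → Plan.UnipDiv A N q) :
    H.ρ.IsUnipotentOnInertiaAt q :=
  haveI := Fermat.Agent.S37.HeckeInputs.hasPrincipalDivisors_FN N
  Top.result_of_plan (Fermat.Agent.P5.CoreT.coreAll N p)
    Fermat.Agent.Lib.WeakCheb.weakChebotarev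
    (Fermat.Agent.S31.Final.heckeShift_of_planLambda hNS hp (Fermat.Agent.P5.Lambda.lambdaStmt N))
    hp hp𝒪 hpS hNS H q hq hqp
    (unipStmt_of_unipDiv N p q hq
      (fun hd => hqp ((Nat.prime_dvd_prime_iff_eq hq hp).mp hd)) hU)

end Fermat.Agent.S34.Assemble
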