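import Mathlib

/-!
# S34 (P6) — [CR] cusp regularity, part (CR0): the abstract dimension counts (helper86)

Pure linear algebra over a field `k`, no modular vocabulary.

* `sup_eq_of_finrank`    : an injective map `f` with `f A ≤ C`, `f⁻¹ C' ∩ A ≤ A'` and
                           `dim C - dim C' ≤ dim A - dim A'` satisfies `C = f A ⊔ C'`
                           (graded surjectivity from graded injectivity + equal graded dimensions).
* `inf_eq_of_sup_of_finrank` : one step of the filtration count:
                           `W ≤ B ⊔ W'`, `dim B - dim B' ≤ dim W - dim W'` ⟹ `B ⊓ W' = B'`.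
* `inf_eq_of_forall`     : two increasing filtrations `Bb c ≤ W c`; if for `c ≥ c₀`
                           `W (c+1) ≤ Bb (c+1) ⊔ W c` and
                           `dim Bb (c+1) - dim Bb c ≤ dim W (c+1) - dim W c`, then
                           `Bb c' ⊓ W c = Bb c` for all `c' ≥ c ≥ c₀`.
-/

set_option autoImplicit false

namespace Fermat.Agent.S34.CuspReg

open Module

variable {k V V' : Type*} [Field k] [AddCommGroup V] [Module k V] [AddCommGroup V'] [Module k V']

/-- Graded surjectivity from graded injectivity and the dimension count. -/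
theorem sup_eq_of_finrank (f : V →ₗ[k] V') (hf : Function.Injective f)
    (A A' : Submodule k V) (C C' : Submodule k V') [FiniteDimensional k A] [FiniteDimensional k C]
    (hA : A' ≤ A) (hC : C' ≤ C) (hfA : A.map f ≤ C)
    (hdiv : ∀ a ∈ A, f a ∈ C' → a ∈ A')
    (hcount : finrank k C + finrank k A' ≤ finrank k C' + finrank k A) :
    C = A.map f ⊔ C' := by
  have hA'fin : FiniteDimensional k A' := Submodule.finiteDimensional_of_le hA
  have hC'fin : FiniteDimensional k C' := Submodule.finiteDimensional_of_le hC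
  have hle : A.map f ⊔ C' ≤ C := sup_le hfA hC
  have hinf : A.map f ⊓ C' ≤ A'.map f := by
    rintro y ⟨⟨a, ha, rfl⟩, hy⟩
    exact ⟨a, hdiv a ha hy, rfl⟩
  have e1 : finrank k ↥(A.map f) = finrank k A :=
    (Submodule.equivMapOfInjective f hf A).symm.finrank_eq
  have e2 : finrank k ↥(A'.map f) = finrank k A' :=
    (Submodule.equivMapOfInjective f hf A').symm.finrank_eq
  have h3 : finrank k ↥(A.map f ⊓ C') ≤ finrank k ↥(A'.map f) :=
    Submodule.finrank_mono hinf
  have h4 := Submodule.finrank_sup_add_finrank_inf_eq (A.map f) C'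
  symm
  apply Submodule.eq_of_le_of_finrank_le hle
  omega

/-- One step of the filtration count. -/
theorem inf_eq_of_sup_of_finrank (B B' W W' : Submodule k V) [FiniteDimensional k W]
    (hB : B' ≤ B) (hBW' : B' ≤ W') (hBW : B ≤ W) (hW : W' ≤ W)
    (honto : W ≤ B ⊔ W')
    (hcount : finrank k B + finrank k W' ≤ finrank k B' + finrank k W) :
    B ⊓ W' = B' := by
  have hBfin : FiniteDimensional k B := Submodule.finiteDimensional_of_le hBW
  have hW'fin : FiniteDimensional k W' := Submodule.finiteDimensional_of_le hW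
  have hsup : B ⊔ W' = W := le_antisymm (sup_le hBW hW) honto
  have h1 := Submodule.finrank_sup_add_finrank_inf_eq B W'
  rw [hsup] at h1
  have hle : B' ≤ B ⊓ W' := le_inf hB hBW'
  have hfin : FiniteDimensional k ↥(B ⊓ W') :=
    Submodule.finiteDimensional_of_le (inf_le_left.trans hBW)
  symm
  apply Submodule.eq_of_le_of_finrank_le hle
  omega

/-- **(CR0)** the filtration count: `Bb c' ⊓ W c = Bb c` for `c' ≥ c ≥ c₀`. -/
theorem inf_eq_of_forall (Bb W : ℕ → Submodule k V) (c₀ : ℕ)
    (hBmono : Monotone Bb) (hWmono : Monotone W) (hBW : ∀ c, Bb c ≤ W c)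
    (hfin : ∀ c, FiniteDimensional k (W c))
    (honto : ∀ c, c₀ ≤ c → W (c + 1) ≤ Bb (c + 1) ⊔ W c)
    (hcount : ∀ c, c₀ ≤ c →
      finrank k (Bb (c + 1)) + finrank k (W c) ≤ finrank k (Bb c) + finrank k (W (c + 1))) :
    ∀ c c', c₀ ≤ c → c ≤ c' → Bb c' ⊓ W c = Bb c := by
  have step : ∀ c, c₀ ≤ c → Bb (c + 1) ⊓ W c = Bb c := fun c hc =>
    haveI := hfin (c + 1)
    inf_eq_of_sup_of_finrank (Bb (c + 1)) (Bb c) (W (c + 1)) (W c) (hBmono (Nat.le_succ c))
      (hBW c) (hBW (c + 1)) (hWmono (Nat.le_succ c)) (honto c hc) (hcount c hc)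
  intro c c' hc hcc'
  obtain ⟨d, rfl⟩ := Nat.exists_eq_add_of_le hcc'
  clear hcc'
  induction d with
  | zero => exact inf_eq_left.2 (hBW c)
  | succ d ih =>
    have h1 : W c ≤ W (c + d) := hWmono (Nat.le_add_right c d)
    calc Bb (c + (d + 1)) ⊓ W c = Bb (c + d + 1) ⊓ (W (c + d) ⊓ W c) := by
          rw [inf_eq_right.2 h1]; rfl
      _ = (Bb (c + d + 1) ⊓ W (c + d)) ⊓ W c := by rw [inf_assoc]
      _ = Bb (c + d) ⊓ W c := by rw [step (c + d) (hc.trans (Nat.le_add_right c d))]
      _ = Bb c := ih

end Fermat.Agent.S34.CuspReg
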