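import Mathlib
import Fermat.Agent.S18.WJCalc
import Fermat.Agent.S34.CuspRegCount

/-!
# S34 (P6) — [CR] cusp regularity, part (CR1): graded calculus of `WJ` (helper86)

S18 vocabulary only (`Plan.WJ κ L c = {y ∈ L | y integral over κ[j], j⁻ᶜ y integral over O_∞}`),
for an arbitrary field `κ` and intermediate field `L ∋ j`.

`omegaJ κ r n := (j - j^(r+1)) * j^n` (for P6: `r + 1 = q²`, `n = q (c - q)`, the first component of
`Red (z * j_q^(c-q))`).  Since `j⁻⁽ⁿ⁺ʳ⁺¹⁾ ω = j⁻ʳ - 1` is a unit of `O_∞` (`r ≥ 1`):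

* `omegaJ_mul_mem_WJ`   : `a ∈ WJ m ⟹ ω a ∈ WJ (m + (n + r + 1))`;
* `mem_WJ_of_omegaJ_mul`: `a ∈ L` integral over `κ[j]`, `ω a ∈ WJ (t + (n + r + 1))` ⟹ `a ∈ WJ t`;
* `exists_sub_omegaJ_mul_mem` : given the exact graded dimensions `(R)`
  `dim WJ (i+1) = dim WJ i + ψ` (`i ≥ m₀`), every `x ∈ WJ (m + 1 + N)` (`N = n + r + 1`, `m ≥ m₀`) is
  `ω a + x'` with `a ∈ WJ (m + 1)`, `x' ∈ WJ (m + N)`;
* `exists_sub_omegaJ_mul_mem_window` : the same over a window of `s` steps.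
-/

set_option autoImplicit false
set_option maxHeartbeats 400000

noncomputable section

namespace Fermat.Agent.S34.CuspReg

open ModularCurve Fermat.Agent.S18.Plan Fermat.Agent.S18 Module

variable {κ : Type} [Field κ]

/-- `ω = (j - j^(r+1)) * j^n`. -/
def omegaJ (κ : Type) [Field κ] (r n : ℕ) : LaurentSeries κ :=
  (jqModC κ - jqModC κ ^ (r + 1)) * jqModC κ ^ n

/-- `j⁻⁽ⁿ⁺ʳ⁺¹⁾ ω = j⁻ʳ - 1`. -/
theorem inv_j_pow_mul_omegaJ (r n : ℕ) :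
    (jqModC κ)⁻¹ ^ (n + r + 1) * omegaJ κ r n = (jqModC κ)⁻¹ ^ r - 1 := by
  have hj : jqModC κ ≠ 0 := WJCalc.j_ne_zero
  have h1 : (jqModC κ)⁻¹ ^ (n + r + 1) * jqModC κ ^ (n + r + 1) = 1 :=
    WJCalc.inv_j_pow_mul_j_pow _
  have h2 : (jqModC κ)⁻¹ ^ (n + r + 1) * jqModC κ ^ (n + 1) = (jqModC κ)⁻¹ ^ r := by
    have e : n + r + 1 = r + (n + 1) := by ring
    rw [e, pow_add, mul_assoc, WJCalc.inv_j_pow_mul_j_pow, mul_one]
  have e3 : omegaJ κ r n = jqModC κ ^ (n + 1) - jqModC κ ^ (n + r + 1) := by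
    unfold omegaJ; ring
  rw [e3, mul_sub, h1, h2]

/-- `j⁻ʳ - 1` is a unit of `O_∞` for `r ≥ 1`. -/
theorem exists_inv_mem_OinfJ {r : ℕ} (hr : 0 < r) :
    ∃ v : LaurentSeries κ, v ∈ OinfJ κ ∧ v * ((jqModC κ)⁻¹ ^ r - 1) = 1 := by
  have hmem : (jqModC κ)⁻¹ ^ r - 1 ∈ OinfJ κ :=
    (OinfJ κ).sub_mem (WJCalc.inv_j_pow_mem_OinfJ r) (OinfJ κ).one_mem
  obtain ⟨p₁, hp₁⟩ := (WJCalc.inv_j_mem_OinfJ (κ := κ)).2
  have hc0 : PowerSeries.constantCoeff p₁ = 0 := by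
    have h1 : ((jqModC κ)⁻¹).coeff 0 = 0 :=
      HahnSeries.coeff_eq_zero_of_lt_order (by rw [WJCalc.order_inv_j]; norm_num)
    rw [← hp₁] at h1
    have h2 : (HahnSeries.ofPowerSeries ℤ κ p₁).coeff 0 = PowerSeries.coeff 0 p₁ := by
      have := PowerSeries.coeff_coe (R := κ) p₁ (0 : ℤ)
      simpa using this
    rw [← PowerSeries.coeff_zero_eq_constantCoeff_apply, ← h2]
    exact h1
  set p : PowerSeries κ := p₁ ^ r - 1 with hp
  have hpc : PowerSeries.constantCoeff p ≠ 0 := by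
    rw [hp, map_sub, map_pow, hc0, zero_pow hr.ne', map_one, zero_sub]
    exact neg_ne_zero.2 one_ne_zero
  have hpx : HahnSeries.ofPowerSeries ℤ κ p = (jqModC κ)⁻¹ ^ r - 1 := by
    rw [hp, map_sub, map_pow, map_one, hp₁]
  have hx0 : (jqModC κ)⁻¹ ^ r - 1 ≠ 0 := by
    rw [← hpx]
    intro h0
    apply hpc
    have : p = 0 := by
      apply HahnSeries.ofPowerSeries_injective (Γ := ℤ)
      rw [h0, map_zero]
    rw [this, map_zero]
  refine ⟨((jqModC κ)⁻¹ ^ r - 1)⁻¹, ⟨?_, ?_⟩, inv_mul_cancel₀ hx0⟩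
  · exact (IntermediateField.adjoin κ {jqModC κ}).inv_mem hmem.1
  · refine ⟨p⁻¹, ?_⟩
    have h1 : HahnSeries.ofPowerSeries ℤ κ p⁻¹ * ((jqModC κ)⁻¹ ^ r - 1) = 1 := by
      rw [← hpx, ← map_mul, PowerSeries.inv_mul_cancel p hpc, map_one]
    exact eq_inv_of_mul_eq_one_left h1

variable {L : IntermediateField κ (LaurentSeries κ)}

theorem omegaJ_mem_WJ (hj : jqModC κ ∈ L) (r n : ℕ) : omegaJ κ r n ∈ WJ κ L (n + r + 1) := by
  have e3 : omegaJ κ r n = jqModC κ ^ (n + 1) - jqModC κ ^ (n + r + 1) := by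
    unfold omegaJ; ring
  rw [e3]
  exact (WJ κ L (n + r + 1)).sub_mem
    (WJCalc.WJ_mono (by omega) (WJCalc.j_pow_mem_WJ hj (n + 1)))
    (WJCalc.j_pow_mem_WJ hj (n + r + 1))

theorem omegaJ_mem_polyJ (r n : ℕ) : omegaJ κ r n ∈ polyJ κ := by
  unfold omegaJ
  exact (polyJ κ).mul_mem
    ((polyJ κ).sub_mem WJCalc.j_mem_polyJ ((polyJ κ).pow_mem WJCalc.j_mem_polyJ _))
    ((polyJ κ).pow_mem WJCalc.j_mem_polyJ _)

theorem omegaJ_ne_zero {r : ℕ} (hr : 0 < r) (n : ℕ) : omegaJ κ r n ≠ 0 := by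
  intro h0
  have h1 := inv_j_pow_mul_omegaJ (κ := κ) r n
  rw [h0, mul_zero] at h1
  obtain ⟨v, -, hv⟩ := exists_inv_mem_OinfJ (κ := κ) hr
  rw [← h1, mul_zero] at hv
  exact zero_ne_one hv

/-- `a ∈ WJ m ⟹ ω a ∈ WJ (m + (n + r + 1))`. -/
theorem omegaJ_mul_mem_WJ (hj : jqModC κ ∈ L) (r n : ℕ) {m : ℕ} {a : LaurentSeries κ}
    (ha : a ∈ WJ κ L m) : omegaJ κ r n * a ∈ WJ κ L (m + (n + r + 1)) := by
  have := WJCalc.mul_mem_WJ (omegaJ_mem_WJ hj r n) ha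
  rwa [add_comm] at this

/-- `a ∈ L` integral over `κ[j]` and `ω a ∈ WJ (t + (n + r + 1))` ⟹ `a ∈ WJ t`. -/
theorem mem_WJ_of_omegaJ_mul {r : ℕ} (hr : 0 < r) (n : ℕ) {t : ℕ} {a : LaurentSeries κ}
    (haL : a ∈ L) (haI : IsIntegral (polyJ κ) a)
    (h : omegaJ κ r n * a ∈ WJ κ L (t + (n + r + 1))) : a ∈ WJ κ L t := by
  refine ⟨haL, haI, ?_⟩
  obtain ⟨v, hv, hv1⟩ := exists_inv_mem_OinfJ (κ := κ) hr
  have h3 := h.2.2
  have e : (jqModC κ)⁻¹ ^ t * a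
      = v * ((jqModC κ)⁻¹ ^ (t + (n + r + 1)) * (omegaJ κ r n * a)) := by
    have e1 : (jqModC κ)⁻¹ ^ (t + (n + r + 1)) * (omegaJ κ r n * a)
        = ((jqModC κ)⁻¹ ^ (n + r + 1) * omegaJ κ r n) * ((jqModC κ)⁻¹ ^ t * a) := by
      rw [pow_add]; ring
    rw [e1, inv_j_pow_mul_omegaJ, ← mul_assoc, hv1, one_mul]
  rw [e]
  exact (WJCalc.isIntegral_of_mem_OinfJ hv).mul h3

/-- Multiplication by `ω` as a `κ`-linear map of `κ((T))`. -/
def mulOmega (ω : LaurentSeries κ) : LaurentSeries κ →ₗ[κ] LaurentSeries κ where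
  toFun y := ω * y
  map_add' := mul_add ω
  map_smul' a y := by
    simp only [RingHom.id_apply]
    rw [← HahnSeries.C_mul_eq_smul, ← HahnSeries.C_mul_eq_smul]
    ring

@[simp] theorem mulOmega_apply (ω y : LaurentSeries κ) : mulOmega ω y = ω * y := rfl

theorem mulOmega_injective {ω : LaurentSeries κ} (hω : ω ≠ 0) :
    Function.Injective (mulOmega ω) := fun _ _ h => mul_left_cancel₀ hω h

/-- One graded step: if `dim WJ (m+1) - dim WJ m = dim WJ (m+1+N) - dim WJ (m+N)` (`N = n+r+1`),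
then `WJ (m+1+N) = ω WJ (m+1) + WJ (m+N)`. -/
theorem exists_sub_omegaJ_mul_mem_step (hj : jqModC κ ∈ L) {r : ℕ} (hr : 0 < r) (n m : ℕ)
    (hfin : Module.Finite κ (WJ κ L (m + 1 + (n + r + 1))))
    (hcount : finrank κ (WJ κ L (m + 1 + (n + r + 1))) + finrank κ (WJ κ L m)
      ≤ finrank κ (WJ κ L (m + (n + r + 1))) + finrank κ (WJ κ L (m + 1)))
    {x : LaurentSeries κ} (hx : x ∈ WJ κ L (m + 1 + (n + r + 1))) :
    ∃ a ∈ WJ κ L (m + 1), x - omegaJ κ r n * a ∈ WJ κ L (m + (n + r + 1)) := by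
  have hω : omegaJ κ r n ≠ 0 := omegaJ_ne_zero hr n
  have hmap : (WJ κ L (m + 1)).map (mulOmega (omegaJ κ r n)) ≤ WJ κ L (m + 1 + (n + r + 1)) := by
    rintro y ⟨a, ha, rfl⟩
    exact omegaJ_mul_mem_WJ hj r n ha
  have : FiniteDimensional κ (WJ κ L (m + 1 + (n + r + 1))) := hfin
  have : FiniteDimensional κ (WJ κ L (m + 1)) := by
    have e := Submodule.equivMapOfInjective (mulOmega (omegaJ κ r n)) (mulOmega_injective hω)
      (WJ κ L (m + 1))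
    have : FiniteDimensional κ ↥((WJ κ L (m + 1)).map (mulOmega (omegaJ κ r n))) :=
      Submodule.finiteDimensional_of_le hmap
    exact e.symm.finiteDimensional
  have hE := sup_eq_of_finrank (mulOmega (omegaJ κ r n)) (mulOmega_injective hω)
    (WJ κ L (m + 1)) (WJ κ L m) (WJ κ L (m + 1 + (n + r + 1))) (WJ κ L (m + (n + r + 1)))
    (WJCalc.WJ_mono (Nat.le_succ m)) (WJCalc.WJ_mono (by omega)) hmap
    (fun a ha h => mem_WJ_of_omegaJ_mul hr n ha.1 ha.2.1 h) hcount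
  rw [hE] at hx
  obtain ⟨y, ⟨a, ha, rfl⟩, x', hx', rfl⟩ := Submodule.mem_sup.1 hx
  refine ⟨a, ha, ?_⟩
  rw [mulOmega_apply, add_sub_cancel_left]
  exact hx'

/-- **(CR1)** the window: under `(R)` (`dim WJ (i+1) = dim WJ i + ψ` for `i ≥ m₀`), every
`x ∈ WJ (m + s + N)` is `ω a + x'` with `a ∈ WJ (m + s)`, `x' ∈ WJ (m + N)` (`m ≥ m₀`,
`N = n + r + 1`). -/
theorem exists_sub_omegaJ_mul_mem_window (hj : jqModC κ ∈ L) {r : ℕ} (hr : 0 < r) (n : ℕ)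
    (ψ m₀ : ℕ)
    (hR : ∀ i, m₀ ≤ i → Module.Finite κ (WJ κ L i) ∧
      finrank κ (WJ κ L (i + 1)) = finrank κ (WJ κ L i) + ψ)
    (m : ℕ) (hm : m₀ ≤ m) (s : ℕ) {x : LaurentSeries κ}
    (hx : x ∈ WJ κ L (m + s + (n + r + 1))) :
    ∃ a ∈ WJ κ L (m + s), x - omegaJ κ r n * a ∈ WJ κ L (m + (n + r + 1)) := by
  induction s generalizing x with
  | zero =>
    refine ⟨0, (WJ κ L (m + 0)).zero_mem, ?_⟩
    rw [mul_zero, sub_zero]
    exact hx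
  | succ s ih =>
    have h1 := hR (m + s) (hm.trans (Nat.le_add_right m s))
    have h2 := hR (m + s + (n + r + 1)) (hm.trans (by omega))
    have e : m + s + (n + r + 1) + 1 = m + s + 1 + (n + r + 1) := by ring
    rw [e] at h2
    have h3 := hR (m + s + 1 + (n + r + 1)) (hm.trans (by omega))
    obtain ⟨a₁, ha₁, hx₁⟩ := exists_sub_omegaJ_mul_mem_step hj hr n (m + s) h3.1
      (by rw [h2.2, h1.2]; omega) (x := x) hx
    obtain ⟨a₂, ha₂, hx₂⟩ := ih hx₁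
    refine ⟨a₁ + a₂, (WJ κ L (m + (s + 1))).add_mem ha₁
      (WJCalc.WJ_mono (by omega) ha₂), ?_⟩
    have e2 : x - omegaJ κ r n * (a₁ + a₂) = x - omegaJ κ r n * a₁ - omegaJ κ r n * a₂ := by ring
    rw [e2]
    exact hx₂

/-- **(CR1), P6 shape.** With `ω_c := (j - j^(q²)) * j^(q (c - q))` (pole order `q c`): under `(R)`,
for `c ≥ m₀ + q + 1` every `x ∈ WJ (c (q+1))` is `ω_c a + x'` with `a ∈ WJ c` and
`x' ∈ WJ ((c-1)(q+1))`. -/
theorem exists_sub_omega_mul_mem (hj : jqModC κ ∈ L) (q : ℕ) (hq : 2 ≤ q) (ψ m₀ : ℕ)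
    (hR : ∀ i, m₀ ≤ i → Module.Finite κ (WJ κ L i) ∧
      finrank κ (WJ κ L (i + 1)) = finrank κ (WJ κ L i) + ψ)
    (c : ℕ) (hc : m₀ + q + 1 ≤ c) {x : LaurentSeries κ} (hx : x ∈ WJ κ L (c * (q + 1))) :
    ∃ a ∈ WJ κ L c,
      x - (jqModC κ - jqModC κ ^ (q ^ 2)) * jqModC κ ^ (q * (c - q)) * a
        ∈ WJ κ L ((c - 1) * (q + 1)) := by
  have hq2 : 1 ≤ q ^ 2 := Nat.one_le_pow _ _ (by omega)
  have hqq : q * q ≤ q * c := Nat.mul_le_mul_left q (by omega)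
  have hN : q * (c - q) + (q ^ 2 - 1) + 1 = q * c := by
    have h1 : q * (c - q) = q * c - q * q := Nat.mul_sub q c q
    have h2 : q ^ 2 = q * q := pow_two q
    rw [h1, h2]
    rw [h2] at hq2
    generalize q * q = A at *
    generalize q * c = B at *
    omega
  have e1 : c - q - 1 + (q + 1) + (q * (c - q) + (q ^ 2 - 1) + 1) = c * (q + 1) := by
    rw [hN, Nat.mul_add, mul_one, mul_comm c q]; omega
  have e2 : c - q - 1 + (q * (c - q) + (q ^ 2 - 1) + 1) = (c - 1) * (q + 1) := by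
    rw [hN, Nat.sub_mul, one_mul, Nat.mul_add, mul_one, mul_comm c q]; omega
  have e3 : c - q - 1 + (q + 1) = c := by omega
  have hr : 0 < q ^ 2 - 1 := by
    have : 2 ^ 2 ≤ q ^ 2 := Nat.pow_le_pow_left hq 2
    omega
  have hx' : x ∈ WJ κ L (c - q - 1 + (q + 1) + (q * (c - q) + (q ^ 2 - 1) + 1)) := by
    rw [e1]; exact hx
  obtain ⟨a, ha, h⟩ := exists_sub_omegaJ_mul_mem_window hj hr (q * (c - q)) ψ m₀ hR
    (c - q - 1) (by omega) (q + 1) hx'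
  rw [e3] at ha
  rw [e2] at h
  refine ⟨a, ha, ?_⟩
  have e4 : omegaJ κ (q ^ 2 - 1) (q * (c - q))
      = (jqModC κ - jqModC κ ^ (q ^ 2)) * jqModC κ ^ (q * (c - q)) := by
    unfold omegaJ
    rw [Nat.sub_add_cancel hq2]
  rw [← e4]
  exact h

end Fermat.Agent.S34.CuspReg

end
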