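import Mathlib
import Fermat.Agent.S34.CuspRegWJ

/-!
# S34 (P6) — [CR] cusp regularity, part (CR2): the statement, in hypothesis form (helper86)

`κ` a field, `L ∋ j` an intermediate field of `κ((T))` (instantiation: `κ := kk A`,
`L := Fk A M`, `M` the good level), `q ≥ 2`, and

* `Wp κ L q c := WJ (c (q+1)) × WJ (c (q+1)) ⊆ κ((T)) × κ((T))`                 (the `W(c)` of #2479);
* `Bb : ℕ → Submodule κ (κ((T)) × κ((T)))` an increasing family with `Bb c ≤ Wp c`   (`B̄(c)`, [INCL]);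
* `(R)`     : `dim WJ (i+1) = dim WJ i + ψ` for `i ≥ m₀`                           ([RR] over `κ`);
* `hfam1/2` : for `c ≥ c₁` and `a ∈ WJ c`: `(ω_c a, 0) ∈ Bb c` and `(0, ω_c a) ∈ Bb c`,
              `ω_c := (j - j^(q²)) j^(q (c - q))`   (the two families `z h j_q^(c-q)` and its
              `σ⁻¹`-conjugate of Step A);
* `hcount`  : `dim Bb (c+1) ≤ dim Bb c + 2 (q+1) ψ` for `c ≥ c₁`
              (`(Dim)` + `l((c+1)E) - l(cE) ≤ deg E`).

Then `cuspReg_of`: `∃ c₀, ∀ c' ≥ c ≥ c₀, Bb c' ⊓ Wp c = Bb c`.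
-/

set_option autoImplicit false
set_option maxHeartbeats 400000

noncomputable section

namespace Fermat.Agent.S34.CuspReg

open ModularCurve Fermat.Agent.S18.Plan Fermat.Agent.S18 Module

variable {κ : Type} [Field κ]

/-- `W(c) = WJ (c (q+1)) × WJ (c (q+1))`. -/
def Wp (κ : Type) [Field κ] (L : IntermediateField κ (LaurentSeries κ)) (q c : ℕ) :
    Submodule κ (LaurentSeries κ × LaurentSeries κ) :=
  (WJ κ L (c * (q + 1))).prod (WJ κ L (c * (q + 1)))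

variable {L : IntermediateField κ (LaurentSeries κ)}

theorem mem_Wp {q c : ℕ} {x : LaurentSeries κ × LaurentSeries κ} :
    x ∈ Wp κ L q c ↔ x.1 ∈ WJ κ L (c * (q + 1)) ∧ x.2 ∈ WJ κ L (c * (q + 1)) := Iff.rfl

theorem Wp_mono (q : ℕ) : Monotone (Wp κ L q) := by
  intro c c' h x hx
  exact ⟨WJCalc.WJ_mono (Nat.mul_le_mul_right _ h) hx.1,
    WJCalc.WJ_mono (Nat.mul_le_mul_right _ h) hx.2⟩

/-- The obvious linear equivalence `p.prod p' ≃ p × p'`. -/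
def prodEquivL {M M' : Type*} [AddCommGroup M] [Module κ M] [AddCommGroup M'] [Module κ M']
    (p : Submodule κ M) (p' : Submodule κ M') : ↥(p.prod p') ≃ₗ[κ] ↥p × ↥p' where
  toFun x := (⟨x.1.1, x.2.1⟩, ⟨x.1.2, x.2.2⟩)
  invFun y := ⟨(y.1.1, y.2.1), ⟨y.1.2, y.2.2⟩⟩
  map_add' _ _ := rfl
  map_smul' _ _ := rfl
  left_inv _ := rfl
  right_inv _ := rfl

theorem finite_WJ_of (ψ m₀ : ℕ)
    (hR : ∀ i, m₀ ≤ i → Module.Finite κ (WJ κ L i) ∧
      finrank κ (WJ κ L (i + 1)) = finrank κ (WJ κ L i) + ψ) (i : ℕ) :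
    Module.Finite κ (WJ κ L i) := by
  have := (hR (max i m₀) (le_max_right _ _)).1
  exact Submodule.finiteDimensional_of_le (WJCalc.WJ_mono (le_max_left i m₀))

theorem finrank_WJ_add (ψ m₀ : ℕ)
    (hR : ∀ i, m₀ ≤ i → Module.Finite κ (WJ κ L i) ∧
      finrank κ (WJ κ L (i + 1)) = finrank κ (WJ κ L i) + ψ) (i : ℕ) (hi : m₀ ≤ i) (s : ℕ) :
    finrank κ (WJ κ L (i + s)) = finrank κ (WJ κ L i) + s * ψ := by
  induction s with
  | zero => simp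
  | succ s ih =>
    have := (hR (i + s) (hi.trans (Nat.le_add_right i s))).2
    rw [← add_assoc, this, ih]; ring

theorem finrank_Wp (ψ m₀ : ℕ)
    (hR : ∀ i, m₀ ≤ i → Module.Finite κ (WJ κ L i) ∧
      finrank κ (WJ κ L (i + 1)) = finrank κ (WJ κ L i) + ψ) (q c : ℕ) :
    Module.Finite κ (Wp κ L q c) ∧
      finrank κ (Wp κ L q c) = 2 * finrank κ (WJ κ L (c * (q + 1))) := by
  have hfin := finite_WJ_of ψ m₀ hR (c * (q + 1))
  have e := prodEquivL (WJ κ L (c * (q + 1))) (WJ κ L (c * (q + 1)))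
  refine ⟨Module.Finite.equiv e.symm, ?_⟩
  have h1 : finrank κ (Wp κ L q c)
      = finrank κ (↥(WJ κ L (c * (q + 1))) × ↥(WJ κ L (c * (q + 1)))) := e.finrank_eq
  rw [h1, Module.finrank_prod]; ring

/-- **[CR] (CR2), hypothesis form.** -/
theorem cuspReg_of (hj : jqModC κ ∈ L) (q : ℕ) (hq : 2 ≤ q) (ψ m₀ : ℕ)
    (hR : ∀ i, m₀ ≤ i → Module.Finite κ (WJ κ L i) ∧
      finrank κ (WJ κ L (i + 1)) = finrank κ (WJ κ L i) + ψ)
    (Bb : ℕ → Submodule κ (LaurentSeries κ × LaurentSeries κ)) (hBmono : Monotone Bb)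
    (hBW : ∀ c, Bb c ≤ Wp κ L q c) (c₁ : ℕ)
    (hfam1 : ∀ c, c₁ ≤ c → ∀ a ∈ WJ κ L c,
      ((jqModC κ - jqModC κ ^ (q ^ 2)) * jqModC κ ^ (q * (c - q)) * a, (0 : LaurentSeries κ))
        ∈ Bb c)
    (hfam2 : ∀ c, c₁ ≤ c → ∀ a ∈ WJ κ L c,
      ((0 : LaurentSeries κ), (jqModC κ - jqModC κ ^ (q ^ 2)) * jqModC κ ^ (q * (c - q)) * a)
        ∈ Bb c)
    (hcount : ∀ c, c₁ ≤ c → finrank κ (Bb (c + 1)) ≤ finrank κ (Bb c) + 2 * (q + 1) * ψ) :
    ∃ c₀, ∀ c c', c₀ ≤ c → c ≤ c' → Bb c' ⊓ Wp κ L q c = Bb c := by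
  refine ⟨max c₁ (m₀ + q + 1), ?_⟩
  refine inf_eq_of_forall Bb (Wp κ L q) (max c₁ (m₀ + q + 1)) hBmono (Wp_mono q) hBW
    (fun c => (finrank_Wp ψ m₀ hR q c).1) ?_ ?_
  · -- onto
    intro c hc x hx
    have hc1 : c₁ ≤ c + 1 := (le_max_left _ _).trans (hc.trans (Nat.le_succ c))
    have hc2 : m₀ + q + 1 ≤ c + 1 := (le_max_right _ _).trans (hc.trans (Nat.le_succ c))
    obtain ⟨a₁, ha₁, h₁⟩ := exists_sub_omega_mul_mem hj q hq ψ m₀ hR (c + 1) hc2 hx.1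
    obtain ⟨a₂, ha₂, h₂⟩ := exists_sub_omega_mul_mem hj q hq ψ m₀ hR (c + 1) hc2 hx.2
    rw [Nat.add_sub_cancel] at h₁ h₂
    set ω : LaurentSeries κ :=
      (jqModC κ - jqModC κ ^ (q ^ 2)) * jqModC κ ^ (q * (c + 1 - q)) with hω
    have e : x = ((ω * a₁, 0) + (0, ω * a₂)) + (x.1 - ω * a₁, x.2 - ω * a₂) := by
      ext <;> simp
    rw [e]
    refine Submodule.add_mem_sup ((Bb (c + 1)).add_mem (hfam1 (c + 1) hc1 a₁ ha₁)
      (hfam2 (c + 1) hc1 a₂ ha₂)) ?_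
    exact ⟨h₁, h₂⟩
  · -- count
    intro c hc
    have hc1 : c₁ ≤ c := (le_max_left _ _).trans hc
    have hm : m₀ ≤ c * (q + 1) := by
      have h1 : m₀ ≤ c := by
        have := (le_max_right c₁ (m₀ + q + 1)).trans hc
        omega
      exact h1.trans (Nat.le_mul_of_pos_right c (Nat.succ_pos q))
    have h1 := (finrank_Wp ψ m₀ hR q c).2
    have h2 := (finrank_Wp ψ m₀ hR q (c + 1)).2
    have h3 := finrank_WJ_add ψ m₀ hR (c * (q + 1)) hm (q + 1)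
    have e : (c + 1) * (q + 1) = c * (q + 1) + (q + 1) := by ring
    rw [e, h3] at h2
    have h4 := hcount c hc1
    rw [h1, h2]
    have e2 : 2 * (finrank κ ↥(WJ κ L (c * (q + 1))) + (q + 1) * ψ)
        = 2 * finrank κ ↥(WJ κ L (c * (q + 1))) + 2 * (q + 1) * ψ := by ring
    rw [e2]
    omega

end Fermat.Agent.S34.CuspReg

end
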