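import Mathlib
import Fermat.Prelude.Thm_ModularCurve_coeffMap_qExpand
import Fermat.Agent.S18.MainLemmas
import Fermat.Agent.S18.Char0
import Fermat.Agent.S18.RR0.Tower
import Fermat.Agent.S34.Plan
import Fermat.Agent.S34.CuspReg
import Fermat.Agent.S34.LiftCore2

/-!
# S34 (P6) — [CR] cusp regularity: the instance `Plan.CuspReg` (helper86)

`cuspReg` : `Plan.Levels q N' N M → Plan.Setup2 A N q M hqN O ρ → Plan.RiemannE N q M hqN →
  Plan.RiemannK A M → Plan.NumStmt q M → Plan.CuspReg A N q M hqN O ρ`.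

Proof: `CuspReg.cuspReg_of` (abstract statement, `S34/CuspReg.lean`) with
* `Bb c := ρ (L(cE) ∩ O)` as a `k`-subspace of `k((T)) × k((T))`;
* the two families `z · g · j_q^(c-q)` and `x · g' · j^(c-q)` (fields `lift₁`, `lift₂`, `exists_z`,
  `exists_x`, `ρ_j`, `ρ_jq` of `Setup2`), which lie in `L(cE)` by the product rule for `pullRR`;
* the count `dim Bb (c+1) = dim Bb c + 2 ψ(qM)` from `(Dim)` (`LiftCore2.RedData.finrank_redSp`)
  and `Plan.RiemannE`, and `ψ(qM) = (q+1) ψ(M)` (`Plan.NumStmt`).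
-/

set_option autoImplicit false
set_option maxHeartbeats 400000

noncomputable section

namespace Fermat.Agent.S34.CuspReg

open ModularCurve AlgebraicCurve Fermat.Agent.S24 Fermat.Agent.S18.Content Fermat.Agent.S18.Plan
  Fermat.Agent.S18 Module

/-! ## Products in `pullRR` -/

section Pull

variable {N N' : ℕ}

/-- `L(B₁) · L(B₂) ⊆ L(B₁ + B₂)` for pull-back Riemann–Roch spaces. -/
theorem mul_mem_pullRR_add {B₁ B₂ B : Divisor Kbar (FN N)} (hB : ∀ P, B₁ P + B₂ P ≤ B P)
    {g₁ g₂ : Om} (h1 : g₁ ∈ pullRR N N' B₁) (h2 : g₂ ∈ pullRR N N' B₂) :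
    g₁ * g₂ ∈ pullRR N N' B := by
  refine ⟨mul_mem h1.1 h2.1, fun P t ht hBt => ?_⟩
  obtain ⟨u, hu0, hu⟩ := Main.exists_ord_eq P (B₁ P)
  have h3 : IsIntegral (placeRing P) ((u : Om) * g₁) := h1.2 P u hu0 (le_of_eq hu.symm)
  have hne : t * u⁻¹ ≠ 0 := mul_ne_zero ht (inv_ne_zero hu0)
  have h4 : IsIntegral (placeRing P) (((t * u⁻¹ : FN N) : Om) * g₂) :=
    h2.2 P (t * u⁻¹) hne (by
      rw [P.ord_mul ht (inv_ne_zero hu0), P.ord_inv, hu]
      have := hB P
      omega)
  have hu0' : (u : Om) ≠ 0 := by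
    intro h0
    apply hu0
    exact Subtype.ext h0
  have e : (t : Om) * (g₁ * g₂) = ((u : Om) * g₁) * (((t * u⁻¹ : FN N) : Om) * g₂) := by
    push_cast
    field_simp
  rw [e]
  exact h3.mul h4

/-- A nonzero element `y` of `F_N` lies in `L(B)` as soon as `B ≥ (y)_∞`. -/
theorem coe_mem_pullRR_of_pole (hle : modularFunctionFieldBar N ≤ modularFunctionFieldBar N')
    {B : Divisor Kbar (FN N)} {y : FN N} (hy : y ≠ 0) (hB : ∀ P, -(P.ord y) ≤ B P) :
    (y : Om) ∈ pullRR N N' B := by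
  refine ⟨hle y.2, fun P t ht hBt => ?_⟩
  have e : (t : Om) * (y : Om) = ((t * y : FN N) : Om) := by push_cast; rfl
  rw [e]
  apply Main.isIntegral_coe P
  apply Main.mem_of_ord_nonneg P (mul_ne_zero ht hy)
  rw [P.ord_mul ht hy]
  have := hB P
  omega

end Pull

/-! ## The reduction datum of `Setup2` -/

section Red2

variable {A : ValuationSubring Kbar} {N q M : ℕ} [NeZero N] [NeZero q] {hqN : q ∣ N}
  {O : Subring Om} {ρ : O →+* Plan.R2 A}

/-- The coefficientwise `k`-algebra structure on `k((T)) × k((T))`. -/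
abbrev algR2 (A : ValuationSubring Kbar) : Algebra (kk A) (Plan.R2 A) :=
  @Prod.algebra (kk A) (Omk A) (Omk A) _ _ HahnSeries.instAlgebra _ HahnSeries.instAlgebra

/-- The abstract reduction datum of `LiftCore2` for `(O, ρ)`. -/
abbrev RD2 (A : ValuationSubring Kbar) (O : Subring Om) (ρ : O →+* Plan.R2 A) : Prop :=
  @LiftCore2.RedData Kbar Om (kk A) (Plan.R2 A) _ _ HahnSeries.instAlgebra _ _ (algR2 A)
    A (IsLocalRing.residue A) O ρ

theorem redData2 (hS : Plan.Setup2 A N q M hqN O ρ) : RD2 A O ρ :=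
  @LiftCore2.RedData.mk Kbar Om (kk A) (Plan.R2 A) _ _ HahnSeries.instAlgebra _ _ (algR2 A)
    A (IsLocalRing.residue A) O ρ
    IsLocalRing.residue_surjective
    (fun a => by
      rw [IsLocalRing.residue_eq_zero_iff, IsLocalRing.mem_maximalIdeal, mem_nonunits_iff])
    (fun c => hS.C_mem_iff c)
    (fun a h => hS.ρ_C a h)

/-- `ρ (W ∩ O)` as a `k`-subspace of `k((T)) × k((T))`. -/
def redSp2 (hS : Plan.Setup2 A N q M hqN O ρ) (W : Submodule Kbar Om) :
    Submodule (kk A) (LaurentSeries (kk A) × LaurentSeries (kk A)) :=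
  @LiftCore2.RedData.redSp Kbar Om (kk A) (Plan.R2 A) _ _ HahnSeries.instAlgebra _ _ (algR2 A)
    A (IsLocalRing.residue A) O ρ (redData2 hS) W

theorem mem_redSp2 (hS : Plan.Setup2 A N q M hqN O ρ) {W : Submodule Kbar Om}
    {x : LaurentSeries (kk A) × LaurentSeries (kk A)} :
    x ∈ redSp2 hS W ↔ x ∈ Plan.redSet O ρ W := Iff.rfl

theorem hasDim2 (hS : Plan.Setup2 A N q M hqN O ρ) :
    @LiftCore2.HasDim Kbar Om (Plan.R2 A) _ _ HahnSeries.instAlgebra _ (kk A) _ (algR2 A)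
      O ρ (Main.fieldSub (M * q)) := by
  intro W hW hfin
  exact hS.dim W (fun w hw => hW hw) hfin

/-- **(Dim)** for `(O, ρ)`. -/
theorem finrank_redSp2 (hS : Plan.Setup2 A N q M hqN O ρ) {W : Submodule Kbar Om}
    (hW : ∀ w ∈ W, w ∈ modularFunctionFieldBar (M * q)) [Module.Finite Kbar W] :
    Module.Finite (kk A) (redSp2 hS W) ∧ finrank (kk A) (redSp2 hS W) = finrank Kbar W :=
  @LiftCore2.RedData.finrank_redSp Kbar Om (kk A) (Plan.R2 A) _ _ HahnSeries.instAlgebra _ _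
    (algR2 A) A (IsLocalRing.residue A) O ρ (redData2 hS) (Main.fieldSub (M * q))
    (hasDim2 hS) W (fun w hw => hW w hw) _

end Red2

/-! ## The instance -/

section Inst

variable {A : ValuationSubring Kbar} {N q M : ℕ} [NeZero N] [NeZero q] {hqN : q ∣ N}
  {O : Subring Om} {ρ : O →+* Plan.R2 A}

theorem coe_jBarLevel_eq : ((jBarLevel N q hqN : FN N) : Om) = qExpand Kbar q jK := by
  show coeffEmb Kbar (qExpand ℚ q jq) = qExpand Kbar q (jqModC Kbar)
  rw [coeffEmb, ModularCurve.coeffMap_qExpand, ← jqModC_rat, coeffMap_jqModC]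

/-- **[CR]**, core form: `Plan.CuspReg` from `Setup2`, `RiemannE`, `RiemannK`, `NumStmt`. -/
theorem cuspReg_core [NeZero (M * q)] (hq : q.Prime) (hqM : ¬ q ∣ M) (hNdvd : N ∣ M * q)
    (hS : Plan.Setup2 A N q M hqN O ρ) (hRE : Plan.RiemannE N q M hqN)
    (hRK : Plan.RiemannK A M) (hNum : Plan.NumStmt q M) :
    Plan.CuspReg A N q M hqN O ρ := by
  intro E hE
  have hle : modularFunctionFieldBar N ≤ modularFunctionFieldBar (M * q) :=
    RR0.modularFunctionFieldBar_le hNdvd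
  -- the divisors `Cj`, `Cq`
  obtain ⟨Cj, hCj, -⟩ := (Char0.char0Stmt N).2.2
  obtain ⟨Cq, hCqdef⟩ : ∃ Cq : Divisor Kbar (FN N), Cq = E - Cj := ⟨_, rfl⟩
  have hCq : Plan.IsPoleJq N q hqN Cq := by
    intro P
    rw [hCqdef, Finsupp.sub_apply, hE P, hCj P]
    ring
  have hEP : ∀ P, E P = Cj P + Cq P := by
    intro P
    rw [hE P, hCj P, hCq P]
  have hCj0 : ∀ P, 0 ≤ Cj P := fun P => by rw [hCj P]; exact le_max_left _ _
  have hCq0 : ∀ P, 0 ≤ Cq P := fun P => by rw [hCq P]; exact le_max_left _ _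
  -- the data
  obtain ⟨m₁, hl1⟩ := hS.lift₁
  obtain ⟨m₂, hl2⟩ := hS.lift₂
  obtain ⟨z, hz, hρz⟩ := hS.exists_z Cq hCq
  obtain ⟨x, hx, hρx⟩ := hS.exists_x Cj hCj
  obtain ⟨hjO, hρj⟩ := hS.ρ_j
  obtain ⟨hjqO, hρjq⟩ := hS.ρ_jq
  obtain ⟨cE, hREc⟩ := hRE E hE
  obtain ⟨m₀, hRKm⟩ := hRK
  obtain ⟨hψ, -⟩ := hNum hq hqM
  -- `j`, `j_q` in `L(Cj)`, `L(Cq)`
  have hjmem : (jK : Om) ∈ pullRR N (M * q) Cj := by
    rw [← Main.coe_jBar N]
    refine coe_mem_pullRR_of_pole hle (Main.jBar_ne_zero N) fun P => ?_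
    rw [hCj P]; exact le_max_right _ _
  have hjq0 : jBarLevel N q hqN ≠ 0 := by
    intro h
    have h1 := congrArg (fun y : FN N => (y : Om)) h
    simp only [coe_jBarLevel_eq] at h1
    have h2 : ρ ⟨_, hjqO⟩ = 0 := by
      have : (⟨_, hjqO⟩ : O) = 0 := Subtype.ext h1
      rw [this, map_zero]
    rw [hρjq] at h2
    exact Main.jqModC_ne_zero' (kk A) (congrArg Prod.snd h2)
  have hjqmem : (qExpand Kbar q jK : Om) ∈ pullRR N (M * q) Cq := by
    rw [← coe_jBarLevel_eq (hqN := hqN)]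
    refine coe_mem_pullRR_of_pole hle hjq0 fun P => ?_
    rw [hCq P]; exact le_max_right _ _
  -- (R)
  have hR : ∀ i, m₀ ≤ i → Module.Finite (kk A) (WJ (kk A) (Fk A M) i) ∧
      finrank (kk A) (WJ (kk A) (Fk A M) (i + 1))
        = finrank (kk A) (WJ (kk A) (Fk A M) i) + dedekindPsi M := by
    intro i hi
    refine ⟨(hRKm i hi).1, ?_⟩
    have h1 := (hRKm i hi).2
    have h2 := (hRKm (i + 1) (hi.trans (Nat.le_succ i))).2
    have h3 : (finrank (kk A) (WJ (kk A) (Fk A M) (i + 1)) : ℤ)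
        = (finrank (kk A) (WJ (kk A) (Fk A M) i) : ℤ) + (dedekindPsi M : ℤ) := by
      push_cast at h2
      linarith
    exact_mod_cast h3
  -- the family `Bb`
  have hsmul : ∀ (c : ℕ) (P : Place Kbar (FN N)) (B : Divisor Kbar (FN N)),
      (c • B) P = (c : ℤ) * B P := by
    intro c P B
    rw [Finsupp.smul_apply, nsmul_eq_mul]
  have hmonoE : ∀ c c' : ℕ, c ≤ c' → ∀ P, (c • E) P ≤ (c' • E) P := by
    intro c c' hcc P
    rw [hsmul, hsmul]
    have h0 : 0 ≤ E P := by rw [hEP P]; exact add_nonneg (hCj0 P) (hCq0 P)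
    exact mul_le_mul_of_nonneg_right (by exact_mod_cast hcc) h0
  obtain ⟨c₀, hc₀⟩ := cuspReg_of (κ := kk A) (L := Fk A M) (jqModC_mem_full (kk A) M) q
    hq.two_le (dedekindPsi M) m₀ hR (fun c => redSp2 hS (pullRR N (M * q) (c • E)))
    (by
      intro c c' hcc y hy
      obtain ⟨g, hg, rfl⟩ := hy
      exact ⟨g, Main.pullRR_mono (hmonoE c c' hcc) hg, rfl⟩)
    (by
      intro c y hy
      obtain ⟨g, hg, rfl⟩ := hy
      exact hS.incl E hE c g hg)
    (max (max m₁ m₂) (max q cE))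
    (by
      -- family 1
      intro c hc a ha
      have hc1 : m₁ ≤ c := (le_max_left _ _).trans ((le_max_left _ _).trans hc)
      have hcq : q ≤ c := (le_max_left _ _).trans ((le_max_right _ _).trans hc)
      obtain ⟨g, hg, hρg⟩ := hl1 Cj hCj c hc1 a ha
      refine ⟨z * g * (⟨_, hjqO⟩ : O) ^ (c - q), ?_, ?_⟩
      · push_cast
        have hpow : (qExpand Kbar q jK : Om) ^ (c - q) ∈ pullRR N (M * q) ((c - q) • Cq) :=
          Main.pow_mem_pullRR (c - q) (fun P => hsmul _ P Cq) hjqmem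
        have h12 : (z : Om) * (g : Om) ∈ pullRR N (M * q) (q • Cq + c • Cj) :=
          mul_mem_pullRR_add (fun P => by rw [Finsupp.add_apply]) hz hg
        refine mul_mem_pullRR_add (fun P => ?_) h12 hpow
        rw [Finsupp.add_apply, hsmul, hsmul, hsmul, hsmul, hEP P]
        have : ((c - q : ℕ) : ℤ) = (c : ℤ) - (q : ℤ) := by
          push_cast [hcq]; ring
        rw [this]
        apply le_of_eq
        ring
      · rw [map_mul, map_mul, map_pow, hρz, hρg, hρjq]
        refine Prod.ext ?_ ?_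
        · simp only [Prod.fst_mul, Prod.pow_fst]
          rw [← pow_mul]
          ring
        · simp only [Prod.snd_mul, Prod.pow_snd]
          ring)
    (by
      -- family 2
      intro c hc a ha
      have hc2 : m₂ ≤ c := (le_max_right _ _).trans ((le_max_left _ _).trans hc)
      have hcq : q ≤ c := (le_max_left _ _).trans ((le_max_right _ _).trans hc)
      obtain ⟨g, hg, hρg⟩ := hl2 Cq hCq c hc2 a ha
      refine ⟨x * g * (⟨_, hjO⟩ : O) ^ (c - q), ?_, ?_⟩
      · push_cast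
        have hpow : (jK : Om) ^ (c - q) ∈ pullRR N (M * q) ((c - q) • Cj) :=
          Main.pow_mem_pullRR (c - q) (fun P => hsmul _ P Cj) hjmem
        have h12 : (x : Om) * (g : Om) ∈ pullRR N (M * q) (q • Cj + c • Cq) :=
          mul_mem_pullRR_add (fun P => by rw [Finsupp.add_apply]) hx hg
        refine mul_mem_pullRR_add (fun P => ?_) h12 hpow
        rw [Finsupp.add_apply, hsmul, hsmul, hsmul, hsmul, hEP P]
        have : ((c - q : ℕ) : ℤ) = (c : ℤ) - (q : ℤ) := by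
          push_cast [hcq]; ring
        rw [this]
        apply le_of_eq
        ring
      · rw [map_mul, map_mul, map_pow, hρx, hρj]
        refine Prod.ext ?_ ?_
        · simp only [Prod.fst_mul, Prod.pow_fst]
          ring
        · simp only [Prod.snd_mul, Prod.pow_snd]
          rw [hρg, ← pow_mul]
          ring)
    (by
      -- count
      intro c hc
      have hcE : cE ≤ c := (le_max_right _ _).trans ((le_max_right _ _).trans hc)
      obtain ⟨hf1, h1⟩ := hREc c hcE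
      obtain ⟨hf2, h2⟩ := hREc (c + 1) (hcE.trans (Nat.le_succ c))
      have hW : ∀ c : ℕ, ∀ w ∈ pullRR N (M * q) (c • E), w ∈ modularFunctionFieldBar (M * q) :=
        fun c w hw => hw.1
      have e1 := (finrank_redSp2 hS (hW c)).2
      have e2 := (finrank_redSp2 hS (hW (c + 1))).2
      show finrank (kk A) (redSp2 hS (pullRR N (M * q) ((c + 1) • E)))
        ≤ finrank (kk A) (redSp2 hS (pullRR N (M * q) (c • E))) + 2 * (q + 1) * dedekindPsi M
      rw [e1, e2]
      have h3 : (finrank Kbar (pullRR N (M * q) ((c + 1) • E)) : ℤ)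
          = (finrank Kbar (pullRR N (M * q) (c • E)) : ℤ) + 2 * ((q + 1) * dedekindPsi M : ℕ) := by
        rw [← hψ]
        push_cast at h1 h2 ⊢
        linarith
      have h4 : finrank Kbar (pullRR N (M * q) ((c + 1) • E))
          = finrank Kbar (pullRR N (M * q) (c • E)) + 2 * ((q + 1) * dedekindPsi M) := by
        exact_mod_cast h3
      rw [h4]
      apply le_of_eq
      ring)
  refine ⟨c₀, fun c hc c' hcc y hy => ?_⟩
  have h1 : y ∈ redSp2 hS (pullRR N (M * q) (c' • E)) ⊓ Wp (kk A) (Fk A M) q c := ⟨hy.1, hy.2⟩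
  rw [hc₀ c c' hc hcc] at h1
  exact h1

/-- **[CR]** `Plan.CuspReg`, in the shape (I5) of the P6 owner table. -/
theorem cuspReg {N' : ℕ} (hL : Plan.Levels q N' N M)
    (hS : Plan.Setup2 A N q M hqN O ρ) (hRE : Plan.RiemannE N q M hqN)
    (hRK : Plan.RiemannK A M) (hNum : Plan.NumStmt q M) :
    Plan.CuspReg A N q M hqN O ρ := by
  have hq := hL.prime
  have haux : Plan.aux q ≠ 0 := by
    unfold Plan.aux
    split_ifs <;> norm_num
  have hM0 : M ≠ 0 := by
    rw [hL.M_eq]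
    exact mul_ne_zero haux hL.N'_pos.ne'
  have : NeZero (M * q) := ⟨mul_ne_zero hM0 hq.ne_zero⟩
  have hqM : ¬ q ∣ M := by
    rw [hL.M_eq]
    intro hd
    rcases (Nat.Prime.dvd_mul hq).mp hd with h | h
    · unfold Plan.aux at h
      by_cases h2 : q = 2
      · rw [if_pos h2, h2] at h
        omega
      · rw [if_neg h2] at h
        have h4 : q ∣ 2 := Nat.Prime.dvd_of_dvd_pow hq (show q ∣ 2 ^ 2 from h)
        exact h2 ((Nat.prime_dvd_prime_iff_eq hq Nat.prime_two).mp h4)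
    · exact hL.not_dvd h
  have hNdvd : N ∣ M * q := by
    rw [hL.N_eq, hL.M_eq]
    exact Nat.mul_dvd_mul_right (Dvd.intro_left _ rfl) q
  exact cuspReg_core hq hqM hNdvd hS hRE hRK hNum

end Inst

end Fermat.Agent.S34.CuspReg

end
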