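import Mathlib
import Fermat.Agent.S37.GoodRed

/-!
# S34 (P6) — [CR] cusp regularity: the inputs `(S)` and `(R)` at a GOOD level (helper86)

S18 vocabulary only; `n` a level with `ℓ ∤ n` and `4 ∣ n ∨ 9 ∣ n` (for P6: `n := M = a N'`,
`ℓ := q`), `A` over `ℓ`, `k = kk A`.  By-products of `S37/GoodRed` (S18 contracts at base level 1).

* `(S)` `exists_lift_WJ`     : `∃ c₀, ∀ c ≥ c₀, ∀ a ∈ WJ k F_{n,k} c, ∃ h ∈ Ocal,
                               h ∈ WJ Q̄ F_n c ∧ red h = a`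
                               (every element of `L(c (j̄)_∞)` lifts to `L_{F_n}(c (j)_∞) ∩ Ocal`);
* `(R)` `finrank_WJ_succ`    : `∃ m₀, ∀ i ≥ m₀, WJ k F_{n,k} i` is finite-dimensional and
                               `dim WJ (i+1) = dim WJ i + ψ(n)`;
* `finrank_WJ_eq`            : the exact value `12 dim WJ c = 12 c ψ(n) - ψ(n) + 6 cusps(n)`.

Hypothesis forms (`…_of`) take the four S18 contracts `RRl A n`, `RR0 1 n`, `CharStmt A 1 n`,
`RedStmt A n`; the unconditional forms are at `n = (if ℓ = 2 then 9 else 4) * N`.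
-/

set_option autoImplicit false
set_option maxHeartbeats 400000

noncomputable section

namespace Fermat.Agent.S34.CuspReg

open ModularCurve AlgebraicCurve Polynomial
open Fermat.Agent.S24 Fermat.Agent.S18.Content Fermat.Agent.S18.Plan
open Fermat.Agent.S18 Fermat.Agent.S37 Module

/-- Integrality passes to a larger subring. -/
theorem isIntegral_of_subring_le {Ω : Type*} [CommRing Ω] {R₁ R₂ : Subring Ω} (h : R₁ ≤ R₂)
    {x : Ω} (hx : IsIntegral R₁ x) : IsIntegral R₂ x := by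
  obtain ⟨p, hp, hpx⟩ := hx
  refine ⟨p.map (Subring.inclusion h), hp.map _, ?_⟩
  rw [eval₂_map]
  exact hpx

variable (A : ValuationSubring Kbar)

theorem AJ_le_polyJ : Plan2.AJ A ≤ (polyJ Kbar).toSubring := by
  unfold Plan2.AJ
  rw [Subring.closure_le]
  rintro x (⟨a, rfl⟩ | hx)
  · have : (HahnSeries.C (a : Kbar) : Om) = algebraMap Kbar Om (a : Kbar) := by
      rw [algebraMap_LS_eq_C]
    show (HahnSeries.C (a : Kbar) : Om) ∈ polyJ Kbar
    rw [this]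
    exact (polyJ Kbar).algebraMap_mem _
  · rw [Set.mem_singleton_iff] at hx
    rw [hx]
    exact WJCalc.j_mem_polyJ

theorem AJinv_le_OinfJ : Plan2.AJinv A ≤ OinfJ Kbar := by
  unfold Plan2.AJinv
  rw [Subring.closure_le]
  rintro x (⟨a, rfl⟩ | hx)
  · have : (HahnSeries.C (a : Kbar) : Om) = algebraMap Kbar Om (a : Kbar) := by
      rw [algebraMap_LS_eq_C]
    show (HahnSeries.C (a : Kbar) : Om) ∈ OinfJ Kbar
    rw [this]
    exact WJPlaces.algebraMap_mem_OinfJ (κ := Kbar) _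
  · rw [Set.mem_singleton_iff] at hx
    rw [hx]
    exact WJCalc.inv_j_mem_OinfJ (κ := Kbar)

variable (n : ℕ)

/-- An element of `pullRR 1 n (c (j)_∞) ∩ Ocal` lies in `WJ Q̄ F_n c`. -/
theorem mem_WJ_of_mem_pullRR (hChar : Plan.CharStmt A 1 n) (Cp : Divisor Kbar (FN 1))
    (hCp : ∀ P, Cp P = max 0 (-(P.ord (jBar 1)))) (c : ℕ) (g : Ocal A)
    (hg : (g : Om) ∈ pullRR 1 n (c • Cp)) :
    (g : Om) ∈ WJ Kbar (modularFunctionFieldBar n) c := by
  obtain ⟨h1, h2⟩ := GoodRed.isIntegral_of_mem_pullRR A n hChar Cp hCp c g hg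
  exact ⟨hg.1, isIntegral_of_subring_le (AJ_le_polyJ A) h1,
    isIntegral_of_subring_le (AJinv_le_OinfJ A) h2⟩

set_option synthInstance.maxHeartbeats 400000 in
set_option maxHeartbeats 1000000 in
/-- The exact dimension of `WJ k F_{n,k} c` for large `c`, and the lifting `(S)`, hypothesis form. -/
theorem lift_and_finrank_of [NeZero n] (hRRl : Plan.RRl A n) (hRR0 : Plan.RR0 1 n)
    (hChar : Plan.CharStmt A 1 n) (hRed : Plan.RedStmt A n) :
    ∃ c₀ : ℕ, ∀ c : ℕ, c₀ ≤ c →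
      Module.Finite (kk A) (WJ (kk A) (Fk A n) c) ∧
      12 * (finrank (kk A) (WJ (kk A) (Fk A n) c) : ℤ)
        = 12 * (c : ℤ) * (dedekindPsi n : ℤ) - (dedekindPsi n : ℤ) + 6 * (cuspCount n : ℤ) ∧
      ∀ a ∈ WJ (kk A) (Fk A n) c, ∃ h : Ocal A,
        (h : Om) ∈ WJ Kbar (modularFunctionFieldBar n) c ∧ red A h = a := by
  obtain ⟨Cp, hCp, hdegCp⟩ := (Char0.char0Stmt 1).2.2
  rw [dedekindPsi_one, Nat.cast_one] at hdegCp
  obtain ⟨c₀, hc₀⟩ := hRRl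
  refine ⟨c₀, fun c hc => ?_⟩
  obtain ⟨hfin, hbound⟩ := hc₀ c hc
  have heq := GoodRed.redSp_pullRR_eq A n hChar hRed hRR0 Cp hCp hdegCp c hfin hbound
  refine ⟨hfin, ?_, ?_⟩
  · -- exact dimension: Riemann in char 0 + (Dim) against the genus bound
    obtain ⟨hfinV, hrr⟩ := hRR0 (c • Cp)
    obtain ⟨r, b, hspan, hli⟩ := hRed.2.2.2.1 (pullRR 1 n (c • Cp)) (fun w hw => hw.1) hfinV
    have h1 : finrank Kbar (pullRR 1 n (c • Cp)) ≤ r := by
      have h := finrank_range_le_card (R := Kbar) (fun i => ((b i : Ocal A) : Om))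
      rw [Set.finrank, hspan, Fintype.card_fin] at h
      exact h
    have hmem : ∀ i, red A (b i) ∈ WJ (kk A) (Fk A n) c := fun i => by
      rw [← heq]
      exact ⟨b i, by rw [← hspan]; exact Submodule.subset_span ⟨i, rfl⟩, rfl⟩
    have hli' : LinearIndependent (kk A)
        (fun i => (⟨red A (b i), hmem i⟩ : WJ (kk A) (Fk A n) c)) :=
      LinearIndependent.of_comp (WJ (kk A) (Fk A n) c).subtype hli
    have h2 : r ≤ finrank (kk A) (WJ (kk A) (Fk A n) c) := by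
      have := hli'.fintype_card_le_finrank
      rwa [Fintype.card_fin] at this
    have hdeg : Divisor.degree (c • Cp) = (c : ℤ) := by
      rw [map_nsmul, hdegCp, nsmul_eq_mul, mul_one]
    rw [hdeg, dedekindPsi_one] at hrr
    have h3 : (finrank Kbar (pullRR 1 n (c • Cp)) : ℤ)
        ≤ (finrank (kk A) (WJ (kk A) (Fk A n) c) : ℤ) := by
      exact_mod_cast h1.trans h2
    push_cast at hrr
    linarith
  · intro a ha
    rw [← heq] at ha
    obtain ⟨g, hg, rfl⟩ := ha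
    exact ⟨g, mem_WJ_of_mem_pullRR A n hChar Cp hCp c g hg, rfl⟩

/-- **(S)**, hypothesis form. -/
theorem exists_lift_WJ_of [NeZero n] (hRRl : Plan.RRl A n) (hRR0 : Plan.RR0 1 n)
    (hChar : Plan.CharStmt A 1 n) (hRed : Plan.RedStmt A n) :
    ∃ c₀ : ℕ, ∀ c : ℕ, c₀ ≤ c → ∀ a ∈ WJ (kk A) (Fk A n) c, ∃ h : Ocal A,
      (h : Om) ∈ WJ Kbar (modularFunctionFieldBar n) c ∧ red A h = a := by
  obtain ⟨c₀, h⟩ := lift_and_finrank_of A n hRRl hRR0 hChar hRed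
  exact ⟨c₀, fun c hc => (h c hc).2.2⟩

/-- The exact dimension, hypothesis form. -/
theorem finrank_WJ_eq_of [NeZero n] (hRRl : Plan.RRl A n) (hRR0 : Plan.RR0 1 n)
    (hChar : Plan.CharStmt A 1 n) (hRed : Plan.RedStmt A n) :
    ∃ c₀ : ℕ, ∀ c : ℕ, c₀ ≤ c → Module.Finite (kk A) (WJ (kk A) (Fk A n) c) ∧
      12 * (finrank (kk A) (WJ (kk A) (Fk A n) c) : ℤ)
        = 12 * (c : ℤ) * (dedekindPsi n : ℤ) - (dedekindPsi n : ℤ) + 6 * (cuspCount n : ℤ) := by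
  obtain ⟨c₀, h⟩ := lift_and_finrank_of A n hRRl hRR0 hChar hRed
  exact ⟨c₀, fun c hc => ⟨(h c hc).1, (h c hc).2.1⟩⟩

/-- **(R)**, hypothesis form: the graded pieces of `WJ k F_{n,k}` have dimension `ψ(n)`. -/
theorem finrank_WJ_succ_of [NeZero n] (hRRl : Plan.RRl A n) (hRR0 : Plan.RR0 1 n)
    (hChar : Plan.CharStmt A 1 n) (hRed : Plan.RedStmt A n) :
    ∃ m₀ : ℕ, ∀ i : ℕ, m₀ ≤ i → Module.Finite (kk A) (WJ (kk A) (Fk A n) i) ∧
      finrank (kk A) (WJ (kk A) (Fk A n) (i + 1))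
        = finrank (kk A) (WJ (kk A) (Fk A n) i) + dedekindPsi n := by
  obtain ⟨c₀, h⟩ := finrank_WJ_eq_of A n hRRl hRR0 hChar hRed
  refine ⟨c₀, fun i hi => ⟨(h i hi).1, ?_⟩⟩
  have h1 := (h i hi).2
  have h2 := (h (i + 1) (hi.trans (Nat.le_succ i))).2
  have h3 : (finrank (kk A) (WJ (kk A) (Fk A n) (i + 1)) : ℤ)
      = (finrank (kk A) (WJ (kk A) (Fk A n) i) : ℤ) + (dedekindPsi n : ℤ) := by
    push_cast at h2
    linarith
  exact_mod_cast h3

/-! ### Unconditional forms at the good level `(if ℓ = 2 then 9 else 4) * N` -/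

section Good

variable (N : ℕ) [NeZero N] (ℓ : ℕ) [Fact ℓ.Prime] (hℓ : ¬ ℓ ∣ N) (hA : A.LiesOverPrime ℓ)

omit A in
include hℓ in
theorem good_level_facts :
    ((if ℓ = 2 then 9 else 4) * N ≠ 0) ∧ (¬ ℓ ∣ (if ℓ = 2 then 9 else 4) * N) ∧
      (4 ∣ (if ℓ = 2 then 9 else 4) * N ∨ 9 ∣ (if ℓ = 2 then 9 else 4) * N) := by
  have hp : ℓ.Prime := Fact.out
  have hM : (if ℓ = 2 then 9 else 4) ≠ 0 := by split_ifs <;> norm_num
  refine ⟨mul_ne_zero hM (NeZero.ne N), ?_, ?_⟩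
  · intro hd
    rcases (Nat.Prime.dvd_mul hp).mp hd with h | h
    · by_cases h2 : ℓ = 2
      · rw [if_pos h2, h2] at h
        omega
      · rw [if_neg h2] at h
        have h4 : ℓ ∣ 2 := Nat.Prime.dvd_of_dvd_pow hp (show ℓ ∣ 2 ^ 2 from h)
        exact h2 ((Nat.prime_dvd_prime_iff_eq hp Nat.prime_two).mp h4)
    · exact hℓ h
  · by_cases h2 : ℓ = 2
    · right
      rw [if_pos h2]
      exact dvd_mul_right 9 N
    · left
      rw [if_neg h2]
      exact dvd_mul_right 4 N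

include hℓ hA

/-- **(S)** at the good level. -/
theorem exists_lift_WJ :
    ∃ c₀ : ℕ, ∀ c : ℕ, c₀ ≤ c → ∀ a ∈ WJ (kk A) (Fk A ((if ℓ = 2 then 9 else 4) * N)) c,
      ∃ h : Ocal A,
        (h : Om) ∈ WJ Kbar (modularFunctionFieldBar ((if ℓ = 2 then 9 else 4) * N)) c ∧
          red A h = a := by
  obtain ⟨h0, hℓn, hTF⟩ := good_level_facts N ℓ hℓ
  have : NeZero ((if ℓ = 2 then 9 else 4) * N) := ⟨h0⟩
  exact exists_lift_WJ_of A _ (RRl.Main.rrl ℓ N A hℓ hA) (RR0.rr0 1 _ (one_dvd _) hTF)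
    (CharStmt.charStmt 1 _ (one_dvd _) ℓ hℓn A hA) (Red.redStmt _ ℓ hℓn A hA)

/-- **(R)** at the good level. -/
theorem finrank_WJ_succ :
    ∃ m₀ : ℕ, ∀ i : ℕ, m₀ ≤ i →
      Module.Finite (kk A) (WJ (kk A) (Fk A ((if ℓ = 2 then 9 else 4) * N)) i) ∧
      finrank (kk A) (WJ (kk A) (Fk A ((if ℓ = 2 then 9 else 4) * N)) (i + 1))
        = finrank (kk A) (WJ (kk A) (Fk A ((if ℓ = 2 then 9 else 4) * N)) i)
          + dedekindPsi ((if ℓ = 2 then 9 else 4) * N) := by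
  obtain ⟨h0, hℓn, hTF⟩ := good_level_facts N ℓ hℓ
  have : NeZero ((if ℓ = 2 then 9 else 4) * N) := ⟨h0⟩
  exact finrank_WJ_succ_of A _ (RRl.Main.rrl ℓ N A hℓ hA) (RR0.rr0 1 _ (one_dvd _) hTF)
    (CharStmt.charStmt 1 _ (one_dvd _) ℓ hℓn A hA) (Red.redStmt _ ℓ hℓn A hA)

/-- The exact dimension at the good level. -/
theorem finrank_WJ_eq :
    ∃ c₀ : ℕ, ∀ c : ℕ, c₀ ≤ c →
      Module.Finite (kk A) (WJ (kk A) (Fk A ((if ℓ = 2 then 9 else 4) * N)) c) ∧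
      12 * (finrank (kk A) (WJ (kk A) (Fk A ((if ℓ = 2 then 9 else 4) * N)) c) : ℤ)
        = 12 * (c : ℤ) * (dedekindPsi ((if ℓ = 2 then 9 else 4) * N) : ℤ)
          - (dedekindPsi ((if ℓ = 2 then 9 else 4) * N) : ℤ)
          + 6 * (cuspCount ((if ℓ = 2 then 9 else 4) * N) : ℤ) := by
  obtain ⟨h0, hℓn, hTF⟩ := good_level_facts N ℓ hℓ
  have : NeZero ((if ℓ = 2 then 9 else 4) * N) := ⟨h0⟩
  exact finrank_WJ_eq_of A _ (RRl.Main.rrl ℓ N A hℓ hA) (RR0.rr0 1 _ (one_dvd _) hTF)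
    (CharStmt.charStmt 1 _ (one_dvd _) ℓ hℓn A hA) (Red.redStmt _ ℓ hℓn A hA)

end Good

end Fermat.Agent.S34.CuspReg

end
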