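import Mathlib
import Fermat.Agent.S34.Plan
import Fermat.Agent.S34.CuspRegLift

/-!
# S34 (P6) — `Plan.RiemannK` at the good level (helper86)

`riemannK : Plan.Levels q N' N M → A.LiesOverPrime q → Plan.RiemannK A M`, a restatement of
`CuspReg.finrank_WJ_eq` (`S34/CuspRegLift.lean`) at `M = aux q * N'`.
-/

set_option autoImplicit false

noncomputable section

namespace Fermat.Agent.S34.CuspReg

open ModularCurve Fermat.Agent.S24 Fermat.Agent.S18.Plan Module

/-- **[RRK]** the exact dimension of `WJ m` over the residue field, at the good level `M`. -/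
theorem riemannK {q N' N M : ℕ} (hL : Plan.Levels q N' N M) (A : ValuationSubring Kbar)
    (hA : A.LiesOverPrime q) : Plan.RiemannK A M := by
  have : Fact q.Prime := ⟨hL.prime⟩
  have : NeZero N' := ⟨hL.N'_pos.ne'⟩
  have h := finrank_WJ_eq A N' q hL.not_dvd hA
  have hM : M = (if q = 2 then 9 else 4) * N' := hL.M_eq
  rw [← hM] at h
  exact h

end Fermat.Agent.S34.CuspReg

end
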