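import Mathlib
import Fermat.Agent.S18.MainLemmas
import Fermat.Agent.S18.ConstWPlan
import Fermat.Agent.S18.Char0
import Fermat.Agent.Lib.FFPoles

/-!
# S34 — [DESC]: the descent step, generic in the two levels (helper18)

`desc_of`: let `N`, `N₂` be two levels with `F_N ≤ F_{N₂}`, `A` a valuation subring of `Q̄` with
residue characteristic `q`, and assume
* `hscale`: every nonzero element of `F_{N₂}` is a constant times a unit of the content valuation
  (`Ocal A`, `red A`);
* `hChar : S18.Plan.CharStmt A N N₂` (characteristic polynomials over `F_N`, for that valuation);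
* `hChar0 : S18.Plan.Char0Stmt N`.
If `D` is a divisor of degree `0` of `F_N` with `n • D = div w`, `red w = 1`, `q ∤ n`, and the
pull-back space `pullRR N N₂ D` is non-zero, then `D` is principal.

Compared with `S18/MainDesc.lean` no inclusion into `WJ` and no `ConstW` contract are used: the
reduction of the normalised section is a constant because its `n`-th power times `w` lies in
`pullRR N N₂ 0`, whose elements reduce to constants.
-/

set_option autoImplicit false
set_option maxHeartbeats 400000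

noncomputable section

namespace Fermat.Agent.S34.Desc

open ModularCurve AlgebraicCurve Fermat.Agent.S24 Fermat.Agent.S18.Content Fermat.Agent.S18.Plan
open Fermat.Agent.Lib Fermat.Agent.S18 Fermat.Agent.S18.Main

set_option synthInstance.maxHeartbeats 400000

/-- `L(0) = Q̄` on `F_N`. -/
theorem rr_zero (N : ℕ) [NeZero N] {a : FN N}
    (ha : a ∈ riemannRochSpace (0 : Divisor Kbar (FN N))) :
    ∃ c : Kbar, a = algebraMap Kbar (FN N) c := by
  have := FibreCount.finiteDimensional N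
  have := Char0.isSeparable_jBar N
  obtain ⟨c, hc⟩ := (FFPoles.mem_riemannRochSpace_zero_iff (jBar N)).mp ha
  exact ⟨c, hc.symm⟩

section

variable {N : ℕ} (A : ValuationSubring Kbar)

/-- The reduction of a monic polynomial over `F_N` with coefficients in `Ocal`, with a root in
`Ocal`. -/
theorem exists_red_poly (χ : Polynomial (FN N)) (hmonic : χ.Monic) (g : Ocal A)
    (hroot : Polynomial.aeval (g : Om) χ = 0)
    (hO : ∀ i : ℕ, ((χ.coeff i : FN N) : Om) ∈ Ocal A) :
    ∃ χk : Polynomial (Omk A), χk.Monic ∧ χk.natDegree = χ.natDegree ∧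
      χk.eval (red A g) = 0 ∧ ∀ i, χk.coeff i = red A ⟨_, hO i⟩ := by
  have hl : χ.map (algebraMap (FN N) Om) ∈ Polynomial.lifts (Ocal A).subtype := by
    rw [Polynomial.lifts_iff_coeff_lifts]
    intro i
    rw [Polynomial.coeff_map]
    exact ⟨⟨_, hO i⟩, rfl⟩
  obtain ⟨χO, hχO, hdegO, hmonicO⟩ :=
    Polynomial.lifts_and_natDegree_eq_and_monic hl (hmonic.map _)
  have hcoeffO : ∀ i, ((χO.coeff i : Ocal A) : Om) = ((χ.coeff i : FN N) : Om) := by
    intro i
    have h1 := congrArg (fun p => Polynomial.coeff p i) hχO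
    simpa [Polynomial.coeff_map] using h1
  have hdegO' : χO.natDegree = χ.natDegree := by
    rw [hdegO, hmonic.natDegree_map]
  have hrootO : χO.eval g = 0 := by
    apply Subtype.ext
    have h1 : ((χO.eval g : Ocal A) : Om) = (χO.map (Ocal A).subtype).eval (g : Om) := by
      rw [Polynomial.eval_map]
      exact (Polynomial.eval₂_hom (Ocal A).subtype g).symm
    rw [h1, hχO, Polynomial.eval_map, ← Polynomial.aeval_def]
    exact hroot
  refine ⟨χO.map (red A), hmonicO.map _, ?_, ?_, ?_⟩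
  · rw [hmonicO.natDegree_map, hdegO']
  · rw [Polynomial.eval_map, Polynomial.eval₂_hom, hrootO, map_zero]
  · intro i
    rw [Polynomial.coeff_map]
    exact congrArg (red A) (Subtype.ext (hcoeffO i))

end

section Assembly

variable (N N₂ : ℕ) [NeZero N] [NeZero N₂] (A : ValuationSubring Kbar)

omit [NeZero N₂] in
/-- An element of `pullRR N N₂ 0 ∩ Ocal` reduces to a constant. -/
theorem red_const_of_pullRR_zero (hChar : CharStmt A N N₂) (h : Ocal A)
    (hh : (h : Om) ∈ pullRR N N₂ 0) : ∃ κ : kk A, red A h = HahnSeries.C κ := by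
  obtain ⟨χ, hmonic, -, hroot, hcoef, hO, -⟩ := hChar 0 h hh
  obtain ⟨χk, hmonick, hdegk, hrootk, hcoeffk⟩ := exists_red_poly A χ hmonic h hroot hO
  apply ConstWPlan.eq_C_of_isIntegral
  apply OrthoDesc.isIntegral_of_monic_root χk hmonick _ (red A h) hrootk
  intro i
  rcases le_or_gt i χ.natDegree with hi | hi
  · have h1 := hcoef (χ.natDegree - i) (Nat.sub_le _ _)
    rw [Nat.sub_sub_self hi, smul_zero] at h1
    obtain ⟨c, hc⟩ := rr_zero N h1
    have hcoe : ((χ.coeff i : FN N) : Om) = HahnSeries.C c := by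
      rw [hc, ← algebraMap_LS_eq_C]
      rfl
    have hcO : HahnSeries.C c ∈ Ocal A := by
      rw [← hcoe]
      exact hO i
    have hcA : c ∈ A := (C_mem_Ocal_iff A c).mp hcO
    rw [hcoeffk i, red_congr A hcoe (hO i) hcO, red_C A hcA, ← algebraMap_LS_eq_C]
    exact isIntegral_algebraMap
  · rw [Polynomial.coeff_eq_zero_of_natDegree_lt (by rw [hdegk]; exact hi)]
    exact isIntegral_zero

omit [NeZero N₂] in
/-- **[DESC]** the descent step. -/
theorem desc_of (q : ℕ) [Fact q.Prime] [CharP (kk A) q]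
    (hle : modularFunctionFieldBar N ≤ modularFunctionFieldBar N₂) (hψ₂ : 0 < dedekindPsi N₂)
    (hscale : ∀ y : Om, y ∈ modularFunctionFieldBar N₂ → y ≠ 0 →
      ∃ c : Kbar, c ≠ 0 ∧ ∃ h : HahnSeries.C c * y ∈ Ocal A, red A ⟨_, h⟩ ≠ 0)
    (hChar : CharStmt A N N₂) (hChar0 : Char0Stmt N)
    (D : Divisor Kbar (FN N)) (hdeg : Divisor.degree D = 0) (n : ℕ) (hn : ¬ q ∣ n)
    (w : FN N) (hw0 : w ≠ 0) (hwO : (w : Om) ∈ Ocal A) (hwred : red A ⟨_, hwO⟩ = 1)
    (hwdiv : ∀ P : Place Kbar (FN N), (n • D) P = P.ord w)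
    (g : Om) (hg : g ∈ pullRR N N₂ D) (hg0 : g ≠ 0) :
    D ∈ Divisor.principal (K := Kbar) (F := FN N) := by
  obtain ⟨hdeg1, hdiv0, -⟩ := hChar0
  have hn0 : n ≠ 0 := by
    rintro rfl
    exact hn (dvd_zero q)
  -- scale `g` to a unit
  obtain ⟨c, hc, hcO, hcred⟩ := hscale g hg.1 hg0
  obtain ⟨g₀, hg₀def⟩ : ∃ g₀ : Ocal A, g₀ = ⟨HahnSeries.C c * g, hcO⟩ := ⟨_, rfl⟩
  have hg₀mem : (g₀ : Om) ∈ pullRR N N₂ D := by
    rw [hg₀def]
    exact C_mul_mem_pullRR c hg
  have hg₀red : red A g₀ ≠ 0 := by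
    rw [hg₀def]
    exact hcred
  -- `h = g₀ ^ n * w ∈ pullRR 0`
  obtain ⟨hh, hhdef⟩ : ∃ hh : Ocal A, hh = g₀ ^ n * ⟨(w : Om), hwO⟩ := ⟨_, rfl⟩
  have hhmem : (hh : Om) ∈ pullRR N N₂ 0 := by
    have h1 := pow_mem_pullRR (N' := N₂) n (B' := n • D)
      (fun P => by rw [Finsupp.smul_apply, nsmul_eq_mul]) hg₀mem
    have h2 := mul_mem_pullRR hle hw0 (B' := 0)
      (fun P => by rw [Finsupp.zero_apply, hwdiv P, sub_self]) h1
    have e : (hh : Om) = (w : Om) * (g₀ : Om) ^ n := by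
      rw [hhdef, Subring.coe_mul, Subring.coe_pow, mul_comm]
    rw [e]
    exact h2
  obtain ⟨κ₁, hκ₁⟩ := red_const_of_pullRR_zero N N₂ A hChar hh hhmem
  have hpow : red A g₀ ^ n = HahnSeries.C κ₁ := by
    rw [← hκ₁, hhdef, map_mul, map_pow, hwred, mul_one]
  have hint : IsIntegral (kk A) (red A g₀) := by
    refine ⟨Polynomial.X ^ n - Polynomial.C κ₁, Polynomial.monic_X_pow_sub_C κ₁ hn0, ?_⟩
    rw [Polynomial.eval₂_sub, Polynomial.eval₂_pow, Polynomial.eval₂_X, Polynomial.eval₂_C, hpow,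
      algebraMap_LS_eq_C, sub_self]
  obtain ⟨κ, hκ⟩ := ConstWPlan.eq_C_of_isIntegral hint
  have hκ0 : κ ≠ 0 := by
    rintro rfl
    apply hg₀red
    rw [hκ, map_zero]
  obtain ⟨a, ha⟩ := IsLocalRing.residue_surjective (R := A) κ⁻¹
  -- `g₁ = a g₀`, `red g₁ = 1`
  obtain ⟨g₁, hg₁def⟩ : ∃ g₁ : Ocal A, g₁ = constO A a * g₀ := ⟨_, rfl⟩
  have hg₁ : (g₁ : Om) ∈ pullRR N N₂ D := by
    rw [hg₁def, Subring.coe_mul, coe_constO]
    exact C_mul_mem_pullRR _ hg₀mem
  have hg₁red : red A g₁ = 1 := by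
    rw [hg₁def, map_mul, red_constO, ha, hκ, ← map_mul, inv_mul_cancel₀ hκ0, map_one]
  clear hg₁def hhdef hg₀def
  obtain ⟨χ, hmonic, hdegχ, -, hcoef, hO, hred⟩ := hChar D g₁ hg₁
  have hred' := hred hg₁red
  have hd : 0 < χ.natDegree := by
    rcases Nat.eq_zero_or_pos χ.natDegree with h | h
    · rw [h, zero_mul] at hdegχ
      omega
    · exact h
  obtain ⟨b, hbd, hbpos, hbch⟩ := OrthoDesc.exists_pow_dvd_not_dvd_choose q χ.natDegree hd
  have hble : q ^ b ≤ χ.natDegree := Nat.le_of_dvd hd hbd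
  -- the coefficient of `X ^ (d - q ^ b)` of `(X - 1) ^ d` is non-zero in `k`
  have hcoefk : ((Polynomial.X - Polynomial.C (1 : kk A)) ^ χ.natDegree).coeff
      (χ.natDegree - q ^ b) ≠ 0 := by
    rw [sub_eq_add_neg, ← Polynomial.C_neg, Polynomial.coeff_X_add_C_pow, Nat.sub_sub_self hble,
      Nat.choose_symm hble]
    apply mul_ne_zero
    · exact pow_ne_zero _ (neg_ne_zero.mpr one_ne_zero)
    · rw [Ne, CharP.cast_eq_zero_iff (kk A) q]
      exact hbch
  have ha0 : χ.coeff (χ.natDegree - q ^ b) ≠ 0 := by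
    intro h0
    apply hcoefk
    have h1 := hred' (χ.natDegree - q ^ b)
    have h2 : (⟨((χ.coeff (χ.natDegree - q ^ b) : FN N) : Om), hO _⟩ : Ocal A) = 0 :=
      Subtype.ext (by
        show ((χ.coeff (χ.natDegree - q ^ b) : FN N) : Om) = 0
        rw [h0]
        rfl)
    rw [h2, map_zero] at h1
    exact HahnSeries.C_injective (by rw [← h1, map_zero])
  have hmem := hcoef (q ^ b) hble
  obtain ⟨Da, hDa, hDadeg⟩ := hdiv0 _ ha0
  have hE : Da + (q ^ b) • D = 0 := by
    apply FFPoles.eq_zero_of_nonneg_of_degree_eq_zero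
    · intro P
      rw [Finsupp.add_apply, hDa]
      have h1 := (mem_riemannRochSpace_iff.mp hmem P).resolve_left ha0
      linarith
    · intro P
      rw [hdeg1]
      exact one_pos
    · rw [map_add, map_nsmul, hDadeg, hdeg, smul_zero, add_zero]
  have h3 : (q ^ b) • D = -Da := eq_neg_of_add_eq_zero_right hE
  have hqb : (q ^ b) • D ∈ Divisor.principal (K := Kbar) (F := FN N) := by
    rw [h3]
    exact neg_mem ⟨_, ha0, hDa⟩
  have hnD : n • D ∈ Divisor.principal (K := Kbar) (F := FN N) := ⟨w, hw0, hwdiv⟩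
  exact OrthoDesc.mem_of_pow_nsmul_mem (Divisor.principal (K := Kbar) (F := FN N)) D q b n hn
    hqb hnD

end Assembly

end Fermat.Agent.S34.Desc

end
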