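import Mathlib
import Fermat.Agent.S34.Plan
import Fermat.Agent.S34.Desc
import Fermat.Agent.S18.PullStep
import Fermat.Agent.S18.FibreCount
import Fermat.Agent.S18.ContentMain
import Fermat.Agent.S18.Char0

/-!
# S34 — [DESC] instance at the Plan levels, and the top chain (helper18)

`Plan.DescStmt` (descent with only "`n • D` principal") drops the fact the descent uses: a
generator `w` of `n • D` with `red w = 1`.  The contract proved here is

* `DescW A N q M`: `D` of degree `0`, `n • D = div w` with `w ∈ Ocal A`, `red w = 1`, `q ∤ n`, and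
  `pullRR N (M * q) D ≠ 0`  ⟹  `D` principal;
* `descW`: `DescW A N q M` from `Plan.Levels`, `A.LiesOverPrime q`, the scaling property (V1') of
  the content valuation at level `M * q`, and `S18.Plan.CharStmt A N (M * q)`
  (instance of `Desc.desc_of`);
* `unipDiv_of`: the chain `Setup2 + TauStmt + LiftStmt + DescW ⟹ Plan.UnipDiv A N q`.
-/

set_option autoImplicit false
set_option maxHeartbeats 400000

noncomputable section

namespace Fermat.Agent.S34.DescInst

open ModularCurve AlgebraicCurve Fermat.Agent.S24 Fermat.Agent.S18.Content Fermat.Agent.S18.Plan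
open Fermat.Agent.S18

set_option synthInstance.maxHeartbeats 400000

/-- **[DESC]** with the generator: if `deg D = 0`, `n • D = div w` with `red w = 1`, `q ∤ n`, and
`L(π^* D) ≠ 0` at level `M * q`, then `D` is principal. -/
def DescW (A : ValuationSubring Kbar) (N q M : ℕ) [NeZero N] : Prop :=
  ∀ (D : Divisor Kbar (FN N)) (n : ℕ), Divisor.degree D = 0 → ¬ q ∣ n →
  ∀ w : FN N, w ≠ 0 → (∀ P : Place Kbar (FN N), P.ord w = n * D P) →
  ∀ hw : (w : Om) ∈ Ocal A, red A ⟨_, hw⟩ = 1 →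
    (∃ g : Om, g ∈ pullRR N (M * q) D ∧ g ≠ 0) →
    D ∈ Divisor.principal (K := Kbar) (F := FN N)

theorem levels_M_pos {q N' N M : ℕ} (hL : Plan.Levels q N' N M) : 0 < M := by
  rw [hL.M_eq]
  refine Nat.mul_pos ?_ hL.N'_pos
  unfold Plan.aux
  split_ifs <;> norm_num

theorem levels_dvd {q N' N M : ℕ} (hL : Plan.Levels q N' N M) : N ∣ M * q := by
  rw [hL.N_eq, hL.M_eq, mul_assoc]
  exact Dvd.intro_left _ rfl

theorem levels_neZero_top {q N' N M : ℕ} (hL : Plan.Levels q N' N M) : NeZero (M * q) :=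
  ⟨(Nat.mul_pos (levels_M_pos hL) hL.prime.pos).ne'⟩

/-- **[DESC]** at the Plan levels. -/
theorem descW {q N' N M : ℕ} [NeZero N] (hL : Plan.Levels q N' N M)
    (A : ValuationSubring Kbar) (hA : A.LiesOverPrime q)
    (hscale : ∀ y : Om, y ∈ modularFunctionFieldBar (M * q) → y ≠ 0 →
      ∃ c : Kbar, c ≠ 0 ∧ ∃ h : HahnSeries.C c * y ∈ Ocal A, red A ⟨_, h⟩ ≠ 0)
    (hChar : CharStmt A N (M * q)) : DescW A N q M := by
  intro D n hdeg hn w hw0 hwdiv hwO hwred hg
  obtain ⟨g, hg, hg0⟩ := hg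
  have : NeZero (M * q) := levels_neZero_top hL
  have : Fact q.Prime := ⟨hL.prime⟩
  have : CharP (kk A) q := charP_residueField_of_liesOverPrime A q hA
  refine Desc.desc_of N (M * q) A q (PullStep.bar_le (levels_dvd hL))
    (FibreCount.dedekindPsi_pos (M * q)) hscale hChar (Char0.char0Stmt N) D hdeg n hn w hw0 hwO
    hwred (fun P => ?_) g hg hg0
  rw [Finsupp.smul_apply, nsmul_eq_mul, hwdiv P]

/-- The degree of `(τ - 1)² D`. -/
theorem degree_unipDiv (N : ℕ) [NeZero N] (τ : Kbar ≃ₐ[ℚ] Kbar) (D : Divisor Kbar (FN N)) :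
    Divisor.degree (Plan.unipDiv N τ D) = 0 * Divisor.degree D := by
  unfold Plan.unipDiv
  rw [map_add, map_sub, map_nsmul]
  simp only [SemilinearAut.degree_smul, nsmul_eq_mul, Nat.cast_ofNat]
  ring

/-- **The top chain**: the two-component reduction, the `τ`-trick, the lifting step and the
descent give `(U)` in divisor form. -/
theorem unipDiv_of {q N' N M : ℕ} [NeZero N] [NeZero q] (hL : Plan.Levels q N' N M)
    (hqN : q ∣ N) (A : ValuationSubring Kbar) (hA : A.LiesOverPrime q)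
    (hscale : ∀ y : Om, y ∈ modularFunctionFieldBar (M * q) → y ≠ 0 →
      ∃ c : Kbar, c ≠ 0 ∧ ∃ h : HahnSeries.C c * y ∈ Ocal A, red A ⟨_, h⟩ ≠ 0)
    (hChar : CharStmt A N (M * q))
    (E : Divisor Kbar (FN N)) (hE : Plan.IsE N q hqN E)
    {O : Subring Om} {ρ : O →+* Plan.R2 A} (hS : Plan.Setup2 A N q M hqN O ρ)
    (hTau : Plan.TauStmt A N q M hqN O ρ) (hLift : Plan.LiftStmt A N q M hqN O ρ) :
    Plan.UnipDiv A N q := by
  intro τ hτ D n hdeg hn0 hn hprin
  obtain ⟨w, hw0, hwdiv, hwO, hρw, c₀, hc⟩ := hTau E hE τ hτ D n hdeg hn0 hprin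
  have hdeg'' : Divisor.degree (Plan.unipDiv N τ D) = 0 := by
    rw [degree_unipDiv, zero_mul]
  obtain ⟨g, hg, hg0⟩ :=
    hLift E hE (Plan.unipDiv N τ D) n hdeg'' hn0 hn w hw0 hwdiv hwO hρw ⟨c₀, hc⟩
  have hwOc : (w : Om) ∈ Ocal A := hS.mem_Ocal ⟨_, hwO⟩
  have hred : red A ⟨_, hwOc⟩ = 1 := by
    rw [← hS.fst_eq ⟨_, hwO⟩ hwOc, hρw]
    rfl
  exact descW hL A hA hscale hChar _ n hdeg'' hn w hw0 hwdiv hwOc hred ⟨g, hg, hg0⟩

end Fermat.Agent.S34.DescInst
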