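import Mathlib
import Fermat.Agent.S34.Plan
import Fermat.Agent.S34.FrobCoeff
import Fermat.Agent.S18.ContentMain

/-!
# S34 / P6 — (I4) [FROB] in Plan vocabulary (helper81)

`frobRoot : Plan.Levels q N' N M → A.LiesOverPrime q → Plan.FrobRoot A q M`:
the Riemann–Roch spaces `WJ m` of the good level `M` over the residue field `k = kk A` are stable
under the coefficientwise `q`-th root, `a' ^ q = a(T^q)`.  One line from
`FrobCoeff.exists_root_WJ_kk` (helper75).
-/

set_option autoImplicit false

namespace Fermat.Agent.S34.FrobInst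

open ModularCurve Fermat.Agent.S24 Fermat.Agent.S18.Content Fermat.Agent.S18.Plan

/-- **[FROB]** for a prime `q` and a valuation subring `A` of `Q̄` over `q` (any level `M`). -/
theorem frobRoot_of_prime (A : ValuationSubring Kbar) (q M : ℕ) [NeZero q] (hq : q.Prime)
    (hA : A.LiesOverPrime q) : Fermat.Agent.S34.Plan.FrobRoot A q M := by
  intro m a ha
  have : Fact q.Prime := ⟨hq⟩
  have : CharP (kk A) q := charP_residueField_of_liesOverPrime A q hA
  obtain ⟨a', ha', h⟩ := Fermat.Agent.S34.FrobCoeff.exists_root_WJ_kk A q M m ha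
  exact ⟨a', ha', h⟩

/-- **(I4) [FROB]** `Plan.FrobRoot A q M` in the standing level data. -/
theorem frobRoot (A : ValuationSubring Kbar) {q N' N M : ℕ} [NeZero q]
    (hL : Fermat.Agent.S34.Plan.Levels q N' N M) (hA : A.LiesOverPrime q) :
    Fermat.Agent.S34.Plan.FrobRoot A q M :=
  frobRoot_of_prime A q M hL.prime hA

end Fermat.Agent.S34.FrobInst
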