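import Mathlib
import Fermat.Agent.S34.LiftCore2

/-!
# S34 — the graded wrapper of `LiftCore2.liftCore` (helper77)

Step (5) of the P6 design, with all the bookkeeping of `V₂ = φ^{-c} V₁`, `V₁₂`, `U₂` done once,
abstractly (the analogue of `S18/RedGlue.liftCore_plan` + the `H1a/H1b/H1/H3/H4` wiring of
`S18/Surj`, `S18/MainFree`).

Data: reduction data `h : LiftCore2.RedData A π O ρ` (`ρ : O →+* R`, `R` any nontrivial commutative
`k`-algebra, e.g. `κ × κ`), a subspace `S` with `(Dim)`; graded `K`-subspaces `V U : ℕ → Submodule K Ω`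
(instantiation: `V c = L(D'' + c E)`, `U c = L(c E)`), graded `k`-subspaces `Bc : ℕ → Submodule k R`
(`= B̄(c)`), a unit `φ` of `O` (`φ = (j - a)(j_q - a)`), `w ∈ O` with `ρ w = 1`
(`n • D'' = div w`), and one level `c`.

* `shift a W`                 : the subspace `{s | a * s ∈ W}` (`= a⁻¹ W`);
* `mem_redSp_shift_iff`       : `x ∈ redSp (φ^{-c} W) ↔ ρ(φ)^c * x ∈ redSp W`;
* `exists_ne_zero_mem`        : **the lifting step**: `∃ s ≠ 0, s ∈ V c ∧ φ^c * s ∈ V c`.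
-/

set_option autoImplicit false

namespace Fermat.Agent.S34.LiftAbs

open Fermat.Agent.S34.LiftCore2

variable {K Ω k R : Type*} [Field K] [Field Ω] [Algebra K Ω] [Field k] [CommRing R] [Algebra k R]

/-- The `K`-subspace `{s | a * s ∈ W}` (`= a⁻¹ W` for `a ≠ 0`). -/
def shift (a : Ω) (W : Submodule K Ω) : Submodule K Ω := W.comap (LinearMap.mulLeft K a)

theorem mem_shift {a : Ω} {W : Submodule K Ω} {s : Ω} : s ∈ shift a W ↔ a * s ∈ W := Iff.rfl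

theorem shift_mono (a : Ω) {W W' : Submodule K Ω} (hW : W ≤ W') : shift a W ≤ shift a W' :=
  fun _ hs => hW hs

/-- `shift a W` is finite dimensional for `a ≠ 0`. -/
theorem finite_shift {a : Ω} (ha : a ≠ 0) (W : Submodule K Ω) [Module.Finite K W] :
    Module.Finite K (shift a W) := by
  let f : shift a W →ₗ[K] W := (LinearMap.mulLeft K a).restrict (fun s hs => hs)
  have hf : Function.Injective f := by
    intro s t hst
    have h1 : a * (s : Ω) = a * (t : Ω) := congrArg Subtype.val hst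
    exact Subtype.ext (mul_left_cancel₀ ha h1)
  exact Module.Finite.of_injective f hf

section

variable {A : ValuationSubring K} {π : A →+* k} {O : Subring Ω} {ρ : O →+* R}

/-- The reductions of `φ^{-c} W` are `ρ(φ)^{-c}` times those of `W` (`φ` a unit of `O`). -/
theorem mem_redSp_shift_iff (h : RedData A π O ρ) (φ φi : O) (hφ : (φ : Ω) * (φi : Ω) = 1)
    (c : ℕ) (W : Submodule K Ω) (x : R) :
    x ∈ h.redSp (shift ((φ : Ω) ^ c) W) ↔ ρ φ ^ c * x ∈ h.redSp W := by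
  constructor
  · rintro ⟨y, hy, rfl⟩
    refine ⟨φ ^ c * y, ?_, ?_⟩
    · rw [Subring.coe_mul, Subring.coe_pow]
      exact hy
    · rw [map_mul, map_pow]
  · rintro ⟨y, hy, hx⟩
    have hφ' : φ * φi = 1 := Subtype.ext hφ
    have hρ : ρ φi * ρ φ = 1 := by rw [← map_mul, mul_comm, hφ', map_one]
    refine ⟨φi ^ c * y, ?_, ?_⟩
    · rw [mem_shift, Subring.coe_mul, Subring.coe_pow, ← mul_assoc, ← mul_pow, hφ, one_pow,
        one_mul]
      exact hy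
    · rw [map_mul, map_pow, hx, ← mul_assoc, ← mul_pow, hρ, one_pow, one_mul]

variable [Nontrivial R]

/-- **The lifting step** (graded form of `LiftCore2.liftCore`): under the hypotheses listed in the
header, `V c ∩ φ^{-c} V c ≠ 0`. -/
theorem exists_ne_zero_mem (h : RedData A π O ρ) (S : Submodule K Ω) (hS : HasDim k O ρ S)
    (V U : ℕ → Submodule K Ω) (Bc : ℕ → Submodule k R)
    (hVfin : ∀ c, Module.Finite K (V c)) (hUfin : ∀ c, Module.Finite K (U c))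
    (hVmono : ∀ c c', c ≤ c' → V c ≤ V c')
    (φ φi : O) (hφ : (φ : Ω) * (φi : Ω) = 1)
    (w : O) (hw : ρ w = 1) (n : ℕ) (hn : (n : k) ≠ 0) (c : ℕ)
    (hSV : V c ≤ S) (hSV2 : shift ((φ : Ω) ^ c) (V c) ≤ S)
    (hSU : U (n * c) ≤ S) (hSU2 : shift ((φ : Ω) ^ (n * c)) (U (n * c)) ≤ S)
    (M1 : ∀ s ∈ V c, (φ : Ω) ^ c * s ∈ V (2 * c))
    (P : ∀ s ∈ V c, s ^ n * (w : Ω) ∈ U (n * c))
    (hU1 : (1 : Ω) ∈ U (n * c)) (hUφ : (φ : Ω) ^ (n * c) ∈ U (n * c))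
    (IV : h.redSp (V c) ≤ Bc c) (IV2 : h.redSp (V (2 * c)) ≤ Bc (2 * c))
    (IU : h.redSp (U (n * c)) ≤ Bc (n * c))
    (SV : Bc c ≤ h.redSp (V c))
    (h1 : (1 : R) ∈ Bc c) (hφB : ρ φ ^ c ∈ Bc c)
    (C1 : ∀ (c' : ℕ) (x : R), x ∈ Bc c' → ρ φ ^ c' * x ∈ Bc c' →
      ∃ κ : k, x = algebraMap k R κ)
    (C4 : ∀ (C : ℕ) (x₁ x₂ : R), x₁ ∈ Bc C → ρ φ ^ C * x₂ ∈ Bc C →
      ρ φ ^ c * (x₁ + x₂) ∈ Bc (2 * c) → x₁ ∈ Bc c ∧ ρ φ ^ c * x₂ ∈ Bc c) :
    ∃ s : Ω, s ≠ 0 ∧ s ∈ V c ∧ (φ : Ω) ^ c * s ∈ V c := by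
  have hφ0 : (φ : Ω) ≠ 0 := left_ne_zero_of_mul_eq_one hφ
  have hiff := mem_redSp_shift_iff h φ φi hφ
  have := hVfin c
  have := hUfin (n * c)
  have : Module.Finite K (shift ((φ : Ω) ^ c) (V c)) := finite_shift (pow_ne_zero c hφ0) (V c)
  have : Module.Finite K (shift ((φ : Ω) ^ (n * c)) (U (n * c))) :=
    finite_shift (pow_ne_zero (n * c) hφ0) (U (n * c))
  have hne : V c ⊓ shift ((φ : Ω) ^ c) (V c) ≠ ⊥ := by
    refine liftCore h S hS (V c) (shift ((φ : Ω) ^ c) (V c)) (shift ((φ : Ω) ^ c) (V (2 * c)))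
      (U (n * c)) (shift ((φ : Ω) ^ (n * c)) (U (n * c))) hSV hSV2 hSU hSU2 ?_ ?_ w hw n hn
      P ?_ hU1 ?_ (SV h1) ?_ ?_ ?_ ?_
    · -- `V₁ ≤ V₁₂`
      exact fun s hs => M1 s hs
    · -- `V₂ ≤ V₁₂`
      exact shift_mono _ (hVmono c (2 * c) (by omega))
    · -- `H7b`
      intro s hs
      have h2 := P _ (mem_shift.1 hs)
      rw [mem_shift]
      have e : (φ : Ω) ^ (n * c) * (s ^ n * (w : Ω)) = ((φ : Ω) ^ c * s) ^ n * (w : Ω) := by
        rw [mul_pow, ← pow_mul, mul_comm c n, mul_assoc]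
      rw [e]
      exact h2
    · -- `1 ∈ U₂`
      rw [mem_shift, mul_one]
      exact hUφ
    · -- `H1b`
      refine (hiff c (V c) 1).2 ?_
      rw [mul_one]
      exact SV hφB
    · -- `H1`
      intro x hx1 hx2
      exact C1 c x (IV hx1) (IV ((hiff c (V c) x).1 hx2))
    · -- `H3`
      intro x hx1 hx2
      exact C1 (n * c) x (IU hx1) (IU ((hiff (n * c) (U (n * c)) x).1 hx2))
    · -- `H4`
      intro x hx hx12
      obtain ⟨x₁, hx₁, x₂, hx₂, rfl⟩ := Submodule.mem_sup.1 hx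
      have h₁ := IU hx₁
      have h₂ := IU ((hiff (n * c) (U (n * c)) x₂).1 hx₂)
      have h₁₂ := IV2 ((hiff c (V (2 * c)) (x₁ + x₂)).1 hx12)
      obtain ⟨ha, hb⟩ := C4 (n * c) x₁ x₂ h₁ h₂ h₁₂
      exact Submodule.add_mem_sup (SV ha) ((hiff c (V c) x₂).2 (SV hb))
  obtain ⟨s, hs, hs0⟩ := (Submodule.ne_bot_iff _).1 hne
  exact ⟨s, hs0, (Submodule.mem_inf.1 hs).1, mem_shift.1 (Submodule.mem_inf.1 hs).2⟩

end

end Fermat.Agent.S34.LiftAbs
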