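import Mathlib
import Fermat.Agent.S34.Plan
import Fermat.Agent.S34.LiftAbs
import Fermat.Agent.S18.MainLemmas
import Fermat.Agent.S18.WJCalc
import Fermat.Agent.S18.ConstWPlan

/-!
# S34 / P6 — [LIFT]: the lifting step `Plan.LiftStmt` (helper77)

`liftStmt_of`: `Plan.LiftStmt A N q M hqN O ρ` from the interface `Plan.Setup2` of the two-component
reduction, cusp regularity `Plan.CuspReg` and the node structure `Plan.NodeStmt` (used only through
"`B̄ ∩ (k × k)` is the diagonal").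

Proof: one application of `LiftAbs.exists_ne_zero_mem` (the graded wrapper of `LiftCore2.liftCore`)
with `V c = L(D + cE)`, `U c = L(cE)`, `Bc c = B̄(c)` and **`φ = j · j_q`**
(`ρ φ = (j̄^(q+1), j̄^(q+1))`, a unit of `O`):

* `H1`/`H3`: `x, ρφ^c x ∈ B̄(c)` ⟹ both components lie in `WJ 0 = k` (`S18.WJCalc`,
  `S18.ConstWPlan`) ⟹ `x ∈ k (1,1)` (node structure);
* `H4`: the `WJ` pole-order lemma `S18.WJCalc.split_mem_WJ` on both components + cusp regularity;
* the last divisor step `s ∈ L(D + cE)`, `φ^c s ∈ L(D + cE)` ⟹ `s ∈ L(D)` place by place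
  (`ord_P φ = -E(P)` at the cusps, `E(P) = 0` elsewhere).
-/

set_option autoImplicit false

noncomputable section

namespace Fermat.Agent.S34.Lift

open ModularCurve AlgebraicCurve Fermat.Agent.S24 Fermat.Agent.S18 Fermat.Agent.S18.Content
  Fermat.Agent.S18.Plan Fermat.Agent.S34.Plan

/-! ## The abstract reduction datum of `(O, ρ)` -/

section Red

variable (A : ValuationSubring Kbar)

/-- The coefficientwise `k`-algebra structure on `k((T)) × k((T))`. -/
abbrev algR2 : Algebra (kk A) (R2 A) :=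
  @Prod.algebra (kk A) (Omk A) (Omk A) _ _ HahnSeries.instAlgebra _ HahnSeries.instAlgebra

variable {A}
variable (O : Subring Om) (ρ : O →+* R2 A)

/-- The abstract reduction datum of `LiftCore2`, with the coefficientwise algebra structures. -/
abbrev RD2 : Prop :=
  @LiftCore2.RedData Kbar Om (kk A) (R2 A) _ _ HahnSeries.instAlgebra _ _ (algR2 A)
    A (IsLocalRing.residue A) O ρ

theorem redData2 (hC : ∀ c : Kbar, (HahnSeries.C c : Om) ∈ O ↔ c ∈ A)
    (hρC : ∀ (a : A) (h : (HahnSeries.C (a : Kbar) : Om) ∈ O),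
      ρ ⟨_, h⟩ = (HahnSeries.C (IsLocalRing.residue A a), HahnSeries.C (IsLocalRing.residue A a))) :
    RD2 O ρ :=
  @LiftCore2.RedData.mk Kbar Om (kk A) (R2 A) _ _ HahnSeries.instAlgebra _ _ (algR2 A)
    A (IsLocalRing.residue A) O ρ
    IsLocalRing.residue_surjective
    (fun a => by
      rw [IsLocalRing.residue_eq_zero_iff, IsLocalRing.mem_maximalIdeal, mem_nonunits_iff])
    (fun c => hC c)
    (fun a h => hρC a h)

/-- `(Dim)` of `Setup2` is `LiftCore2.HasDim` on `F_n`. -/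
theorem hasDim2 (n : ℕ)
    (hdim : ∀ W : Submodule Kbar Om, (∀ w ∈ W, w ∈ modularFunctionFieldBar n) →
      Module.Finite Kbar W →
        ∃ (r : ℕ) (b : Fin r → O), Submodule.span Kbar (Set.range fun i => (b i : Om)) = W ∧
          LinearIndependent (kk A) (fun i => ρ (b i))) :
    @LiftCore2.HasDim Kbar Om (R2 A) _ _ HahnSeries.instAlgebra _ (kk A) _ (algR2 A) O ρ
      (Main.fieldSub n) := by
  intro W hW hfin
  exact hdim W (fun w hw => hW hw) hfin

end Red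

/-! ## Pull-back Riemann–Roch spaces and `φ = j · j_q` -/

section Pull

variable {N N₂ : ℕ}

/-- Inequality form of `S18.Main.mul_mem_pullRR`. -/
theorem mul_mem_pullRR_of_le (hle : modularFunctionFieldBar N ≤ modularFunctionFieldBar N₂)
    {B B' : Divisor Kbar (FN N)} {h : FN N} (hh : h ≠ 0)
    (hB : ∀ P : Place Kbar (FN N), B P - P.ord h ≤ B' P)
    {g : Om} (hg : g ∈ pullRR N N₂ B) : (h : Om) * g ∈ pullRR N N₂ B' := by
  refine ⟨mul_mem (hle h.2) hg.1, fun P t ht hBt => ?_⟩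
  have h1 := hg.2 P (t * h) (mul_ne_zero ht hh) (by
    rw [P.ord_mul ht hh]
    have := hB P
    omega)
  have e : (t : Om) * ((h : Om) * g) = ((t * h : FN N) : Om) * g := by
    push_cast
    ring
  rw [e]
  exact h1

variable (N) [NeZero N] (q : ℕ) [NeZero q] (hqN : q ∣ N)

/-- `φ = j · j_q ∈ F_N`. -/
def phiN : FN N := jBar N * jBarLevel N q hqN

theorem coe_jBarLevel : ((jBarLevel N q hqN : FN N) : Om) = qExpand Kbar q jK := by
  show coeffEmb Kbar (qExpand ℚ q jq) = qExpand Kbar q (jqModC Kbar)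
  rw [coeffEmb, coeffMap_qExpand, ← jqModC_rat, coeffMap_jqModC]

theorem jBarLevel_ne_zero : jBarLevel N q hqN ≠ 0 := by
  intro h0
  have h1 := coe_jBarLevel N q hqN
  rw [h0] at h1
  have h2 : qExpand Kbar q jK = 0 := h1.symm
  exact Main.jqModC_ne_zero' Kbar ((map_eq_zero_iff _ (qExpand_injective q)).1 h2)

theorem phiN_ne_zero : phiN N q hqN ≠ 0 :=
  mul_ne_zero (Main.jBar_ne_zero N) (jBarLevel_ne_zero N q hqN)

theorem coe_phiN : ((phiN N q hqN : FN N) : Om) = jK * qExpand Kbar q jK := by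
  rw [phiN]
  push_cast
  rw [Main.coe_jBar, coe_jBarLevel]

theorem ord_phiN (P : Place Kbar (FN N)) :
    P.ord (phiN N q hqN) = P.ord (jBar N) + P.ord (jBarLevel N q hqN) :=
  P.ord_mul (Main.jBar_ne_zero N) (jBarLevel_ne_zero N q hqN)

variable {N q hqN}

theorem E_nonneg {E : Divisor Kbar (FN N)} (hE : IsE N q hqN E) (P : Place Kbar (FN N)) :
    0 ≤ E P := by
  rw [hE P]
  omega

theorem neg_E_le_ord {E : Divisor Kbar (FN N)} (hE : IsE N q hqN E) (P : Place Kbar (FN N)) :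
    -E P ≤ P.ord (phiN N q hqN) := by
  rw [ord_phiN, hE P]
  omega

theorem E_eq_zero_or {E : Divisor Kbar (FN N)} (hE : IsE N q hqN E)
    (hpole : ∀ P : Place Kbar (FN N), P.ord (jBar N) < 0 ↔ P.ord (jBarLevel N q hqN) < 0)
    (P : Place Kbar (FN N)) : E P = 0 ∨ P.ord (phiN N q hqN) = -E P := by
  have h := hpole P
  rw [ord_phiN, hE P]
  omega

omit [NeZero N] in
theorem smul_E_apply (E : Divisor Kbar (FN N)) (c : ℕ) (P : Place Kbar (FN N)) :
    (c • E) P = (c : ℤ) * E P := by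
  rw [Finsupp.smul_apply, nsmul_eq_mul]

omit [NeZero N] in
theorem add_smul_E_apply (D E : Divisor Kbar (FN N)) (c : ℕ) (P : Place Kbar (FN N)) :
    (D + c • E) P = D P + (c : ℤ) * E P := by
  rw [Finsupp.add_apply, smul_E_apply]

end Pull


/-! ## The lifting step -/

section Main

variable {A : ValuationSubring Kbar} {N q M : ℕ} [NeZero N] [NeZero q] {hqN : q ∣ N}
variable {O : Subring Om} {ρ : O →+* R2 A}

/-- `B̄(c)` as a `k`-subspace of `k((T)) × k((T))`. -/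
abbrev BcSub (h : RD2 O ρ) (N q M : ℕ) (E : Divisor Kbar (FN N)) (c : ℕ) :=
  @LiftCore2.RedData.redSp Kbar Om (kk A) (R2 A) _ _ HahnSeries.instAlgebra _ _ (algR2 A)
    A (IsLocalRing.residue A) O ρ h (pullRR N (M * q) (c • E))

omit [NeZero N] [NeZero q] in
theorem mem_BcSub (h : RD2 O ρ) (E : Divisor Kbar (FN N)) (c : ℕ) (x : R2 A) :
    x ∈ BcSub h N q M E c ↔ x ∈ Bbar N q M O ρ E c := Iff.rfl

/-- **The lifting step** at one divisor, with minimal hypotheses: finite-dimensionality of the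
pull-back spaces, `supp (j)_∞ = supp (j_q)_∞`, the interface `Setup2`, cusp regularity for `E`, and
`B̄ ∩ (k × k) ⊆ k (1,1)`. -/
theorem exists_mem_pullRR [CharP (kk A) q]
    (hle : modularFunctionFieldBar N ≤ modularFunctionFieldBar (M * q))
    (hfin : ∀ B : Divisor Kbar (FN N), Module.Finite Kbar (pullRR N (M * q) B))
    (hpole : ∀ P : Place Kbar (FN N), P.ord (jBar N) < 0 ↔ P.ord (jBarLevel N q hqN) < 0)
    (hS : Setup2 A N q M hqN O ρ)
    (E : Divisor Kbar (FN N)) (hE : IsE N q hqN E)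
    (hCR : ∃ c₀ : ℕ, ∀ c : ℕ, c₀ ≤ c → ∀ c' : ℕ, c ≤ c' →
      Bbar N q M O ρ E c' ∩ WW A q M c ⊆ Bbar N q M O ρ E c)
    (hdiag : ∀ (c : ℕ) (a b : kk A),
      ((HahnSeries.C a, HahnSeries.C b) : R2 A) ∈ Bbar N q M O ρ E c → a = b)
    (D : Divisor Kbar (FN N)) (n : ℕ) (hn : ¬ q ∣ n)
    (w : FN N) (hw0 : w ≠ 0) (hwD : ∀ P : Place Kbar (FN N), P.ord w = n * D P)
    (hw : (w : Om) ∈ O) (hρw : ρ ⟨_, hw⟩ = 1)
    (hMD : ∃ c₀ : ℕ, ∀ c : ℕ, c₀ ≤ c → MD N q M O ρ E D c = Bbar N q M O ρ E c) :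
    ∃ g : Om, g ∈ pullRR N (M * q) D ∧ g ≠ 0 := by
  classical
  obtain ⟨c₁, hCR⟩ := hCR
  obtain ⟨c₂, hMD⟩ := hMD
  -- the level
  obtain ⟨c, hc1, hc2⟩ : ∃ c : ℕ, c₁ ≤ c ∧ c₂ ≤ c := ⟨max c₁ c₂, le_max_left _ _, le_max_right _ _⟩
  -- `φ = j · j_q`
  obtain ⟨hjO, hρj⟩ := hS.ρ_j
  obtain ⟨hjqO, hρjq⟩ := hS.ρ_jq
  obtain ⟨φ, hφcoe, hρφ⟩ : ∃ φ : O, (φ : Om) = ((phiN N q hqN : FN N) : Om) ∧
      ρ φ = (jk A ^ (q + 1), jk A ^ (q + 1)) := by
    refine ⟨(⟨jK, hjO⟩ : O) * (⟨qExpand Kbar q jK, hjqO⟩ : O), ?_, ?_⟩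
    · rw [coe_phiN]
      rfl
    · rw [map_mul, hρj, hρjq]
      refine Prod.ext ?_ ?_
      · show jk A * jk A ^ q = jk A ^ (q + 1)
        rw [pow_succ']
      · show jk A ^ q * jk A = jk A ^ (q + 1)
        rw [pow_succ]
  have hjk0 : jk A ≠ 0 := Main.jqModC_ne_zero' _
  have hφN0 : phiN N q hqN ≠ 0 := phiN_ne_zero N q hqN
  have hφ0 : (φ : Om) ≠ 0 := by
    rw [hφcoe]
    intro h0
    exact hφN0 (Subtype.ext h0)
  have hφi : ((φ : O) : Om)⁻¹ ∈ O := by
    apply hS.inv_mem φ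
    · rw [hρφ]
      exact pow_ne_zero _ hjk0
    · rw [hρφ]
      exact pow_ne_zero _ hjk0
  have hφφi : (φ : Om) * (((⟨_, hφi⟩ : O) : O) : Om) = 1 := mul_inv_cancel₀ hφ0
  have hφF : (φ : Om) ∈ modularFunctionFieldBar (M * q) := hS.mem_field φ
  -- the reduction datum
  have h : RD2 O ρ := redData2 O ρ hS.C_mem_iff hS.ρ_C
  have hnk : ((n : ℕ) : kk A) ≠ 0 := fun h0 => hn ((CharP.cast_eq_zero_iff (kk A) q n).1 h0)
  -- multiplication by `φ^m`
  have hmul : ∀ (B B' : Divisor Kbar (FN N)) (m : ℕ), (∀ P, B P + (m : ℤ) * E P ≤ B' P) →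
      ∀ g : Om, g ∈ pullRR N (M * q) B → (φ : Om) ^ m * g ∈ pullRR N (M * q) B' := by
    intro B B' m hB g hg
    have h1 := mul_mem_pullRR_of_le hle (h := phiN N q hqN ^ m) (pow_ne_zero m hφN0)
      (B := B) (B' := B') (fun P => by
        rw [Main.ord_pow]
        have h2 := neg_E_le_ord hE P
        have h3 : (m : ℤ) * (-E P) ≤ (m : ℤ) * P.ord (phiN N q hqN) :=
          mul_le_mul_of_nonneg_left h2 (Nat.cast_nonneg m)
        have h4 := hB P
        linarith) hg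
    have e : ((phiN N q hqN ^ m : FN N) : Om) = (φ : Om) ^ m := by
      push_cast
      rw [hφcoe]
    rw [e] at h1
    exact h1
  have hU1 : ∀ m : ℕ, (1 : Om) ∈ pullRR N (M * q) (m • E) := fun m =>
    Main.one_mem_pullRR (fun P => by
      rw [smul_E_apply]
      exact mul_nonneg (Nat.cast_nonneg m) (E_nonneg hE P))
  have hUφ : ∀ m : ℕ, (φ : Om) ^ m ∈ pullRR N (M * q) (m • E) := by
    intro m
    have h1 := hmul 0 (m • E) m (fun P => by
      rw [smul_E_apply, Finsupp.zero_apply, zero_add]) 1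
      (Main.one_mem_pullRR (fun P => by rw [Finsupp.zero_apply]))
    rwa [mul_one] at h1
  have hUmono : ∀ a b : ℕ, a ≤ b → pullRR N (M * q) (a • E) ≤ pullRR N (M * q) (b • E) := by
    intro a b hab
    refine Main.pullRR_mono (fun P => ?_)
    rw [smul_E_apply, smul_E_apply]
    exact mul_le_mul_of_nonneg_right (by exact_mod_cast hab) (E_nonneg hE P)
  have hVmono : ∀ a b : ℕ, a ≤ b →
      pullRR N (M * q) (D + a • E) ≤ pullRR N (M * q) (D + b • E) := by
    intro a b hab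
    refine Main.pullRR_mono (fun P => ?_)
    rw [add_smul_E_apply, add_smul_E_apply]
    have : (a : ℤ) * E P ≤ (b : ℤ) * E P :=
      mul_le_mul_of_nonneg_right (by exact_mod_cast hab) (E_nonneg hE P)
    linarith
  -- `B̄(c)`: monotone, stable under `ρφ^m` (with shift), inside `W(c)`
  have hBmono : ∀ a b : ℕ, a ≤ b → BcSub h N q M E a ≤ BcSub h N q M E b := by
    rintro a b hab x ⟨y, hy, rfl⟩
    exact ⟨y, hUmono a b hab hy, rfl⟩
  have hBmul : ∀ (C m : ℕ) (x : R2 A), x ∈ BcSub h N q M E C →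
      ρ φ ^ m * x ∈ BcSub h N q M E (C + m) := by
    rintro C m x ⟨y, hy, rfl⟩
    refine ⟨φ ^ m * y, ?_, ?_⟩
    · rw [Subring.coe_mul, Subring.coe_pow]
      refine hmul (C • E) ((C + m) • E) m (fun P => ?_) _ hy
      rw [smul_E_apply, smul_E_apply]
      push_cast
      linarith
    · rw [map_mul, map_pow]
  have hW : ∀ (c' : ℕ) (z : R2 A), z ∈ BcSub h N q M E c' → z ∈ WW A q M c' := by
    rintro c' z ⟨y, hy, rfl⟩
    exact hS.incl E hE c' y hy
  have hρφpow : ∀ m : ℕ, ρ φ ^ m = (jk A ^ (m * (q + 1)), jk A ^ (m * (q + 1))) := by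
    intro m
    rw [hρφ]
    refine Prod.ext ?_ ?_
    · show (jk A ^ (q + 1)) ^ m = jk A ^ (m * (q + 1))
      rw [← pow_mul, mul_comm]
    · show (jk A ^ (q + 1)) ^ m = jk A ^ (m * (q + 1))
      rw [← pow_mul, mul_comm]
  have hjM : jk A ∈ Fk A M := jqModC_mem_full _ M
  -- `(C1)`
  have C1 : ∀ (c' : ℕ) (x : R2 A), x ∈ BcSub h N q M E c' → ρ φ ^ c' * x ∈ BcSub h N q M E c' →
      ∃ κ : kk A, x = @algebraMap (kk A) (R2 A) _ _ (algR2 A) κ := by
    intro c' x hx hx'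
    obtain ⟨h1, h2⟩ := hW c' x hx
    obtain ⟨h1', h2'⟩ := hW c' _ hx'
    rw [hρφpow] at h1' h2'
    have hx1 : x.1 ∈ WJ (kk A) (Fk A M) 0 := WJCalc.mem_WJ_zero_of_mem h1 h1'
    have hx2 : x.2 ∈ WJ (kk A) (Fk A M) 0 := WJCalc.mem_WJ_zero_of_mem h2 h2'
    obtain ⟨κ₁, hκ₁⟩ := ConstWPlan.eq_C_of_mem_WJ_zero _ _ hx1
    obtain ⟨κ₂, hκ₂⟩ := ConstWPlan.eq_C_of_mem_WJ_zero _ _ hx2
    have hxe : x = (HahnSeries.C κ₁, HahnSeries.C κ₂) := Prod.ext hκ₁ hκ₂
    have hκ : κ₁ = κ₂ := hdiag c' κ₁ κ₂ (by rw [← hxe]; exact hx)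
    refine ⟨κ₁, ?_⟩
    rw [hxe, ← hκ]
    rfl
  -- cusp regularity, both directions
  have hcr : ∀ (c' : ℕ) (x : R2 A), x ∈ BcSub h N q M E c' → x ∈ WW A q M c →
      x ∈ BcSub h N q M E c := by
    intro c' x hx hxW
    rcases le_total c c' with hcc | hcc
    · exact hCR c hc1 c' hcc ⟨hx, hxW⟩
    · exact hBmono c' c hcc hx
  -- `(C4)`
  have C4 : ∀ (C : ℕ) (x₁ x₂ : R2 A), x₁ ∈ BcSub h N q M E C →
      ρ φ ^ C * x₂ ∈ BcSub h N q M E C → ρ φ ^ c * (x₁ + x₂) ∈ BcSub h N q M E (2 * c) →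
      x₁ ∈ BcSub h N q M E c ∧ ρ φ ^ c * x₂ ∈ BcSub h N q M E c := by
    intro C x₁ x₂ hx₁ hx₂ hx₁₂
    have hW₁ := hW C x₁ hx₁
    have hW₂ := hW C _ hx₂
    have hW₁₂ := hW (2 * c) _ hx₁₂
    rw [hρφpow] at hW₂ hW₁₂
    have e2 : 2 * c * (q + 1) = 2 * (c * (q + 1)) := Nat.mul_assoc 2 c (q + 1)
    have s1 := WJCalc.split_mem_WJ hjM (c := c * (q + 1)) (C := C * (q + 1)) (y₁ := x₁.1)
      (y₂ := x₂.1) hW₁.1 hW₂.1 (by
        have := hW₁₂.1
        rw [e2] at this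
        exact this)
    have s2 := WJCalc.split_mem_WJ hjM (c := c * (q + 1)) (C := C * (q + 1)) (y₁ := x₁.2)
      (y₂ := x₂.2) hW₁.2 hW₂.2 (by
        have := hW₁₂.2
        rw [e2] at this
        exact this)
    have hx₁W : x₁ ∈ WW A q M c := ⟨s1.1, s2.1⟩
    have hx₂W : ρ φ ^ c * x₂ ∈ WW A q M c := by
      rw [hρφpow]
      exact ⟨s1.2, s2.2⟩
    refine ⟨hcr C x₁ hx₁ hx₁W, ?_⟩
    have e : ρ φ ^ c * x₂ = ρ φ ^ c * (x₁ + x₂) - ρ φ ^ c * x₁ := by ring
    have hmem : ρ φ ^ c * x₂ ∈ BcSub h N q M E (max (2 * c) (C + c)) := by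
      rw [e]
      exact Submodule.sub_mem _ (hBmono _ _ (le_max_left _ _) hx₁₂)
        (hBmono _ _ (le_max_right _ _) (hBmul C c x₁ hx₁))
    exact hcr _ _ hmem hx₂W
  -- the application of `LiftAbs.exists_ne_zero_mem`
  obtain ⟨s, hs0, hsV, hφs⟩ := @LiftAbs.exists_ne_zero_mem Kbar Om (kk A) (R2 A) _ _
    HahnSeries.instAlgebra _ _ (algR2 A) A (IsLocalRing.residue A) O ρ _ h
    (Main.fieldSub (M * q)) (hasDim2 O ρ (M * q) hS.dim)
    (fun c => pullRR N (M * q) (D + c • E)) (fun c => pullRR N (M * q) (c • E))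
    (fun c => BcSub h N q M E c)
    (fun c => hfin _) (fun c => hfin _) hVmono φ ⟨_, hφi⟩ hφφi ⟨_, hw⟩ hρw n hnk c
    (fun s hs => hs.1)
    (fun s hs => by
      have hs' : (φ : Om) ^ c * s ∈ pullRR N (M * q) (D + c • E) := hs
      have e : s = ((φ : Om) ^ c)⁻¹ * ((φ : Om) ^ c * s) := by
        field_simp
      show s ∈ modularFunctionFieldBar (M * q)
      rw [e]
      exact mul_mem (inv_mem (pow_mem hφF c)) hs'.1)
    (fun s hs => hs.1)
    (fun s hs => by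
      have hs' : (φ : Om) ^ (n * c) * s ∈ pullRR N (M * q) ((n * c) • E) := hs
      have e : s = ((φ : Om) ^ (n * c))⁻¹ * ((φ : Om) ^ (n * c) * s) := by
        field_simp
      show s ∈ modularFunctionFieldBar (M * q)
      rw [e]
      exact mul_mem (inv_mem (pow_mem hφF (n * c))) hs'.1)
    (fun s hs => hmul (D + c • E) (D + (2 * c) • E) c (fun P => by
      rw [add_smul_E_apply, add_smul_E_apply]
      push_cast
      linarith) s hs)
    (fun s hs => by
      have h1 : s ^ n ∈ pullRR N (M * q) (n • (D + c • E)) :=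
        Main.pow_mem_pullRR n (fun P => smul_E_apply _ n P) hs
      have h2 := mul_mem_pullRR_of_le hle (h := w) hw0 (B := n • (D + c • E))
        (B' := (n * c) • E) (fun P => by
          rw [smul_E_apply, add_smul_E_apply, smul_E_apply, hwD P]
          push_cast
          linarith) h1
      have e : s ^ n * (((⟨(w : Om), hw⟩ : O) : O) : Om) = (w : Om) * s ^ n := mul_comm _ _
      rw [e]
      exact h2)
    (hU1 (n * c)) (hUφ (n * c))
    (fun x hx => by
      have hx' : x ∈ MD N q M O ρ E D c := hx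
      rw [hMD c hc2] at hx'
      exact hx')
    (fun x hx => by
      have hx' : x ∈ MD N q M O ρ E D (2 * c) := hx
      rw [hMD (2 * c) (by omega)] at hx'
      exact hx')
    (fun x hx => hx)
    (fun x hx => by
      have hx' : x ∈ Bbar N q M O ρ E c := hx
      rw [← hMD c hc2] at hx'
      exact hx')
    ⟨1, by rw [Subring.coe_one]; exact hU1 c, map_one ρ⟩
    ⟨φ ^ c, by rw [Subring.coe_pow]; exact hUφ c, map_pow ρ φ c⟩
    C1 C4
  -- the last divisor step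
  refine ⟨s, ⟨hsV.1, fun P t ht hBt => ?_⟩, hs0⟩
  rcases E_eq_zero_or hE hpole P with h0 | h0
  · refine hsV.2 P t ht ?_
    rw [add_smul_E_apply, h0, mul_zero, add_zero]
    exact hBt
  · have hpow0 : phiN N q hqN ^ c ≠ 0 := pow_ne_zero c hφN0
    have h1 := hφs.2 P (t * (phiN N q hqN ^ c)⁻¹) (mul_ne_zero ht (inv_ne_zero hpow0)) (by
      rw [P.ord_mul ht (inv_ne_zero hpow0), P.ord_inv, Main.ord_pow, h0, add_smul_E_apply]
      linarith)
    have e : ((t * (phiN N q hqN ^ c)⁻¹ : FN N) : Om) * ((φ : Om) ^ c * s) = (t : Om) * s := by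
      push_cast
      rw [← hφcoe]
      field_simp
    rw [← e]
    exact h1

omit [NeZero N] [NeZero q] in
/-- `B̄ ∩ (k × k)` is the diagonal, from the node structure with at least one node. -/
theorem diag_of_isNodes {ι : Type} [Nonempty ι] (E : Divisor Kbar (FN N))
    (e₁ e₂ : ι → (BK A M →ₐ[kk A] kk A)) (hN : IsNodes A N q M O ρ E e₁ e₂)
    (c : ℕ) (a b : kk A)
    (hab : ((HahnSeries.C a, HahnSeries.C b) : R2 A) ∈ Bbar N q M O ρ E c) : a = b := by
  obtain ⟨i⟩ := ‹Nonempty ι›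
  have h1 := (hN.2.2 (algebraMap (kk A) (BK A M) a) (algebraMap (kk A) (BK A M) b)).1 ⟨c, by
    rw [Subalgebra.coe_algebraMap, Subalgebra.coe_algebraMap, algebraMap_LS_eq_C,
      algebraMap_LS_eq_C]
    exact hab⟩ i
  rw [AlgHom.commutes, AlgHom.commutes] at h1
  exact h1

/-- **[LIFT]** `Plan.LiftStmt` from `Setup2`, `CuspReg`, `NodeStmt`; hypotheses on the levels in
raw form (`hfin` = first clause of `S18.Plan.RR0 N (M * q)`; `hpole` follows from `Plan.PoleStmt`,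
see `liftStmt_of_pole`). -/
theorem liftStmt_of [CharP (kk A) q]
    (hle : modularFunctionFieldBar N ≤ modularFunctionFieldBar (M * q))
    (hfin : ∀ B : Divisor Kbar (FN N), Module.Finite Kbar (pullRR N (M * q) B))
    (hpole : ∀ P : Place Kbar (FN N), P.ord (jBar N) < 0 ↔ P.ord (jBarLevel N q hqN) < 0)
    (hS : Setup2 A N q M hqN O ρ) (hCR : CuspReg A N q M hqN O ρ)
    (hNode : NodeStmt A N q M hqN O ρ) : LiftStmt A N q M hqN O ρ := by
  intro E hE D n _ _ hn w hw0 hwD hw hρw hMD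
  obtain ⟨ι, _, hne, e₁, e₂, hN⟩ := hNode E hE
  exact exists_mem_pullRR hle hfin hpole hS E hE (hCR E hE)
    (fun c a b hab => diag_of_isNodes E e₁ e₂ hN c a b hab) D n hn w hw0 hwD hw hρw hMD

/-- `supp (j)_∞ = supp (j_q)_∞` from `Plan.PoleStmt` (given one divisor `E = (j)_∞ + (j_q)_∞`). -/
theorem pole_iff_of_poleStmt (hP : PoleStmt N q hqN) (hChar0 : Char0Stmt N)
    (E : Divisor Kbar (FN N)) (hE : IsE N q hqN E) (P : Place Kbar (FN N)) :
    P.ord (jBar N) < 0 ↔ P.ord (jBarLevel N q hqN) < 0 := by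
  obtain ⟨Cp, hCp, -⟩ := hChar0.2.2
  have hCq : IsPoleJq N q hqN (E - Cp) := by
    intro Q
    rw [Finsupp.sub_apply, hE Q, hCp Q]
    ring
  obtain ⟨h1, h2, -⟩ := hP Cp (E - Cp) hCp hCq
  have h1P := h1 P
  have h2P := h2 P
  have e1 := hCp P
  have e2 := hCq P
  constructor
  · intro hj
    by_contra hjq
    have hz : (E - Cp) P = 0 := by
      rw [e2]
      omega
    rw [hz, mul_zero] at h2P
    omega
  · intro hjq
    by_contra hj
    have hz : Cp P = 0 := by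
      rw [e1]
      omega
    rw [hz, mul_zero] at h1P
    omega

/-- **[LIFT]** `Plan.LiftStmt` from `Setup2`, `CuspReg`, `NodeStmt`, `PoleStmt`. -/
theorem liftStmt_of_pole [CharP (kk A) q]
    (hle : modularFunctionFieldBar N ≤ modularFunctionFieldBar (M * q))
    (hfin : ∀ B : Divisor Kbar (FN N), Module.Finite Kbar (pullRR N (M * q) B))
    (hP : PoleStmt N q hqN) (hChar0 : Char0Stmt N)
    (hS : Setup2 A N q M hqN O ρ) (hCR : CuspReg A N q M hqN O ρ)
    (hNode : NodeStmt A N q M hqN O ρ) : LiftStmt A N q M hqN O ρ := by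
  intro E hE D n _ _ hn w hw0 hwD hw hρw hMD
  obtain ⟨ι, _, hne, e₁, e₂, hN⟩ := hNode E hE
  exact exists_mem_pullRR hle hfin (pole_iff_of_poleStmt hP hChar0 E hE) hS E hE (hCR E hE)
    (fun c a b hab => diag_of_isNodes E e₁ e₂ hN c a b hab) D n hn w hw0 hwD hw hρw hMD

end Main

end Fermat.Agent.S34.Lift

end
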