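import Mathlib
import Fermat.Agent.S34.Lift
import Fermat.Agent.S18.Main
import Fermat.Agent.S18.RR0
import Fermat.Agent.S18.Char0
import Fermat.Agent.S18.ContentMain

/-!
# S34 / P6 — (I8) [LIFT], instance form (helper77)

`liftStmt : Plan.Levels q N' N M → A.LiesOverPrime q → Plan.Setup2 … → Plan.CuspReg … →
  Plan.NodeStmt … → Plan.PoleStmt N q hqN → Plan.LiftStmt A N q M hqN O ρ`

(`S34/Lift.liftStmt_of_pole` with the level hypotheses discharged from `Plan.Levels` by the landed
S18 theorems: `S18.Main.fieldBar_le`, `S18.RR0.rr0`, `S18.Char0.char0Stmt`,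
`Content.charP_residueField_of_liesOverPrime`).
-/

set_option autoImplicit false

noncomputable section

namespace Fermat.Agent.S34.LiftInst

open ModularCurve AlgebraicCurve Fermat.Agent.S24 Fermat.Agent.S18 Fermat.Agent.S18.Content
  Fermat.Agent.S18.Plan Fermat.Agent.S34.Plan

theorem dvd_top {q N' N M : ℕ} (hL : Levels q N' N M) : N ∣ M * q := by
  rw [hL.N_eq, hL.M_eq]
  exact ⟨aux q, by ring⟩

theorem top_pos {q N' N M : ℕ} (hL : Levels q N' N M) : 0 < M * q := by
  have h1 := hL.prime.pos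
  have h2 := hL.N'_pos
  have h3 : 0 < aux q := by
    unfold aux
    split_ifs <;> norm_num
  rw [hL.M_eq]
  positivity

theorem top_torsionFree {q N' N M : ℕ} (hL : Levels q N' N M) : 4 ∣ M * q ∨ 9 ∣ M * q := by
  rw [hL.M_eq]
  unfold aux
  split_ifs
  · right
    exact Dvd.dvd.mul_right (Dvd.intro _ rfl) _
  · left
    exact Dvd.dvd.mul_right (Dvd.intro _ rfl) _

/-- **(I8) [LIFT]** `Plan.LiftStmt` from the Plan contracts. -/
theorem liftStmt {q N' N M : ℕ} [NeZero N] [NeZero q] (hL : Levels q N' N M) (hqN : q ∣ N)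
    (A : ValuationSubring Kbar) (hA : A.LiesOverPrime q) {O : Subring Om} {ρ : O →+* R2 A}
    (hS : Setup2 A N q M hqN O ρ) (hCR : CuspReg A N q M hqN O ρ)
    (hNode : NodeStmt A N q M hqN O ρ) (hP : PoleStmt N q hqN) :
    LiftStmt A N q M hqN O ρ := by
  have : Fact q.Prime := ⟨hL.prime⟩
  have : CharP (kk A) q := charP_residueField_of_liesOverPrime A q hA
  have : NeZero (M * q) := ⟨(top_pos hL).ne'⟩
  exact Lift.liftStmt_of_pole (Main.fieldBar_le (dvd_top hL))
    (fun B => (RR0.rr0 N (M * q) (dvd_top hL) (top_torsionFree hL) B).1) hP (Char0.char0Stmt N)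
    hS hCR hNode

end Fermat.Agent.S34.LiftInst

end
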