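import Mathlib
import Fermat.Agent.S18.PlacesModLMain
import Fermat.Agent.S18.WJCalc
import Fermat.Agent.S18.ConstWPlan

/-!
# S34 (P6) — [BK]: the ring `B_κ` of the good level (helper2)

`k` a field, `n` a level, `L = F_{n,k} = modularFunctionFieldFullC k n ⊆ k((q))`.

* `BK k n : Subalgebra k (LaurentSeries k)` : the elements of `F_{n,k}` integral over `k[j̄]`;
  `mem_BK_iff_exists_WJ : a ∈ BK k n ↔ ∃ m, a ∈ Plan.WJ k F_{n,k} m`  (`B_κ = ⋃ WJ m`);
* `isDedekindDomain_BK` : `↥(BK k n)` is a Dedekind domain (`k` algebraically closed of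
  characteristic `q ∤ n`);
* `not_isField_BK` : it is not a field;
* `residue_surjective` : every residue field of `↥(BK k n)` is `k` (`k` algebraically closed);
* `isDedekindDomain_BK_kk`, `residue_surjective_kk` : the same at `k = kk A`, `A` over `q`.

These are exactly the instance arguments / hypotheses `hB`, `hres` of the abstract node theorems
(`Lib/NodeGoursat`, `S34/NodeAlg`).
-/

set_option autoImplicit false
set_option maxHeartbeats 400000
set_option synthInstance.maxHeartbeats 400000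

noncomputable section

namespace Fermat.Agent.S34.BKappa

open ModularCurve AlgebraicCurve IntermediateField
open Fermat.Agent.S24 Fermat.Agent.S18.Content Fermat.Agent.S18.Plan
open Fermat.Agent.S18

/-! ### Generic: integrality over `k[x]` along an injective algebra map -/

section Generic

variable {k S T : Type*} [Field k] [CommRing S] [CommRing T] [Algebra k S] [Algebra k T]

/-- The restriction of an algebra map to `k[x] → k[ι x]`. -/
def adjoinMap (ι : S →ₐ[k] T) (x : S) :
    ↥(Algebra.adjoin k {x}) →+* ↥(Algebra.adjoin k {ι x}) :=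
  RingHom.codRestrict (ι.toRingHom.comp (Algebra.adjoin k {x}).val.toRingHom)
    (Algebra.adjoin k {ι x}) (fun a => by
      have h : (Algebra.adjoin k {x}).map ι = Algebra.adjoin k {ι x} := by
        rw [AlgHom.map_adjoin, Set.image_singleton]
      show ι (a : S) ∈ Algebra.adjoin k {ι x}
      rw [← h]
      exact ⟨a, a.2, rfl⟩)

theorem coe_adjoinMap (ι : S →ₐ[k] T) (x : S) (a : ↥(Algebra.adjoin k {x})) :
    ((adjoinMap ι x a : ↥(Algebra.adjoin k {ι x})) : T) = ι (a : S) := rfl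

theorem adjoinMap_comp (ι : S →ₐ[k] T) (x : S) :
    (algebraMap ↥(Algebra.adjoin k {ι x}) T).comp (adjoinMap ι x) =
      ι.toRingHom.comp (algebraMap ↥(Algebra.adjoin k {x}) S) :=
  RingHom.ext fun _ => rfl

theorem adjoinMap_surjective (ι : S →ₐ[k] T) (x : S) : Function.Surjective (adjoinMap ι x) := by
  rintro ⟨b, hb⟩
  have h : (Algebra.adjoin k {x}).map ι = Algebra.adjoin k {ι x} := by
    rw [AlgHom.map_adjoin, Set.image_singleton]
  have hb' := hb
  rw [← h] at hb'
  obtain ⟨a, ha, hab⟩ := hb'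
  exact ⟨⟨a, ha⟩, Subtype.ext hab⟩

/-- Integrality over `k[x]` is preserved by an algebra map. -/
theorem isIntegral_adjoin_map (ι : S →ₐ[k] T) (x s : S)
    (h : IsIntegral (Algebra.adjoin k {x}) s) : IsIntegral (Algebra.adjoin k {ι x}) (ι s) :=
  IsIntegral.map_of_comp_eq (adjoinMap ι x) ι.toRingHom (adjoinMap_comp ι x) h

/-- Integrality over `k[x]` is reflected by an injective algebra map. -/
theorem isIntegral_adjoin_of_map (ι : S →ₐ[k] T) (hι : Function.Injective ι) (x s : S)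
    (h : IsIntegral (Algebra.adjoin k {ι x}) (ι s)) : IsIntegral (Algebra.adjoin k {x}) s := by
  obtain ⟨P, hP, hPs⟩ := h
  obtain ⟨p, hp, -, hpm⟩ := Polynomial.lifts_and_natDegree_eq_and_monic
    ((Polynomial.mem_lifts P).2 (Polynomial.map_surjective _ (adjoinMap_surjective ι x) P)) hP
  refine ⟨p, hpm, hι ?_⟩
  have h1 := Polynomial.hom_eval₂ p (algebraMap ↥(Algebra.adjoin k {x}) S) ι.toRingHom s
  rw [← adjoinMap_comp, ← Polynomial.eval₂_map, hp] at h1
  rw [map_zero]
  exact h1.trans hPs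

theorem isIntegral_adjoin_map_iff (ι : S →ₐ[k] T) (hι : Function.Injective ι) (x s : S) :
    IsIntegral (Algebra.adjoin k {ι x}) (ι s) ↔ IsIntegral (Algebra.adjoin k {x}) s :=
  ⟨isIntegral_adjoin_of_map ι hι x s, isIntegral_adjoin_map ι x s⟩

/-- If `k[t]` is a field then `t` is algebraic over `k`. -/
theorem isAlgebraic_of_isField_adjoin {K : Type*} [Field K] [Algebra k K] (t : K)
    (h : IsField ↥(Algebra.adjoin k {t})) : IsAlgebraic k t := by
  by_cases ht : t = 0
  · rw [ht]; exact isAlgebraic_zero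
  have ht' : (⟨t, Algebra.self_mem_adjoin_singleton k t⟩ : ↥(Algebra.adjoin k {t})) ≠ 0 := by
    intro h0
    exact ht (congrArg Subtype.val h0)
  obtain ⟨u, hu⟩ := h.mul_inv_cancel ht'
  have hu2 : (u : K) ∈ (Polynomial.aeval t : Polynomial k →ₐ[k] K).range := by
    rw [← Algebra.adjoin_singleton_eq_range_aeval]
    exact u.2
  obtain ⟨p, hp⟩ := hu2
  have hu' : t * (u : K) = 1 := congrArg Subtype.val hu
  refine ⟨Polynomial.X * p - 1, ?_, ?_⟩
  · intro h0
    have := congrArg (fun f => Polynomial.coeff f 0) h0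
    simp at this
  · have hp' : Polynomial.aeval t p = (u : K) := hp
    rw [map_sub, map_mul, Polynomial.aeval_X, map_one, hp', hu', sub_self]

end Generic


/-! ### The ring `B_κ` -/

variable (k : Type) [Field k] (n : ℕ)

/-- `B_κ`: the elements of `F_{n,k}` integral over `k[j̄]`, as a `k`-subalgebra of `k((q))`. -/
def BK : Subalgebra k (LaurentSeries k) :=
  ((integralClosure (polyJ k) (LaurentSeries k)).restrictScalars k) ⊓ (modularFunctionFieldFullC k n).toSubalgebra

variable {k n}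

theorem mem_BK {a : LaurentSeries k} : a ∈ BK k n ↔ a ∈ modularFunctionFieldFullC k n ∧ IsIntegral (polyJ k) a := by
  unfold BK
  rw [Algebra.mem_inf, Subalgebra.mem_restrictScalars, mem_integralClosure_iff]
  exact ⟨fun h => ⟨h.2, h.1⟩, fun h => ⟨h.2, h.1⟩⟩

theorem mem_full_of_mem_BK {a : LaurentSeries k} (h : a ∈ BK k n) : a ∈ modularFunctionFieldFullC k n := (mem_BK.1 h).1

theorem isIntegral_of_mem_BK {a : LaurentSeries k} (h : a ∈ BK k n) : IsIntegral (polyJ k) a :=
  (mem_BK.1 h).2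

theorem WJ_le_BK (m : ℕ) {a : LaurentSeries k} (h : a ∈ WJ k (modularFunctionFieldFullC k n) m) : a ∈ BK k n :=
  mem_BK.2 ⟨h.1, h.2.1⟩

/-- Every element of `k[j̄]` lies in some `WJ m`. -/
theorem exists_mem_WJ_of_mem_polyJ {x : LaurentSeries k} (hx : x ∈ polyJ k) :
    ∃ m, x ∈ WJ k (modularFunctionFieldFullC k n) m := by
  have hj : jqModC k ∈ modularFunctionFieldFullC k n := jqModC_mem_full k n
  induction hx using Algebra.adjoin_induction with
  | mem x hx =>
    rw [Set.mem_singleton_iff] at hx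
    subst hx
    exact ⟨1, by simpa using WJCalc.j_pow_mem_WJ (L := modularFunctionFieldFullC k n) hj 1⟩
  | algebraMap r =>
    refine ⟨0, ?_⟩
    have h1 : (algebraMap k (LaurentSeries k) r) = r • (1 : LaurentSeries k) := by
      rw [algebraMap_LS_eq_C, ← mul_one (HahnSeries.C r), HahnSeries.C_mul_eq_smul]
    rw [h1]
    exact (WJ k (modularFunctionFieldFullC k n) 0).smul_mem r (WJCalc.one_mem_WJ 0)
  | add x y _ _ hx hy =>
    obtain ⟨m, hm⟩ := hx
    obtain ⟨m', hm'⟩ := hy
    exact ⟨max m m', (WJ _ _ _).add_mem (WJCalc.WJ_mono (le_max_left _ _) hm)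
      (WJCalc.WJ_mono (le_max_right _ _) hm')⟩
  | mul x y _ _ hx hy =>
    obtain ⟨m, hm⟩ := hx
    obtain ⟨m', hm'⟩ := hy
    exact ⟨m + m', WJCalc.mul_mem_WJ hm hm'⟩

/-- `B_κ = ⋃ₘ WJ m`. -/
theorem mem_BK_iff_exists_WJ {a : LaurentSeries k} : a ∈ BK k n ↔ ∃ m, a ∈ WJ k (modularFunctionFieldFullC k n) m := by
  refine ⟨fun h => ?_, fun ⟨m, hm⟩ => WJ_le_BK m hm⟩
  obtain ⟨haF, P, hP, hPa⟩ := mem_BK.1 h
  classical
  -- a uniform bound for the coefficients
  have hc : ∀ i : ℕ, ∃ m, ((P.coeff i : polyJ k) : LaurentSeries k) ∈ WJ k (modularFunctionFieldFullC k n) m :=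
    fun i => exists_mem_WJ_of_mem_polyJ (P.coeff i).2
  choose m hm using hc
  let c := (Finset.range P.natDegree).sup m
  refine ⟨c + 1, ?_⟩
  refine WJCalc.mem_WJ_of_root (L := modularFunctionFieldFullC k n) (c := c + 1) haF
    (P.map (algebraMap (polyJ k) (LaurentSeries k))) (hP.map _) (fun i hi => ?_) ?_
  · rw [hP.natDegree_map] at hi ⊢
    rw [Polynomial.coeff_map]
    have h1 : m i ≤ c := Finset.le_sup (f := m) (Finset.mem_range.2 hi)
    have h2 : 1 ≤ P.natDegree - i := by omega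
    have h3 : m i ≤ (P.natDegree - i) * (c + 1) := by nlinarith
    exact WJCalc.WJ_mono h3 (hm i)
  · rw [Polynomial.eval_map]
    exact hPa

/-! ### `B_κ` is a Dedekind domain -/

section Dedekind

open scoped IntermediateField.algebraAdjoinAdjoin

variable (k n)

/-- `k[j̄]` inside `F_{n,k}`. -/
abbrev A0 : Subalgebra k (modularFunctionFieldFullC k n) := Algebra.adjoin k {CuspEmb.jk k n}

instance isPrincipalIdealRing_A0 : IsPrincipalIdealRing ↥(A0 k n) := by
  have hmem : ∀ p : Polynomial k, Polynomial.aeval (CuspEmb.jk k n) p ∈ A0 k n := fun p => by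
    rw [A0, Algebra.adjoin_singleton_eq_range_aeval]
    exact ⟨p, rfl⟩
  refine IsPrincipalIdealRing.of_surjective
    (RingHom.codRestrict (Polynomial.aeval (CuspEmb.jk k n) : Polynomial k →ₐ[k] modularFunctionFieldFullC k n).toRingHom
      (A0 k n) hmem) ?_
  rintro ⟨y, hy⟩
  have hy' : y ∈ (Polynomial.aeval (CuspEmb.jk k n) : Polynomial k →ₐ[k] modularFunctionFieldFullC k n).range := by
    rw [← Algebra.adjoin_singleton_eq_range_aeval]
    exact hy
  obtain ⟨p, hp⟩ := hy'
  exact ⟨p, Subtype.ext hp⟩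

/-- The inclusion `F_{n,k} → k((q))`. -/
abbrev ιF : ↥(modularFunctionFieldFullC k n) →ₐ[k] LaurentSeries k := (modularFunctionFieldFullC k n).val

theorem ιF_injective : Function.Injective (ιF k n) := Subtype.val_injective

theorem ιF_jb : ιF k n (CuspEmb.jk k n) = jqModC k := rfl

/-- Integrality over `k[j̄]`, inside `F_{n,k}` and inside `k((q))`. -/
theorem isIntegral_A0_iff (x : modularFunctionFieldFullC k n) :
    IsIntegral ↥(A0 k n) x ↔ IsIntegral (polyJ k) (x : LaurentSeries k) :=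
  (isIntegral_adjoin_map_iff (ιF k n) (ιF_injective k n) (CuspEmb.jk k n) x).symm

/-- The inclusion `B_κ → F_{n,k}`. -/
def toFk : ↥(BK k n) →ₐ[k] ↥(modularFunctionFieldFullC k n) where
  toFun b := ⟨b.1, mem_full_of_mem_BK b.2⟩
  map_one' := rfl
  map_mul' _ _ := rfl
  map_zero' := rfl
  map_add' _ _ := rfl
  commutes' _ := rfl

@[simp] theorem coe_toFk (b : ↥(BK k n)) : ((toFk k n b : modularFunctionFieldFullC k n) : LaurentSeries k) = b := rfl

theorem toFk_injective : Function.Injective (toFk k n) := fun _ _ h =>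
  Subtype.ext (congrArg (fun x : modularFunctionFieldFullC k n => (x : LaurentSeries k)) h)

theorem coe_mem_polyJ (a : ↥(A0 k n)) : (((a : modularFunctionFieldFullC k n)) : LaurentSeries k) ∈ polyJ k :=
  (adjoinMap (ιF k n) (CuspEmb.jk k n) a).2

/-- The inclusion `k[j̄] → B_κ`. -/
def ofA0 : ↥(A0 k n) →+* ↥(BK k n) where
  toFun a := ⟨((a : modularFunctionFieldFullC k n) : LaurentSeries k),
    mem_BK.2 ⟨(a : modularFunctionFieldFullC k n).2, WJCalc.isIntegral_of_mem_polyJ (coe_mem_polyJ k n a)⟩⟩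
  map_one' := rfl
  map_mul' _ _ := rfl
  map_zero' := rfl
  map_add' _ _ := rfl

/-- **`B_κ` is a Dedekind domain** (`k` algebraically closed of characteristic `q ∤ n`). -/
theorem isDedekindDomain_BK (q : ℕ) [Fact q.Prime] (hq : ¬ q ∣ n) [NeZero n] [CharP k q]
    [IsAlgClosed k] : IsDedekindDomain ↥(BK k n) := by
  have := CuspEmb.finiteDimensional_fullC n q hq k
  obtain ⟨-, -, -, -, -, -, -, hsep⟩ := CuspEmb.exists_cusp_embeddings n q hq k
  letI : Algebra ↥(BK k n) ↥(modularFunctionFieldFullC k n) := (toFk k n).toRingHom.toAlgebra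
  letI : Algebra ↥(A0 k n) ↥(BK k n) := (ofA0 k n).toAlgebra
  haveI : IsScalarTower ↥(A0 k n) ↥(BK k n) ↥(modularFunctionFieldFullC k n) :=
    IsScalarTower.of_algebraMap_eq (fun _ => rfl)
  haveI : IsIntegralClosure ↥(BK k n) ↥(A0 k n) ↥(modularFunctionFieldFullC k n) :=
    ⟨toFk_injective k n, fun {x} => by
      rw [isIntegral_A0_iff]
      constructor
      · intro hx
        exact ⟨⟨(x : LaurentSeries k), mem_BK.2 ⟨x.2, hx⟩⟩, rfl⟩
      · rintro ⟨y, rfl⟩
        exact isIntegral_of_mem_BK y.2⟩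
  exact IsIntegralClosure.isDedekindDomain ↥(A0 k n) ↥(k⟮CuspEmb.jk k n⟯) ↥(modularFunctionFieldFullC k n) ↥(BK k n)

end Dedekind

/-! ### `B_κ` is not a field, and its residue fields are `k` -/

variable (k n)

/-- `j̄` as an element of `B_κ`. -/
def jB : ↥(BK k n) :=
  ⟨jqModC k, mem_BK.2 ⟨jqModC_mem_full k n, WJCalc.isIntegral_of_mem_polyJ WJCalc.j_mem_polyJ⟩⟩

@[simp] theorem coe_jB : ((jB k n : ↥(BK k n)) : LaurentSeries k) = jqModC k := rfl

/-- `j̄⁻¹` is not integral over `k[j̄]` in `F_{n,k}`: `B_κ` is not a field. -/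
theorem not_isField_BK : ¬ IsField ↥(BK k n) := by
  intro hF
  have hj0 : jB k n ≠ 0 := fun h => WJCalc.j_ne_zero (κ := k) (congrArg Subtype.val h)
  obtain ⟨u, hu⟩ := hF.mul_inv_cancel hj0
  have hu' : jqModC k * (u : LaurentSeries k) = 1 := congrArg Subtype.val hu
  have hinv : (u : LaurentSeries k) = (jqModC k)⁻¹ := eq_inv_of_mul_eq_one_right hu'
  have hW : (jqModC k)⁻¹ ∈ WJ k (modularFunctionFieldFullC k n) 0 := by
    refine ⟨?_, ?_, ?_⟩
    · rw [← hinv]; exact mem_full_of_mem_BK u.2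
    · rw [← hinv]; exact isIntegral_of_mem_BK u.2
    · rw [pow_zero, one_mul]
      exact WJCalc.isIntegral_of_mem_OinfJ WJCalc.inv_j_mem_OinfJ
  obtain ⟨κ, hκ⟩ := ConstWPlan.eq_C_of_mem_WJ_zero k _ hW
  have h1 : ((jqModC k)⁻¹).order = 1 := WJCalc.order_inv_j
  rw [hκ] at h1
  rw [HahnSeries.order_C] at h1
  exact zero_ne_one h1

/-- `B_κ` is integral over `k[j̄]`. -/
theorem isIntegral_adjoin_jB (b : ↥(BK k n)) : IsIntegral ↥(Algebra.adjoin k {jB k n}) b :=
  isIntegral_adjoin_of_map (BK k n).val Subtype.val_injective (jB k n) b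
    (isIntegral_of_mem_BK b.2)

/-- **The residue fields of `B_κ` are `k`.** -/
theorem residue_surjective [IsAlgClosed k] (𝔪 : Ideal ↥(BK k n)) (h𝔪 : 𝔪.IsMaximal) :
    Function.Surjective (algebraMap k (↥(BK k n) ⧸ 𝔪)) := by
  letI : Field (↥(BK k n) ⧸ 𝔪) := Ideal.Quotient.field 𝔪
  set ψ : ↥(BK k n) →ₐ[k] (↥(BK k n) ⧸ 𝔪) := Ideal.Quotient.mkₐ k 𝔪 with hψ
  set t := ψ (jB k n) with ht
  -- the residue field is integral over `k[t]`
  have hint : ∀ y : ↥(BK k n) ⧸ 𝔪, IsIntegral ↥(Algebra.adjoin k {t}) y := by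
    intro y
    obtain ⟨b, rfl⟩ := Ideal.Quotient.mk_surjective y
    exact isIntegral_adjoin_map ψ (jB k n) b (isIntegral_adjoin_jB k n b)
  haveI : Algebra.IsIntegral ↥(Algebra.adjoin k {t}) (↥(BK k n) ⧸ 𝔪) := ⟨hint⟩
  -- so `k[t]` is a field and `t` is algebraic
  have hfield : IsField ↥(Algebra.adjoin k {t}) :=
    isField_of_isIntegral_of_isField (S := ↥(BK k n) ⧸ 𝔪) Subtype.val_injective
      (Field.toIsField _)
  have halg : IsIntegral k t := (isAlgebraic_of_isField_adjoin t hfield).isIntegral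
  haveI : Algebra.IsIntegral k ↥(Algebra.adjoin k {t}) :=
    Algebra.IsIntegral.adjoin (fun x hx => by
      rw [Set.mem_singleton_iff] at hx
      rw [hx]
      exact halg)
  haveI : Algebra.IsIntegral k (↥(BK k n) ⧸ 𝔪) :=
    ⟨fun y => isIntegral_trans (R := k) (A := ↥(Algebra.adjoin k {t})) y (hint y)⟩
  exact (IsAlgClosed.algebraMap_bijective_of_isIntegral (k := k) (K := ↥(BK k n) ⧸ 𝔪)).2

/-! ### Specialisation to `k = kk A` -/

section Special

open Fermat.Agent.S18.PlacesModL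

variable (A : ValuationSubring Kbar) (n : ℕ)

/-- `B_κ` at `κ = kk A` is a Dedekind domain (`q ∤ n`, `A` over `q`). -/
theorem isDedekindDomain_BK_kk (q : ℕ) [Fact q.Prime] (hq : ¬ q ∣ n) [NeZero n]
    (hA : A.LiesOverPrime q) : IsDedekindDomain ↥(BK (kk A) n) := by
  haveI : CharP (kk A) q := charP_residueField_of_liesOverPrime A q hA
  haveI : IsAlgClosed (kk A) := isAlgClosed_kk A
  exact isDedekindDomain_BK (kk A) n q hq

/-- `B_κ` at `κ = kk A` is not a field. -/
theorem not_isField_BK_kk : ¬ IsField ↥(BK (kk A) n) := not_isField_BK (kk A) n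

/-- The residue fields of `B_κ` at `κ = kk A` are `κ`. -/
theorem residue_surjective_kk (𝔪 : Ideal ↥(BK (kk A) n)) (h𝔪 : 𝔪.IsMaximal) :
    Function.Surjective (algebraMap (kk A) (↥(BK (kk A) n) ⧸ 𝔪)) := by
  haveI : IsAlgClosed (kk A) := isAlgClosed_kk A
  exact residue_surjective (kk A) n 𝔪 h𝔪

end Special

end Fermat.Agent.S34.BKappa
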