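import Mathlib

/-!
# S34 / P6 — the abstract node theorem without Dedekind hypotheses (owner: helper28)

Let `k` be an algebraically closed field, `B` any commutative `k`-algebra and `R` a `k`-subalgebra
of `B × B` such that

* both projections `R → B` are onto (`hfst`, `hsnd`);
* every `a : B` is an `m`-th power modulo the conductor, `m ≥ 2`:  `(a - c ^ m, 0) ∈ R` (`h₁`);
* `R` has finite codimension in `B × B`: `V + R = B × B` for a finite-dimensional `V` (`hfin`).

Then `R` is the ring of a curve with finitely many ordinary double points glued from two copies of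
`Spec B`: there are a finite set `Z` of characters `χ : B →ₐ[k] k` and a map `θ`, injective on `Z`,
with `(a, b) ∈ R ↔ ∀ χ ∈ Z, χ a = θ χ b`; the gluing conditions are independent on either
coordinate.

Proof.  `I₁ = {a | (a, 0) ∈ R}` is an ideal; `C = B ⧸ I₁` is a quotient of `V`, hence a
finite-dimensional `k`-algebra, hence Artinian, so its nilradical `𝔫` is nilpotent.  By `h₁` every
element of `C` is an `m`-th power, so `𝔫 ⊆ 𝔫 ^ m ⊆ 𝔫 ^ 2` and `𝔫 = 0`.  Therefore the Jacobson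
radical of `C` vanishes, and since `k` is algebraically closed every maximal ideal of `C` is the
kernel of a character.  `Z` := the characters of `B` killing `I₁`; `θ χ b := χ a` for any
`(a, b) ∈ R`.

No `IsDomain`, `IsDedekindDomain`, residue-field or uniformiser hypothesis is used.
-/

set_option autoImplicit false
set_option linter.style.haveILetI false

noncomputable section

namespace Fermat.Agent.S34.NodeFin

open scoped Classical

variable {k B : Type*} [Field k] [CommRing B] [Algebra k B]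

/-! ### Independence of distinct characters (Chinese remainder theorem) -/

/-- Distinct characters have coprime kernels. -/
theorem isCoprime_ker {χ χ' : B →ₐ[k] k} (h : χ ≠ χ') :
    IsCoprime (RingHom.ker (χ : B →+* k)) (RingHom.ker (χ' : B →+* k)) := by
  obtain ⟨a, ha⟩ : ∃ a : B, χ a ≠ χ' a := by
    by_contra hcon
    exact h (AlgHom.ext fun a => by_contra fun ha => hcon ⟨a, ha⟩)
  set x : B := a - algebraMap k B (χ' a) with hx
  have hx' : χ' x = 0 := by rw [hx, map_sub, AlgHom.commutes]; simp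
  have hxc : χ x = χ a - χ' a := by rw [hx, map_sub, AlgHom.commutes]; simp
  have hc : χ a - χ' a ≠ 0 := sub_ne_zero.mpr ha
  rw [Ideal.isCoprime_iff_exists]
  refine ⟨1 - algebraMap k B (χ a - χ' a)⁻¹ * x, ?_, algebraMap k B (χ a - χ' a)⁻¹ * x, ?_, by ring⟩
  · rw [RingHom.mem_ker]
    show χ (1 - algebraMap k B (χ a - χ' a)⁻¹ * x) = 0
    rw [map_sub, map_one, map_mul, AlgHom.commutes, hxc]
    simp [inv_mul_cancel₀ hc]
  · rw [RingHom.mem_ker]
    show χ' (algebraMap k B (χ a - χ' a)⁻¹ * x) = 0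
    rw [map_mul, hx', mul_zero]

/-- Finitely many distinct characters take arbitrary prescribed values. -/
theorem exists_eval {ι : Type*} (s : Finset ι) (f : ι → (B →ₐ[k] k)) (hf : Set.InjOn f s)
    (v : ι → k) : ∃ a : B, ∀ i ∈ s, f i a = v i := by
  have hI : Pairwise (Function.onFun IsCoprime fun i : s => RingHom.ker ((f i : B →ₐ[k] k) : B →+* k)) := by
    intro i j hij
    apply isCoprime_ker
    intro h
    exact hij (Subtype.ext (hf i.2 j.2 h))
  obtain ⟨r, hr⟩ := Ideal.exists_forall_sub_mem_ideal hI (fun i : s => algebraMap k B (v i))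
  refine ⟨r, fun i hi => ?_⟩
  have h := hr ⟨i, hi⟩
  rw [RingHom.mem_ker] at h
  have h' : f i (r - algebraMap k B (v i)) = 0 := h
  rw [map_sub, AlgHom.commutes, sub_eq_zero] at h'
  simpa using h'

/-! ### The conductor -/

/-- The conductor `I₁ = {a | (a, 0) ∈ R}` of a subalgebra `R ⊆ B × B` whose first projection is
onto. -/
def cond (R : Subalgebra k (B × B)) (hfst : ∀ a : B, ∃ b : B, (a, b) ∈ R) : Ideal B where
  carrier := {a | (a, (0 : B)) ∈ R}
  add_mem' := by
    intro a a' ha ha'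
    have h := R.add_mem ha ha'
    simpa using h
  zero_mem' := R.zero_mem
  smul_mem' := by
    intro c a ha
    obtain ⟨d, hd⟩ := hfst c
    have h := R.mul_mem hd ha
    simpa using h

theorem mem_cond {R : Subalgebra k (B × B)} {hfst : ∀ a : B, ∃ b : B, (a, b) ∈ R} {a : B} :
    a ∈ cond R hfst ↔ (a, (0 : B)) ∈ R := Iff.rfl

/-- The quotient by the conductor is finite-dimensional if `R` has finite codimension. -/
theorem finite_quotient_cond (R : Subalgebra k (B × B)) (hfst : ∀ a : B, ∃ b : B, (a, b) ∈ R)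
    (hsnd : ∀ b : B, ∃ a : B, (a, b) ∈ R)
    (hfin : ∃ V : Submodule k (B × B), Module.Finite k V ∧ ∀ x : B × B, ∃ v ∈ V, x - v ∈ R) :
    Module.Finite k (B ⧸ cond R hfst) := by
  obtain ⟨V, hV, hVR⟩ := hfin
  have := hV
  set I := cond R hfst with hI
  -- a linear section of the second projection `R → B`
  let p : ↥R.toSubmodule →ₗ[k] B := (LinearMap.snd k B B).comp R.toSubmodule.subtype
  have hp : LinearMap.range p = ⊤ := by
    rw [LinearMap.range_eq_top]
    intro b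
    obtain ⟨a, ha⟩ := hsnd b
    exact ⟨⟨(a, b), ha⟩, rfl⟩
  obtain ⟨g, hg⟩ := LinearMap.exists_rightInverse_of_surjective p hp
  have hg' : ∀ b : B, ((g b : ↥R.toSubmodule) : B × B).2 = b := fun b =>
    congrArg (fun φ : B →ₗ[k] B => φ b) hg
  let u : ↥V →ₗ[k] (B ⧸ I) := (Ideal.Quotient.mkₐ k I).toLinearMap.comp
    ((LinearMap.fst k B B).comp V.subtype -
      (LinearMap.fst k B B).comp (R.toSubmodule.subtype.comp (g.comp
        ((LinearMap.snd k B B).comp V.subtype))))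
  have hu : Function.Surjective u := by
    intro c
    obtain ⟨a, rfl⟩ := Ideal.Quotient.mk_surjective c
    obtain ⟨v, hv, hvR⟩ := hVR (a, 0)
    refine ⟨⟨v, hv⟩, ?_⟩
    show Ideal.Quotient.mk I (v.1 - ((g v.2 : ↥R.toSubmodule) : B × B).1) = Ideal.Quotient.mk I a
    rw [Ideal.Quotient.eq, ← neg_mem_iff (H := I), hI, mem_cond]
    have h1 : ((g v.2 : ↥R.toSubmodule) : B × B) ∈ R := (g v.2).2
    have h2 := R.add_mem hvR h1
    have h3 : ((a, (0 : B)) - v + ((g v.2 : ↥R.toSubmodule) : B × B)) =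
        (-(v.1 - ((g v.2 : ↥R.toSubmodule) : B × B).1 - a), (0 : B)) := by
      ext
      · simp; ring
      · simp [hg' v.2]
    rwa [h3] at h2
  exact Module.Finite.of_surjective u hu


/-! ### The node theorem -/

section Main

variable [IsAlgClosed k]

/-- In a finite-dimensional commutative algebra with trivial nilradical over an algebraically
closed field, an element killed by all characters is zero. -/
theorem eq_zero_of_forall_char {C : Type*} [CommRing C] [Algebra k C] [Module.Finite k C]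
    (hnil : nilradical C = ⊥) (x : C) (hx : ∀ χ : C →ₐ[k] k, χ x = 0) : x = 0 := by
  haveI : IsArtinianRing C := IsArtinianRing.of_finite k C
  have hjac : Ideal.jacobson (⊥ : Ideal C) = ⊥ := by
    rw [IsArtinianRing.jacobson_eq_radical]
    exact hnil
  have hmem : x ∈ Ideal.jacobson (⊥ : Ideal C) := by
    rw [Ideal.jacobson, Ideal.mem_sInf]
    rintro J ⟨-, hJ⟩
    haveI := hJ
    haveI : Module.Finite k (C ⧸ J) :=
      Module.Finite.of_surjective (Ideal.Quotient.mkₐ k J).toLinearMap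
        (Ideal.Quotient.mkₐ_surjective k J)
    haveI : Algebra.IsIntegral k (C ⧸ J) := Algebra.IsIntegral.of_finite k (C ⧸ J)
    have hbij : Function.Bijective (algebraMap k (C ⧸ J)) :=
      IsAlgClosed.algebraMap_bijective_of_isIntegral
    let e : k ≃ₐ[k] (C ⧸ J) := AlgEquiv.ofBijective (Algebra.ofId k (C ⧸ J)) hbij
    let χ : C →ₐ[k] k := (e.symm : (C ⧸ J) →ₐ[k] k).comp (Ideal.Quotient.mkₐ k J)
    have h : e.symm (Ideal.Quotient.mk J x) = 0 := hx χ
    have h2 : Ideal.Quotient.mk J x = 0 := by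
      rw [← e.apply_symm_apply (Ideal.Quotient.mk J x), h, map_zero]
    exact Ideal.Quotient.eq_zero_iff_mem.mp h2
  rw [hjac] at hmem
  exact Ideal.mem_bot.mp hmem

/-- **The node theorem, finite-codimension form.**  A subalgebra `R ⊆ B × B` with both
projections onto, of finite codimension, such that every element of `B` is an `m`-th power
(`m ≥ 2`) modulo the conductor, is cut out by finitely many independent gluing conditions
`χ a = θ χ b`. -/
theorem exists_nodes_of_finite (R : Subalgebra k (B × B))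
    (hfst : ∀ a : B, ∃ b : B, (a, b) ∈ R) (hsnd : ∀ b : B, ∃ a : B, (a, b) ∈ R)
    (m : ℕ) (hm : 2 ≤ m) (h₁ : ∀ a : B, ∃ c : B, (a - c ^ m, (0 : B)) ∈ R)
    (hfin : ∃ V : Submodule k (B × B), Module.Finite k V ∧ ∀ x : B × B, ∃ v ∈ V, x - v ∈ R) :
    ∃ (Z : Finset (B →ₐ[k] k)) (θ : (B →ₐ[k] k) → (B →ₐ[k] k)),
      Set.InjOn θ Z ∧ (∀ a b : B, (a, b) ∈ R ↔ ∀ χ ∈ Z, χ a = θ χ b) ∧
      (∀ v : (B →ₐ[k] k) → k, ∃ a : B, ∀ χ ∈ Z, χ a = v χ) ∧
      (∀ v : (B →ₐ[k] k) → k, ∃ b : B, ∀ χ ∈ Z, θ χ b = v χ) := by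
  set I := cond R hfst with hI
  haveI : Module.Finite k (B ⧸ I) := finite_quotient_cond R hfst hsnd hfin
  haveI : IsArtinianRing (B ⧸ I) := IsArtinianRing.of_finite k (B ⧸ I)
  -- the nilradical of `B ⧸ I` vanishes
  have hnil : nilradical (B ⧸ I) = ⊥ := by
    have h2 : nilradical (B ⧸ I) ≤ nilradical (B ⧸ I) ^ 2 := by
      intro x hx
      obtain ⟨a, rfl⟩ := Ideal.Quotient.mk_surjective x
      obtain ⟨c, hc⟩ := h₁ a
      have hac : Ideal.Quotient.mk I a = (Ideal.Quotient.mk I c) ^ m := by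
        rw [← map_pow, Ideal.Quotient.eq]
        exact hc
      have hcn : Ideal.Quotient.mk I c ∈ nilradical (B ⧸ I) := by
        rw [mem_nilradical]
        rw [mem_nilradical, hac] at hx
        exact hx.of_pow
      rw [hac]
      exact Ideal.pow_le_pow_right hm (Ideal.pow_mem_pow hcn m)
    obtain ⟨n, hn⟩ := IsArtinianRing.isNilpotent_nilradical (R := B ⧸ I)
    have h3 : ∀ t : ℕ, nilradical (B ⧸ I) ≤ nilradical (B ⧸ I) ^ (t + 1) := by
      intro t
      induction t with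
      | zero => simp
      | succ t ih =>
        calc nilradical (B ⧸ I) ≤ nilradical (B ⧸ I) ^ 2 := h2
          _ = nilradical (B ⧸ I) * nilradical (B ⧸ I) := sq _
          _ ≤ nilradical (B ⧸ I) ^ (t + 1) * nilradical (B ⧸ I) := Ideal.mul_mono_left ih
          _ = nilradical (B ⧸ I) ^ (t + 1 + 1) := (pow_succ _ _).symm
    have h4 := h3 n
    rw [pow_succ, hn, Ideal.zero_eq_bot, Ideal.bot_mul] at h4
    exact le_bot_iff.mp h4
  -- the characters of `B ⧸ I`
  haveI : Finite ((B ⧸ I) →ₐ[k] k) := Finite.algHom k (B ⧸ I) k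
  letI : Fintype ((B ⧸ I) →ₐ[k] k) := Fintype.ofFinite _
  let Z : Finset (B →ₐ[k] k) :=
    Finset.univ.image (fun χ : (B ⧸ I) →ₐ[k] k => χ.comp (Ideal.Quotient.mkₐ k I))
  have hZ1 : ∀ χ ∈ Z, ∀ a ∈ I, χ a = 0 := by
    intro χ hχ a ha
    obtain ⟨χ', -, rfl⟩ := Finset.mem_image.mp hχ
    show χ' (Ideal.Quotient.mk I a) = 0
    rw [Ideal.Quotient.eq_zero_iff_mem.mpr ha, map_zero]
  have hZ2 : ∀ a : B, (∀ χ ∈ Z, χ a = 0) → a ∈ I := by
    intro a ha
    apply Ideal.Quotient.eq_zero_iff_mem.mp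
    apply eq_zero_of_forall_char (k := k) hnil
    intro χ'
    exact ha _ (Finset.mem_image.mpr ⟨χ', Finset.mem_univ _, rfl⟩)
  -- the gluing map
  choose t ht using hsnd
  have hW : ∀ χ ∈ Z, ∀ a b : B, (a, b) ∈ R → χ a = χ (t b) := by
    intro χ hχ a b hab
    have h1 : (a - t b, (0 : B)) ∈ R := by
      have := R.sub_mem hab (ht b)
      simpa using this
    have := hZ1 χ hχ (a - t b) h1
    rwa [map_sub, sub_eq_zero] at this
  let θ₀ : ∀ χ : B →ₐ[k] k, χ ∈ Z → (B →ₐ[k] k) := fun χ hχ =>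
    { toFun := fun b => χ (t b)
      map_one' := (hW χ hχ 1 1 R.one_mem).symm.trans (map_one χ)
      map_mul' := fun b b' =>
        (hW χ hχ (t b * t b') (b * b') (R.mul_mem (ht b) (ht b'))).symm.trans (map_mul χ _ _)
      map_zero' := (hW χ hχ 0 0 R.zero_mem).symm.trans (map_zero χ)
      map_add' := fun b b' =>
        (hW χ hχ (t b + t b') (b + b') (R.add_mem (ht b) (ht b'))).symm.trans (map_add χ _ _)
      commutes' := fun c =>
        (hW χ hχ (algebraMap k B c) (algebraMap k B c) (R.algebraMap_mem c)).symm.trans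
          (χ.commutes c) }
  let θ : (B →ₐ[k] k) → (B →ₐ[k] k) := fun χ => if h : χ ∈ Z then θ₀ χ h else χ
  have hθ : ∀ χ ∈ Z, ∀ a b : B, (a, b) ∈ R → θ χ b = χ a := by
    intro χ hχ a b hab
    show (if h : χ ∈ Z then θ₀ χ h else χ) b = χ a
    rw [dif_pos hχ]
    exact (hW χ hχ a b hab).symm
  have hiff : ∀ a b : B, (a, b) ∈ R ↔ ∀ χ ∈ Z, χ a = θ χ b := by
    intro a b
    constructor
    · intro hab χ hχ
      exact (hθ χ hχ a b hab).symm
    · intro h
      have h1 : a - t b ∈ I := by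
        apply hZ2
        intro χ hχ
        rw [map_sub, h χ hχ, hθ χ hχ (t b) b (ht b), sub_self]
      have h2 := R.add_mem (mem_cond.mp h1) (ht b)
      simpa using h2
  have hinj : Set.InjOn θ Z := by
    intro χ hχ χ' hχ' h
    apply AlgHom.ext
    intro a
    obtain ⟨b, hb⟩ := hfst a
    rw [← hθ χ hχ a b hb, ← hθ χ' hχ' a b hb, h]
  exact ⟨Z, θ, hinj, hiff, fun v => exists_eval Z id (Set.injOn_id _) v,
    fun v => exists_eval Z θ hinj v⟩

end Main


/-! ### Finite codimension from a graded surjectivity -/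

/-- `hfin` from cusp regularity: if `W c ⊆ R + W (c - 1)` for `c > c₀`, the `W c` exhaust `B × B`
and `W c₀` is finite-dimensional, then `R` has finite codimension. -/
theorem hfin_of_graded (R : Subalgebra k (B × B)) (W : ℕ → Submodule k (B × B)) (c₀ : ℕ)
    (hfinW : Module.Finite k (W c₀)) (hmono : Monotone W) (hW : ∀ x : B × B, ∃ c, x ∈ W c)
    (hstep : ∀ c, c₀ < c → ∀ x ∈ W c, ∃ y ∈ W (c - 1), x - y ∈ R) :
    ∃ V : Submodule k (B × B), Module.Finite k V ∧ ∀ x : B × B, ∃ v ∈ V, x - v ∈ R := by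
  refine ⟨W c₀, hfinW, fun x => ?_⟩
  obtain ⟨c, hc⟩ := hW x
  induction c generalizing x with
  | zero => exact ⟨x, hmono (Nat.zero_le c₀) hc, by rw [sub_self]; exact R.zero_mem⟩
  | succ c ih =>
    by_cases hcc : c + 1 ≤ c₀
    · exact ⟨x, hmono hcc hc, by rw [sub_self]; exact R.zero_mem⟩
    · obtain ⟨y, hy, hxy⟩ := hstep (c + 1) (by omega) x hc
      obtain ⟨v, hv, hyv⟩ := ih y (by simpa using hy)
      refine ⟨v, hv, ?_⟩
      have := R.add_mem hxy hyv
      rwa [sub_add_sub_cancel] at this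

/-! ### Consequences of a node description `(a, b) ∈ R ↔ ∀ χ ∈ Z, χ a = θ χ b` -/

section Nodes

variable {R : Subalgebra k (B × B)} {Z : Finset (B →ₐ[k] k)}
  {θ : (B →ₐ[k] k) → (B →ₐ[k] k)}

/-- No node iff the special fibre is disconnected: `Z = ∅ ↔ (1, 0) ∈ R`. -/
theorem eq_empty_iff (hiff : ∀ a b : B, (a, b) ∈ R ↔ ∀ χ ∈ Z, χ a = θ χ b) :
    Z = ∅ ↔ ((1 : B), (0 : B)) ∈ R := by
  rw [hiff]
  constructor
  · rintro rfl χ hχ
    exact absurd hχ (Finset.notMem_empty χ)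
  · intro h
    apply Finset.eq_empty_of_forall_notMem
    intro χ hχ
    have := h χ hχ
    rw [map_one, map_zero] at this
    exact one_ne_zero this

/-- The twisted module `T_ζ = {(a, b) | ∀ χ ∈ Z, χ a = ζ χ * θ χ b}`. -/
def twist (Z : Finset (B →ₐ[k] k)) (θ : (B →ₐ[k] k) → (B →ₐ[k] k)) (ζ : (B →ₐ[k] k) → k) :
    Submodule k (B × B) where
  carrier := {x | ∀ χ ∈ Z, χ x.1 = ζ χ * θ χ x.2}
  add_mem' := by
    intro x y hx hy χ hχ
    rw [Prod.fst_add, Prod.snd_add, map_add, map_add, hx χ hχ, hy χ hχ, mul_add]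
  zero_mem' := by
    intro χ _
    simp
  smul_mem' := by
    intro c x hx χ hχ
    rw [Prod.smul_fst, Prod.smul_snd, map_smul, map_smul, hx χ hχ, smul_eq_mul, smul_eq_mul]
    ring

theorem mem_twist {ζ : (B →ₐ[k] k) → k} {x : B × B} :
    x ∈ twist Z θ ζ ↔ ∀ χ ∈ Z, χ x.1 = ζ χ * θ χ x.2 := Iff.rfl

/-- The untwisted module is `R`. -/
theorem twist_one (hiff : ∀ a b : B, (a, b) ∈ R ↔ ∀ χ ∈ Z, χ a = θ χ b) :
    twist Z θ (fun _ => 1) = R.toSubmodule := by
  ext ⟨a, b⟩
  rw [mem_twist, Subalgebra.mem_toSubmodule, hiff]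
  simp

/-- **Twisted modules.**  A subspace `M ⊆ B × B` with `(u₁ aⁿ, u₂ bⁿ) ∈ R` for all `(a, b) ∈ M`
(`u₁, u₂ ≠ 0`, `n ≥ 1`) lies in one twisted module `T_ζ`, `ζ` with values in `kˣ`. -/
theorem exists_twist (hiff : ∀ a b : B, (a, b) ∈ R ↔ ∀ χ ∈ Z, χ a = θ χ b)
    (M : Submodule k (B × B)) (u₁ u₂ : k) (hu₁ : u₁ ≠ 0) (hu₂ : u₂ ≠ 0) (n : ℕ) (hn : n ≠ 0)
    (hM : ∀ x ∈ M, (u₁ • x.1 ^ n, u₂ • x.2 ^ n) ∈ R) :
    ∃ ζ : (B →ₐ[k] k) → kˣ, ∀ x ∈ M, ∀ χ ∈ Z, χ x.1 = (ζ χ : k) * θ χ x.2 := by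
  have key : ∀ χ ∈ Z, ∀ x ∈ M, u₁ * χ x.1 ^ n = u₂ * θ χ x.2 ^ n := by
    intro χ hχ x hx
    have h := (hiff _ _).mp (hM x hx) χ hχ
    rwa [map_smul, map_smul, map_pow, map_pow, smul_eq_mul, smul_eq_mul] at h
  have hχ : ∀ χ : B →ₐ[k] k, χ ∈ Z → ∃ ζ : kˣ, ∀ x ∈ M, χ x.1 = (ζ : k) * θ χ x.2 := by
    intro χ hχ
    by_cases hcase : ∀ x ∈ M, θ χ x.2 = 0
    · refine ⟨1, fun x hx => ?_⟩
      have h := key χ hχ x hx
      rw [hcase x hx, zero_pow hn, mul_zero] at h
      have h0 : χ x.1 = 0 := by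
        rcases mul_eq_zero.mp h with h | h
        · exact absurd h hu₁
        · exact pow_eq_zero_iff hn |>.mp h
      rw [h0, hcase x hx, mul_zero]
    · push Not at hcase
      obtain ⟨x₀, hx₀, hμ₀⟩ := hcase
      have hl₀ : χ x₀.1 ≠ 0 := by
        intro h0
        have h := key χ hχ x₀ hx₀
        rw [h0, zero_pow hn, mul_zero] at h
        exact mul_ne_zero hu₂ (pow_ne_zero n hμ₀) h.symm
      refine ⟨Units.mk0 (χ x₀.1 / θ χ x₀.2) (div_ne_zero hl₀ hμ₀), fun x hx => ?_⟩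
      have hy : θ χ x₀.2 • x - θ χ x.2 • x₀ ∈ M :=
        M.sub_mem (M.smul_mem _ hx) (M.smul_mem _ hx₀)
      have h := key χ hχ _ hy
      have e2 : θ χ (θ χ x₀.2 • x - θ χ x.2 • x₀).2 = 0 := by
        rw [Prod.snd_sub, Prod.smul_snd, Prod.smul_snd, map_sub, map_smul, map_smul,
          smul_eq_mul, smul_eq_mul]
        ring
      rw [e2, zero_pow hn, mul_zero] at h
      have e1 : χ (θ χ x₀.2 • x - θ χ x.2 • x₀).1 = 0 := by
        rcases mul_eq_zero.mp h with h | h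
        · exact absurd h hu₁
        · exact pow_eq_zero_iff hn |>.mp h
      rw [Prod.fst_sub, Prod.smul_fst, Prod.smul_fst, map_sub, map_smul, map_smul,
        smul_eq_mul, smul_eq_mul, sub_eq_zero] at e1
      rw [Units.val_mk0]
      field_simp
      linear_combination e1
  refine ⟨fun χ => if h : χ ∈ Z then (hχ χ h).choose else 1, fun x hx χ hχZ => ?_⟩
  have e : (if h : χ ∈ Z then (hχ χ h).choose else 1) = (hχ χ hχZ).choose := dif_pos hχZ
  show χ x.1 = ((if h : χ ∈ Z then (hχ χ h).choose else 1 : kˣ) : k) * θ χ x.2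
  rw [e]
  exact (hχ χ hχZ).choose_spec x hx

/-- **Colon.**  If for every node `χ` some `y ∈ T_ζ` with `χ y.1 ≠ 0` has `x * y ∈ T_ζ`, then
`x ∈ R`. -/
theorem mem_of_mul_mem_twist (hiff : ∀ a b : B, (a, b) ∈ R ↔ ∀ χ ∈ Z, χ a = θ χ b)
    (ζ : (B →ₐ[k] k) → k) (x : B × B)
    (h : ∀ χ ∈ Z, ∃ y : B × B, y ∈ twist Z θ ζ ∧ x * y ∈ twist Z θ ζ ∧ χ y.1 ≠ 0) : x ∈ R := by
  have hx : (x.1, x.2) ∈ R := by
    rw [hiff]
    intro χ hχ
    obtain ⟨y, hy, hxy, hne⟩ := h χ hχ
    have h1 := hy χ hχ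
    have h2 := hxy χ hχ
    rw [Prod.fst_mul, Prod.snd_mul, map_mul, map_mul] at h2
    have h3 : (χ x.1 - θ χ x.2) * χ y.1 = 0 := by
      rw [sub_mul, h2, h1]
      ring
    rcases mul_eq_zero.mp h3 with h4 | h4
    · exact sub_eq_zero.mp h4
    · exact absurd h4 hne
  exact hx

/-- Evaluation at the nodes is onto on a large step of an exhaustive filtration. -/
theorem exists_eval_filtration {ι : Type*} (s : Finset ι) (f : ι → (B →ₐ[k] k))
    (hf : Set.InjOn f s) (W : ℕ → Submodule k B) (hmono : Monotone W) (hW : ∀ a : B, ∃ c, a ∈ W c) :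
    ∃ c₁ : ℕ, ∀ c, c₁ ≤ c → ∀ v : ι → k, ∃ a ∈ W c, ∀ i ∈ s, f i a = v i := by
  -- a dual basis
  have h1 : ∀ i : ι, ∃ a : B, ∀ j ∈ s, f j a = if j = i then 1 else 0 := fun i =>
    exists_eval s f hf (fun j => if j = i then 1 else 0)
  choose e he using h1
  choose d hd using fun i => hW (e i)
  refine ⟨s.sup d, fun c hc v => ⟨∑ i ∈ s, v i • e i, ?_, fun j hj => ?_⟩⟩
  · refine Submodule.sum_mem _ fun i hi => Submodule.smul_mem _ _ ?_
    exact hmono ((Finset.le_sup hi).trans hc) (hd i)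
  · rw [map_sum]
    have : ∀ i ∈ s, f j (v i • e i) = if i = j then v j else 0 := by
      intro i _
      rw [map_smul, he i j hj, smul_eq_mul]
      by_cases hij : j = i
      · subst hij; simp
      · rw [if_neg hij, if_neg (Ne.symm hij), mul_zero]
    rw [Finset.sum_congr rfl this, Finset.sum_ite_eq' s j, if_pos hj]

/-- An element of `T_ζ ∩ (W₁ × W₂)` equal to `1` at every node (first coordinate). -/
theorem exists_mem_twist_eval_one (ζ : (B →ₐ[k] k) → kˣ) (W₁ W₂ : Submodule k B)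
    (hW₁ : ∀ v : (B →ₐ[k] k) → k, ∃ a ∈ W₁, ∀ χ ∈ Z, χ a = v χ)
    (hW₂ : ∀ v : (B →ₐ[k] k) → k, ∃ b ∈ W₂, ∀ χ ∈ Z, θ χ b = v χ) :
    ∃ y : B × B, y ∈ twist Z θ (fun χ => (ζ χ : k)) ∧ y ∈ W₁.prod W₂ ∧ ∀ χ ∈ Z, χ y.1 = 1 := by
  obtain ⟨a, ha, hae⟩ := hW₁ (fun _ => 1)
  obtain ⟨b, hb, hbe⟩ := hW₂ (fun χ => ((ζ χ)⁻¹ : kˣ))
  refine ⟨(a, b), fun χ hχ => ?_, ⟨ha, hb⟩, fun χ hχ => hae χ hχ⟩
  show χ a = (ζ χ : k) * θ χ b
  rw [hae χ hχ, hbe χ hχ]
  simp

/-- **Dimension of a twisted module**: `dim (T_ζ ∩ (W₁ × W₂)) + |Z| = dim W₁ + dim W₂` as soon as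
evaluation at the nodes is onto on `W₁`.  In particular the dimension does not depend on `ζ`. -/
theorem finrank_twist_inf_prod (ζ : (B →ₐ[k] k) → k) (W₁ W₂ : Submodule k B)
    [Module.Finite k W₁] [Module.Finite k W₂]
    (hW₁ : ∀ v : (B →ₐ[k] k) → k, ∃ a ∈ W₁, ∀ χ ∈ Z, χ a = v χ) :
    Module.finrank k ↥(twist Z θ ζ ⊓ W₁.prod W₂) + Z.card =
      Module.finrank k W₁ + Module.finrank k W₂ := by
  -- the evaluation map on `W₁ × W₂`
  let ev : (↥W₁ × ↥W₂) →ₗ[k] (↥Z → k) :=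
    { toFun := fun x χ => χ.1 (x.1 : B) - ζ χ.1 * θ χ.1 (x.2 : B)
      map_add' := by
        intro x y
        funext χ
        simp only [Prod.fst_add, Prod.snd_add, Submodule.coe_add, map_add, Pi.add_apply]
        ring
      map_smul' := by
        intro c x
        funext χ
        simp only [Prod.smul_fst, Prod.smul_snd, Submodule.coe_smul, map_smul, smul_eq_mul,
          Pi.smul_apply, RingHom.id_apply]
        ring }
  have hsurj : Function.Surjective ev := by
    intro v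
    obtain ⟨a, ha, hae⟩ := hW₁ (fun χ => if h : χ ∈ Z then v ⟨χ, h⟩ else 0)
    refine ⟨(⟨a, ha⟩, 0), ?_⟩
    funext χ
    show χ.1 a - ζ χ.1 * θ χ.1 ((0 : ↥W₂) : B) = v χ
    rw [hae χ.1 χ.2, dif_pos χ.2]
    simp
  have hrank := LinearMap.finrank_range_add_finrank_ker ev
  rw [LinearMap.range_eq_top.mpr hsurj, finrank_top, Module.finrank_fintype_fun_eq_card,
    Fintype.card_coe, Module.finrank_prod] at hrank
  -- the kernel is the twisted module
  let φ : ↥(LinearMap.ker ev) →ₗ[k] ↥(twist Z θ ζ ⊓ W₁.prod W₂) :=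
    { toFun := fun x => ⟨((x.1.1 : B), (x.1.2 : B)), by
        refine ⟨fun χ hχ => ?_, ⟨x.1.1.2, x.1.2.2⟩⟩
        have h := congrFun (LinearMap.mem_ker.mp x.2) ⟨χ, hχ⟩
        exact sub_eq_zero.mp h⟩
      map_add' := fun x y => rfl
      map_smul' := fun c x => rfl }
  have hφ : Function.Bijective φ := by
    constructor
    · intro x y h
      have h1 := congrArg (fun z : ↥(twist Z θ ζ ⊓ W₁.prod W₂) => (z : B × B)) h
      apply Subtype.ext
      apply Prod.ext
      · exact Subtype.ext (congrArg Prod.fst h1)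
      · exact Subtype.ext (congrArg Prod.snd h1)
    · rintro ⟨⟨a, b⟩, hT, ha, hb⟩
      refine ⟨⟨(⟨a, ha⟩, ⟨b, hb⟩), ?_⟩, rfl⟩
      rw [LinearMap.mem_ker]
      funext χ
      exact sub_eq_zero.mpr (hT χ.1 χ.2)
  rw [← (LinearEquiv.ofBijective φ hφ).finrank_eq]
  omega

end Nodes

end Fermat.Agent.S34.NodeFin
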