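import Mathlib
import Fermat.Agent.S34.Plan
import Fermat.Agent.S34.NodeFin
import Fermat.Agent.S34.LiftCore2
import Fermat.Agent.S34.CuspReg
import Fermat.Agent.S34.BKappa
import Fermat.Agent.S18.MainLemmas
import Fermat.Agent.S18.WJCalc
import Fermat.Agent.S18.PlacesModL
import Fermat.Agent.S18.FibreCount

/-!
# S34 (P6) — [NODE], instance (I6) in `Plan` vocabulary, hypothesis form (helper64)

`nodeStmt_of`: `Plan.NodeStmt A N q M hqN O ρ` from the other `Plan` contracts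
(`Setup2`, `CuspReg`, `FrobRoot`, `RiemannE`, `RiemannK`, `NumStmt`) and the single extra fact
`hBK : BK = ⋃ WJ m`.

Route: `B := ↥(Plan.BK A M)`, `R := {(a, b) | ∃ c, (a, b) ∈ B̄(c)}` is a subalgebra of `B × B`;
the abstract theorem is `NodeFin.exists_nodes_of_finite` (no Dedekind hypothesis):

* both projections are onto (`lift₁`, `lift₂`, `incl`);
* every `a` is a `q`-th power modulo the conductor (`FrobRoot`: `(x'^q, a'^q)` and `(a, a(T^q))`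
  lie in `R`, `a'^q = a(T^q)`);
* finite codimension: `W(c+1) ⊆ B̄(c+1) + W(c)` for `c` large, by the count
  `dim B̄(c) = l(cE)` (`(Dim)`), `B̄(c+1) ∩ W(c) = B̄(c)` (`CuspReg`) and the exact dimensions;
* at least one node: otherwise `W(c) ⊆ B̄(c)`, but `12 (dim W(c) - l(cE)) = (q-1) ψ(M) > 0`.
-/

set_option autoImplicit false
set_option maxHeartbeats 400000
set_option linter.unusedSectionVars false
set_option synthInstance.maxHeartbeats 400000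

noncomputable section

namespace Fermat.Agent.S34.NodeInst

open ModularCurve AlgebraicCurve Fermat.Agent.S24 Fermat.Agent.S18.Content Fermat.Agent.S18.Plan
open Fermat.Agent.S34 Fermat.Agent.S18 Module

/-! ## Products in `pullRR` -/

theorem mul_mem_pullRR_add {N N' : ℕ} {B B' : Divisor Kbar (FN N)} {g g' : Om}
    (hg : g ∈ pullRR N N' B) (hg' : g' ∈ pullRR N N' B') : g * g' ∈ pullRR N N' (B + B') := by
  refine ⟨mul_mem hg.1 hg'.1, fun P t ht hBt => ?_⟩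
  obtain ⟨u, hu0, hu⟩ := Main.exists_ord_eq P (B P)
  have h1 : IsIntegral (placeRing P) ((u : Om) * g) := hg.2 P u hu0 (le_of_eq hu.symm)
  have ht' : t * u⁻¹ ≠ 0 := mul_ne_zero ht (inv_ne_zero hu0)
  have h2 : IsIntegral (placeRing P) (((t * u⁻¹ : FN N) : Om) * g') := by
    refine hg'.2 P (t * u⁻¹) ht' ?_
    rw [P.ord_mul ht (inv_ne_zero hu0), P.ord_inv, hu]
    have : (B + B') P = B P + B' P := Finsupp.add_apply B B' P
    omega
  have hu0' : (u : Om) ≠ 0 := fun h0 => hu0 (Subtype.ext h0)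
  have e : (t : Om) * (g * g') = ((u : Om) * g) * (((t * u⁻¹ : FN N) : Om) * g') := by
    push_cast
    field_simp
  rw [e]
  exact h1.mul h2

/-! ## The reduction datum of `Setup2` -/

section Red

variable (A : ValuationSubring Kbar)

/-- The coefficientwise `k`-algebra structure on `k((T)) × k((T))`. -/
abbrev algR2 : Algebra (kk A) (Plan.R2 A) :=
  @Prod.algebra (kk A) (Omk A) (Omk A) _ _ HahnSeries.instAlgebra _ HahnSeries.instAlgebra

variable {A}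

/-- The abstract reduction datum of `LiftCore2` for `(O, ρ)`. -/
abbrev RD2 (O : Subring Om) (ρ : O →+* Plan.R2 A) : Prop :=
  @LiftCore2.RedData Kbar Om (kk A) (Plan.R2 A) _ _ HahnSeries.instAlgebra _ _ (algR2 A) A
    (IsLocalRing.residue A) O ρ

variable {N q M : ℕ} [NeZero N] [NeZero q] {hqN : q ∣ N}
variable {O : Subring Om} {ρ : O →+* Plan.R2 A}

theorem redData (hS : Plan.Setup2 A N q M hqN O ρ) : RD2 O ρ :=
  @LiftCore2.RedData.mk Kbar Om (kk A) (Plan.R2 A) _ _ HahnSeries.instAlgebra _ _ (algR2 A) A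
    (IsLocalRing.residue A) O ρ
    IsLocalRing.residue_surjective
    (fun a => by
      rw [IsLocalRing.residue_eq_zero_iff, IsLocalRing.mem_maximalIdeal, mem_nonunits_iff])
    (fun c => hS.C_mem_iff c)
    (fun a h => hS.ρ_C a h)

/-- `B̄(c)` (more generally the reductions of `W ∩ O`) as a `k`-subspace. -/
def redSub (hS : Plan.Setup2 A N q M hqN O ρ) (W : Submodule Kbar Om) :
    Submodule (kk A) (Plan.R2 A) :=
  @LiftCore2.RedData.redSp Kbar Om (kk A) (Plan.R2 A) _ _ HahnSeries.instAlgebra _ _ (algR2 A) A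
    (IsLocalRing.residue A) O ρ (redData hS) W

theorem mem_redSub (hS : Plan.Setup2 A N q M hqN O ρ) {W : Submodule Kbar Om} {x : Plan.R2 A} :
    x ∈ redSub hS W ↔ x ∈ Plan.redSet O ρ W := Iff.rfl

theorem redSub_mono (hS : Plan.Setup2 A N q M hqN O ρ) {W W' : Submodule Kbar Om} (h : W ≤ W') :
    redSub hS W ≤ redSub hS W' := by
  rintro x ⟨y, hy, rfl⟩
  exact ⟨y, h hy, rfl⟩

theorem hasDim (hS : Plan.Setup2 A N q M hqN O ρ) :
    @LiftCore2.HasDim Kbar Om (Plan.R2 A) _ _ HahnSeries.instAlgebra _ (kk A) _ (algR2 A) O ρ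
      (Main.fieldSub (M * q)) := by
  intro W hW hfin
  exact hS.dim W (fun w hw => hW hw) hfin

/-- **(Dim)**: `dim_k redSub W = dim_{Q̄} W` for finite-dimensional `W ⊆ F_{qM}`. -/
theorem finrank_redSub (hS : Plan.Setup2 A N q M hqN O ρ) {W : Submodule Kbar Om}
    (hW : ∀ w ∈ W, w ∈ modularFunctionFieldBar (M * q)) [Module.Finite Kbar W] :
    Module.Finite (kk A) (redSub hS W) ∧ finrank (kk A) (redSub hS W) = finrank Kbar W :=
  @LiftCore2.RedData.finrank_redSp Kbar Om (kk A) (Plan.R2 A) _ _ HahnSeries.instAlgebra _ _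
    (algR2 A) A (IsLocalRing.residue A) O ρ (redData hS) (Main.fieldSub (M * q)) (hasDim hS) W
    (fun w hw => hW w hw) _

end Red

/-! ## The divisors `E`, `Cj`, `Cq` -/

section Div

variable {N q : ℕ} [NeZero N] [NeZero q] {hqN : q ∣ N}

theorem isE_nonneg {E : Divisor Kbar (FN N)} (hE : Plan.IsE N q hqN E) (P : Place Kbar (FN N)) :
    0 ≤ E P := by
  rw [hE P]
  exact add_nonneg (le_max_left _ _) (le_max_left _ _)

theorem nsmul_apply (c : ℕ) (E : Divisor Kbar (FN N)) (P : Place Kbar (FN N)) :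
    (c • E) P = c * E P := by
  rw [Finsupp.smul_apply, nsmul_eq_mul]

theorem nsmul_nonneg_E {E : Divisor Kbar (FN N)} (hE : Plan.IsE N q hqN E) (c : ℕ)
    (P : Place Kbar (FN N)) : 0 ≤ (c • E) P := by
  rw [nsmul_apply]
  exact mul_nonneg (Int.natCast_nonneg c) (isE_nonneg hE P)

theorem nsmul_mono_E {E : Divisor Kbar (FN N)} (hE : Plan.IsE N q hqN E) {c c' : ℕ} (h : c ≤ c')
    (P : Place Kbar (FN N)) : (c • E) P ≤ (c' • E) P := by
  rw [nsmul_apply, nsmul_apply]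
  exact mul_le_mul_of_nonneg_right (by exact_mod_cast h) (isE_nonneg hE P)

/-- `(j)_∞`, built from `E`. -/
theorem exists_Cj {E : Divisor Kbar (FN N)} (hE : Plan.IsE N q hqN E) :
    ∃ Cj : Divisor Kbar (FN N), Plan.IsPoleJ N Cj ∧ ∀ P, Cj P ≤ E P := by
  refine ⟨Finsupp.onFinset E.support (fun P => max 0 (-(P.ord (jBar N)))) (fun P hP => ?_),
    fun P => rfl, fun P => ?_⟩
  · rw [Finsupp.mem_support_iff]
    have h1 := hE P
    have h2 : (0 : ℤ) ≤ max 0 (-(P.ord (jBar N))) := le_max_left _ _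
    have h3 : (0 : ℤ) ≤ max 0 (-(P.ord (jBarLevel N q hqN))) := le_max_left _ _
    have h4 : (0 : ℤ) < max 0 (-(P.ord (jBar N))) := lt_of_le_of_ne h2 (Ne.symm hP)
    omega
  · rw [Finsupp.onFinset_apply, hE P]
    have h3 : (0 : ℤ) ≤ max 0 (-(P.ord (jBarLevel N q hqN))) := le_max_left _ _
    omega

/-- `(j_q)_∞`, built from `E`. -/
theorem exists_Cq {E : Divisor Kbar (FN N)} (hE : Plan.IsE N q hqN E) :
    ∃ Cq : Divisor Kbar (FN N), Plan.IsPoleJq N q hqN Cq ∧ ∀ P, Cq P ≤ E P := by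
  refine ⟨Finsupp.onFinset E.support (fun P => max 0 (-(P.ord (jBarLevel N q hqN))))
    (fun P hP => ?_), fun P => rfl, fun P => ?_⟩
  · rw [Finsupp.mem_support_iff]
    have h1 := hE P
    have h2 : (0 : ℤ) ≤ max 0 (-(P.ord (jBar N))) := le_max_left _ _
    have h3 : (0 : ℤ) ≤ max 0 (-(P.ord (jBarLevel N q hqN))) := le_max_left _ _
    have h4 : (0 : ℤ) < max 0 (-(P.ord (jBarLevel N q hqN))) := lt_of_le_of_ne h3 (Ne.symm hP)
    omega
  · rw [Finsupp.onFinset_apply, hE P]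
    have h2 : (0 : ℤ) ≤ max 0 (-(P.ord (jBar N))) := le_max_left _ _
    omega

theorem nsmul_le_of_le {C E : Divisor Kbar (FN N)} (h : ∀ P, C P ≤ E P) (c : ℕ)
    (P : Place Kbar (FN N)) : (c • C) P ≤ (c • E) P := by
  rw [nsmul_apply, nsmul_apply]
  exact mul_le_mul_of_nonneg_left (h P) (Int.natCast_nonneg c)

end Div

/-! ## `B̄(c)`: calculus -/

section Bbar

variable {A : ValuationSubring Kbar} {N q M : ℕ} [NeZero N] [NeZero q] {hqN : q ∣ N}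
variable {O : Subring Om} {ρ : O →+* Plan.R2 A}

theorem Bbar_mono {E : Divisor Kbar (FN N)} (hE : Plan.IsE N q hqN E) {c c' : ℕ} (h : c ≤ c') :
    Plan.Bbar N q M O ρ E c ⊆ Plan.Bbar N q M O ρ E c' := by
  rintro x ⟨y, hy, rfl⟩
  exact ⟨y, Main.pullRR_mono (nsmul_mono_E hE h) hy, rfl⟩

theorem Bbar_mul {E : Divisor Kbar (FN N)} {c c' : ℕ} {x x' : Plan.R2 A}
    (hx : x ∈ Plan.Bbar N q M O ρ E c) (hx' : x' ∈ Plan.Bbar N q M O ρ E c') :
    x * x' ∈ Plan.Bbar N q M O ρ E (c + c') := by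
  obtain ⟨y, hy, rfl⟩ := hx
  obtain ⟨y', hy', rfl⟩ := hx'
  refine ⟨y * y', ?_, map_mul ρ y y'⟩
  rw [add_smul, Subring.coe_mul]
  exact mul_mem_pullRR_add hy hy'

theorem Bbar_add {E : Divisor Kbar (FN N)} {c : ℕ} {x x' : Plan.R2 A}
    (hx : x ∈ Plan.Bbar N q M O ρ E c) (hx' : x' ∈ Plan.Bbar N q M O ρ E c) :
    x + x' ∈ Plan.Bbar N q M O ρ E c := by
  obtain ⟨y, hy, rfl⟩ := hx
  obtain ⟨y', hy', rfl⟩ := hx'
  exact ⟨y + y', Submodule.add_mem _ hy hy', map_add ρ y y'⟩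

theorem Bbar_sub {E : Divisor Kbar (FN N)} {c : ℕ} {x x' : Plan.R2 A}
    (hx : x ∈ Plan.Bbar N q M O ρ E c) (hx' : x' ∈ Plan.Bbar N q M O ρ E c) :
    x - x' ∈ Plan.Bbar N q M O ρ E c := by
  obtain ⟨y, hy, rfl⟩ := hx
  obtain ⟨y', hy', rfl⟩ := hx'
  exact ⟨y - y', Submodule.sub_mem _ hy hy', map_sub ρ y y'⟩

theorem Bbar_const (hS : Plan.Setup2 A N q M hqN O ρ) {E : Divisor Kbar (FN N)}
    (hE : Plan.IsE N q hqN E) (c : ℕ) (r : kk A) :
    ((HahnSeries.C r : Omk A), (HahnSeries.C r : Omk A)) ∈ Plan.Bbar N q M O ρ E c := by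
  obtain ⟨a, rfl⟩ := IsLocalRing.residue_surjective (R := A) r
  refine ⟨⟨_, (hS.C_mem_iff (a : Kbar)).2 a.2⟩, ?_, hS.ρ_C a _⟩
  have h1 : (1 : Om) ∈ pullRR N (M * q) (c • E) := Main.one_mem_pullRR (nsmul_nonneg_E hE c)
  have h2 := Main.C_mul_mem_pullRR (a : Kbar) h1
  rwa [mul_one] at h2

end Bbar

/-! ## The subalgebra `R ⊆ B_κ × B_κ` and its three algebraic properties -/

section Alg

variable {A : ValuationSubring Kbar} {N q M : ℕ} [NeZero N] [NeZero q] {hqN : q ∣ N}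
variable {O : Subring Om} {ρ : O →+* Plan.R2 A}

theorem mem_BK_of_mem_WJ {m : ℕ} {a : Omk A} (ha : a ∈ WJ (kk A) (Fk A M) m) :
    a ∈ Plan.BK A M :=
  Algebra.mem_inf.2 ⟨ha.1, ha.2.1⟩

/-- `R = {(a, b) ∈ B_κ × B_κ | ∃ c, (a, b) ∈ B̄(c)}`. -/
def nodeR (hS : Plan.Setup2 A N q M hqN O ρ) {E : Divisor Kbar (FN N)}
    (hE : Plan.IsE N q hqN E) : Subalgebra (kk A) (↥(Plan.BK A M) × ↥(Plan.BK A M)) where
  carrier := {x | ∃ c : ℕ, ((x.1 : Omk A), (x.2 : Omk A)) ∈ Plan.Bbar N q M O ρ E c}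
  mul_mem' := by
    rintro x x' ⟨c, hx⟩ ⟨c', hx'⟩
    refine ⟨c + c', ?_⟩
    have h := Bbar_mul hx hx'
    have e : (((x * x').1 : Omk A), ((x * x').2 : Omk A)) =
        ((x.1 : Omk A), (x.2 : Omk A)) * ((x'.1 : Omk A), (x'.2 : Omk A)) := by
      simp only [Prod.mk_mul_mk, Prod.fst_mul, Prod.snd_mul, MulMemClass.coe_mul]
    show (((x * x').1 : Omk A), ((x * x').2 : Omk A)) ∈ Plan.Bbar N q M O ρ E (c + c')
    rw [e]
    exact h
  add_mem' := by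
    rintro x x' ⟨c, hx⟩ ⟨c', hx'⟩
    refine ⟨max c c', ?_⟩
    have h := Bbar_add (Bbar_mono hE (le_max_left c c') hx) (Bbar_mono hE (le_max_right c c') hx')
    have e : (((x + x').1 : Omk A), ((x + x').2 : Omk A)) =
        ((x.1 : Omk A), (x.2 : Omk A)) + ((x'.1 : Omk A), (x'.2 : Omk A)) := by
      simp only [Prod.mk_add_mk, Prod.fst_add, Prod.snd_add, AddMemClass.coe_add]
    show (((x + x').1 : Omk A), ((x + x').2 : Omk A)) ∈ Plan.Bbar N q M O ρ E (max c c')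
    rw [e]
    exact h
  algebraMap_mem' := by
    intro r
    refine ⟨0, ?_⟩
    have h := Bbar_const hS hE 0 r
    simpa only [Prod.algebraMap_apply, Subalgebra.coe_algebraMap, algebraMap_LS_eq_C] using h

theorem mem_nodeR (hS : Plan.Setup2 A N q M hqN O ρ) {E : Divisor Kbar (FN N)}
    (hE : Plan.IsE N q hqN E) {x : ↥(Plan.BK A M) × ↥(Plan.BK A M)} :
    x ∈ nodeR hS hE ↔ ∃ c : ℕ, ((x.1 : Omk A), (x.2 : Omk A)) ∈ Plan.Bbar N q M O ρ E c :=
  Iff.rfl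

variable (hBK : ∀ a : Omk A, a ∈ Plan.BK A M → ∃ m, a ∈ WJ (kk A) (Fk A M) m)
include hBK

theorem exists_mem_WJ_ge (a : ↥(Plan.BK A M)) (m₀ : ℕ) :
    ∃ m, m₀ ≤ m ∧ (a : Omk A) ∈ WJ (kk A) (Fk A M) m := by
  obtain ⟨m, hm⟩ := hBK a a.2
  exact ⟨max m m₀, le_max_right _ _, WJCalc.WJ_mono (le_max_left _ _) hm⟩

/-- `(a, a(T^q)) ∈ R` (from `lift₁`). -/
theorem fst_qExpand_mem (hS : Plan.Setup2 A N q M hqN O ρ) {E : Divisor Kbar (FN N)}
    (hE : Plan.IsE N q hqN E) (a : ↥(Plan.BK A M)) :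
    ∃ hb : qExpand (kk A) q (a : Omk A) ∈ Plan.BK A M,
      (a, (⟨_, hb⟩ : ↥(Plan.BK A M))) ∈ nodeR hS hE := by
  obtain ⟨m₀, h₁⟩ := hS.lift₁
  obtain ⟨Cj, hCj, hle⟩ := exists_Cj hE
  obtain ⟨m, hm, ha⟩ := exists_mem_WJ_ge hBK a m₀
  obtain ⟨g, hg, hρ⟩ := h₁ Cj hCj m hm _ ha
  have hg' : (g : Om) ∈ pullRR N (M * q) (m • E) := Main.pullRR_mono (nsmul_le_of_le hle m) hg
  have hW := hS.incl E hE m g hg'
  rw [hρ] at hW
  have hb : qExpand (kk A) q (a : Omk A) ∈ Plan.BK A M := mem_BK_of_mem_WJ hW.2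
  exact ⟨hb, m, g, hg', hρ⟩

/-- The first projection of `R` is onto. -/
theorem fst_mem (hS : Plan.Setup2 A N q M hqN O ρ) {E : Divisor Kbar (FN N)}
    (hE : Plan.IsE N q hqN E) (a : ↥(Plan.BK A M)) :
    ∃ b : ↥(Plan.BK A M), (a, b) ∈ nodeR hS hE := by
  obtain ⟨hb, h⟩ := fst_qExpand_mem hBK hS hE a
  exact ⟨_, h⟩

/-- The second projection of `R` is onto (from `lift₂`). -/
theorem snd_mem (hS : Plan.Setup2 A N q M hqN O ρ) {E : Divisor Kbar (FN N)}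
    (hE : Plan.IsE N q hqN E) (b : ↥(Plan.BK A M)) :
    ∃ a : ↥(Plan.BK A M), (a, b) ∈ nodeR hS hE := by
  obtain ⟨m₀, h₂⟩ := hS.lift₂
  obtain ⟨Cq, hCq, hle⟩ := exists_Cq hE
  obtain ⟨m, hm, hb⟩ := exists_mem_WJ_ge hBK b m₀
  obtain ⟨g, hg, hρ⟩ := h₂ Cq hCq m hm _ hb
  have hg' : (g : Om) ∈ pullRR N (M * q) (m • E) := Main.pullRR_mono (nsmul_le_of_le hle m) hg
  have hW := hS.incl E hE m g hg'
  refine ⟨⟨(ρ g).1, mem_BK_of_mem_WJ hW.1⟩, m, g, hg', ?_⟩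
  exact Prod.ext rfl hρ

/-- Every `a` is a `q`-th power modulo the conductor of `R` (Frobenius trick). -/
theorem pow_mem (hS : Plan.Setup2 A N q M hqN O ρ) {E : Divisor Kbar (FN N)}
    (hE : Plan.IsE N q hqN E) (hFrob : Plan.FrobRoot A q M) (a : ↥(Plan.BK A M)) :
    ∃ c : ↥(Plan.BK A M), (a - c ^ q, (0 : ↥(Plan.BK A M))) ∈ nodeR hS hE := by
  obtain ⟨m, ha⟩ := hBK a a.2
  obtain ⟨a', ha', hpow⟩ := hFrob m a ha
  obtain ⟨x', hx'⟩ := snd_mem hBK hS hE ⟨a', mem_BK_of_mem_WJ ha'⟩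
  obtain ⟨hb, hab⟩ := fst_qExpand_mem hBK hS hE a
  refine ⟨x', ?_⟩
  have h1 := (nodeR hS hE).pow_mem hx' q
  have h2 := (nodeR hS hE).sub_mem hab h1
  have e : (a, (⟨_, hb⟩ : ↥(Plan.BK A M))) -
      (x', (⟨a', mem_BK_of_mem_WJ ha'⟩ : ↥(Plan.BK A M))) ^ q = (a - x' ^ q, 0) := by
    refine Prod.ext rfl ?_
    apply Subtype.ext
    simp [hpow]
  rwa [e] at h2

end Alg

/-! ## The counts -/

section Count

variable {A : ValuationSubring Kbar} {N q M : ℕ} [NeZero N] [NeZero q] {hqN : q ∣ N}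
variable {O : Subring Om} {ρ : O →+* Plan.R2 A}

/-- `B̄(c)` as a `k`-subspace of `k((T)) × k((T))`. -/
abbrev Bsub (hS : Plan.Setup2 A N q M hqN O ρ) (E : Divisor Kbar (FN N)) (c : ℕ) :
    Submodule (kk A) (Plan.R2 A) :=
  redSub hS (pullRR N (M * q) (c • E))

theorem mem_Bsub (hS : Plan.Setup2 A N q M hqN O ρ) {E : Divisor Kbar (FN N)} {c : ℕ}
    {x : Plan.R2 A} : x ∈ Bsub hS E c ↔ x ∈ Plan.Bbar N q M O ρ E c := Iff.rfl

theorem Bsub_le_Wp (hS : Plan.Setup2 A N q M hqN O ρ) {E : Divisor Kbar (FN N)}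
    (hE : Plan.IsE N q hqN E) (c : ℕ) : Bsub hS E c ≤ CuspReg.Wp (kk A) (Fk A M) q c := by
  rintro x ⟨y, hy, rfl⟩
  exact hS.incl E hE c y hy

theorem Bsub_mono (hS : Plan.Setup2 A N q M hqN O ρ) {E : Divisor Kbar (FN N)}
    (hE : Plan.IsE N q hqN E) {c c' : ℕ} (h : c ≤ c') : Bsub hS E c ≤ Bsub hS E c' :=
  fun _ hx => Bbar_mono hE h hx

theorem finrank_Bsub (hS : Plan.Setup2 A N q M hqN O ρ) (E : Divisor Kbar (FN N)) (c : ℕ)
    [Module.Finite Kbar (pullRR N (M * q) (c • E))] :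
    Module.Finite (kk A) (Bsub hS E c) ∧
      finrank (kk A) (Bsub hS E c) = finrank Kbar (pullRR N (M * q) (c • E)) :=
  finrank_redSub hS (fun _ hw => hw.1)

theorem finrank_Wp_gen {κ : Type} [Field κ] (L : IntermediateField κ (LaurentSeries κ))
    (q c : ℕ) [Module.Finite κ (WJ κ L (c * (q + 1)))] :
    Module.Finite κ (CuspReg.Wp κ L q c) ∧
      finrank κ (CuspReg.Wp κ L q c) = 2 * finrank κ (WJ κ L (c * (q + 1))) := by
  have e := CuspReg.prodEquivL (WJ κ L (c * (q + 1))) (WJ κ L (c * (q + 1)))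
  refine ⟨Module.Finite.equiv e.symm, ?_⟩
  have h1 : finrank κ (CuspReg.Wp κ L q c)
      = finrank κ (↥(WJ κ L (c * (q + 1))) × ↥(WJ κ L (c * (q + 1)))) := e.finrank_eq
  rw [h1, Module.finrank_prod]; ring

theorem finrank_Wp' (A : ValuationSubring Kbar) (q M c : ℕ)
    [Module.Finite (kk A) (WJ (kk A) (Fk A M) (c * (q + 1)))] :
    Module.Finite (kk A) (CuspReg.Wp (kk A) (Fk A M) q c) ∧
      finrank (kk A) (CuspReg.Wp (kk A) (Fk A M) q c) =
        2 * finrank (kk A) (WJ (kk A) (Fk A M) (c * (q + 1))) :=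
  finrank_Wp_gen (Fk A M) q c

/-- **Graded surjectivity** `W(d+1) ⊆ B̄(d+1) + W(d)` for `d` large, and **the node count**
`dim W(d) > dim B̄(d)`. -/
theorem count (hq : q.Prime) (hqM : ¬ q ∣ M) [NeZero M]
    (hS : Plan.Setup2 A N q M hqN O ρ) (hCR : Plan.CuspReg A N q M hqN O ρ)
    (hRE : Plan.RiemannE N q M hqN) (hRK : Plan.RiemannK A M) (hNum : Plan.NumStmt q M)
    {E : Divisor Kbar (FN N)} (hE : Plan.IsE N q hqN E) :
    ∃ c₁ : ℕ, ∀ d : ℕ, c₁ ≤ d →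
      Module.Finite (kk A) (CuspReg.Wp (kk A) (Fk A M) q d) ∧
      CuspReg.Wp (kk A) (Fk A M) q (d + 1) ≤ Bsub hS E (d + 1) ⊔ CuspReg.Wp (kk A) (Fk A M) q d ∧
      (∀ c', d ≤ c' → Bsub hS E c' ⊓ CuspReg.Wp (kk A) (Fk A M) q d ≤ Bsub hS E d) ∧
      ¬ CuspReg.Wp (kk A) (Fk A M) q d ≤ Bsub hS E d := by
  obtain ⟨c₀, hCR'⟩ := hCR E hE
  obtain ⟨c₂, hRE'⟩ := hRE E hE
  obtain ⟨m₀, hRK'⟩ := hRK
  obtain ⟨hψ, hC⟩ := hNum hq hqM
  have hψℤ : (dedekindPsi (M * q) : ℤ) = ((q : ℤ) + 1) * (dedekindPsi M : ℤ) := by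
    rw [hψ]; push_cast; ring
  have hCℤ : (cuspCount (M * q) : ℤ) = 2 * (cuspCount M : ℤ) := by
    rw [hC]; push_cast; ring
  have hψpos : (0 : ℤ) < (dedekindPsi M : ℤ) := by
    exact_mod_cast FibreCount.dedekindPsi_pos M
  have hq2 : (2 : ℤ) ≤ (q : ℤ) := by exact_mod_cast hq.two_le
  refine ⟨max (max c₀ c₂) m₀, fun d hd => ?_⟩
  have hd0 : c₀ ≤ d := (le_max_left _ _).trans ((le_max_left _ _).trans hd)
  have hd2 : c₂ ≤ d := (le_max_right _ _).trans ((le_max_left _ _).trans hd)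
  have hdm : m₀ ≤ d * (q + 1) :=
    ((le_max_right _ _).trans hd).trans (Nat.le_mul_of_pos_right d (Nat.succ_pos q))
  have hdm' : m₀ ≤ (d + 1) * (q + 1) :=
    hdm.trans (Nat.mul_le_mul_right _ (Nat.le_succ d))
  obtain ⟨hfinU, hlU⟩ := hRE' d hd2
  obtain ⟨hfinU', hlU'⟩ := hRE' (d + 1) (hd2.trans (Nat.le_succ d))
  obtain ⟨hfW, hlW⟩ := hRK' (d * (q + 1)) hdm
  obtain ⟨hfW', hlW'⟩ := hRK' ((d + 1) * (q + 1)) hdm'
  obtain ⟨hfWp, hdWp⟩ := finrank_Wp' A q M d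
  obtain ⟨hfWp', hdWp'⟩ := finrank_Wp' A q M (d + 1)
  obtain ⟨hfB, hdB⟩ := finrank_Bsub hS E d
  obtain ⟨hfB', hdB'⟩ := finrank_Bsub hS E (d + 1)
  have hinf_le : ∀ c', d ≤ c' →
      Bsub hS E c' ⊓ CuspReg.Wp (kk A) (Fk A M) q d ≤ Bsub hS E d := by
    rintro c' hc' x ⟨hx1, hx2⟩
    exact hCR' d hd0 c' hc' ⟨hx1, hx2⟩
  have hinf : Bsub hS E (d + 1) ⊓ CuspReg.Wp (kk A) (Fk A M) q d = Bsub hS E d :=
    le_antisymm (hinf_le (d + 1) (Nat.le_succ d))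
      (le_inf (Bsub_mono hS hE (Nat.le_succ d)) (Bsub_le_Wp hS hE d))
  push_cast at hlW hlW' hlU hlU'
  refine ⟨hfWp, ?_, hinf_le, ?_⟩
  · have hle : Bsub hS E (d + 1) ⊔ CuspReg.Wp (kk A) (Fk A M) q d ≤
        CuspReg.Wp (kk A) (Fk A M) q (d + 1) :=
      sup_le (Bsub_le_Wp hS hE (d + 1)) (CuspReg.Wp_mono q (Nat.le_succ d))
    have hsup := Submodule.finrank_sup_add_finrank_inf_eq (Bsub hS E (d + 1))
      (CuspReg.Wp (kk A) (Fk A M) q d)
    rw [hinf, hdB, hdB', hdWp] at hsup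
    have hsupℤ : ((finrank (kk A) ↥(Bsub hS E (d + 1) ⊔ CuspReg.Wp (kk A) (Fk A M) q d) : ℕ) : ℤ)
        + (finrank Kbar ↥(pullRR N (M * q) (d • E)) : ℤ) =
        (finrank Kbar ↥(pullRR N (M * q) ((d + 1) • E)) : ℤ)
          + 2 * (finrank (kk A) ↥(WJ (kk A) (Fk A M) (d * (q + 1))) : ℤ) := by
      exact_mod_cast hsup
    have key : (12 : ℤ) * (2 * (finrank (kk A) ↥(WJ (kk A) (Fk A M) ((d + 1) * (q + 1))) : ℤ)) =
        12 * ((finrank (kk A) ↥(Bsub hS E (d + 1) ⊔ CuspReg.Wp (kk A) (Fk A M) q d) : ℕ) : ℤ) := by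
      linear_combination 2 * hlW' - 12 * hsupℤ - hlU' - 2 * hlW + hlU - 24 * hψℤ
    have key' : finrank (kk A) ↥(CuspReg.Wp (kk A) (Fk A M) q (d + 1)) ≤
        finrank (kk A) ↥(Bsub hS E (d + 1) ⊔ CuspReg.Wp (kk A) (Fk A M) q d) := by
      rw [hdWp']
      omega
    exact (Submodule.eq_of_le_of_finrank_le hle key').ge
  · intro hle
    have h1 := Submodule.finrank_mono hle
    rw [hdWp, hdB] at h1
    have h1ℤ : 2 * (finrank (kk A) ↥(WJ (kk A) (Fk A M) (d * (q + 1))) : ℤ) ≤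
        (finrank Kbar ↥(pullRR N (M * q) (d • E)) : ℤ) := by exact_mod_cast h1
    have key : (12 : ℤ) * (2 * (finrank (kk A) ↥(WJ (kk A) (Fk A M) (d * (q + 1))) : ℤ)) -
        12 * (finrank Kbar ↥(pullRR N (M * q) (d • E)) : ℤ) =
        ((q : ℤ) - 1) * (dedekindPsi M : ℤ) := by
      linear_combination 2 * hlW - hlU + (1 - 24 * (d : ℤ)) * hψℤ - 6 * hCℤ
    have hpos : (0 : ℤ) < ((q : ℤ) - 1) * (dedekindPsi M : ℤ) :=
      mul_pos (by omega) hψpos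
    omega

end Count

/-! ## The node statement -/

section Final

variable {A : ValuationSubring Kbar} {N q M : ℕ} [NeZero N] [NeZero q] {hqN : q ∣ N}
variable {O : Subring Om} {ρ : O →+* Plan.R2 A}

theorem not_dvd_M {N' : ℕ} (hL : Plan.Levels q N' N M) : ¬ q ∣ M := by
  rw [hL.M_eq]
  intro h
  rcases (Nat.Prime.dvd_mul hL.prime).1 h with h | h
  · unfold Plan.aux at h
    split_ifs at h with h2
    · subst h2
      omega
    · have h4 : q ∣ 2 ^ 2 := by simpa using h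
      have h5 : q ∣ 2 := hL.prime.dvd_of_dvd_pow h4
      exact h2 ((Nat.prime_dvd_prime_iff_eq hL.prime Nat.prime_two).1 h5)
  · exact hL.not_dvd h

theorem M_pos {N' : ℕ} (hL : Plan.Levels q N' N M) : 0 < M := by
  rw [hL.M_eq]
  refine Nat.mul_pos ?_ hL.N'_pos
  unfold Plan.aux
  split_ifs <;> norm_num

theorem coe_smul_BK (r : kk A) (a : ↥(Plan.BK A M)) :
    ((r • a : ↥(Plan.BK A M)) : Omk A) = r • (a : Omk A) := by
  rw [Algebra.smul_def, Subalgebra.coe_mul, Subalgebra.coe_algebraMap, algebraMap_LS_eq_C,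
    HahnSeries.C_mul_eq_smul]

/-- The inclusion `B_κ × B_κ → k((T)) × k((T))`, `k`-linear for the coefficientwise structure
on the target. -/
def inclL (A : ValuationSubring Kbar) (M : ℕ) :
    (↥(Plan.BK A M) × ↥(Plan.BK A M)) →ₗ[kk A] Plan.R2 A where
  toFun x := ((x.1 : Omk A), (x.2 : Omk A))
  map_add' _ _ := rfl
  map_smul' r x := Prod.ext (coe_smul_BK r x.1) (coe_smul_BK r x.2)

theorem inclL_apply (x : ↥(Plan.BK A M) × ↥(Plan.BK A M)) :
    inclL A M x = ((x.1 : Omk A), (x.2 : Omk A)) := rfl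

theorem inclL_injective : Function.Injective (inclL A M) := by
  intro x y h
  have h1 : (x.1 : Omk A) = y.1 := congrArg Prod.fst h
  have h2 : (x.2 : Omk A) = y.2 := congrArg Prod.snd h
  exact Prod.ext (Subtype.ext h1) (Subtype.ext h2)

/-- `W(c) ∩ (B_κ × B_κ)` as a subspace of `B_κ × B_κ`. -/
def Wsub (A : ValuationSubring Kbar) (q M c : ℕ) :
    Submodule (kk A) (↥(Plan.BK A M) × ↥(Plan.BK A M)) :=
  (CuspReg.Wp (kk A) (Fk A M) q c).comap (inclL A M)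

theorem mem_Wsub {c : ℕ} {x : ↥(Plan.BK A M) × ↥(Plan.BK A M)} :
    x ∈ Wsub A q M c ↔ inclL A M x ∈ CuspReg.Wp (kk A) (Fk A M) q c := Iff.rfl

theorem finite_Wsub (c : ℕ) [Module.Finite (kk A) (CuspReg.Wp (kk A) (Fk A M) q c)] :
    Module.Finite (kk A) (Wsub A q M c) := by
  let f : ↥(Wsub A q M c) →ₗ[kk A] ↥(CuspReg.Wp (kk A) (Fk A M) q c) :=
    (inclL A M).restrict (fun x hx => hx)
  have hf : Function.Injective f := by
    intro x y h
    apply Subtype.ext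
    apply inclL_injective
    exact congrArg Subtype.val h
  exact Module.Finite.of_injective f hf

/-- **[NODE]**, instance (I6), hypothesis form. -/
theorem nodeStmt_of {N' : ℕ} (hL : Plan.Levels q N' N M)
    (hBK : ∀ a : Omk A, a ∈ Plan.BK A M → ∃ m, a ∈ WJ (kk A) (Fk A M) m)
    (hS : Plan.Setup2 A N q M hqN O ρ) (hCR : Plan.CuspReg A N q M hqN O ρ)
    (hFrob : Plan.FrobRoot A q M) (hRE : Plan.RiemannE N q M hqN) (hRK : Plan.RiemannK A M)
    (hNum : Plan.NumStmt q M) : Plan.NodeStmt A N q M hqN O ρ := by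
  intro E hE
  have hq := hL.prime
  have hqM : ¬ q ∣ M := not_dvd_M hL
  have : NeZero M := ⟨(M_pos hL).ne'⟩
  have := PlacesModL.isAlgClosed_kk A
  obtain ⟨c₁, hc₁⟩ := count hq hqM hS hCR hRE hRK hNum hE
  -- finite codimension
  have hfin : ∃ V : Submodule (kk A) (↥(Plan.BK A M) × ↥(Plan.BK A M)),
      Module.Finite (kk A) V ∧ ∀ x : ↥(Plan.BK A M) × ↥(Plan.BK A M), ∃ v ∈ V,
        x - v ∈ nodeR hS hE := by
    refine NodeFin.hfin_of_graded (nodeR hS hE) (Wsub A q M) c₁ ?_ ?_ ?_ ?_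
    · have := (hc₁ c₁ le_rfl).1
      exact finite_Wsub c₁
    · intro c c' h x hx
      exact CuspReg.Wp_mono q h hx
    · intro x
      obtain ⟨m₁, h1⟩ := hBK x.1 x.1.2
      obtain ⟨m₂, h2⟩ := hBK x.2 x.2.2
      refine ⟨max m₁ m₂, WJCalc.WJ_mono ?_ h1, WJCalc.WJ_mono ?_ h2⟩
      · exact (le_max_left _ _).trans (Nat.le_mul_of_pos_right _ (Nat.succ_pos q))
      · exact (le_max_right _ _).trans (Nat.le_mul_of_pos_right _ (Nat.succ_pos q))
    · intro c hc x hx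
      obtain ⟨d, rfl⟩ : ∃ d, c = d + 1 := ⟨c - 1, by omega⟩
      have hd : c₁ ≤ d := by omega
      obtain ⟨-, hsup, -, -⟩ := hc₁ d hd
      have hx' : inclL A M x ∈ Bsub hS E (d + 1) ⊔ CuspReg.Wp (kk A) (Fk A M) q d := hsup hx
      obtain ⟨b, hb, w, hw, hbw⟩ := Submodule.mem_sup.1 hx'
      refine ⟨(⟨w.1, mem_BK_of_mem_WJ hw.1⟩, ⟨w.2, mem_BK_of_mem_WJ hw.2⟩), ?_, ?_⟩
      · rw [Nat.add_sub_cancel]
        exact hw
      · refine ⟨d + 1, ?_⟩
        have e : b = inclL A M x - w := eq_sub_of_add_eq hbw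
        have hb' : inclL A M x - w ∈ Plan.Bbar N q M O ρ E (d + 1) := e ▸ hb
        exact hb'
  obtain ⟨Z, θ, hθ, hiff, -, -⟩ := NodeFin.exists_nodes_of_finite (nodeR hS hE)
    (fst_mem hBK hS hE) (snd_mem hBK hS hE) q hq.two_le (pow_mem hBK hS hE hFrob) hfin
  -- at least one node
  have hne : Z.Nonempty := by
    rw [Finset.nonempty_iff_ne_empty]
    rintro rfl
    obtain ⟨-, -, hinf, hnot⟩ := hc₁ c₁ le_rfl
    apply hnot
    intro x hx
    have hmem : ((⟨x.1, mem_BK_of_mem_WJ hx.1⟩, ⟨x.2, mem_BK_of_mem_WJ hx.2⟩) :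
        ↥(Plan.BK A M) × ↥(Plan.BK A M)) ∈ nodeR hS hE :=
      (hiff _ _).2 (fun χ hχ => absurd hχ (Finset.notMem_empty χ))
    obtain ⟨c', hc'⟩ := hmem
    exact hinf (max c' c₁) (le_max_right _ _) ⟨Bbar_mono hE (le_max_left _ _) hc', hx⟩
  refine ⟨{χ // χ ∈ Z}, inferInstance, ⟨⟨hne.choose, hne.choose_spec⟩⟩, fun i => i.1,
    fun i => θ i.1, Subtype.val_injective, ?_, ?_⟩
  · intro i j h
    exact Subtype.ext (hθ i.2 j.2 h)
  · intro a b
    have h1 : (∃ c : ℕ, ((a : Omk A), (b : Omk A)) ∈ Plan.Bbar N q M O ρ E c) ↔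
        (a, b) ∈ nodeR hS hE := Iff.rfl
    rw [h1, hiff a b]
    exact ⟨fun h i => h i.1 i.2, fun h χ hχ => h ⟨χ, hχ⟩⟩

/-- **(G1)** `B_κ = ⋃ₘ WJ m` for `Plan.BK` (from `BKappa.mem_BK_iff_exists_WJ`). -/
theorem mem_BK_iff (A : ValuationSubring Kbar) (M : ℕ) {a : Omk A} :
    a ∈ Plan.BK A M ↔ ∃ m, a ∈ WJ (kk A) (Fk A M) m := by
  refine ⟨fun ha => ?_, fun ⟨m, hm⟩ => mem_BK_of_mem_WJ hm⟩
  obtain ⟨h1, h2⟩ := Algebra.mem_inf.1 ha
  exact BKappa.mem_BK_iff_exists_WJ.1 (BKappa.mem_BK.2 ⟨h1, h2⟩)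

/-- **[NODE]**, instance (I6): `Plan.NodeStmt` from the `Plan` contracts. -/
theorem nodeStmt {N' : ℕ} (hL : Plan.Levels q N' N M)
    (hS : Plan.Setup2 A N q M hqN O ρ) (hCR : Plan.CuspReg A N q M hqN O ρ)
    (hFrob : Plan.FrobRoot A q M) (hRE : Plan.RiemannE N q M hqN) (hRK : Plan.RiemannK A M)
    (hNum : Plan.NumStmt q M) : Plan.NodeStmt A N q M hqN O ρ :=
  nodeStmt_of hL (fun _ ha => (mem_BK_iff A M).1 ha) hS hCR hFrob hRE hRK hNum

end Final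

end Fermat.Agent.S34.NodeInst

end
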