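import Mathlib
import Fermat.Agent.S34.Plan
import Fermat.Agent.S18.Char0
import Fermat.Agent.S18.MainLemmas

/-!
# S34 / P6 — the top chain in Plan vocabulary (owner: helper74)

* existence of the divisors `Cj`, `Cq`, `E` of `F_N` (`exists_isPoleJ`, `exists_isPoleJq`,
  `exists_isE`);
* `unipDiv_of` : `ValStmt` + `TauStmt` + `LiftStmt` + `DescStmt` ⟹ `UnipDiv`.
-/

set_option autoImplicit false

noncomputable section

namespace Fermat.Agent.S34.PlanTop

open ModularCurve AlgebraicCurve Fermat.Agent.S24 Fermat.Agent.S18.Content Fermat.Agent.S18.Plan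
open Fermat.Agent.S34.Plan

/-- The pole divisor of a nonzero function of `F_N`. -/
theorem exists_poleDivisor (N : ℕ) [NeZero N] (y : FN N) (hy : y ≠ 0) :
    ∃ C : Divisor Kbar (FN N), ∀ P : Place Kbar (FN N), C P = max 0 (-(P.ord y)) := by
  obtain ⟨D, hD, -⟩ := (Fermat.Agent.S18.Char0.char0Stmt N).2.1 y hy
  refine ⟨D.mapRange (fun n : ℤ => max 0 (-n)) (by simp), fun P => ?_⟩
  rw [Finsupp.mapRange_apply, hD P]

theorem exists_isPoleJ (N : ℕ) [NeZero N] : ∃ Cj : Divisor Kbar (FN N), IsPoleJ N Cj := by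
  obtain ⟨Cp, hCp, -⟩ := (Fermat.Agent.S18.Char0.char0Stmt N).2.2
  exact ⟨Cp, hCp⟩

theorem jBarLevel_ne_zero (N : ℕ) [NeZero N] (d : ℕ) [NeZero d] (hd : d ∣ N) :
    jBarLevel N d hd ≠ 0 := by
  intro h
  have h1 : ((jBarLevel N d hd : FN N) : Om) = 0 := by rw [h]; rfl
  have h2 : coeffEmb Kbar (qExpand ℚ d jq) = 0 := h1
  have h3 : qExpand ℚ d jq = 0 :=
    (coeffEmb Kbar).injective (by rw [h2, map_zero])
  have h4 : (jq : LaurentSeries ℚ) = 0 := by
    have := (qExpand ℚ d).injective (by rw [h3, map_zero] : qExpand ℚ d jq = qExpand ℚ d 0)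
    exact this
  have h5 : jBar N = 0 := by
    apply Subtype.ext
    show coeffEmb Kbar jq = 0
    rw [h4, map_zero]
  exact Fermat.Agent.S18.Main.jBar_ne_zero N h5

theorem exists_isPoleJq (N q : ℕ) [NeZero N] [NeZero q] (hqN : q ∣ N) :
    ∃ Cq : Divisor Kbar (FN N), IsPoleJq N q hqN Cq :=
  exists_poleDivisor N _ (jBarLevel_ne_zero N q hqN)

theorem exists_isE (N q : ℕ) [NeZero N] [NeZero q] (hqN : q ∣ N) :
    ∃ E : Divisor Kbar (FN N), IsE N q hqN E := by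
  obtain ⟨Cj, hCj⟩ := exists_isPoleJ N
  obtain ⟨Cq, hCq⟩ := exists_isPoleJq N q hqN
  exact ⟨Cj + Cq, fun P => by rw [Finsupp.add_apply, hCj P, hCq P]⟩

theorem isE_add {N q : ℕ} [NeZero N] [NeZero q] {hqN : q ∣ N} {Cj Cq : Divisor Kbar (FN N)}
    (hCj : IsPoleJ N Cj) (hCq : IsPoleJq N q hqN Cq) : IsE N q hqN (Cj + Cq) :=
  fun P => by rw [Finsupp.add_apply, hCj P, hCq P]

theorem isE_unique {N q : ℕ} [NeZero N] [NeZero q] {hqN : q ∣ N} {E E' : Divisor Kbar (FN N)}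
    (hE : IsE N q hqN E) (hE' : IsE N q hqN E') : E = E' :=
  Finsupp.ext fun P => by rw [hE P, hE' P]

theorem degree_unipDiv (N : ℕ) [NeZero N] (τ : Kbar ≃ₐ[ℚ] Kbar) (D : Divisor Kbar (FN N))
    (hD : Divisor.degree D = 0) : Divisor.degree (unipDiv N τ D) = 0 := by
  unfold unipDiv
  rw [map_add, map_sub, map_nsmul, SemilinearAut.degree_smul, SemilinearAut.degree_smul, hD]
  simp

/-- **The top chain**: `ValStmt` + `TauStmt` + `LiftStmt` + `DescStmt` ⟹ `UnipDiv`. -/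
theorem unipDiv_of (A : ValuationSubring Kbar) (N q M : ℕ) [NeZero N] [NeZero q] (hqN : q ∣ N)
    (hVal : ValStmt A N q M hqN)
    (hTau : ∀ (O : Subring Om) (ρ : O →+* R2 A), Setup2 A N q M hqN O ρ →
      TauStmt A N q M hqN O ρ)
    (hLift : ∀ (O : Subring Om) (ρ : O →+* R2 A), Setup2 A N q M hqN O ρ →
      LiftStmt A N q M hqN O ρ)
    (hDesc : DescStmt N q M) : UnipDiv A N q := by
  obtain ⟨O, ρ, hS⟩ := hVal
  obtain ⟨E, hE⟩ := exists_isE N q hqN
  intro τ hτ D n hdeg hn hqn hprin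
  obtain ⟨w, hw0, hwdiv, hwO, hwρ, hMD⟩ := hTau O ρ hS E hE τ hτ D n hdeg hn hprin
  have hdeg' : Divisor.degree (unipDiv N τ D) = 0 := degree_unipDiv N τ D hdeg
  have hg := hLift O ρ hS E hE (unipDiv N τ D) n hdeg' hn hqn w hw0 hwdiv hwO hwρ hMD
  refine hDesc (unipDiv N τ D) n hdeg' hn hqn ⟨w, hw0, fun P => ?_⟩ hg
  rw [hwdiv P]
  simp

end Fermat.Agent.S34.PlanTop

end
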