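/-
P6 / S34 helper (helper6): the Atkin–Lehner automorphism of the Prelude function field `F_{Nℓ}`
(`S37.Kron.AtkinLehner.exists_atkinLehner`, helper60) is an INVOLUTION when `ℓ` is prime:
`exists_atkinLehner_invol` : `∃ w, (∀ f, w (α f) = β f) ∧ (∀ f, w (β f) = α f) ∧ ∀ x, w (w x) = x`.
-/
import Mathlib
import Fermat.Agent.S37.Kron.AtkinLehner

set_option autoImplicit false

noncomputable section

namespace Fermat.Agent.S34.ALInvol

open ModularCurve Fermat.Agent.Lib Fermat.Agent.S24 Fermat.Agent.S37.Kron.AtkinLehner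

theorem gen_congr {a b : ℕ} [ha : NeZero a] [hb : NeZero b] (h : a = b) :
    FFBridge.gen a = FFBridge.gen b := by
  subst h
  rfl

/-- **Atkin–Lehner involution.** For a prime `ℓ ∤ N` the automorphism of `F_{Nℓ}` exchanging the
two degeneracy maps is an involution. -/
theorem exists_atkinLehner_invol (N ℓ : ℕ) [NeZero N] [NeZero ℓ] (hℓ : ℓ.Prime)
    (h : Nat.Coprime N ℓ) :
    ∃ w : ↥(modularFunctionFieldBar (N * ℓ)) ≃ₐ[AlgebraicClosure ℚ]
        ↥(modularFunctionFieldBar (N * ℓ)),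
      (∀ f, w (heckeAlphaBar (AlgebraicClosure ℚ) N ℓ f) =
        heckeBetaBar (AlgebraicClosure ℚ) N ℓ f) ∧
      (∀ f, w (heckeBetaBar (AlgebraicClosure ℚ) N ℓ f) =
        heckeAlphaBar (AlgebraicClosure ℚ) N ℓ f) ∧
      ∀ x, w (w x) = x := by
  obtain ⟨w, hα, hβ⟩ := exists_atkinLehner N ℓ h
  refine ⟨w, hα, hβ, ?_⟩
  have h3 : (w : ↥(modularFunctionFieldBar (N * ℓ)) →+* ↥(modularFunctionFieldBar (N * ℓ))).comp
      (w : ↥(modularFunctionFieldBar (N * ℓ)) →+* ↥(modularFunctionFieldBar (N * ℓ))) =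
        RingHom.id _ := by
    refine FFBridge.ringHom_ext (N * ℓ) _ _ (fun c => ?_) (fun e _ he => ?_)
    · show w (w (algebraMap _ _ c)) = algebraMap _ _ c
      rw [AlgEquiv.commutes, AlgEquiv.commutes]
    · show w (w ⟨FFBridge.gen e, FFBridge.gen_mem he⟩) = ⟨FFBridge.gen e, FFBridge.gen_mem he⟩
      obtain ⟨d, m, hd, hm, rfl⟩ := Nat.dvd_mul.mp he
      have hd0 : d ≠ 0 := fun h0 => NeZero.ne N (by rw [h0] at hd; exact zero_dvd_iff.mp hd)
      have : NeZero d := ⟨hd0⟩
      have : NeZero (ℓ * d) := ⟨Nat.mul_ne_zero (NeZero.ne ℓ) hd0⟩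
      rcases (Nat.dvd_prime hℓ).mp hm with hm1 | hmℓ
      · -- `e = d`
        have e1 : (⟨FFBridge.gen (d * m), FFBridge.gen_mem he⟩ :
            ↥(modularFunctionFieldBar (N * ℓ))) =
            heckeAlphaBar (AlgebraicClosure ℚ) N ℓ ⟨FFBridge.gen d, FFBridge.gen_mem hd⟩ := by
          rw [alpha_gen N ℓ hd]
          apply Subtype.ext
          show FFBridge.gen (d * m) = FFBridge.gen d
          exact gen_congr (by rw [hm1, mul_one])
        rw [e1, hα, hβ]
      · -- `e = d ℓ`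
        have e1 : (⟨FFBridge.gen (d * m), FFBridge.gen_mem he⟩ :
            ↥(modularFunctionFieldBar (N * ℓ))) =
            heckeBetaBar (AlgebraicClosure ℚ) N ℓ ⟨FFBridge.gen d, FFBridge.gen_mem hd⟩ := by
          rw [beta_gen N ℓ hd]
          apply Subtype.ext
          show FFBridge.gen (d * m) = FFBridge.gen (ℓ * d)
          exact gen_congr (by rw [hmℓ, mul_comm])
        rw [e1, hβ, hα]
  intro x
  exact congrArg (fun φ : _ →+* _ => φ x) h3

end Fermat.Agent.S34.ALInvol
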