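/-
P6 / S34 [POLE-DEG] (helper34): the degree of the pole divisor of `j_q = j(T^q)` on `F_N`,
`N = N' * q`, `q` prime, `q ∤ N'`, and the swap symmetry `j ↔ j_q` on places.

The Atkin–Lehner involution `w` of `F_{N' q}` (`S34/ALInvol`) exchanges `j` and `j_q`, so
`[F_N : Q̄(j_q)] = [F_N : Q̄(j)] = ψ(N)` and `Lib.FFPoles.degree_poleDivisor` at the chart `j_q`
gives `deg (j_q)_∞ = ψ(N)` (third conjunct of `Plan.PoleStmt`).  The same `w` acts on the places
and swaps the orders of `j` and `j_q`, so the two pole inequalities of `Plan.PoleStmt` follow from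
ONE of them (`poleStmt_of_half`).
-/
import Mathlib
import Fermat.Agent.S34.Plan
import Fermat.Agent.S34.ALInvol
import Fermat.Agent.S18.Char0
import Fermat.Agent.Lib.FFPoles

set_option autoImplicit false

noncomputable section

namespace Fermat.Agent.S34.PoleDeg

open AlgebraicCurve IntermediateField ModularCurve Fermat.Agent.S24 Fermat.Agent
  Fermat.Agent.Lib

/-! ### Generic: finrank over the image of an intermediate field under an automorphism -/

section Generic

variable {K F : Type*} [Field K] [Field F] [Algebra K F]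

/-- An automorphism `w` of `F / K` preserves the degree of `F` over an intermediate field. -/
theorem finrank_map_algEquiv (w : F ≃ₐ[K] F) (E : IntermediateField K F) :
    Module.finrank (E.map (w : F →ₐ[K] F)) F = Module.finrank E F := by
  refine (Algebra.finrank_eq_of_equiv_equiv
    (E.equivMap (w : F →ₐ[K] F)).toRingEquiv w.toRingEquiv ?_).symm
  ext x
  rfl

/-- `[F : K(w x)] = [F : K(x)]` for an automorphism `w` of `F / K`. -/
theorem finrank_adjoin_algEquiv (w : F ≃ₐ[K] F) (x : F) :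
    Module.finrank K⟮w x⟯ F = Module.finrank K⟮x⟯ F := by
  have h := finrank_map_algEquiv w K⟮x⟯
  rw [IntermediateField.adjoin_map, Set.image_singleton] at h
  exact h

theorem transcendental_algEquiv (w : F ≃ₐ[K] F) {x : F} (hx : Transcendental K x) :
    Transcendental K (w x) := fun h =>
  hx ((isAlgebraic_algHom_iff (w : F →ₐ[K] F) w.injective).1 h)

end Generic

/-! ### The swap at level `N' * q` -/

section Swap

variable (N' q : ℕ) [NeZero N'] [NeZero q]

/-- **The swap.** For a prime `q ∤ N'` there is an involution `w` of `F_{N' q}` over `Q̄`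
exchanging `j` and `j_q = j(T^q)`. -/
theorem exists_jswap (hq : q.Prime) (h : Nat.Coprime N' q) :
    ∃ w : FN (N' * q) ≃ₐ[Kbar] FN (N' * q),
      w (jBar (N' * q)) = jBarLevel (N' * q) q (Dvd.intro_left N' rfl) ∧
      w (jBarLevel (N' * q) q (Dvd.intro_left N' rfl)) = jBar (N' * q) ∧
      ∀ x, w (w x) = x := by
  obtain ⟨w, hα, hβ, hinv⟩ := ALInvol.exists_atkinLehner_invol N' q hq h
  have e1 : heckeAlphaBar Kbar N' q ⟨FFBridge.gen 1, FFBridge.gen_mem (one_dvd N')⟩ =
      jBar (N' * q) := by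
    rw [S37.Kron.AtkinLehner.alpha_gen N' q (one_dvd N')]
    apply Subtype.ext
    show FFBridge.gen 1 = coeffEmb Kbar jq
    rw [FFBridge.gen, qExpand_one_apply]
  have e2 : heckeBetaBar Kbar N' q ⟨FFBridge.gen 1, FFBridge.gen_mem (one_dvd N')⟩ =
      jBarLevel (N' * q) q (Dvd.intro_left N' rfl) := by
    rw [S37.Kron.AtkinLehner.beta_gen N' q (one_dvd N')]
    apply Subtype.ext
    show FFBridge.gen (q * 1) = FFBridge.gen q
    exact ALInvol.gen_congr (mul_one q)
  have h1 : w (jBar (N' * q)) = jBarLevel (N' * q) q (Dvd.intro_left N' rfl) := by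
    rw [← e1, hα, e2]
  refine ⟨w, h1, ?_, hinv⟩
  rw [← h1, hinv]

end Swap

/-! ### Level `N` with `Plan.Levels` -/

section Levels

variable {q N' N M : ℕ} [NeZero N] [NeZero q]

/-- The swap at level `N = N' * q` in the vocabulary of `Plan`. -/
theorem exists_jswap_levels (h : Plan.Levels q N' N M) (hqN : q ∣ N) :
    ∃ w : FN N ≃ₐ[Kbar] FN N,
      w (jBar N) = jBarLevel N q hqN ∧ w (jBarLevel N q hqN) = jBar N ∧ ∀ x, w (w x) = x := by
  have hN := h.N_eq
  subst hN
  have : NeZero N' := ⟨h.N'_pos.ne'⟩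
  exact exists_jswap N' q h.prime ((Nat.Prime.coprime_iff_not_dvd h.prime).2 h.not_dvd).symm

theorem transcendental_jBarLevel (h : Plan.Levels q N' N M) (hqN : q ∣ N) :
    Transcendental Kbar (jBarLevel N q hqN) := by
  obtain ⟨w, h1, -, -⟩ := exists_jswap_levels h hqN
  rw [← h1]
  exact transcendental_algEquiv w (S18.FibreCount.transcendental_jBar N)

/-- `[F_N : Q̄(j_q)] = ψ(N)`. -/
theorem finrank_adjoin_jBarLevel (h : Plan.Levels q N' N M) (hqN : q ∣ N) :
    Module.finrank Kbar⟮jBarLevel N q hqN⟯ (FN N) = dedekindPsi N := by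
  obtain ⟨w, h1, -, -⟩ := exists_jswap_levels h hqN
  rw [← h1, finrank_adjoin_algEquiv, S18.FibreCount.finrank_eq]

theorem finiteDimensional_jBarLevel (h : Plan.Levels q N' N M) (hqN : q ∣ N) :
    FiniteDimensional Kbar⟮jBarLevel N q hqN⟯ (FN N) := by
  have := S18.FibreCount.finiteDimensional N
  have hpos : 0 < Module.finrank Kbar⟮jBar N⟯ (FN N) := Module.finrank_pos
  apply Module.finite_of_finrank_pos
  rw [finrank_adjoin_jBarLevel h hqN, ← S18.FibreCount.finrank_eq N]
  exact hpos

theorem isSeparable_jBarLevel (h : Plan.Levels q N' N M) (hqN : q ∣ N) :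
    Algebra.IsSeparable Kbar⟮jBarLevel N q hqN⟯ (FN N) := by
  have := finiteDimensional_jBarLevel h hqN
  have : CharZero Kbar⟮jBarLevel N q hqN⟯ :=
    charZero_of_injective_algebraMap (algebraMap Kbar Kbar⟮jBarLevel N q hqN⟯).injective
  have : Algebra.IsAlgebraic Kbar⟮jBarLevel N q hqN⟯ (FN N) := Algebra.IsAlgebraic.of_finite _ _
  exact Algebra.IsAlgebraic.isSeparable_of_perfectField

/-- The pole divisor of `j_q` exists. -/
theorem exists_poleJq (h : Plan.Levels q N' N M) (hqN : q ∣ N) :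
    ∃ Cq : Divisor Kbar (FN N), Plan.IsPoleJq N q hqN Cq := by
  have := finiteDimensional_jBarLevel h hqN
  have := isSeparable_jBarLevel h hqN
  exact Lib.FFPoles.exists_poleDivisor (transcendental_jBarLevel h hqN)

/-- The pole divisor of `j` exists. -/
theorem exists_poleJ (N : ℕ) [NeZero N] : ∃ Cj : Divisor Kbar (FN N), Plan.IsPoleJ N Cj := by
  obtain ⟨C, hC, -⟩ := S18.Char0.exists_poleDivisor_jBar N
  exact ⟨C, hC⟩

/-- **[POLE], third conjunct.** `deg (j_q)_∞ = ψ(N)`. -/
theorem degree_poleJq (h : Plan.Levels q N' N M) (hqN : q ∣ N) (Cq : Divisor Kbar (FN N))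
    (hCq : Plan.IsPoleJq N q hqN Cq) : Divisor.degree Cq = (dedekindPsi N : ℤ) := by
  have := finiteDimensional_jBarLevel h hqN
  have := isSeparable_jBarLevel h hqN
  rw [Lib.FFPoles.degree_poleDivisor (transcendental_jBarLevel h hqN) Cq hCq,
    finrank_adjoin_jBarLevel h hqN]

/-- `deg (j)_∞ = ψ(N)` for any divisor satisfying `Plan.IsPoleJ`. -/
theorem degree_poleJ (N : ℕ) [NeZero N] (Cj : Divisor Kbar (FN N)) (hCj : Plan.IsPoleJ N Cj) :
    Divisor.degree Cj = (dedekindPsi N : ℤ) := by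
  have := S18.FibreCount.finiteDimensional N
  have := S18.Char0.isSeparable_jBar N
  rw [Lib.FFPoles.degree_poleDivisor (S18.FibreCount.transcendental_jBar N) Cj hCj,
    S18.FibreCount.finrank_eq]

/-- A divisor `E = (j)_∞ + (j_q)_∞` exists. -/
theorem exists_isE (h : Plan.Levels q N' N M) (hqN : q ∣ N) :
    ∃ E : Divisor Kbar (FN N), Plan.IsE N q hqN E := by
  obtain ⟨Cj, hCj⟩ := exists_poleJ N
  obtain ⟨Cq, hCq⟩ := exists_poleJq h hqN
  refine ⟨Cj + Cq, fun P => ?_⟩
  rw [Finsupp.add_apply, hCj P, hCq P]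

/-- `E = Cj + Cq`. -/
theorem isE_eq_add (hqN : q ∣ N) {E Cj Cq : Divisor Kbar (FN N)} (hE : Plan.IsE N q hqN E)
    (hCj : Plan.IsPoleJ N Cj) (hCq : Plan.IsPoleJq N q hqN Cq) : E = Cj + Cq := by
  ext P
  rw [Finsupp.add_apply, hCj P, hCq P, hE P]

/-- `deg E = 2 ψ(N)`. -/
theorem degree_isE (h : Plan.Levels q N' N M) (hqN : q ∣ N) (E : Divisor Kbar (FN N))
    (hE : Plan.IsE N q hqN E) : Divisor.degree E = 2 * (dedekindPsi N : ℤ) := by
  obtain ⟨Cj, hCj⟩ := exists_poleJ N
  obtain ⟨Cq, hCq⟩ := exists_poleJq h hqN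
  rw [isE_eq_add hqN hE hCj hCq, map_add, degree_poleJ N Cj hCj, degree_poleJq h hqN Cq hCq]
  ring

/-- **Place swap.** Every place `P` of `F_N` has a partner `P'` with the orders of `j` and `j_q`
exchanged. -/
theorem exists_place_swap (h : Plan.Levels q N' N M) (hqN : q ∣ N) (P : Place Kbar (FN N)) :
    ∃ P' : Place Kbar (FN N), P'.ord (jBar N) = P.ord (jBarLevel N q hqN) ∧
      P'.ord (jBarLevel N q hqN) = P.ord (jBar N) := by
  obtain ⟨w, h1, h2, -⟩ := exists_jswap_levels h hqN
  refine ⟨w • P, ?_, ?_⟩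
  · have := Place.ord_smul w P (jBarLevel N q hqN)
    rwa [h2] at this
  · have := Place.ord_smul w P (jBar N)
    rwa [h1] at this

/-- The mirrored half of the crude pole bound follows from the first half by the swap. -/
theorem half_swap (h : Plan.Levels q N' N M) (hqN : q ∣ N)
    (hhalf : ∀ P : Place Kbar (FN N),
      (q : ℤ) * min 0 (P.ord (jBar N)) ≤ P.ord (jBarLevel N q hqN))
    (P : Place Kbar (FN N)) :
    (q : ℤ) * min 0 (P.ord (jBarLevel N q hqN)) ≤ P.ord (jBar N) := by
  obtain ⟨P', e1, e2⟩ := exists_place_swap h hqN P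
  have := hhalf P'
  rwa [e1, e2] at this

/-- **[POLE] from one half.** `Plan.PoleStmt N q hqN` from the first half of the crude pole
bound in place form: `q · min(0, ord_P j) ≤ ord_P j_q` at every place of `F_N`. -/
theorem poleStmt_of_half (h : Plan.Levels q N' N M) (hqN : q ∣ N)
    (hhalf : ∀ P : Place Kbar (FN N),
      (q : ℤ) * min 0 (P.ord (jBar N)) ≤ P.ord (jBarLevel N q hqN)) :
    Plan.PoleStmt N q hqN := by
  intro Cj Cq hCj hCq
  have hq0 : (0 : ℤ) ≤ (q : ℤ) := Int.natCast_nonneg q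
  refine ⟨fun P => ?_, fun P => ?_, degree_poleJq h hqN Cq hCq⟩
  · rw [hCj P, hCq P]
    have h1 := hhalf P
    rcases le_total 0 (P.ord (jBar N)) with h0 | h0
    · rw [min_eq_left h0, mul_zero] at h1
      rw [max_eq_left (by omega), max_eq_left (by omega)]
      simp
    · rw [min_eq_right h0] at h1
      rw [max_eq_right (a := (0 : ℤ)) (b := -(P.ord (jBar N))) (by omega)]
      have h2 : (0 : ℤ) ≤ (q : ℤ) * -(P.ord (jBar N)) := mul_nonneg hq0 (by omega)
      have h3 : (q : ℤ) * -(P.ord (jBar N)) = -((q : ℤ) * P.ord (jBar N)) := by ring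
      exact max_le h2 (by rw [h3]; omega)
  · rw [hCj P, hCq P]
    have h1 := half_swap h hqN hhalf P
    rcases le_total 0 (P.ord (jBarLevel N q hqN)) with h0 | h0
    · rw [min_eq_left h0, mul_zero] at h1
      rw [max_eq_left (by omega), max_eq_left (by omega)]
      simp
    · rw [min_eq_right h0] at h1
      rw [max_eq_right (a := (0 : ℤ)) (b := -(P.ord (jBarLevel N q hqN))) (by omega)]
      have h2 : (0 : ℤ) ≤ (q : ℤ) * -(P.ord (jBarLevel N q hqN)) := mul_nonneg hq0 (by omega)
      have h3 : (q : ℤ) * -(P.ord (jBarLevel N q hqN)) =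
          -((q : ℤ) * P.ord (jBarLevel N q hqN)) := by ring
      exact max_le h2 (by rw [h3]; omega)

end Levels

end Fermat.Agent.S34.PoleDeg

end
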