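/-
P6 / S34 leaf (I2) [POLE] (helper94): the crude pole bound `(j_q)_∞ ≤ q (j)_∞`,
`(j)_∞ ≤ q (j_q)_∞`, and the contract `Plan.PoleStmt`.

* `exists_kronecker_poly n` : `j(u^n)` is a root of `χ(j)(X)` for a monic `χ ∈ Q̄[Y][X]` of degree
  `ψ(n)` whose coefficients satisfy `deg χ_m ≤ n (ψ(n) - m)` and `n deg χ_m + m ≤ n deg χ_0`
  (from the orders of the conjugates `j(ζ^{ab} u^{a²})` of `S18/CuspEmb`, `Lib/CuspConjPoly`);
* `isIntegral_jq`, `isIntegral_jq_inf` : `j(u^n)` is integral over `Q̄[j]` and `j⁻ⁿ j(u^n)` is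
  integral over `O_∞`;
* `ord_ge_of_root` : the generic valuation argument at a place;
* `ord_jBarLevel_ge`, `ord_jBar_ge`, `ord_neg_iff`, `ord_z_ge`, `ord_x_ge` : place forms in `F_N`;
* `poleStmt : Plan.Levels q N' N M → Plan.PoleStmt N q hqN` (with `S34/PoleDeg`, helper34).
-/
import Mathlib
import Fermat.Agent.S18.CuspEmb.Roots
import Fermat.Agent.S18.RRl.WJPlace
import Fermat.Agent.S18.WJCalc
import Fermat.Agent.S34.Plan
import Fermat.Agent.S34.PoleDeg

set_option autoImplicit false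

noncomputable section

namespace Fermat.Agent.S34.PoleBound

open ModularCurve AlgebraicCurve Polynomial WithZero
open scoped MatrixGroups
open CongruenceSubgroup
open Fermat.Agent.S24 Fermat.Agent.S18.Plan Fermat.Agent.S18.CuspEmb
open Fermat.Agent.Lib.CuspConjPoly Fermat.Agent.Lib.CuspIntJ Fermat.Agent.Lib.DeltaExpand
open Fermat.Agent.S28.CruxMain

/-! ## Valuations of the coefficients of `∏ (X - r i)` -/

/-- If `v (r i) ≤ c i` and `κ ≤ c i` for all `i ∈ s`, then the coefficient of `X^m` of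
`∏_{i ∈ s} (X - r i)` has valuation at most `(∏ c i) / κ^m`. -/
theorem valuation_coeff_prod_le {R Γ₀ ι : Type*} [CommRing R]
    [LinearOrderedCommGroupWithZero Γ₀] (v : Valuation R Γ₀) (s : Finset ι) (r : ι → R)
    (c : ι → Γ₀) (κ : Γ₀) (hr : ∀ i ∈ s, v (r i) ≤ c i) (hκ : ∀ i ∈ s, κ ≤ c i) :
    ∀ m : ℕ, v ((∏ i ∈ s, (X - C (r i))).coeff m) * κ ^ m ≤ ∏ i ∈ s, c i := by
  classical
  induction s using Finset.induction_on with
  | empty =>
    intro m
    rw [Finset.prod_empty, Finset.prod_empty, coeff_one]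
    split_ifs with h
    · subst h; simp
    · simp
  | insert a s ha ih =>
    intro m
    have ih' := ih (fun i hi => hr i (Finset.mem_insert_of_mem hi))
      (fun i hi => hκ i (Finset.mem_insert_of_mem hi))
    rw [Finset.prod_insert ha, Finset.prod_insert ha, mul_comm (X - C (r a))]
    have hra := hr a (Finset.mem_insert_self a s)
    have hκa := hκ a (Finset.mem_insert_self a s)
    cases m with
    | zero =>
      rw [mul_coeff_zero, coeff_sub, coeff_X_zero, coeff_C_zero, zero_sub, mul_neg,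
        Valuation.map_neg, map_mul, pow_zero, mul_one]
      have h0 := ih' 0
      rw [pow_zero, mul_one] at h0
      calc v ((∏ i ∈ s, (X - C (r i))).coeff 0) * v (r a) ≤ (∏ i ∈ s, c i) * c a :=
            mul_le_mul' h0 hra
        _ = c a * ∏ i ∈ s, c i := mul_comm _ _
    | succ m =>
      rw [coeff_mul_X_sub_C]
      have h1 : v ((∏ i ∈ s, (X - C (r i))).coeff m) * κ ^ (m + 1) ≤ c a * ∏ i ∈ s, c i := by
        rw [pow_succ, ← mul_assoc, mul_comm (c a)]
        exact mul_le_mul' (ih' m) hκa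
      have h2 : v ((∏ i ∈ s, (X - C (r i))).coeff (m + 1) * r a) * κ ^ (m + 1) ≤
          c a * ∏ i ∈ s, c i := by
        rw [map_mul, mul_right_comm, mul_comm (c a)]
        exact mul_le_mul' (ih' (m + 1)) hra
      have h3 := v.map_sub ((∏ i ∈ s, (X - C (r i))).coeff m)
        ((∏ i ∈ s, (X - C (r i))).coeff (m + 1) * r a)
      rcases max_choice (v ((∏ i ∈ s, (X - C (r i))).coeff m))
        (v ((∏ i ∈ s, (X - C (r i))).coeff (m + 1) * r a)) with h | h
      · rw [h] at h3; exact (mul_le_mul' h3 le_rfl).trans h1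
      · rw [h] at h3; exact (mul_le_mul' h3 le_rfl).trans h2

/-! ## The `u`-adic valuation on Laurent series, by coefficients -/

theorem valuation_le_of_coeff {K : Type*} [Field K] (f : LaurentSeries K) (D : ℤ)
    (h : ∀ m : ℤ, m < -D → f.coeff m = 0) : (Valued.v f : ℤᵐ⁰) ≤ exp D := by
  have := (LaurentSeries.valuation_le_iff_coeff_lt_eq_zero K (D := -D) (f := f)).mpr h
  rwa [neg_neg] at this

theorem exp_le_valuation_of_coeff_ne_zero {K : Type*} [Field K] {f : LaurentSeries K} {d : ℤ}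
    (h : f.coeff d ≠ 0) : exp (-d) ≤ (Valued.v f : ℤᵐ⁰) := by
  have hf : f ≠ 0 := by
    rintro rfl
    exact h (HahnSeries.coeff_zero)
  have hvf : (Valued.v f : ℤᵐ⁰) ≠ 0 := (Valuation.ne_zero_iff _).mpr hf
  rw [← exp_log hvf, exp_le_exp]
  by_contra hcon
  have h2 : (Valued.v f : ℤᵐ⁰) ≤ exp (-(d + 1)) := by
    rw [← exp_log hvf, exp_le_exp]
    omega
  exact h ((LaurentSeries.valuation_le_iff_coeff_lt_eq_zero K).mp h2 d (by omega))

/-! ## A ring homomorphism `ℤ[ζ_n, 1/n] → Q̄` -/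

theorem exists_hom_Kbar (n : ℕ) [NeZero n] : Nonempty (↥(AS n) →+* Kbar) := by
  let L : IntermediateField ℚ ℂ := algebraicClosure ℚ ℂ
  have hle : AS n ≤ L.toSubring := by
    rw [Subring.closure_le]
    rintro x (rfl | hx)
    · show zetaN n ∈ L
      rw [mem_algebraicClosure_iff]
      refine IsIntegral.isAlgebraic ?_
      refine IsIntegral.of_pow (n := n) (Nat.pos_of_ne_zero (NeZero.ne n)) ?_
      rw [zetaN_pow]
      exact isIntegral_one
    · have hx' : x = (n : ℂ)⁻¹ := hx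
      subst hx'
      show ((n : ℂ)⁻¹) ∈ L
      exact inv_mem (natCast_mem L n)
  have hK : IsAlgClosure ℚ Kbar := ⟨inferInstance, AlgebraicClosure.isAlgebraic ℚ⟩
  have hL : IsAlgClosure ℚ ↥L := algebraicClosure.isAlgClosure (F := ℚ) (E := ℂ)
  let e : L ≃ₐ[ℚ] Kbar := IsAlgClosure.equiv ℚ L Kbar
  exact ⟨(e : L →+* Kbar).comp (Subring.inclusion hle)⟩

/-! ## The Kronecker polynomial with its degree bounds -/

/-- `qExpand` commutes with evaluation of polynomials with constant coefficients. -/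
theorem qExpand_aeval (n : ℕ) [NeZero n] (y : Om) (c : Kbar[X]) :
    qExpand Kbar n (aeval y c) = aeval (qExpand Kbar n y) c := by
  rw [aeval_def, aeval_def, hom_eval₂]
  congr 1
  ext a
  simp only [RingHom.comp_apply]
  rw [Fermat.Agent.S18.Content.algebraMap_LS_eq_C, qExpand_C]

/-- **The Kronecker polynomial.**  `j(u^n)` is a root of `χ(j)(X)` for a monic
`χ ∈ Q̄[Y][X]` of degree `ψ(n)` whose coefficients `χ_m ∈ Q̄[Y]` satisfy the crude bound
`deg χ_m ≤ n (ψ(n) - m)` and the refined bound `n deg χ_m + m ≤ n deg χ_0`. -/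
theorem exists_kronecker_poly (n : ℕ) [NeZero n] :
    ∃ χ : Polynomial (Polynomial Kbar), χ.Monic ∧ χ.natDegree = dedekindPsi n ∧
      (∀ m, (χ.coeff m).natDegree ≤ n * (χ.natDegree - m)) ∧
      (∀ m, m ≤ χ.natDegree → n * (χ.coeff m).natDegree + m ≤ n * (χ.coeff 0).natDegree) ∧
      (χ.map ((aeval (jqModC Kbar) : Kbar[X] →ₐ[Kbar] Om) : Kbar[X] →+* Om)).eval
        (qExpand Kbar n (jqModC Kbar)) = 0 := by
  classical
  obtain ⟨φ⟩ := exists_hom_Kbar n
  let _inst : Fintype (SL(2, ℤ) ⧸ Gamma0 n) := Fintype.ofFinite _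
  have hcard : Fintype.card (SL(2, ℤ) ⧸ Gamma0 n) = dedekindPsi n := by
    rw [← Nat.card_eq_fintype_card, Fermat.Agent.Lib.Gamma0Count.card_quotient]
  have hn0 : n ≠ 0 := NeZero.ne n
  have hnpos : (0 : ℤ) < n := by exact_mod_cast Nat.pos_of_ne_zero hn0
  -- the Hermite data of the conjugates
  obtain ⟨b, hb, hbinj, hL⟩ := exists_hermite_data (A := AS n) (N := n)
    (zU n (AS n) (zetaN_mem_AS n)) (zU_coe n (AS n) (zetaN_mem_AS n))
  have hJc : ∀ x, theta n φ x =
      jTw Kbar (zetaK n φ ^ (cuspA n x * b x)) (cuspA n x * cuspA n x) := by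
    intro x
    rw [theta, red_apply, FJ, hL x, coeffMap_jTw, map_pow]
    rfl
  set P : Polynomial Om := ∏ x : SL(2, ℤ) ⧸ Gamma0 n, (X - C (theta n φ x)) with hP
  have hPmonic : P.Monic := monic_prod_of_monic _ _ (fun i _ => monic_X_sub_C _)
  -- the map `c ↦ c(j(u^n))`
  set f : Kbar[X] →+* Om :=
    (qExpand Kbar n).comp ((aeval (jqModC Kbar) : Kbar[X] →ₐ[Kbar] Om) : Kbar[X] →+* Om) with hf
  have hfc : ∀ c : Kbar[X], f c = qExpand Kbar n (aeval (jqModC Kbar) c) := fun c => rfl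
  have hlift : P ∈ lifts f := by
    rw [lifts_iff_coeff_lifts]
    intro m
    have h1 := theta_prod_coeff_mem n φ m
    rw [Algebra.adjoin_singleton_eq_range_aeval] at h1
    obtain ⟨c, hc⟩ := h1
    refine ⟨c, ?_⟩
    rw [hfc, qExpand_aeval]
    exact hc
  obtain ⟨χ, hχmap, hχdeg, hχmonic⟩ := lifts_and_natDegree_eq_and_monic hlift hPmonic
  have hPdeg : P.natDegree = dedekindPsi n := by
    rw [hP, natDegree_prod_of_monic _ _ (fun i _ => monic_X_sub_C _)]
    simp [hcard]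
  have hcoef : ∀ m, f (χ.coeff m) = P.coeff m := by
    intro m
    rw [← hχmap, coeff_map]
  -- valuations of `c(j(u^n))`
  have hv_up : ∀ c : Kbar[X], (Valued.v (f c) : ℤᵐ⁰) ≤ exp ((n : ℤ) * c.natDegree) := by
    intro c
    refine valuation_le_of_coeff _ _ fun k hk => ?_
    rw [hfc]
    by_cases hd : (n : ℤ) ∣ k
    · obtain ⟨k', rfl⟩ := hd
      rw [qExpand_coeff_mul]
      apply Fermat.Agent.S18.RRl.WJPlace.coeff_aeval_jqModC_of_lt
      nlinarith
    · exact qExpand_coeff_of_not_dvd n _ hd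
  have hv_low : ∀ c : Kbar[X], c ≠ 0 → exp ((n : ℤ) * c.natDegree) ≤ (Valued.v (f c) : ℤᵐ⁰) := by
    intro c hc
    have h1 : (f c).coeff ((n : ℤ) * (-(c.natDegree : ℤ))) ≠ 0 := by
      rw [hfc, qExpand_coeff_mul, Fermat.Agent.S18.RRl.WJPlace.coeff_aeval_jqModC_self]
      exact leadingCoeff_ne_zero.mpr hc
    have h2 := exp_le_valuation_of_coeff_ne_zero h1
    rwa [show -((n : ℤ) * (-(c.natDegree : ℤ))) = (n : ℤ) * c.natDegree by ring] at h2
  -- valuations of the conjugates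
  have hθ_up : ∀ x, (Valued.v (theta n φ x) : ℤᵐ⁰) ≤ exp ((n : ℤ) * n) := by
    intro x
    refine valuation_le_of_coeff _ _ fun k hk => ?_
    rw [hJc x]
    apply jTw_coeff_of_lt
    have h1 : cuspA n x ≤ n := Nat.le_of_dvd (Nat.pos_of_ne_zero hn0) (cuspA_dvd n x)
    have h2 : ((cuspA n x * cuspA n x : ℕ) : ℤ) ≤ (n : ℤ) * n := by
      exact_mod_cast Nat.mul_le_mul h1 h1
    omega
  have hθ_low : ∀ x, exp (1 : ℤ) ≤ (Valued.v (theta n φ x) : ℤᵐ⁰) := by
    intro x
    have ha : cuspA n x ≠ 0 := cuspA_ne_zero n x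
    have h1 : (theta n φ x).coeff (-((cuspA n x * cuspA n x : ℕ) : ℤ)) ≠ 0 := by
      rw [hJc x, jTw_coeff_neg _ (mul_ne_zero ha ha)]
      exact Units.ne_zero _
    have h2 := exp_le_valuation_of_coeff_ne_zero h1
    rw [neg_neg] at h2
    refine le_trans ?_ h2
    rw [exp_le_exp]
    have : 1 ≤ cuspA n x * cuspA n x := Nat.one_le_iff_ne_zero.mpr (mul_ne_zero ha ha)
    exact_mod_cast this
  -- the two coefficient bounds
  have hA1 := valuation_coeff_prod_le (Valued.v : Valuation Om ℤᵐ⁰) Finset.univ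
    (fun x => theta n φ x) (fun _ => exp ((n : ℤ) * n)) (exp ((n : ℤ) * n))
    (fun x _ => hθ_up x) (fun _ _ => le_rfl)
  have hA2 := valuation_coeff_prod_le (Valued.v : Valuation Om ℤᵐ⁰) Finset.univ
    (fun x => theta n φ x) (fun x => (Valued.v (theta n φ x) : ℤᵐ⁰)) (exp (1 : ℤ))
    (fun x _ => le_rfl) (fun x _ => hθ_low x)
  have hP0 : (Valued.v (P.coeff 0) : ℤᵐ⁰) = ∏ x, (Valued.v (theta n φ x) : ℤᵐ⁰) := by
    rw [coeff_zero_eq_eval_zero, hP, eval_prod, map_prod]
    refine Finset.prod_congr rfl fun x _ => ?_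
    rw [eval_sub, eval_X, eval_C, zero_sub, Valuation.map_neg]
  refine ⟨χ, hχmonic, hχdeg.trans hPdeg, ?_, ?_, ?_⟩
  · -- crude bound
    intro m
    rcases eq_or_ne (χ.coeff m) 0 with h0 | h0
    · rw [h0, natDegree_zero]; exact Nat.zero_le _
    have h1 := hv_low _ h0
    rw [hcoef m] at h1
    have h2 := hA1 m
    rw [Finset.prod_const, Finset.card_univ, hcard] at h2
    have h3 : exp ((n : ℤ) * (χ.coeff m).natDegree) * exp ((n : ℤ) * n) ^ m ≤
        exp ((n : ℤ) * n) ^ dedekindPsi n := (mul_le_mul' h1 le_rfl).trans h2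
    rw [← exp_nsmul, ← exp_nsmul, ← exp_add, exp_le_exp] at h3
    simp only [nsmul_eq_mul] at h3
    have h4 : ((χ.coeff m).natDegree : ℤ) + (n : ℤ) * m ≤ (n : ℤ) * dedekindPsi n := by
      nlinarith
    have h5 : (χ.coeff m).natDegree + n * m ≤ n * dedekindPsi n := by exact_mod_cast h4
    rw [hχdeg, hPdeg, Nat.mul_sub]
    omega
  · -- refined bound
    have key : ∀ m, χ.coeff m ≠ 0 →
        n * (χ.coeff m).natDegree + m ≤ n * (χ.coeff 0).natDegree := by
      intro m h0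
      have h1 := hv_low _ h0
      rw [hcoef m] at h1
      have h2 := hA2 m
      rw [← hP0, ← hcoef 0] at h2
      have h3 : exp ((n : ℤ) * (χ.coeff m).natDegree) * exp (1 : ℤ) ^ m ≤
          exp ((n : ℤ) * (χ.coeff 0).natDegree) :=
        ((mul_le_mul' h1 le_rfl).trans h2).trans (hv_up _)
      rw [← exp_nsmul, ← exp_add, exp_le_exp] at h3
      simp only [nsmul_eq_mul, mul_one] at h3
      exact_mod_cast h3
    intro m hm
    rcases eq_or_ne (χ.coeff m) 0 with h0 | h0
    · rw [h0, natDegree_zero, mul_zero, zero_add]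
      have h1 := key χ.natDegree (by rw [coeff_natDegree, hχmonic.leadingCoeff]; exact one_ne_zero)
      rw [coeff_natDegree, hχmonic.leadingCoeff, natDegree_one, mul_zero, zero_add] at h1
      exact hm.trans h1
    · exact key m h0
  · -- the root
    have hroot : P.eval (theta n φ (QuotientGroup.mk 1 : SL(2, ℤ) ⧸ Gamma0 n)) = 0 := by
      rw [hP, eval_prod]
      refine Finset.prod_eq_zero (Finset.mem_univ (QuotientGroup.mk 1 : SL(2, ℤ) ⧸ Gamma0 n)) ?_
      simp
    rw [theta_one, ← qExpand_qExpand, ← hχmap, hf, ← Polynomial.map_map, eval_map,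
      eval₂_at_apply] at hroot
    exact (map_eq_zero_iff _ (qExpand_injective n)).mp hroot

/-! ## Generic consequences of a Kronecker-type equation -/

section Generic

variable {K F : Type*} [Field K] [Field F] [Algebra K F]

/-- Polynomials with constant coefficients in an element of a subring containing the constants
lie in the subring. -/
theorem aeval_mem_subring (S : Subring F) (hK : ∀ c : K, algebraMap K F c ∈ S) {a : F}
    (ha : a ∈ S) (c : K[X]) : aeval a c ∈ S := by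
  rw [aeval_eq_sum_range]
  refine Subring.sum_mem _ fun i _ => ?_
  rw [Algebra.smul_def]
  exact S.mul_mem (hK _) (S.pow_mem ha i)

/-- `c(a) a^{-e}` lies in a subring containing the constants and `a⁻¹`, if `deg c ≤ e`. -/
theorem aeval_mul_inv_pow_mem (S : Subring F) (hK : ∀ c : K, algebraMap K F c ∈ S) {a : F}
    (ha0 : a ≠ 0) (ha : a⁻¹ ∈ S) (c : K[X]) (e : ℕ) (hc : c.natDegree ≤ e) :
    aeval a c * a⁻¹ ^ e ∈ S := by
  rw [aeval_eq_sum_range, Finset.sum_mul]
  refine Subring.sum_mem _ fun i hi => ?_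
  have hie : i ≤ e := (Nat.lt_succ_iff.mp (Finset.mem_range.mp hi)).trans hc
  have e1 : a ^ i * a⁻¹ ^ e = a⁻¹ ^ (e - i) := by
    conv_lhs => rw [← Nat.add_sub_cancel' hie, pow_add, ← mul_assoc, ← mul_pow,
      mul_inv_cancel₀ ha0, one_pow, one_mul]
  rw [Algebra.smul_def, mul_assoc, e1]
  exact S.mul_mem (hK _) (S.pow_mem ha _)

/-- A monic polynomial over `F` with coefficients in the subring `S` makes its roots integral
over `S`. -/
theorem isIntegral_of_coeff_mem (S : Subring F) (p : F[X]) (hp : p.Monic)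
    (hcoef : ∀ m, p.coeff m ∈ S) {x : F} (hx : p.eval x = 0) : IsIntegral S x := by
  have hsub : (↑p.coeffs : Set F) ⊆ S := by
    intro y hy
    obtain ⟨m, -, rfl⟩ := mem_coeffs_iff.mp hy
    exact hcoef m
  refine ⟨p.toSubring S hsub, (monic_toSubring p S hsub).mpr hp, ?_⟩
  have h1 : (p.toSubring S hsub).map (algebraMap S F) = p := map_toSubring p S hsub
  rw [← eval_map, h1]
  exact hx

/-- If `b` is a root of `χ(a)(X)`, `χ ∈ K[Y][X]` monic, and `a ∈ S`, then `b` is integral over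
`S`. -/
theorem isIntegral_of_root (χ : Polynomial (Polynomial K)) (hχ : χ.Monic) (a b : F)
    (h : (χ.map ((aeval a : K[X] →ₐ[K] F) : K[X] →+* F)).eval b = 0)
    (S : Subring F) (hK : ∀ c : K, algebraMap K F c ∈ S) (haS : a ∈ S) : IsIntegral S b := by
  refine isIntegral_of_coeff_mem S _ (hχ.map _) (fun m => ?_) h
  rw [coeff_map]
  exact aeval_mem_subring S hK haS _

/-- If `b` is a root of `χ(a)(X)`, `χ ∈ K[Y][X]` monic with `deg χ_m ≤ d (deg χ - m)`, and
`a⁻¹ ∈ S`, then `a^{-d} b` is integral over `S`. -/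
theorem isIntegral_scaled (χ : Polynomial (Polynomial K)) (hχ : χ.Monic) (d : ℕ)
    (hdeg : ∀ m, (χ.coeff m).natDegree ≤ d * (χ.natDegree - m)) (a b : F) (ha : a ≠ 0)
    (h : (χ.map ((aeval a : K[X] →ₐ[K] F) : K[X] →+* F)).eval b = 0)
    (S : Subring F) (hK : ∀ c : K, algebraMap K F c ∈ S) (haS : a⁻¹ ∈ S) :
    IsIntegral S (a⁻¹ ^ d * b) := by
  set p := χ.map ((aeval a : K[X] →ₐ[K] F) : K[X] →+* F) with hp
  have hpm : p.Monic := hχ.map _
  have hpdeg : p.natDegree = χ.natDegree := hχ.natDegree_map _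
  refine isIntegral_of_coeff_mem S (scaleRoots p (a⁻¹ ^ d)) ((monic_scaleRoots_iff _).mpr hpm)
    (fun m => ?_) ?_
  · rw [coeff_scaleRoots, hpdeg, hp, coeff_map, ← pow_mul]
    exact aeval_mul_inv_pow_mem S hK ha haS _ _ (hdeg m)
  · have h1 := scaleRoots_eval₂_eq_zero (RingHom.id F) (p := p) (r := b) (s := a⁻¹ ^ d)
      (by rw [eval₂_id]; exact h)
    rwa [eval₂_id, RingHom.id_apply] at h1

/-- **Pole bound at a place.**  If `b` is a root of `χ(a)(X)`, `χ ∈ K[Y][X]` monic with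
`deg χ_m ≤ d (deg χ - m)`, then `ord_P b ≥ d · min(0, ord_P a)` at every place `P`. -/
theorem ord_ge_of_root (χ : Polynomial (Polynomial K)) (hχ : χ.Monic) (d : ℕ)
    (hdeg : ∀ m, (χ.coeff m).natDegree ≤ d * (χ.natDegree - m)) (a b : F)
    (h : (χ.map ((aeval a : K[X] →ₐ[K] F) : K[X] →+* F)).eval b = 0) (P : Place K F) :
    (d : ℤ) * min 0 (P.ord a) ≤ P.ord b := by
  have hclosed : ∀ x : F, IsIntegral P.toValuationSubring.toSubring x →
      x ∈ P.toValuationSubring := by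
    intro x hx
    have hx' : IsIntegral P.toValuationSubring x := hx
    obtain ⟨z, hz⟩ := IsIntegrallyClosed.isIntegral_iff.mp hx'
    rw [← hz]
    exact z.2
  by_cases hneg : P.ord a < 0
  · have ha0 : a ≠ 0 := by
      rintro rfl
      simp at hneg
    have hainv : a⁻¹ ∈ P.toValuationSubring.toSubring := by
      apply Fermat.Agent.Lib.RRCoord.mem_of_ord_nonneg
      rw [P.ord_inv]
      omega
    have h1 := hclosed _ (isIntegral_scaled χ hχ d hdeg a b ha0 h P.toValuationSubring.toSubring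
      P.algebraMap_mem' hainv)
    have h2 := Fermat.Agent.Lib.RRCoord.ord_nonneg_of_mem P h1
    rw [min_eq_right hneg.le]
    rcases eq_or_ne b 0 with rfl | hb0
    · rw [P.ord_zero]
      exact mul_nonpos_of_nonneg_of_nonpos (Nat.cast_nonneg d) hneg.le
    · rw [P.ord_mul (pow_ne_zero d (inv_ne_zero ha0)) hb0, ← zpow_natCast, P.ord_zpow,
        P.ord_inv] at h2
      linarith
  · rw [not_lt] at hneg
    rw [min_eq_left hneg, mul_zero]
    have haS : a ∈ P.toValuationSubring.toSubring :=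
      Fermat.Agent.Lib.RRCoord.mem_of_ord_nonneg P hneg
    exact Fermat.Agent.Lib.RRCoord.ord_nonneg_of_mem P
      (hclosed _ (isIntegral_of_root χ hχ a b h P.toValuationSubring.toSubring
        P.algebraMap_mem' haS))

/-- Algebra homomorphisms commute with evaluation of `χ(a)(X)` at `b`. -/
theorem map_eval_aeval {F' : Type*} [Field F'] [Algebra K F'] (w : F →ₐ[K] F')
    (χ : Polynomial (Polynomial K)) (a b : F) :
    w ((χ.map ((aeval a : K[X] →ₐ[K] F) : K[X] →+* F)).eval b) =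
      (χ.map ((aeval (w a) : K[X] →ₐ[K] F') : K[X] →+* F')).eval (w b) := by
  have e : (w : F →+* F').comp ((aeval a : K[X] →ₐ[K] F) : K[X] →+* F) =
      ((aeval (w a) : K[X] →ₐ[K] F') : K[X] →+* F') := by
    ext c
    · simp
    · simp
  rw [← e, ← Polynomial.map_map]
  exact ((eval_map _ _).trans (eval₂_at_apply (w : F →+* F') b)).symm

/-- `ord_P (x - y) ≥ m` if `ord_P x ≥ m`, `ord_P y ≥ m` and `m ≤ 0` (the last because of the
convention `ord_P 0 = 0`). -/
theorem le_ord_sub (P : Place K F) {x y : F} {m : ℤ} (hm : m ≤ 0) (hx : m ≤ P.ord x)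
    (hy : m ≤ P.ord y) : m ≤ P.ord (x - y) := by
  rcases eq_or_ne (x - y) 0 with h0 | h0
  · rw [h0, P.ord_zero]
    exact hm
  rcases eq_or_ne x 0 with rfl | hx0
  · have e : P.ord (0 - y) = P.ord y := by
      simp only [Place.ord, zero_sub, Valuation.map_neg]
    rw [e]
    exact hy
  rcases eq_or_ne y 0 with rfl | hy0
  · rw [sub_zero]
    exact hx
  have h1 := P.adicValuation.map_sub x y
  have hvx := P.adicValuation_ne_zero hx0
  have hvy := P.adicValuation_ne_zero hy0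
  have hv0 := P.adicValuation_ne_zero h0
  simp only [Place.ord] at hx hy ⊢
  rcases max_choice (P.adicValuation x) (P.adicValuation y) with h | h
  · rw [h] at h1
    have := (WithZero.log_le_log hv0 hvx).mpr h1
    omega
  · rw [h] at h1
    have := (WithZero.log_le_log hv0 hvy).mpr h1
    omega

theorem ord_pow' (P : Place K F) (a : F) (m : ℕ) : P.ord (a ^ m) = m * P.ord a := by
  rw [← zpow_natCast, P.ord_zpow]

end Generic

/-! ## (P1a), (P1b): integrality of `j(u^n)` in `Q̄((u))` -/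

/-- Constants lie in `O_∞`. -/
theorem algebraMap_mem_OinfJ (c : Kbar) : algebraMap Kbar Om c ∈ OinfJ Kbar := by
  refine ⟨(IntermediateField.adjoin Kbar {jqModC Kbar}).algebraMap_mem c, ?_⟩
  refine ⟨PowerSeries.C c, ?_⟩
  rw [Fermat.Agent.S18.Content.algebraMap_LS_eq_C]
  simp

/-- **(P1a)** `j(u^n)` is integral over `Q̄[j]`. -/
theorem isIntegral_jq (n : ℕ) [NeZero n] :
    IsIntegral (polyJ Kbar) (qExpand Kbar n (jqModC Kbar)) := by
  obtain ⟨χ, hχ, -, -, -, hroot⟩ := exists_kronecker_poly n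
  have hj : jqModC Kbar ∈ polyJ Kbar := Algebra.subset_adjoin (Set.mem_singleton _)
  refine ⟨χ.map ((aeval (⟨jqModC Kbar, hj⟩ : polyJ Kbar) : Kbar[X] →ₐ[Kbar] polyJ Kbar) :
    Kbar[X] →+* polyJ Kbar), hχ.map _, ?_⟩
  rw [← eval_map, Polynomial.map_map]
  have e : (algebraMap (polyJ Kbar) Om).comp
      ((aeval (⟨jqModC Kbar, hj⟩ : polyJ Kbar) : Kbar[X] →ₐ[Kbar] polyJ Kbar) :
        Kbar[X] →+* polyJ Kbar) =
      ((aeval (jqModC Kbar) : Kbar[X] →ₐ[Kbar] Om) : Kbar[X] →+* Om) := by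
    ext c
    · simp
    · simp
  rw [e]
  exact hroot

/-- **(P1b)** `j⁻ⁿ · j(u^n)` is integral over `O_∞ = Q̄(j) ∩ Q̄[[u]]`. -/
theorem isIntegral_jq_inf (n : ℕ) [NeZero n] :
    IsIntegral (OinfJ Kbar) ((jqModC Kbar)⁻¹ ^ n * qExpand Kbar n (jqModC Kbar)) := by
  obtain ⟨χ, hχ, -, hdeg, -, hroot⟩ := exists_kronecker_poly n
  exact isIntegral_scaled χ hχ n hdeg _ _ Fermat.Agent.S18.WJCalc.j_ne_zero hroot (OinfJ Kbar)
    algebraMap_mem_OinfJ Fermat.Agent.S18.WJCalc.inv_j_mem_OinfJ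

/-! ## The pole bound at the places of `F_N`, `q ∣ N` -/

section Level

variable (N q : ℕ) [NeZero N] [NeZero q] (hqN : q ∣ N)

theorem coe_jBar' : ((jBar N : FN N) : Om) = jqModC Kbar := by
  show coeffEmb Kbar jq = jqModC Kbar
  exact coeffMap_jqModC (R := ℚ) (algebraMap ℚ Kbar)

theorem coe_jBarLevel' :
    ((jBarLevel N q hqN : FN N) : Om) = qExpand Kbar q (jqModC Kbar) := by
  show coeffEmb Kbar (qExpand ℚ q jq) = qExpand Kbar q (jqModC Kbar)
  rw [coeffEmb, coeffMap_qExpand, ← jqModC_rat, coeffMap_jqModC]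

/-- **The Kronecker polynomial in `F_N`** (`q ∣ N`): `j_q = j(T^q)` is a root of `χ(j)(X)`. -/
theorem exists_kronecker_poly_level :
    ∃ χ : Polynomial (Polynomial Kbar), χ.Monic ∧ χ.natDegree = dedekindPsi q ∧
      (∀ m, (χ.coeff m).natDegree ≤ q * (χ.natDegree - m)) ∧
      (∀ m, m ≤ χ.natDegree → q * (χ.coeff m).natDegree + m ≤ q * (χ.coeff 0).natDegree) ∧
      (χ.map ((aeval (jBar N) : Kbar[X] →ₐ[Kbar] FN N) :
        Kbar[X] →+* FN N)).eval (jBarLevel N q hqN) = 0 := by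
  obtain ⟨χ, hχ, hdeg, hcr, href, hroot⟩ := exists_kronecker_poly q
  refine ⟨χ, hχ, hdeg, hcr, href, ?_⟩
  apply Subtype.ext
  have h1 := map_eval_aeval (modularFunctionFieldBar N).val χ (jBar N) (jBarLevel N q hqN)
  have e1 : (modularFunctionFieldBar N).val (jBar N) = jqModC Kbar := coe_jBar' N
  have e2 : (modularFunctionFieldBar N).val (jBarLevel N q hqN) =
      qExpand Kbar q (jqModC Kbar) := coe_jBarLevel' N q hqN
  rw [e1, e2, hroot] at h1
  exact h1

/-- **(P1c), first half.** `(j_q)_∞ ≤ q (j)_∞` at every place of `F_N`: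
`q · min(0, ord_P j) ≤ ord_P j_q`. -/
theorem ord_jBarLevel_ge (P : Place Kbar (FN N)) :
    (q : ℤ) * min 0 (P.ord (jBar N)) ≤ P.ord (jBarLevel N q hqN) := by
  obtain ⟨χ, hχ, -, hcr, -, h1⟩ := exists_kronecker_poly_level N q hqN
  exact ord_ge_of_root χ hχ q hcr _ _ h1 P

/-- The first half, in the `max` form of `Plan.IsPoleJ`/`Plan.IsPoleJq`. -/
theorem pole_jBarLevel_le (P : Place Kbar (FN N)) :
    max 0 (-(P.ord (jBarLevel N q hqN))) ≤ (q : ℤ) * max 0 (-(P.ord (jBar N))) := by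
  have h1 := ord_jBarLevel_ge N q hqN P
  have hq0 : (0 : ℤ) ≤ (q : ℤ) := Int.natCast_nonneg q
  rcases le_total 0 (P.ord (jBar N)) with h0 | h0
  · rw [min_eq_left h0, mul_zero] at h1
    rw [max_eq_left (by omega), max_eq_left (by omega)]
    simp
  · rw [min_eq_right h0] at h1
    rw [max_eq_right (a := (0 : ℤ)) (b := -(P.ord (jBar N))) (by omega)]
    have h2 : (0 : ℤ) ≤ (q : ℤ) * -(P.ord (jBar N)) := mul_nonneg hq0 (by omega)
    have h3 : (q : ℤ) * -(P.ord (jBar N)) = -((q : ℤ) * P.ord (jBar N)) := by ring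
    exact max_le h2 (by rw [h3]; omega)

/-- `(x)_∞ ≤ q (j)_∞` for `x = j_q - j^q`. -/
theorem ord_x_ge (P : Place Kbar (FN N)) :
    (q : ℤ) * min 0 (P.ord (jBar N)) ≤ P.ord (jBarLevel N q hqN - jBar N ^ q) := by
  have hq : (0 : ℤ) ≤ q := Nat.cast_nonneg q
  refine le_ord_sub P (mul_nonpos_of_nonneg_of_nonpos hq (min_le_left _ _))
    (ord_jBarLevel_ge N q hqN P) ?_
  rw [ord_pow']
  exact mul_le_mul_of_nonneg_left (min_le_right _ _) hq

variable {N q} {N' M : ℕ}

/-- **(P1c), second half** (`N = N' q`, `q ∤ N'` prime; by the Atkin–Lehner swap of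
`S34/PoleDeg`): `(j)_∞ ≤ q (j_q)_∞` at every place of `F_N`. -/
theorem ord_jBar_ge (h : Plan.Levels q N' N M) (P : Place Kbar (FN N)) :
    (q : ℤ) * min 0 (P.ord (jBarLevel N q hqN)) ≤ P.ord (jBar N) :=
  PoleDeg.half_swap h hqN (ord_jBarLevel_ge N q hqN) P

/-- **[POLE]** (`Plan.PoleStmt`): `(j_q)_∞ ≤ q (j)_∞`, `(j)_∞ ≤ q (j_q)_∞`, `deg (j_q)_∞ = ψ(N)`. -/
theorem poleStmt (h : Plan.Levels q N' N M) : Plan.PoleStmt N q hqN :=
  PoleDeg.poleStmt_of_half h hqN (ord_jBarLevel_ge N q hqN)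

/-- The second half, in the `max` form. -/
theorem pole_jBar_le (h : Plan.Levels q N' N M) (P : Place Kbar (FN N)) :
    max 0 (-(P.ord (jBar N))) ≤ (q : ℤ) * max 0 (-(P.ord (jBarLevel N q hqN))) := by
  have h1 := ord_jBar_ge hqN h P
  have hq0 : (0 : ℤ) ≤ (q : ℤ) := Int.natCast_nonneg q
  rcases le_total 0 (P.ord (jBarLevel N q hqN)) with h0 | h0
  · rw [min_eq_left h0, mul_zero] at h1
    rw [max_eq_left (by omega), max_eq_left (by omega)]
    simp
  · rw [min_eq_right h0] at h1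
    rw [max_eq_right (a := (0 : ℤ)) (b := -(P.ord (jBarLevel N q hqN))) (by omega)]
    have h2 : (0 : ℤ) ≤ (q : ℤ) * -(P.ord (jBarLevel N q hqN)) := mul_nonneg hq0 (by omega)
    have h3 : (q : ℤ) * -(P.ord (jBarLevel N q hqN)) =
        -((q : ℤ) * P.ord (jBarLevel N q hqN)) := by ring
    exact max_le h2 (by rw [h3]; omega)

/-- `j` and `j_q` have the same poles. -/
theorem ord_neg_iff (h : Plan.Levels q N' N M) (P : Place Kbar (FN N)) :
    P.ord (jBar N) < 0 ↔ P.ord (jBarLevel N q hqN) < 0 := by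
  constructor
  · intro hj
    by_contra h'
    rw [not_lt] at h'
    have := ord_jBar_ge hqN h P
    rw [min_eq_left h', mul_zero] at this
    omega
  · intro hj
    by_contra h'
    rw [not_lt] at h'
    have := ord_jBarLevel_ge N q hqN P
    rw [min_eq_left h', mul_zero] at this
    omega

/-- `(z)_∞ ≤ q (j_q)_∞` for `z = j - j_q^q`. -/
theorem ord_z_ge (h : Plan.Levels q N' N M) (P : Place Kbar (FN N)) :
    (q : ℤ) * min 0 (P.ord (jBarLevel N q hqN)) ≤ P.ord (jBar N - jBarLevel N q hqN ^ q) := by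
  have hq : (0 : ℤ) ≤ q := Nat.cast_nonneg q
  refine le_ord_sub P (mul_nonpos_of_nonneg_of_nonpos hq (min_le_left _ _))
    (ord_jBar_ge hqN h P) ?_
  rw [ord_pow']
  exact mul_le_mul_of_nonneg_left (min_le_right _ _) hq

end Level

/-! ## The vocabulary of the degeneracy maps -/

section AlphaBeta

variable (M q : ℕ) [NeZero M] [NeZero q]

/-- `α j = j` at level `M q`. -/
theorem alpha_jBar : heckeAlphaBar Kbar M q (jBar M) = jBar (M * q) := by
  apply Subtype.ext
  rw [coe_heckeAlphaBar]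
  exact (coe_jBar' M).trans (coe_jBar' (M * q)).symm

/-- `β j = j_q` at level `M q`. -/
theorem beta_jBar :
    heckeBetaBar Kbar M q (jBar M) = jBarLevel (M * q) q (Dvd.intro_left M rfl) := by
  apply Subtype.ext
  rw [coe_heckeBetaBar, coe_jBar' M]
  exact (coe_jBarLevel' (M * q) q _).symm

end AlphaBeta

end Fermat.Agent.S34.PoleBound
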