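import Mathlib
import Fermat.Agent.S34.Plan
import Fermat.Agent.S34.PoleDeg
import Fermat.Agent.S18.RR0
import Fermat.Agent.S18.PullStep
import Fermat.Agent.S18.Char0

/-!
# S34 / P6 — [RRE]: the exact dimension of `L(cE)` at the top level (helper7)

`Plan.RiemannE N q M hqN`, verbatim, and the comparison `l(cE) ≤ l(D + cE)` for `deg D = 0`
(`(RR-D)`), in the pull-back vocabulary `pullRR N N₂ B` of S18 (`N₂ = M * q`).

Method (the "excess" of a divisor `B` of `F_N` is `l(pullRR N N₂ B) - d deg B - γ`,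
`d ψ(N) = ψ(N₂)`):

* the excess is `≥ 0` for every `B` (`S18.RR0.rr0`, Riemann's inequality);
* adding a point increases `l` by at most `d` (`S18.PullStep.pullStep`), so the excess does not
  increase when an effective divisor is added (`finrank_pullRR_add_le`);
* the excess of `c (j)_∞` is `0` for `c` large (`S18.RR0.exists_gamma` + `RR0.pullRR_base`);
* `c E = c (j)_∞ + c (j_q)_∞` with `c (j_q)_∞` effective of degree `c ψ(N)` (`Plan.PoleStmt`).

No auxiliary prime, no divisor at level `N₂`, no linear equivalence.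
-/

set_option autoImplicit false
set_option maxHeartbeats 400000

noncomputable section

namespace Fermat.Agent.S34.RiemannE

open ModularCurve AlgebraicCurve Fermat.Agent.S24 Fermat.Agent.S18.Content Fermat.Agent.S18.Plan
open Fermat.Agent.S18

section generic

variable (N N₂ : ℕ)

/-- Adding `b` times a point costs at most `b d` dimensions. -/
theorem finrank_pullRR_add_single_le
    (hfin : ∀ B : Divisor Kbar (FN N), Module.Finite Kbar (pullRR N N₂ B)) (d : ℕ)
    (hstep : ∀ (B : Divisor Kbar (FN N)) (P : Place Kbar (FN N)),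
      Module.Finite Kbar (pullRR N N₂ B) →
        Module.finrank Kbar (pullRR N N₂ B)
          ≤ Module.finrank Kbar (pullRR N N₂ (B - Finsupp.single P 1)) + d)
    (B : Divisor Kbar (FN N)) (P : Place Kbar (FN N)) (b : ℕ) :
    Module.finrank Kbar (pullRR N N₂ (B + Finsupp.single P (b : ℤ)))
      ≤ Module.finrank Kbar (pullRR N N₂ B) + d * b := by
  induction b with
  | zero =>
    have e : B + Finsupp.single P ((0 : ℕ) : ℤ) = B := by
      rw [Nat.cast_zero, Finsupp.single_zero, add_zero]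
    rw [e]
    exact Nat.le_add_right _ _
  | succ b ih =>
    have h1 := hstep (B + Finsupp.single P ((b + 1 : ℕ) : ℤ)) P (hfin _)
    have e : B + Finsupp.single P ((b + 1 : ℕ) : ℤ) - Finsupp.single P 1
        = B + Finsupp.single P (b : ℤ) := by
      rw [Nat.cast_add, Nat.cast_one, Finsupp.single_add]
      abel
    rw [e] at h1
    calc Module.finrank Kbar (pullRR N N₂ (B + Finsupp.single P ((b + 1 : ℕ) : ℤ)))
        ≤ Module.finrank Kbar (pullRR N N₂ (B + Finsupp.single P (b : ℤ))) + d := h1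
      _ ≤ Module.finrank Kbar (pullRR N N₂ B) + d * b + d := Nat.add_le_add_right ih d
      _ = Module.finrank Kbar (pullRR N N₂ B) + d * (b + 1) := by ring

variable [NeZero N]

/-- **The excess does not increase under effective shifts**: for `D' ≥ 0`,
`l(B + D') ≤ l(B) + d deg D'`. -/
theorem finrank_pullRR_add_le
    (hfin : ∀ B : Divisor Kbar (FN N), Module.Finite Kbar (pullRR N N₂ B)) (d : ℕ)
    (hstep : ∀ (B : Divisor Kbar (FN N)) (P : Place Kbar (FN N)),
      Module.Finite Kbar (pullRR N N₂ B) →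
        Module.finrank Kbar (pullRR N N₂ B)
          ≤ Module.finrank Kbar (pullRR N N₂ (B - Finsupp.single P 1)) + d)
    (D' : Divisor Kbar (FN N)) (hD' : ∀ P, 0 ≤ D' P) (B : Divisor Kbar (FN N)) :
    (Module.finrank Kbar (pullRR N N₂ (B + D')) : ℤ)
      ≤ (Module.finrank Kbar (pullRR N N₂ B) : ℤ) + (d : ℤ) * Divisor.degree D' := by
  induction D' using Finsupp.induction generalizing B with
  | zero =>
    rw [add_zero, map_zero, mul_zero, add_zero]
  | single_add a b f ha hb ih =>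
    have hfa : f a = 0 := Finsupp.notMem_support_iff.mp ha
    have hb0 : 0 ≤ b := by
      have h := hD' a
      rw [Finsupp.add_apply, Finsupp.single_eq_same, hfa, add_zero] at h
      exact h
    have hf : ∀ P, 0 ≤ f P := by
      intro P
      by_cases hP : P = a
      · rw [hP, hfa]
      · have h := hD' P
        rw [Finsupp.add_apply, Finsupp.single_eq_of_ne hP, zero_add] at h
        exact h
    obtain ⟨n, rfl⟩ := Int.eq_ofNat_of_zero_le hb0
    have h1 := ih hf (B + Finsupp.single a (n : ℤ))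
    have h2 := finrank_pullRR_add_single_le N N₂ hfin d hstep B a n
    have h2' : (Module.finrank Kbar (pullRR N N₂ (B + Finsupp.single a (n : ℤ))) : ℤ)
        ≤ (Module.finrank Kbar (pullRR N N₂ B) : ℤ) + (d : ℤ) * (n : ℤ) := by
      exact_mod_cast h2
    have hdeg : Divisor.degree (Finsupp.single a (n : ℤ) + f) = (n : ℤ) + Divisor.degree f := by
      rw [map_add, Divisor.degree_single, Char0.deg_eq_one N a, Nat.cast_one, mul_one]
    rw [← add_assoc, hdeg]
    calc (Module.finrank Kbar (pullRR N N₂ (B + Finsupp.single a (n : ℤ) + f)) : ℤ)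
        ≤ (Module.finrank Kbar (pullRR N N₂ (B + Finsupp.single a (n : ℤ))) : ℤ)
            + (d : ℤ) * Divisor.degree f := h1
      _ ≤ (Module.finrank Kbar (pullRR N N₂ B) : ℤ) + (d : ℤ) * (n : ℤ)
            + (d : ℤ) * Divisor.degree f := by linarith
      _ = (Module.finrank Kbar (pullRR N N₂ B) : ℤ)
            + (d : ℤ) * ((n : ℤ) + Divisor.degree f) := by ring

end generic

section level

variable (N q N₂ : ℕ) [NeZero N] [NeZero q] [NeZero N₂] (hqN : q ∣ N)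

/-- The data shared by the statements below: for `E = (j)_∞ + (j_q)_∞` on `F_N`, `deg E = 2 ψ(N)`,
`E = Cj + Cq` with `Cj = (j)_∞`, `Cq = (j_q)_∞ ≥ 0`. -/
theorem exists_split
    (hdegq : ∀ Cq : Divisor Kbar (FN N), Plan.IsPoleJq N q hqN Cq →
      Divisor.degree Cq = (dedekindPsi N : ℤ))
    (E : Divisor Kbar (FN N)) (hE : Plan.IsE N q hqN E) :
    ∃ Cj Cq : Divisor Kbar (FN N), Plan.IsPoleJ N Cj ∧ Plan.IsPoleJq N q hqN Cq ∧ E = Cj + Cq ∧
      Divisor.degree Cj = (dedekindPsi N : ℤ) ∧ Divisor.degree Cq = (dedekindPsi N : ℤ) ∧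
      (∀ P, 0 ≤ Cq P) ∧ (∀ P, 0 ≤ E P) ∧ Divisor.degree E = 2 * (dedekindPsi N : ℤ) := by
  obtain ⟨Cj, hCj, hdegCj⟩ := Char0.exists_poleDivisor_jBar N
  have hCq : Plan.IsPoleJq N q hqN (E - Cj) := by
    intro P
    rw [Finsupp.sub_apply, hE P, hCj P]
    ring
  have hdegCq := hdegq (E - Cj) hCq
  refine ⟨Cj, E - Cj, hCj, hCq, by abel, hdegCj, hdegCq, ?_, ?_, ?_⟩
  · intro P
    rw [hCq P]
    exact le_max_left _ _
  · intro P
    rw [hE P]
    exact add_nonneg (le_max_left _ _) (le_max_left _ _)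
  · have : E = Cj + (E - Cj) := by abel
    rw [this, map_add, hdegCj, hdegCq]
    ring

/-- Finiteness of all the pull-back spaces (first half of `S18.RR0.rr0`). -/
theorem finite_pullRR (hdiv : N ∣ N₂) (hTF : 4 ∣ N₂ ∨ 9 ∣ N₂) (B : Divisor Kbar (FN N)) :
    Module.Finite Kbar (pullRR N N₂ B) :=
  (RR0.rr0 N N₂ hdiv hTF B).1

/-- **One step of the filtration costs at most `deg π^*E = 2 ψ(N₂)`** (no threshold):
`l(B + E) ≤ l(B) + 2 ψ(N₂)`. -/
theorem finrank_add_E_le (hdiv : N ∣ N₂) (hTF : 4 ∣ N₂ ∨ 9 ∣ N₂)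
    (hdegq : ∀ Cq : Divisor Kbar (FN N), Plan.IsPoleJq N q hqN Cq →
      Divisor.degree Cq = (dedekindPsi N : ℤ))
    (E : Divisor Kbar (FN N)) (hE : Plan.IsE N q hqN E)
    (B : Divisor Kbar (FN N)) :
    Module.finrank Kbar (pullRR N N₂ (B + E))
      ≤ Module.finrank Kbar (pullRR N N₂ B) + 2 * dedekindPsi N₂ := by
  obtain ⟨d, hd, hstep⟩ := PullStep.pullStep N N₂ hdiv
  obtain ⟨Cj, Cq, -, -, -, -, -, -, hE0, hdegE⟩ := exists_split N q hqN hdegq E hE
  have h := finrank_pullRR_add_le N N₂ (finite_pullRR N N₂ hdiv hTF) d hstep E hE0 B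
  have hdZ : ((d : ℤ) * (dedekindPsi N : ℤ)) = (dedekindPsi N₂ : ℤ) := by exact_mod_cast hd
  have h' : (Module.finrank Kbar (pullRR N N₂ (B + E)) : ℤ)
      ≤ (Module.finrank Kbar (pullRR N N₂ B) : ℤ) + 2 * (dedekindPsi N₂ : ℤ) := by
    rw [hdegE] at h
    calc (Module.finrank Kbar (pullRR N N₂ (B + E)) : ℤ)
        ≤ (Module.finrank Kbar (pullRR N N₂ B) : ℤ) + (d : ℤ) * (2 * (dedekindPsi N : ℤ)) := h
      _ = (Module.finrank Kbar (pullRR N N₂ B) : ℤ) + 2 * (dedekindPsi N₂ : ℤ) := by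
          rw [← hdZ]; ring
  exact_mod_cast h'

/-- `l((c+1) E) ≤ l(c E) + 2 ψ(N₂)` for every `c` (the `hcount` of cusp regularity). -/
theorem finrank_succ_nsmul_le (hdiv : N ∣ N₂) (hTF : 4 ∣ N₂ ∨ 9 ∣ N₂)
    (hdegq : ∀ Cq : Divisor Kbar (FN N), Plan.IsPoleJq N q hqN Cq →
      Divisor.degree Cq = (dedekindPsi N : ℤ))
    (E : Divisor Kbar (FN N)) (hE : Plan.IsE N q hqN E)
    (c : ℕ) :
    Module.finrank Kbar (pullRR N N₂ ((c + 1) • E))
      ≤ Module.finrank Kbar (pullRR N N₂ (c • E)) + 2 * dedekindPsi N₂ := by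
  rw [succ_nsmul]
  exact finrank_add_E_le N q N₂ hqN hdiv hTF hdegq E hE (c • E)

/-- **[RRE], general top level `N₂`**: `12 l(cE) = 24 c ψ(N₂) + 6 c(N₂) - ψ(N₂)` for `c` large. -/
theorem riemannE_aux (hdiv : N ∣ N₂) (hTF : 4 ∣ N₂ ∨ 9 ∣ N₂)
    (hdegq : ∀ Cq : Divisor Kbar (FN N), Plan.IsPoleJq N q hqN Cq →
      Divisor.degree Cq = (dedekindPsi N : ℤ))
    (E : Divisor Kbar (FN N)) (hE : Plan.IsE N q hqN E) :
    ∃ c₀ : ℕ, ∀ c : ℕ, c₀ ≤ c →
      Module.Finite Kbar (pullRR N N₂ (c • E)) ∧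
      12 * (Module.finrank Kbar (pullRR N N₂ (c • E)) : ℤ) =
        24 * (c : ℤ) * (dedekindPsi N₂ : ℤ) + 6 * (cuspCount N₂ : ℤ) - (dedekindPsi N₂ : ℤ) := by
  classical
  obtain ⟨d, hd, hstep⟩ := PullStep.pullStep N N₂ hdiv
  obtain ⟨γ, c₀, hγ, hc₀⟩ := RR0.exists_gamma N₂ hTF
  obtain ⟨X', hX', -⟩ := Char0.exists_poleDivisor_jBar N₂
  obtain ⟨Cj, Cq, hCj, -, hEsplit, -, hdegCq, hCq0, -, hdegE⟩ :=
    exists_split N q hqN hdegq E hE
  have hdZ : ((d : ℤ) * (dedekindPsi N : ℤ)) = (dedekindPsi N₂ : ℤ) := by exact_mod_cast hd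
  have hψ : (0 : ℤ) < (dedekindPsi N : ℤ) := by exact_mod_cast FibreCount.dedekindPsi_pos N
  refine ⟨c₀, fun c hc => ?_⟩
  obtain ⟨hfinE, hlow⟩ := RR0.rr0 N N₂ hdiv hTF (c • E)
  refine ⟨hfinE, ?_⟩
  -- the base count at `c (j)_∞`
  have hD : ∀ P : Place Kbar (FN N), (c • Cj) P = c * RR0.poleMult (jBar N) P := fun P => by
    rw [Finsupp.smul_apply, hCj P, nsmul_eq_mul, RR0.poleMult]
  have hD' : ∀ v : Place Kbar (FN N₂), (c • X') v = c * max 0 (-(v.ord (jBar N₂))) := fun v => by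
    rw [Finsupp.smul_apply, hX', nsmul_eq_mul]
  obtain ⟨hfinX, hdimX⟩ := hc₀ c hc (c • X') hD'
  have hEq := RR0.pullRR_base hdiv c (c • Cj) hD (c • X') hD'
  let e : riemannRochSpace (c • X') ≃ₗ[Kbar] (riemannRochSpace (c • X')).map (RR0.inclLin N₂) :=
    Submodule.equivMapOfInjective (RR0.inclLin N₂) (RR0.inclLin_injective (N' := N₂)) _
  have hbase : (Module.finrank Kbar (pullRR N N₂ (c • Cj)) : ℤ)
      = (c : ℤ) * dedekindPsi N₂ + γ := by
    rw [hEq, ← e.finrank_eq, hdimX]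
  -- the upper bound
  have hcCq : ∀ P, 0 ≤ (c • Cq) P := fun P => by
    rw [Finsupp.smul_apply, nsmul_eq_mul]
    exact mul_nonneg (Nat.cast_nonneg c) (hCq0 P)
  have hup := finrank_pullRR_add_le N N₂ (finite_pullRR N N₂ hdiv hTF) d hstep (c • Cq) hcCq
    (c • Cj)
  have hsum : c • Cj + c • Cq = c • E := by rw [hEsplit, nsmul_add]
  rw [hsum, hbase, map_nsmul, hdegCq, nsmul_eq_mul] at hup
  have hup' : (Module.finrank Kbar (pullRR N N₂ (c • E)) : ℤ)
      ≤ 2 * (c : ℤ) * (dedekindPsi N₂ : ℤ) + γ := by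
    calc (Module.finrank Kbar (pullRR N N₂ (c • E)) : ℤ)
        ≤ (c : ℤ) * dedekindPsi N₂ + γ + (d : ℤ) * ((c : ℤ) * (dedekindPsi N : ℤ)) := hup
      _ = 2 * (c : ℤ) * (dedekindPsi N₂ : ℤ) + γ := by rw [← hdZ]; ring
  -- the lower bound
  rw [map_nsmul, hdegE, nsmul_eq_mul] at hlow
  have hlow' : (dedekindPsi N : ℤ) * (24 * (c : ℤ) * (dedekindPsi N₂ : ℤ)
        + 6 * (cuspCount N₂ : ℤ) - (dedekindPsi N₂ : ℤ))
      ≤ (dedekindPsi N : ℤ) * (12 * (Module.finrank Kbar (pullRR N N₂ (c • E)) : ℤ)) := by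
    calc (dedekindPsi N : ℤ) * (24 * (c : ℤ) * (dedekindPsi N₂ : ℤ)
          + 6 * (cuspCount N₂ : ℤ) - (dedekindPsi N₂ : ℤ))
        = 12 * (dedekindPsi N₂ : ℤ) * ((c : ℤ) * (2 * (dedekindPsi N : ℤ)))
          + (dedekindPsi N : ℤ) * (6 * (cuspCount N₂ : ℤ) - (dedekindPsi N₂ : ℤ)) := by ring
      _ ≤ 12 * (dedekindPsi N : ℤ) * (Module.finrank Kbar (pullRR N N₂ (c • E)) : ℤ) := hlow
      _ = (dedekindPsi N : ℤ) * (12 * (Module.finrank Kbar (pullRR N N₂ (c • E)) : ℤ)) := by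
          ring
  have hlow'' := le_of_mul_le_mul_left hlow' hψ
  linarith

/-- **(RR-D), general top level `N₂`**: `l(cE) ≤ l(D + cE)` for `deg D = 0` and `c` large. -/
theorem finrank_le_add_aux (hdiv : N ∣ N₂) (hTF : 4 ∣ N₂ ∨ 9 ∣ N₂)
    (hdegq : ∀ Cq : Divisor Kbar (FN N), Plan.IsPoleJq N q hqN Cq →
      Divisor.degree Cq = (dedekindPsi N : ℤ))
    (E : Divisor Kbar (FN N)) (hE : Plan.IsE N q hqN E) :
    ∃ c₀ : ℕ, ∀ c : ℕ, c₀ ≤ c → ∀ D : Divisor Kbar (FN N), Divisor.degree D = 0 →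
      Module.finrank Kbar (pullRR N N₂ (c • E))
        ≤ Module.finrank Kbar (pullRR N N₂ (D + c • E)) := by
  obtain ⟨c₀, hc₀⟩ := riemannE_aux N q N₂ hqN hdiv hTF hdegq E hE
  obtain ⟨-, -, -, -, -, -, -, -, -, hdegE⟩ := exists_split N q hqN hdegq E hE
  have hψ : (0 : ℤ) < (dedekindPsi N : ℤ) := by exact_mod_cast FibreCount.dedekindPsi_pos N
  refine ⟨c₀, fun c hc D hD => ?_⟩
  obtain ⟨-, heq⟩ := hc₀ c hc
  obtain ⟨-, hlow⟩ := RR0.rr0 N N₂ hdiv hTF (D + c • E)
  rw [map_add, hD, zero_add, map_nsmul, hdegE, nsmul_eq_mul] at hlow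
  have h1 : (dedekindPsi N : ℤ) * (12 * (Module.finrank Kbar (pullRR N N₂ (c • E)) : ℤ))
      ≤ (dedekindPsi N : ℤ) * (12 * (Module.finrank Kbar (pullRR N N₂ (D + c • E)) : ℤ)) := by
    calc (dedekindPsi N : ℤ) * (12 * (Module.finrank Kbar (pullRR N N₂ (c • E)) : ℤ))
        = 12 * (dedekindPsi N₂ : ℤ) * ((c : ℤ) * (2 * (dedekindPsi N : ℤ)))
          + (dedekindPsi N : ℤ) * (6 * (cuspCount N₂ : ℤ) - (dedekindPsi N₂ : ℤ)) := by
          rw [heq]; ring
      _ ≤ 12 * (dedekindPsi N : ℤ) * (Module.finrank Kbar (pullRR N N₂ (D + c • E)) : ℤ) := hlow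
      _ = (dedekindPsi N : ℤ) * (12 * (Module.finrank Kbar (pullRR N N₂ (D + c • E)) : ℤ)) := by
          ring
  have h2 := le_of_mul_le_mul_left h1 hψ
  have h3 : (Module.finrank Kbar (pullRR N N₂ (c • E)) : ℤ)
      ≤ (Module.finrank Kbar (pullRR N N₂ (D + c • E)) : ℤ) := by linarith
  exact_mod_cast h3

end level

section plan

variable (N q M : ℕ) [NeZero N] [NeZero q] [NeZero M] (hqN : q ∣ N)

/-- **[RRE]**, hypothesis form: from `deg (j_q)_∞ = ψ(N)`. -/
theorem riemannE_of_degree (hdiv : N ∣ M * q) (hTF : 4 ∣ M * q ∨ 9 ∣ M * q)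
    (hdegq : ∀ Cq : Divisor Kbar (FN N), Plan.IsPoleJq N q hqN Cq →
      Divisor.degree Cq = (dedekindPsi N : ℤ)) : Plan.RiemannE N q M hqN := by
  have : NeZero (M * q) := ⟨Nat.mul_ne_zero (NeZero.ne M) (NeZero.ne q)⟩
  intro E hE
  exact riemannE_aux N q (M * q) hqN hdiv hTF hdegq E hE

/-- `Plan.PoleStmt` gives `deg (j_q)_∞ = ψ(N)` (its third conjunct). -/
theorem degree_of_poleStmt (hPole : Plan.PoleStmt N q hqN) (Cq : Divisor Kbar (FN N))
    (hCq : Plan.IsPoleJq N q hqN Cq) : Divisor.degree Cq = (dedekindPsi N : ℤ) := by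
  obtain ⟨Cj, hCj, -⟩ := Char0.exists_poleDivisor_jBar N
  exact (hPole Cj Cq hCj hCq).2.2

/-- **[RRE]** — the contract `Plan.RiemannE N q M hqN`, from `Plan.PoleStmt` (only
`deg (j_q)_∞ = ψ(N)` is used). -/
theorem riemannE_of_poleStmt (hdiv : N ∣ M * q) (hTF : 4 ∣ M * q ∨ 9 ∣ M * q)
    (hPole : Plan.PoleStmt N q hqN) : Plan.RiemannE N q M hqN :=
  riemannE_of_degree N q M hqN hdiv hTF (degree_of_poleStmt N q hqN hPole)

end plan

/-! ## `Plan.Levels` form (unconditional) -/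

section levels

variable {q N' N M : ℕ}

theorem dvd_top (h : Plan.Levels q N' N M) : N ∣ M * q := by
  rw [h.N_eq, h.M_eq]
  exact Nat.mul_dvd_mul_right (Dvd.intro_left _ rfl) q

theorem four_or_nine_dvd_top (h : Plan.Levels q N' N M) : 4 ∣ M * q ∨ 9 ∣ M * q := by
  rw [h.M_eq]
  unfold Plan.aux
  split_ifs
  · exact Or.inr ⟨N' * q, by ring⟩
  · exact Or.inl ⟨N' * q, by ring⟩

theorem neZero_top (h : Plan.Levels q N' N M) : NeZero (M * q) := by
  refine ⟨?_⟩
  rw [h.M_eq]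
  unfold Plan.aux
  split_ifs
  · exact Nat.mul_ne_zero (Nat.mul_ne_zero (by norm_num) h.N'_pos.ne') h.prime.ne_zero
  · exact Nat.mul_ne_zero (Nat.mul_ne_zero (by norm_num) h.N'_pos.ne') h.prime.ne_zero

variable [NeZero N]

/-- `S18.Plan.RR0 N (M * q)` (finiteness + Riemann's inequality) at the P6 levels. -/
theorem rr0 (h : Plan.Levels q N' N M) : S18.Plan.RR0 N (M * q) := by
  have := neZero_top h
  exact RR0.rr0 N (M * q) (dvd_top h) (four_or_nine_dvd_top h)

/-- All pull-back spaces at the top level are finite-dimensional. -/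
theorem finite_pullRR_top (h : Plan.Levels q N' N M) (B : Divisor Kbar (FN N)) :
    Module.Finite Kbar (pullRR N (M * q) B) :=
  (rr0 h B).1

variable [NeZero q] (hqN : q ∣ N)

/-- **[RRE]** — `Plan.RiemannE N q M hqN` at the P6 levels, unconditionally. -/
theorem riemannE (h : Plan.Levels q N' N M) : Plan.RiemannE N q M hqN := by
  have := neZero_top h
  intro E hE
  exact riemannE_aux N q (M * q) hqN (dvd_top h) (four_or_nine_dvd_top h)
    (PoleDeg.degree_poleJq h hqN) E hE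

/-- **(RR-D)** at the P6 levels: `l(cE) ≤ l(D + cE)` for `deg D = 0`, `c ≥ c₀`. -/
theorem finrank_le_add (h : Plan.Levels q N' N M) (E : Divisor Kbar (FN N))
    (hE : Plan.IsE N q hqN E) :
    ∃ c₀ : ℕ, ∀ c : ℕ, c₀ ≤ c → ∀ D : Divisor Kbar (FN N), Divisor.degree D = 0 →
      Module.finrank Kbar (pullRR N (M * q) (c • E))
        ≤ Module.finrank Kbar (pullRR N (M * q) (D + c • E)) := by
  have := neZero_top h
  exact finrank_le_add_aux N q (M * q) hqN (dvd_top h) (four_or_nine_dvd_top h)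
    (PoleDeg.degree_poleJq h hqN) E hE

/-- `l(B + E) ≤ l(B) + 2 ψ(M q)` at the P6 levels, for every divisor `B` of `F_N`. -/
theorem finrank_add_E_le_top (h : Plan.Levels q N' N M) (E : Divisor Kbar (FN N))
    (hE : Plan.IsE N q hqN E) (B : Divisor Kbar (FN N)) :
    Module.finrank Kbar (pullRR N (M * q) (B + E))
      ≤ Module.finrank Kbar (pullRR N (M * q) B) + 2 * dedekindPsi (M * q) := by
  have := neZero_top h
  exact finrank_add_E_le N q (M * q) hqN (dvd_top h) (four_or_nine_dvd_top h)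
    (PoleDeg.degree_poleJq h hqN) E hE B

/-- `l((c+1) E) ≤ l(c E) + 2 ψ(M q)` at the P6 levels, for every `c` (no threshold). -/
theorem finrank_succ_nsmul_le_top (h : Plan.Levels q N' N M) (E : Divisor Kbar (FN N))
    (hE : Plan.IsE N q hqN E) (c : ℕ) :
    Module.finrank Kbar (pullRR N (M * q) ((c + 1) • E))
      ≤ Module.finrank Kbar (pullRR N (M * q) (c • E)) + 2 * dedekindPsi (M * q) := by
  have := neZero_top h
  exact finrank_succ_nsmul_le N q (M * q) hqN (dvd_top h) (four_or_nine_dvd_top h)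
    (PoleDeg.degree_poleJq h hqN) E hE c

end levels

end Fermat.Agent.S34.RiemannE

end
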