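import Mathlib
import Fermat.Agent.S34.Assemble
import Fermat.Agent.S34.PlanTop
import Fermat.Agent.S34.DescInst
import Fermat.Agent.S34.LiftInst
import Fermat.Agent.S34.NodeInst
import Fermat.Agent.S34.CuspRegInst
import Fermat.Agent.S34.CuspRegRK
import Fermat.Agent.S34.RiemannE
import Fermat.Agent.S34.PoleBound
import Fermat.Agent.S34.Num
import Fermat.Agent.S34.FrobInst

/-!
# S34 / P6 — assembly, part 2 (owner: helper74)

`unipDiv_of_three` : `Plan.UnipDiv A N q` from the three remaining blocks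

* `Plan.ValStmt A N q M hqN`  (block [VAL]),
* `Plan.TauStmt` from `Setup2` + `CuspReg` + `NodeStmt` + `RiemannE`  (block [TAU]),
* `(V1')` at level `M * q` and `S18.Plan.CharStmt A N (M * q)`  (block [DESC] inputs);

everything else ([POLE], [RRE], [RRK], [NUM], [FROB], [CR], [NODE], [LIFT], [DESC]) is plugged in
from its landed provider.
-/

set_option autoImplicit false

open ModularCurve CuspForm AlgebraicCurve

namespace Fermat.Agent.S34.Final

open Fermat.Agent.S24 Fermat.Agent.S18.Content Fermat.Agent.S18.Plan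

/-- `(U)` in divisor form from the blocks [VAL], [TAU] and the two inputs of [DESC]. -/
theorem unipDiv_of_three {q N' N M : ℕ} [NeZero N] [NeZero q] (hL : Plan.Levels q N' N M)
    (hqN : q ∣ N) (A : ValuationSubring Kbar) (hA : A.LiesOverPrime q)
    (hVal : Plan.ValStmt A N q M hqN)
    (hTau : ∀ (O : Subring Om) (ρ : O →+* Plan.R2 A), Plan.Setup2 A N q M hqN O ρ →
      Plan.CuspReg A N q M hqN O ρ → Plan.NodeStmt A N q M hqN O ρ →
      Plan.RiemannE N q M hqN → Plan.TauStmt A N q M hqN O ρ)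
    (hscale : ∀ y : Om, y ∈ modularFunctionFieldBar (M * q) → y ≠ 0 →
      ∃ c : Kbar, c ≠ 0 ∧ ∃ h : HahnSeries.C c * y ∈ Ocal A, red A ⟨_, h⟩ ≠ 0)
    (hChar : CharStmt A N (M * q)) : Plan.UnipDiv A N q := by
  obtain ⟨O, ρ, hS⟩ := hVal
  obtain ⟨E, hE⟩ := PlanTop.exists_isE N q hqN
  have hPole : Plan.PoleStmt N q hqN := PoleBound.poleStmt hqN hL
  have hRE : Plan.RiemannE N q M hqN := RiemannE.riemannE hqN hL
  have hRK : Plan.RiemannK A M := CuspReg.riemannK hL A hA
  have hNum : Plan.NumStmt q M := Num.numStmt q M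
  have hFrob : Plan.FrobRoot A q M := FrobInst.frobRoot A hL hA
  have hCR : Plan.CuspReg A N q M hqN O ρ := CuspReg.cuspReg hL hS hRE hRK hNum
  have hNode : Plan.NodeStmt A N q M hqN O ρ := NodeInst.nodeStmt hL hS hCR hFrob hRE hRK hNum
  have hLift : Plan.LiftStmt A N q M hqN O ρ := LiftInst.liftStmt hL hqN A hA hS hCR hNode hPole
  exact DescInst.unipDiv_of hL hqN A hA hscale hChar E hE hS (hTau O ρ hS hCR hNode hRE) hLift

end Fermat.Agent.S34.Final
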