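import Mathlib

/-!
# S34 — NodeAlg: the pure algebra of the nodal special fibre (owner: helper91)

Abstract setting: `k` a field, `B` a commutative `k`-algebra (in the application: the ring of
regular functions of `X₀(M)_k` minus cusps), `R` a `k`-subalgebra of `B × B` (the reduction `B̄`
of the integral closure at level `qM`).  A *point* is a `k`-algebra map `z : B →ₐ[k] k`.

* `exists_interp`          : interpolation at finitely many points;
* `IsNode R Z θ`           : `(a, b) ∈ R ↔ ∀ z ∈ Z, a(z) = b(θ z)`, `θ` injective on `Z`;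
* `exists_isNode`          : Goursat: both projections onto and
                             `{a | (a, 0) ∈ R} = ⋂_{z ∈ Z} ker z` give a node structure;
* `isRadical_of_pow`       : if every element of `B` is a `q`-th power modulo `I` (`q ≥ 2`) and the
                             nilradical of `B ⧸ I` is nilpotent, then `I` is radical;
* `exists_points_of_finite`, `exists_points_of_dedekind` : a radical ideal with finite-dimensional
                             quotient (resp. nonzero in a Dedekind domain whose residue fields are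
                             `k`) is the intersection of the kernels of finitely many points;
* `exists_isNode_of_pow`, `exists_isNode_of_pow_dedekind` : the combined statements;
* `twisted Z θ ζ`          : the twisted module `{(a, b) | a(z) = ζ_z b(θ z)}`;
* `exists_twist`           : a `k`-subspace `T` with `(u₁ aⁿ, u₂ bⁿ) ∈ R` for all `(a, b) ∈ T`
                             lies in some `twisted Z θ ζ`, `ζ_z ≠ 0`;
* `mem_of_mul_twisted`     : the multiplier ring of a twisted module is `R`;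
* `finrank_twisted_inf`    : the codimension count.
-/

set_option autoImplicit false

namespace Fermat.Agent.S34.NodeAlg

open Module

variable {k B : Type*} [Field k] [CommRing B] [Algebra k B]

/-! ## Interpolation at finitely many points -/

/-- Two distinct points are separated by an element. -/
theorem exists_sep {y y' : B →ₐ[k] k} (h : y ≠ y') : ∃ e : B, y e = 1 ∧ y' e = 0 := by
  obtain ⟨a, ha⟩ : ∃ a, y a ≠ y' a := by
    by_contra hcon
    push Not at hcon
    exact h (AlgHom.ext hcon)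
  refine ⟨(y a - y' a)⁻¹ • (a - algebraMap k B (y' a)), ?_, ?_⟩
  · rw [map_smul, map_sub, AlgHom.commutes, smul_eq_mul]
    exact inv_mul_cancel₀ (sub_ne_zero.2 ha)
  · rw [map_smul, map_sub, AlgHom.commutes]
    simp

/-- A "delta function" at a point of a finite set of points. -/
theorem exists_delta (Y : Finset (B →ₐ[k] k)) (y : B →ₐ[k] k) :
    ∃ e : B, y e = 1 ∧ ∀ y' ∈ Y, y' ≠ y → y' e = 0 := by
  classical
  have hsep : ∀ y' : B →ₐ[k] k, ∃ e : B, y' ≠ y → y e = 1 ∧ y' e = 0 := by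
    intro y'
    by_cases h : y' = y
    · exact ⟨0, fun h' => absurd h h'⟩
    · obtain ⟨e, he⟩ := exists_sep (Ne.symm h)
      exact ⟨e, fun _ => he⟩
  choose f hf using hsep
  refine ⟨∏ y' ∈ Y.erase y, f y', ?_, ?_⟩
  · rw [map_prod]
    exact Finset.prod_eq_one fun y' hy' => (hf y' (Finset.ne_of_mem_erase hy')).1
  · intro y' hy' hne
    rw [map_prod]
    exact Finset.prod_eq_zero (Finset.mem_erase.2 ⟨hne, hy'⟩) (hf y' hne).2

/-- **Interpolation**: prescribed values at finitely many points. -/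
theorem exists_interp (Y : Finset (B →ₐ[k] k)) (c : (B →ₐ[k] k) → k) :
    ∃ b : B, ∀ y ∈ Y, y b = c y := by
  classical
  choose e he using fun y : B →ₐ[k] k => exists_delta Y y
  refine ⟨∑ y ∈ Y, c y • e y, fun y hy => ?_⟩
  rw [map_sum, Finset.sum_eq_single y]
  · rw [map_smul, (he y).1, smul_eq_mul, mul_one]
  · intro y' _ hne
    rw [map_smul, (he y').2 y hy hne.symm, smul_zero]
  · intro h
    exact absurd hy h

/-- Interpolation along an injective reindexing `θ` of the points. -/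
theorem exists_interp_comp (Z : Finset (B →ₐ[k] k)) (θ : (B →ₐ[k] k) → (B →ₐ[k] k))
    (hθ : Set.InjOn θ (Z : Set (B →ₐ[k] k))) (c : (B →ₐ[k] k) → k) :
    ∃ b : B, ∀ z ∈ Z, θ z b = c z := by
  classical
  obtain ⟨b, hb⟩ := exists_interp (Z.image θ)
    (fun y => if h : ∃ z ∈ Z, θ z = y then c (Classical.choose h) else 0)
  refine ⟨b, fun z hz => ?_⟩
  have hex : ∃ z' ∈ Z, θ z' = θ z := ⟨z, hz, rfl⟩
  rw [hb (θ z) (Finset.mem_image_of_mem θ hz), dif_pos hex]
  have h2 := Classical.choose_spec hex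
  rw [hθ (Finset.mem_coe.2 h2.1) (Finset.mem_coe.2 hz) h2.2]

/-! ## Nodes -/

/-- `IsNode R Z θ`: `R` is the ring of pairs `(a, b)` with `a(z) = b(θ z)` for all `z ∈ Z`,
and `θ` is injective on `Z`. -/
def IsNode (R : Subalgebra k (B × B)) (Z : Finset (B →ₐ[k] k))
    (θ : (B →ₐ[k] k) → (B →ₐ[k] k)) : Prop :=
  Set.InjOn θ (Z : Set (B →ₐ[k] k)) ∧ ∀ a b : B, (a, b) ∈ R ↔ ∀ z ∈ Z, z a = θ z b

/-- **Goursat.** If both projections of `R` are onto and the ideal `{a | (a, 0) ∈ R}` is the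
intersection of the kernels of the points of `Z`, then `R` is a node ring along `Z`. -/
theorem exists_isNode (R : Subalgebra k (B × B)) (h1 : ∀ a : B, ∃ b : B, (a, b) ∈ R)
    (h2 : ∀ b : B, ∃ a : B, (a, b) ∈ R) (Z : Finset (B →ₐ[k] k))
    (hZ : ∀ a : B, (a, (0 : B)) ∈ R ↔ ∀ z ∈ Z, z a = 0) :
    ∃ θ : (B →ₐ[k] k) → (B →ₐ[k] k), IsNode R Z θ := by
  classical
  choose s hs using h2
  have key : ∀ a b : B, (a, b) ∈ R → ∀ z ∈ Z, z a = z (s b) := by
    intro a b hab z hz
    have h0 : (a - s b, (0 : B)) ∈ R := by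
      have := R.sub_mem hab (hs b)
      simpa using this
    have := (hZ _).1 h0 z hz
    rwa [map_sub, sub_eq_zero] at this
  have hθ : ∀ z ∈ Z, ∃ t : B →ₐ[k] k, ∀ b : B, t b = z (s b) := by
    intro z hz
    refine ⟨{ toFun := fun b => z (s b)
              map_one' := ?_
              map_mul' := ?_
              map_zero' := ?_
              map_add' := ?_
              commutes' := ?_ }, fun b => rfl⟩
    · have := key 1 1 (R.one_mem) z hz
      rw [map_one] at this
      exact this.symm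
    · intro b b'
      have := key (s b * s b') (b * b') (R.mul_mem (hs b) (hs b')) z hz
      rw [map_mul] at this
      exact this.symm
    · have := key 0 0 (R.zero_mem) z hz
      rw [map_zero] at this
      exact this.symm
    · intro b b'
      have := key (s b + s b') (b + b') (R.add_mem (hs b) (hs b')) z hz
      rw [map_add] at this
      exact this.symm
    · intro c
      have hmem : (algebraMap k B c, algebraMap k B c) ∈ R := R.algebraMap_mem c
      have := key _ _ hmem z hz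
      rw [AlgHom.commutes] at this
      exact this.symm
  obtain ⟨θ, hθ'⟩ : ∃ θ : (B →ₐ[k] k) → (B →ₐ[k] k), ∀ z ∈ Z, ∀ b : B, θ z b = z (s b) := by
    refine ⟨fun z => if h : z ∈ Z then Classical.choose (hθ z h) else z, fun z hz b => ?_⟩
    simp only [dif_pos hz]
    exact Classical.choose_spec (hθ z hz) b
  refine ⟨θ, ?_, ?_⟩
  · intro z hz z' hz' hzz'
    have hz0 : z ∈ Z := Finset.mem_coe.1 hz
    have hz0' : z' ∈ Z := Finset.mem_coe.1 hz'
    by_contra hne
    obtain ⟨e, he1, he0⟩ := exists_sep hne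
    obtain ⟨b, hb⟩ := h1 e
    have e1 := key e b hb z hz0
    have e2 := key e b hb z' hz0'
    rw [← hθ' z hz0 b, hzz', hθ' z' hz0' b, ← e2, he0] at e1
    rw [he1] at e1
    exact one_ne_zero e1
  · intro a b
    constructor
    · intro hab z hz
      rw [hθ' z hz b]
      exact key a b hab z hz
    · intro h
      have h0 : (a - s b, (0 : B)) ∈ R := by
        rw [hZ]
        intro z hz
        have := h z hz
        rw [hθ' z hz b] at this
        rw [map_sub, this, sub_self]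
      have := R.add_mem h0 (hs b)
      simpa using this

namespace IsNode

variable {R : Subalgebra k (B × B)} {Z : Finset (B →ₐ[k] k)} {θ : (B →ₐ[k] k) → (B →ₐ[k] k)}

theorem mem_iff (h : IsNode R Z θ) (a b : B) : (a, b) ∈ R ↔ ∀ z ∈ Z, z a = θ z b := h.2 a b

theorem injOn (h : IsNode R Z θ) : Set.InjOn θ (Z : Set (B →ₐ[k] k)) := h.1

theorem mem_iff' (h : IsNode R Z θ) (x : B × B) : x ∈ R ↔ ∀ z ∈ Z, z x.1 = θ z x.2 :=
  h.2 x.1 x.2

/-- Pairs of constants in `R` are diagonal as soon as there is a node. -/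
theorem algebraMap_mem_iff (h : IsNode R Z θ) (hZ : Z.Nonempty) (c d : k) :
    (algebraMap k B c, algebraMap k B d) ∈ R ↔ c = d := by
  rw [h.mem_iff]
  constructor
  · intro hcd
    obtain ⟨z, hz⟩ := hZ
    have := hcd z hz
    rwa [AlgHom.commutes, AlgHom.commutes] at this
  · rintro rfl z _
    rw [AlgHom.commutes, AlgHom.commutes]

/-- The idempotent `(1, 0)` lies in `R` exactly when there is no node. -/
theorem one_zero_mem_iff (h : IsNode R Z θ) : ((1 : B), (0 : B)) ∈ R ↔ Z = ∅ := by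
  rw [h.mem_iff]
  constructor
  · intro h10
    by_contra hne
    obtain ⟨z, hz⟩ := Finset.nonempty_iff_ne_empty.2 hne
    have := h10 z hz
    rw [map_one, map_zero] at this
    exact one_ne_zero this
  · rintro rfl z hz
    simp at hz

/-- The two conductor ideals: `(a, 0) ∈ R ↔ a` vanishes on `Z`. -/
theorem fst_zero_mem_iff (h : IsNode R Z θ) (a : B) : (a, (0 : B)) ∈ R ↔ ∀ z ∈ Z, z a = 0 := by
  rw [h.mem_iff]
  simp

theorem zero_snd_mem_iff (h : IsNode R Z θ) (b : B) : ((0 : B), b) ∈ R ↔ ∀ z ∈ Z, θ z b = 0 := by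
  rw [h.mem_iff]
  constructor
  · intro hb z hz
    have := hb z hz
    rw [map_zero] at this
    exact this.symm
  · intro hb z hz
    rw [map_zero, hb z hz]

end IsNode

/-! ## Radical ideals and points -/

/-- If every element of `B` is a `q`-th power modulo `I` (`q ≥ 2`) and the nilradical of `B ⧸ I`
is nilpotent (e.g. `B ⧸ I` Noetherian or Artinian), then `I` is a radical ideal. -/
theorem isRadical_of_pow {B : Type*} [CommRing B] (I : Ideal B)
    (hnil : IsNilpotent (nilradical (B ⧸ I)))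
    {q : ℕ} (hq : 2 ≤ q) (hpow : ∀ a : B, ∃ c : B, a - c ^ q ∈ I) : I.IsRadical := by
  rw [Ideal.isRadical_iff_quotient_reduced, ← nilradical_eq_bot_iff]
  set N := nilradical (B ⧸ I) with hN
  have hN2 : N ≤ N ^ 2 := by
    intro x hx
    obtain ⟨a, rfl⟩ := Ideal.Quotient.mk_surjective x
    obtain ⟨c, hc⟩ := hpow a
    have e : Ideal.Quotient.mk I a = (Ideal.Quotient.mk I c) ^ q := by
      rw [← map_pow]
      exact Ideal.Quotient.eq.2 hc
    have hcN : Ideal.Quotient.mk I c ∈ N := by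
      rw [hN, mem_nilradical]
      have : IsNilpotent ((Ideal.Quotient.mk I c) ^ q) := by
        rw [← e]
        exact mem_nilradical.1 hx
      exact IsNilpotent.of_pow this
    rw [e]
    exact Ideal.pow_le_pow_right hq (Ideal.pow_mem_pow hcN q)
  have hNn : ∀ n : ℕ, N ≤ N ^ n := by
    intro n
    induction n with
    | zero => rw [pow_zero, Ideal.one_eq_top]; exact le_top
    | succ n ih =>
      calc N ≤ N ^ 2 := hN2
        _ = N * N := pow_two N
        _ ≤ N ^ n * N := Ideal.mul_mono_left ih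
        _ = N ^ (n + 1) := (pow_succ N n).symm
  obtain ⟨m, hm⟩ := hnil
  have := hNn m
  rw [hm, Ideal.zero_eq_bot] at this
  exact le_bot_iff.1 this

/-- A radical ideal with finite-dimensional quotient over an algebraically closed field is the
intersection of the kernels of finitely many points. -/
theorem exists_points_of_finite [IsAlgClosed k] (I : Ideal B) [Module.Finite k (B ⧸ I)]
    (hI : I.IsRadical) : ∃ Z : Finset (B →ₐ[k] k), ∀ a : B, a ∈ I ↔ ∀ z ∈ Z, z a = 0 := by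
  classical
  have hfin : {z : B →ₐ[k] k | ∀ a ∈ I, z a = 0}.Finite := by
    have : Finite (B ⧸ I →ₐ[k] k) := Finite.algHom k (B ⧸ I) k
    refine (Set.finite_range
      (fun g : B ⧸ I →ₐ[k] k => g.comp (Ideal.Quotient.mkₐ k I))).subset ?_
    intro z hz
    exact ⟨Ideal.Quotient.liftₐ I z hz, Ideal.Quotient.liftₐ_comp I z hz⟩
  refine ⟨hfin.toFinset, fun a => ⟨fun ha z hz => ?_, fun ha => ?_⟩⟩
  · exact (hfin.mem_toFinset.1 hz) a ha
  · by_contra haI
    have hrad : a ∉ I.radical := by rwa [hI.radical]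
    rw [Ideal.radical_eq_sInf, Submodule.mem_sInf] at hrad
    push Not at hrad
    obtain ⟨P, ⟨hIP, hP⟩, haP⟩ := hrad
    have : Module.Finite k (B ⧸ P) :=
      Module.Finite.of_surjective (Ideal.Quotient.factorₐ k hIP).toLinearMap
        (Ideal.Quotient.factor_surjective hIP)
    have : Algebra.IsIntegral k (B ⧸ P) := Algebra.IsIntegral.of_finite k (B ⧸ P)
    have hbij : Function.Bijective (algebraMap k (B ⧸ P)) :=
      IsAlgClosed.algebraMap_bijective_of_isIntegral
    let ε : k ≃ₐ[k] (B ⧸ P) := AlgEquiv.ofBijective (Algebra.ofId k (B ⧸ P)) hbij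
    let z : B →ₐ[k] k := (ε.symm : (B ⧸ P) →ₐ[k] k).comp (Ideal.Quotient.mkₐ k P)
    have hz : ∀ b : B, z b = 0 ↔ b ∈ P := by
      intro b
      show ε.symm (Ideal.Quotient.mk P b) = 0 ↔ b ∈ P
      rw [EmbeddingLike.map_eq_zero_iff, Ideal.Quotient.eq_zero_iff_mem]
    have hzZ : z ∈ hfin.toFinset := hfin.mem_toFinset.2 fun b hb => (hz b).2 (hIP hb)
    exact haP ((hz a).1 (ha z hzZ))

/-- A nonzero radical ideal of a Dedekind domain all of whose residue fields are `k` is the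
intersection of the kernels of finitely many points. -/
theorem exists_points_of_dedekind [IsDedekindDomain B]
    (hres : ∀ P : Ideal B, P.IsMaximal → Function.Surjective (algebraMap k (B ⧸ P)))
    (I : Ideal B) (hI0 : I ≠ ⊥) (hI : I.IsRadical) :
    ∃ Z : Finset (B →ₐ[k] k), ∀ a : B, a ∈ I ↔ ∀ z ∈ Z, z a = 0 := by
  classical
  have hfin : I.minimalPrimes.Finite := Ideal.finite_minimalPrimes_of_isNoetherianRing B I
  have hpt : ∀ P ∈ I.minimalPrimes, ∃ z : B →ₐ[k] k, ∀ b : B, z b = 0 ↔ b ∈ P := by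
    intro P hP
    have hPprime : P.IsPrime := hP.1.1
    have hP0 : P ≠ ⊥ := by
      rintro rfl
      exact hI0 (le_bot_iff.1 hP.1.2)
    have hPmax : P.IsMaximal := hPprime.isMaximal hP0
    have hbij : Function.Bijective (algebraMap k (B ⧸ P)) :=
      ⟨(algebraMap k (B ⧸ P)).injective, hres P hPmax⟩
    let ε : k ≃ₐ[k] (B ⧸ P) := AlgEquiv.ofBijective (Algebra.ofId k (B ⧸ P)) hbij
    refine ⟨(ε.symm : (B ⧸ P) →ₐ[k] k).comp (Ideal.Quotient.mkₐ k P), fun b => ?_⟩
    show ε.symm (Ideal.Quotient.mk P b) = 0 ↔ b ∈ P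
    rw [EmbeddingLike.map_eq_zero_iff, Ideal.Quotient.eq_zero_iff_mem]
  choose pt hpt' using hpt
  refine ⟨hfin.toFinset.attach.image (fun P => pt P.1 (hfin.mem_toFinset.1 P.2)),
    fun a => ⟨fun ha z hz => ?_, fun ha => ?_⟩⟩
  · obtain ⟨P, -, rfl⟩ := Finset.mem_image.1 hz
    have hP' : P.1 ∈ I.minimalPrimes := hfin.mem_toFinset.1 P.2
    exact (hpt' P.1 hP' a).2 (hP'.1.2 ha)
  · rw [← hI.radical, ← Ideal.sInf_minimalPrimes, Submodule.mem_sInf]
    intro P hP
    refine (hpt' P hP a).1 (ha _ ?_)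
    exact Finset.mem_image.2 ⟨⟨P, hfin.mem_toFinset.2 hP⟩, Finset.mem_attach _ _, rfl⟩

/-- The first conductor ideal `{a | (a, 0) ∈ R}` of a subalgebra of `B × B` with first projection
onto. -/
def fstIdeal (R : Subalgebra k (B × B)) (h1 : ∀ a : B, ∃ b : B, (a, b) ∈ R) : Ideal B where
  carrier := {a | (a, (0 : B)) ∈ R}
  add_mem' := by
    intro a a' ha ha'
    have := R.add_mem ha ha'
    simpa using this
  zero_mem' := R.zero_mem
  smul_mem' := by
    intro c a ha
    obtain ⟨b, hb⟩ := h1 c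
    have := R.mul_mem hb ha
    simpa using this

theorem mem_fstIdeal {R : Subalgebra k (B × B)} {h1 : ∀ a : B, ∃ b : B, (a, b) ∈ R} {a : B} :
    a ∈ fstIdeal R h1 ↔ (a, (0 : B)) ∈ R := Iff.rfl

/-- **NODE (finite-dimensional form).** `k` algebraically closed, both projections of `R` onto,
`B ⧸ I₁` finite-dimensional for `I₁ = {a | (a, 0) ∈ R}`, and every `a ∈ B` is a `q`-th power
modulo `I₁` for some fixed `q ≥ 2`. Then `R = {(a, b) | a(z) = b(θ z) ∀ z ∈ Z}`. -/
theorem exists_isNode_of_pow [IsAlgClosed k] (R : Subalgebra k (B × B))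
    (h1 : ∀ a : B, ∃ b : B, (a, b) ∈ R) (h2 : ∀ b : B, ∃ a : B, (a, b) ∈ R)
    [Module.Finite k (B ⧸ fstIdeal R h1)]
    {q : ℕ} (hq : 2 ≤ q) (hpow : ∀ a : B, ∃ c : B, (a - c ^ q, (0 : B)) ∈ R) :
    ∃ (Z : Finset (B →ₐ[k] k)) (θ : (B →ₐ[k] k) → (B →ₐ[k] k)), IsNode R Z θ := by
  have : IsArtinianRing (B ⧸ fstIdeal R h1) := IsArtinianRing.of_finite k (B ⧸ fstIdeal R h1)
  have hrad : (fstIdeal R h1).IsRadical :=
    isRadical_of_pow _ (IsArtinianRing.isNilpotent_nilradical) hq hpow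
  obtain ⟨Z, hZ⟩ := exists_points_of_finite (k := k) (fstIdeal R h1) hrad
  obtain ⟨θ, hθ⟩ := exists_isNode R h1 h2 Z hZ
  exact ⟨Z, θ, hθ⟩

/-- **NODE (Dedekind form).** `B` a Dedekind domain with all residue fields `k`, both projections
of `R` onto, `(a₀, 0) ∈ R` for some `a₀ ≠ 0`, and every `a ∈ B` is a `q`-th power modulo
`I₁ = {a | (a, 0) ∈ R}` for some fixed `q ≥ 2`. Then `R = {(a, b) | a(z) = b(θ z) ∀ z ∈ Z}`. -/
theorem exists_isNode_of_pow_dedekind [IsDedekindDomain B]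
    (hres : ∀ P : Ideal B, P.IsMaximal → Function.Surjective (algebraMap k (B ⧸ P)))
    (R : Subalgebra k (B × B))
    (h1 : ∀ a : B, ∃ b : B, (a, b) ∈ R) (h2 : ∀ b : B, ∃ a : B, (a, b) ∈ R)
    (hne : ∃ a₀ : B, a₀ ≠ 0 ∧ (a₀, (0 : B)) ∈ R)
    {q : ℕ} (hq : 2 ≤ q) (hpow : ∀ a : B, ∃ c : B, (a - c ^ q, (0 : B)) ∈ R) :
    ∃ (Z : Finset (B →ₐ[k] k)) (θ : (B →ₐ[k] k) → (B →ₐ[k] k)), IsNode R Z θ := by
  have hrad : (fstIdeal R h1).IsRadical :=
    isRadical_of_pow _ (IsNoetherianRing.isNilpotent_nilradical _) hq hpow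
  have hI0 : fstIdeal R h1 ≠ ⊥ := by
    obtain ⟨a₀, ha₀, hmem⟩ := hne
    intro hbot
    have : a₀ ∈ fstIdeal R h1 := hmem
    rw [hbot, Ideal.mem_bot] at this
    exact ha₀ this
  obtain ⟨Z, hZ⟩ := exists_points_of_dedekind hres (fstIdeal R h1) hI0 hrad
  obtain ⟨θ, hθ⟩ := exists_isNode R h1 h2 Z hZ
  exact ⟨Z, θ, hθ⟩

/-! ## Twisted modules -/

/-- The twisted module `T_ζ = {(a, b) | a(z) = ζ_z b(θ z) for all z ∈ Z}`. -/
def twisted (Z : Finset (B →ₐ[k] k)) (θ : (B →ₐ[k] k) → (B →ₐ[k] k))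
    (ζ : (B →ₐ[k] k) → k) : Submodule k (B × B) where
  carrier := {x | ∀ z ∈ Z, z x.1 = ζ z * θ z x.2}
  add_mem' := by
    intro x y hx hy z hz
    rw [Prod.fst_add, Prod.snd_add, map_add, map_add, hx z hz, hy z hz, mul_add]
  zero_mem' := by
    intro z _
    rw [Prod.fst_zero, Prod.snd_zero, map_zero, map_zero, mul_zero]
  smul_mem' := by
    intro c x hx z hz
    rw [Prod.smul_fst, Prod.smul_snd, map_smul, map_smul, hx z hz, smul_eq_mul, smul_eq_mul,
      mul_left_comm]

variable {Z : Finset (B →ₐ[k] k)} {θ : (B →ₐ[k] k) → (B →ₐ[k] k)} {ζ : (B →ₐ[k] k) → k}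

theorem mem_twisted {x : B × B} :
    x ∈ twisted Z θ ζ ↔ ∀ z ∈ Z, z x.1 = ζ z * θ z x.2 := Iff.rfl

/-- `R` itself is the module twisted by `1`. -/
theorem IsNode.toSubmodule_eq {R : Subalgebra k (B × B)} (h : IsNode R Z θ) :
    Subalgebra.toSubmodule R = twisted Z θ (fun _ => 1) := by
  ext x
  rw [Subalgebra.mem_toSubmodule, h.mem_iff', mem_twisted]
  simp

theorem IsNode.mem_iff_twisted_one {R : Subalgebra k (B × B)} (h : IsNode R Z θ) (x : B × B) :
    x ∈ R ↔ x ∈ twisted Z θ (fun _ => 1) := by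
  rw [← h.toSubmodule_eq, Subalgebra.mem_toSubmodule]

/-- Twisted modules are `R`-modules. -/
theorem mul_mem_twisted {R : Subalgebra k (B × B)} (h : IsNode R Z θ) {x t : B × B}
    (hx : x ∈ R) (ht : t ∈ twisted Z θ ζ) : x * t ∈ twisted Z θ ζ := by
  intro z hz
  rw [Prod.fst_mul, Prod.snd_mul, map_mul, map_mul, (h.mem_iff' x).1 hx z hz, ht z hz,
    mul_left_comm]

/-- Products of twisted modules. -/
theorem mul_mem_twisted_mul {ζ' : (B →ₐ[k] k) → k} {x t : B × B}
    (hx : x ∈ twisted Z θ ζ) (ht : t ∈ twisted Z θ ζ') :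
    x * t ∈ twisted Z θ (fun z => ζ z * ζ' z) := by
  intro z hz
  rw [Prod.fst_mul, Prod.snd_mul, map_mul, map_mul, hx z hz, ht z hz]
  ring

/-- A twisted module (with `ζ_z ≠ 0`) contains an element `(1, b)`. -/
theorem exists_one_mem_twisted (hθ : Set.InjOn θ (Z : Set (B →ₐ[k] k)))
    (hζ : ∀ z ∈ Z, ζ z ≠ 0) : ∃ b : B, ((1 : B), b) ∈ twisted Z θ ζ ∧ ∀ z ∈ Z, θ z b = (ζ z)⁻¹ := by
  obtain ⟨b, hb⟩ := exists_interp_comp Z θ hθ (fun z => (ζ z)⁻¹)
  refine ⟨b, fun z hz => ?_, hb⟩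
  show z 1 = ζ z * θ z b
  rw [map_one, hb z hz, mul_inv_cancel₀ (hζ z hz)]

/-- **TWIST.** Let `T` be a `k`-subspace of `B × B` such that `(u₁ aⁿ, u₂ bⁿ) ∈ R` for all
`(a, b) ∈ T` (`u₁, u₂ ∈ kˣ`, `n ≠ 0`). Then `T ⊆ T_ζ` for some `ζ` with `ζ_z ≠ 0` on `Z`. -/
theorem exists_twist {R : Subalgebra k (B × B)} (hR : IsNode R Z θ) (T : Submodule k (B × B))
    {n : ℕ} (hn : n ≠ 0) {u₁ u₂ : k} (hu₁ : u₁ ≠ 0) (hu₂ : u₂ ≠ 0)
    (hT : ∀ x ∈ T, (u₁ • x.1 ^ n, u₂ • x.2 ^ n) ∈ R) :
    ∃ ζ : (B →ₐ[k] k) → k, (∀ z ∈ Z, ζ z ≠ 0) ∧ T ≤ twisted Z θ ζ := by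
  classical
  have eqn : ∀ x ∈ T, ∀ z ∈ Z, u₁ * z x.1 ^ n = u₂ * θ z x.2 ^ n := by
    intro x hx z hz
    have := (hR.mem_iff _ _).1 (hT x hx) z hz
    rwa [map_smul, map_smul, map_pow, map_pow, smul_eq_mul, smul_eq_mul] at this
  have loc : ∀ z ∈ Z, ∃ c : k, c ≠ 0 ∧ ∀ x ∈ T, z x.1 = c * θ z x.2 := by
    intro z hz
    by_cases hall : ∀ x ∈ T, θ z x.2 = 0
    · refine ⟨1, one_ne_zero, fun x hx => ?_⟩
      have h := eqn x hx z hz
      rw [hall x hx, zero_pow hn, mul_zero] at h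
      have h' : z x.1 = 0 := (pow_eq_zero_iff hn).1 ((mul_eq_zero.1 h).resolve_left hu₁)
      rw [h', hall x hx, mul_zero]
    · push Not at hall
      obtain ⟨x₀, hx₀, hy₀⟩ := hall
      have hs₀ : z x₀.1 ≠ 0 := by
        intro h0
        have h := eqn x₀ hx₀ z hz
        rw [h0, zero_pow hn, mul_zero] at h
        exact hy₀ ((pow_eq_zero_iff hn).1 ((mul_eq_zero.1 h.symm).resolve_left hu₂))
      refine ⟨z x₀.1 / θ z x₀.2, div_ne_zero hs₀ hy₀, fun x hx => ?_⟩
      have hx' : θ z x₀.2 • x - θ z x.2 • x₀ ∈ T :=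
        T.sub_mem (T.smul_mem _ hx) (T.smul_mem _ hx₀)
      have h := eqn _ hx' z hz
      simp only [Prod.fst_sub, Prod.snd_sub, Prod.smul_fst, Prod.smul_snd, map_sub, map_smul,
        smul_eq_mul] at h
      rw [mul_comm (θ z x₀.2) (θ z x.2), sub_self, zero_pow hn, mul_zero] at h
      have h2 : θ z x₀.2 * z x.1 - θ z x.2 * z x₀.1 = 0 :=
        (pow_eq_zero_iff hn).1 ((mul_eq_zero.1 h).resolve_left hu₁)
      field_simp
      linear_combination h2
  refine ⟨fun z => if h : z ∈ Z then Classical.choose (loc z h) else 1, fun z hz => ?_,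
    fun x hx z hz => ?_⟩
  · simp only [dif_pos hz]
    exact (Classical.choose_spec (loc z hz)).1
  · simp only [dif_pos hz]
    exact (Classical.choose_spec (loc z hz)).2 x hx

/-- **COLON.** The multiplier ring of a twisted module is `R`: if `x · T_ζ ⊆ T_ζ` then `x ∈ R`. -/
theorem mem_of_mul_twisted {R : Subalgebra k (B × B)} (hR : IsNode R Z θ)
    (hζ : ∀ z ∈ Z, ζ z ≠ 0) (x : B × B)
    (hx : ∀ t ∈ twisted Z θ ζ, x * t ∈ twisted Z θ ζ) : x ∈ R := by
  obtain ⟨b, hb, hb'⟩ := exists_one_mem_twisted hR.injOn hζ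
  rw [hR.mem_iff']
  intro z hz
  have h := hx _ hb z hz
  rw [Prod.fst_mul, Prod.snd_mul, mul_one, map_mul, hb' z hz, mul_left_comm,
    mul_inv_cancel₀ (hζ z hz), mul_one] at h
  exact h

/-- Variant of **COLON** used in the `τ`-trick: if `T'' · T' ⊆ T'` and `T' = T_ζ`, then
`T'' ⊆ R`. -/
theorem le_of_mul_le_twisted {R : Subalgebra k (B × B)} (hR : IsNode R Z θ)
    (hζ : ∀ z ∈ Z, ζ z ≠ 0) (T'' : Set (B × B))
    (h : ∀ x ∈ T'', ∀ t ∈ twisted Z θ ζ, x * t ∈ twisted Z θ ζ) : ∀ x ∈ T'', x ∈ R :=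
  fun x hx => mem_of_mul_twisted hR hζ x (h x hx)

/-! ## The codimension count -/

/-- The evaluation map `(a, b) ↦ (a(z) − ζ_z b(θ z))_{z ∈ Z}`, whose kernel is `T_ζ`. -/
def evalTw (Z : Finset (B →ₐ[k] k)) (θ : (B →ₐ[k] k) → (B →ₐ[k] k)) (ζ : (B →ₐ[k] k) → k) :
    (B × B) →ₗ[k] ({z : B →ₐ[k] k // z ∈ Z} → k) where
  toFun x := fun z => z.1 x.1 - ζ z.1 * θ z.1 x.2
  map_add' := by
    intro x y
    funext z
    simp only [Prod.fst_add, Prod.snd_add, map_add, Pi.add_apply]
    ring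
  map_smul' := by
    intro c x
    funext z
    simp only [Prod.smul_fst, Prod.smul_snd, map_smul, smul_eq_mul, Pi.smul_apply,
      RingHom.id_apply]
    ring

theorem evalTw_apply (x : B × B) (z : {z : B →ₐ[k] k // z ∈ Z}) :
    evalTw Z θ ζ x z = z.1 x.1 - ζ z.1 * θ z.1 x.2 := rfl

theorem ker_evalTw : LinearMap.ker (evalTw Z θ ζ) = twisted Z θ ζ := by
  ext x
  rw [LinearMap.mem_ker, mem_twisted]
  constructor
  · intro h z hz
    have := congrFun h ⟨z, hz⟩
    rw [evalTw_apply, Pi.zero_apply, sub_eq_zero] at this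
    exact this
  · intro h
    funext z
    rw [evalTw_apply, Pi.zero_apply, sub_eq_zero]
    exact h z.1 z.2

/-- The evaluation map is onto, already on `B × 0`. -/
theorem exists_evalTw_eq (c : {z : B →ₐ[k] k // z ∈ Z} → k) :
    ∃ a : B, evalTw Z θ ζ (a, 0) = c := by
  classical
  obtain ⟨a, ha⟩ := exists_interp Z
    (fun z => if h : z ∈ Z then c ⟨z, h⟩ else 0)
  refine ⟨a, ?_⟩
  funext z
  rw [evalTw_apply, map_zero, mul_zero, sub_zero, ha _ z.2, dif_pos z.2]

theorem evalTw_surjective : Function.Surjective (evalTw Z θ ζ) := fun c => by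
  obtain ⟨a, ha⟩ := exists_evalTw_eq (θ := θ) (ζ := ζ) c
  exact ⟨_, ha⟩

/-- **Codimension count.** If the evaluation map is onto on a finite-dimensional subspace `W`,
then `T_ζ ∩ W` has codimension `|Z|` in `W`. -/
theorem finrank_twisted_inf (W : Submodule k (B × B)) [Module.Finite k W]
    (hW : ∀ c : {z : B →ₐ[k] k // z ∈ Z} → k, ∃ w ∈ W, evalTw Z θ ζ w = c) :
    finrank k ↥(twisted Z θ ζ ⊓ W) + Z.card = finrank k W := by
  classical
  let f : W →ₗ[k] ({z : B →ₐ[k] k // z ∈ Z} → k) := (evalTw Z θ ζ).comp W.subtype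
  have hf : Function.Surjective f := by
    intro c
    obtain ⟨w, hw, hc⟩ := hW c
    exact ⟨⟨w, hw⟩, hc⟩
  have hker : (LinearMap.ker f).map W.subtype = twisted Z θ ζ ⊓ W := by
    ext x
    rw [Submodule.mem_map, Submodule.mem_inf, ← ker_evalTw]
    constructor
    · rintro ⟨w, hw, rfl⟩
      exact ⟨hw, w.2⟩
    · rintro ⟨hx, hxW⟩
      exact ⟨⟨x, hxW⟩, hx, rfl⟩
  have e1 : finrank k ↥(twisted Z θ ζ ⊓ W) = finrank k ↥(LinearMap.ker f) := by
    rw [← hker]
    exact (Submodule.equivSubtypeMap W (LinearMap.ker f)).finrank_eq.symm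
  have e2 : finrank k ↥(LinearMap.range f) = Z.card := by
    rw [LinearMap.range_eq_top.2 hf, finrank_top, Module.finrank_pi, Fintype.card_coe]
  have e3 := LinearMap.finrank_range_add_finrank_ker f
  omega

end Fermat.Agent.S34.NodeAlg
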