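import Mathlib
import Fermat.Agent.S34.LiftCore2
import Fermat.Agent.S34.NodeAlg

/-!
# S34 — TauAbs [TAU-ABS]: the graded, abstract form of the twisted-module steps (owner: helper91)

Steps (3) and (4) of the P6 design, abstractly (companion of `S34/LiftAbs`, which is step (5)).

Data: reduction data `h : LiftCore2.RedData A π O ρ` with `ρ : O →+* Ωk × Ωk` (`Ωk` a commutative
`k`-algebra, e.g. `k((T))`), a subspace `S` with `(Dim)`, a subalgebra `Bκ ≤ Ωk` (regular functions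
away from the cusps), graded `K`-subspaces `U V' V'' : ℕ → Submodule K Ω`
(`U c = L(cE)`, `V' c = L(D' + cE)`, `V'' c = L(D'' + cE)`), a filtration
`W : ℕ → Submodule k (Ωk × Ωk)` exhausting `Bκ × Bκ`, and a node structure `(Z, θ)` for
`B̄ = ⋃ redSp (U c)`.

* `nodeAlg Z θ`            : the subalgebra `{(a, b) | a(z) = b(θ z) ∀ z ∈ Z}` of `B × B`;
* `ambTw Bκ Z θ ζ`         : the twisted module `T_ζ` as a subspace of `Ωk × Ωk`;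
* `finrank_ambTw_inf`      : `dim (T_ζ ∩ W) + |Z| = dim W`;
* `redSp_U_eq`             : `redSp (U c) = T_1 ∩ W c` for `c ≥ c₀` (from (CR) and (NODE));
* `finrank_redSp_U`        : `dim redSp (U c) + |Z| = dim W c`;
* `exists_zeta`            : `∃ ζ`, `ζ_z ≠ 0`, `redSp (V' c) = T_ζ ∩ W c` for `c ≥ c₀`;
* `redSp_V''_eq`           : **`redSp (V'' c) = redSp (U c)` for `c ≥ c₀`**.
-/

set_option autoImplicit false

namespace Fermat.Agent.S34.TauAbs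

open Module Fermat.Agent.S34.LiftCore2 Fermat.Agent.S34.NodeAlg

/-! ## The node algebra and ambient twisted modules -/

section Ambient

variable {k : Type*} [Field k]

/-- The node algebra `{(a, b) | a(z) = b(θ z) for all z ∈ Z}`. -/
def nodeAlg {B : Type*} [CommRing B] [Algebra k B] (Z : Finset (B →ₐ[k] k))
    (θ : (B →ₐ[k] k) → (B →ₐ[k] k)) : Subalgebra k (B × B) where
  carrier := {x | ∀ z ∈ Z, z x.1 = θ z x.2}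
  mul_mem' := by
    intro x y hx hy z hz
    rw [Prod.fst_mul, Prod.snd_mul, map_mul, map_mul, hx z hz, hy z hz]
  add_mem' := by
    intro x y hx hy z hz
    rw [Prod.fst_add, Prod.snd_add, map_add, map_add, hx z hz, hy z hz]
  algebraMap_mem' := by
    intro c z _
    rw [Prod.algebraMap_apply, AlgHom.commutes, AlgHom.commutes]

theorem mem_nodeAlg {B : Type*} [CommRing B] [Algebra k B] {Z : Finset (B →ₐ[k] k)}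
    {θ : (B →ₐ[k] k) → (B →ₐ[k] k)} {x : B × B} :
    x ∈ nodeAlg Z θ ↔ ∀ z ∈ Z, z x.1 = θ z x.2 := Iff.rfl

theorem isNode_nodeAlg {B : Type*} [CommRing B] [Algebra k B] {Z : Finset (B →ₐ[k] k)}
    {θ : (B →ₐ[k] k) → (B →ₐ[k] k)} (hθ : Set.InjOn θ (Z : Set (B →ₐ[k] k))) :
    IsNode (nodeAlg Z θ) Z θ :=
  ⟨hθ, fun _ _ => Iff.rfl⟩

variable {Ωk : Type*} [CommRing Ωk] [Algebra k Ωk] (Bκ : Subalgebra k Ωk)

/-- The inclusion `Bκ × Bκ → Ωk × Ωk`. -/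
def incl : (Bκ × Bκ) →ₗ[k] (Ωk × Ωk) :=
  LinearMap.prodMap Bκ.val.toLinearMap Bκ.val.toLinearMap

theorem incl_apply (x : Bκ × Bκ) : incl Bκ x = ((x.1 : Ωk), (x.2 : Ωk)) := rfl

theorem incl_injective : Function.Injective (incl Bκ) := by
  intro x y hxy
  rw [incl_apply, incl_apply, Prod.mk.injEq] at hxy
  exact Prod.ext (Subtype.ext hxy.1) (Subtype.ext hxy.2)

theorem mem_range_incl {x : Ωk × Ωk} :
    x ∈ LinearMap.range (incl Bκ) ↔ x.1 ∈ Bκ ∧ x.2 ∈ Bκ := by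
  constructor
  · rintro ⟨y, rfl⟩
    exact ⟨y.1.2, y.2.2⟩
  · rintro ⟨h1, h2⟩
    exact ⟨(⟨x.1, h1⟩, ⟨x.2, h2⟩), rfl⟩

theorem incl_mul (x y : Bκ × Bκ) : incl Bκ (x * y) = incl Bκ x * incl Bκ y := rfl

variable (Z : Finset (Bκ →ₐ[k] k)) (θ : (Bκ →ₐ[k] k) → (Bκ →ₐ[k] k)) (ζ : (Bκ →ₐ[k] k) → k)

/-- The twisted module `T_ζ` as a `k`-subspace of `Ωk × Ωk`. -/
def ambTw : Submodule k (Ωk × Ωk) := (twisted Z θ ζ).map (incl Bκ)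

variable {Bκ Z θ ζ}

theorem mem_ambTw {x : Ωk × Ωk} :
    x ∈ ambTw Bκ Z θ ζ ↔
      ∃ (h1 : x.1 ∈ Bκ) (h2 : x.2 ∈ Bκ), ∀ z ∈ Z, z ⟨x.1, h1⟩ = ζ z * θ z ⟨x.2, h2⟩ := by
  constructor
  · rintro ⟨y, hy, rfl⟩
    exact ⟨y.1.2, y.2.2, hy⟩
  · rintro ⟨h1, h2, h⟩
    exact ⟨(⟨x.1, h1⟩, ⟨x.2, h2⟩), h, rfl⟩

theorem incl_mem_ambTw {y : Bκ × Bκ} : incl Bκ y ∈ ambTw Bκ Z θ ζ ↔ y ∈ twisted Z θ ζ := by
  constructor
  · rintro ⟨y', hy', hyy'⟩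
    rwa [← incl_injective Bκ hyy']
  · intro hy
    exact ⟨y, hy, rfl⟩

/-- **Codimension count, ambient form**: if `W ⊆ Bκ × Bκ` is finite-dimensional and the evaluation
at `Z` is onto on `W ∩ (Bκ × 0)`, then `dim (T_ζ ∩ W) + |Z| = dim W`. -/
theorem finrank_ambTw_inf (W : Submodule k (Ωk × Ωk)) [Module.Finite k W]
    (hWB : ∀ x ∈ W, x.1 ∈ Bκ ∧ x.2 ∈ Bκ)
    (hev : ∀ v : (Bκ →ₐ[k] k) → k, ∃ a : Bκ, ((a : Ωk), (0 : Ωk)) ∈ W ∧ ∀ z ∈ Z, z a = v z) :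
    finrank k ↥(ambTw Bκ Z θ ζ ⊓ W) + Z.card = finrank k W := by
  classical
  set W' : Submodule k (Bκ × Bκ) := W.comap (incl Bκ) with hW'
  have hmap : W'.map (incl Bκ) = W :=
    Submodule.map_comap_eq_of_le fun x hx => (mem_range_incl Bκ).2 (hWB x hx)
  let f : W' →ₗ[k] W := (incl Bκ).restrict (p := W') (q := W) fun x hx => hx
  have hfinj : Function.Injective f := by
    intro x y hxy
    have : incl Bκ (x : Bκ × Bκ) = incl Bκ (y : Bκ × Bκ) := congrArg Subtype.val hxy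
    exact Subtype.ext (incl_injective Bκ this)
  have hfsurj : Function.Surjective f := by
    rintro ⟨w, hw⟩
    obtain ⟨y, rfl⟩ := (mem_range_incl Bκ).2 (hWB w hw)
    exact ⟨⟨y, hw⟩, rfl⟩
  have : Module.Finite k W' := Module.Finite.of_injective f hfinj
  have e1 : finrank k W' = finrank k W := (LinearEquiv.ofBijective f ⟨hfinj, hfsurj⟩).finrank_eq
  have hW'ev : ∀ c : {z : Bκ →ₐ[k] k // z ∈ Z} → k, ∃ w ∈ W', evalTw Z θ ζ w = c := by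
    intro c
    obtain ⟨a, haW, ha⟩ := hev (fun z => if hz : z ∈ Z then c ⟨z, hz⟩ else 0)
    refine ⟨(a, 0), ?_, ?_⟩
    · show incl Bκ (a, 0) ∈ W
      exact haW
    · funext z
      rw [evalTw_apply, map_zero, mul_zero, sub_zero, ha z.1 z.2, dif_pos z.2]
  have e2 := finrank_twisted_inf (Z := Z) (θ := θ) (ζ := ζ) W' hW'ev
  have e3 : finrank k ↥((twisted Z θ ζ ⊓ W').map (incl Bκ)) = finrank k ↥(twisted Z θ ζ ⊓ W') :=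
    (Submodule.equivMapOfInjective (incl Bκ) (incl_injective Bκ) (twisted Z θ ζ ⊓ W')).finrank_eq.symm
  have e4 : (twisted Z θ ζ ⊓ W').map (incl Bκ) = ambTw Bκ Z θ ζ ⊓ W := by
    rw [Submodule.map_inf _ (incl_injective Bκ), hmap]
    rfl
  rw [e4] at e3
  omega

end Ambient

/-! ## The graded statements -/

section Graded

variable {K Ω k Ωk : Type*} [Field K] [Field Ω] [Algebra K Ω] [Field k] [CommRing Ωk]
  [Algebra k Ωk]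
variable {A : ValuationSubring K} {π : A →+* k} {O : Subring Ω} {ρ : O →+* Ωk × Ωk}

/-- **`B̄(c) = T_1 ∩ W(c)`** for `c ≥ c₀`, from (INCL), (CR) and (NODE). -/
theorem redSp_U_eq (h : RedData A π O ρ) (Bκ : Subalgebra k Ωk)
    (U : ℕ → Submodule K Ω) (W : ℕ → Submodule k (Ωk × Ωk))
    (hWB : ∀ x : Ωk × Ωk, (x.1 ∈ Bκ ∧ x.2 ∈ Bκ) ↔ ∃ c, x ∈ W c)
    (hIU : ∀ c, h.redSp (U c) ≤ W c)
    (c₀ : ℕ) (hCR : ∀ c, c₀ ≤ c → ∀ c', h.redSp (U c') ⊓ W c ≤ h.redSp (U c))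
    (Z : Finset (Bκ →ₐ[k] k)) (θ : (Bκ →ₐ[k] k) → (Bκ →ₐ[k] k))
    (hnode : ∀ a b : Bκ, (∃ c, ((a : Ωk), (b : Ωk)) ∈ h.redSp (U c)) ↔ ∀ z ∈ Z, z a = θ z b)
    (c : ℕ) (hc : c₀ ≤ c) :
    h.redSp (U c) = ambTw Bκ Z θ (fun _ => 1) ⊓ W c := by
  apply le_antisymm
  · intro x hx
    have hxW : x ∈ W c := hIU c hx
    obtain ⟨h1, h2⟩ := (hWB x).2 ⟨c, hxW⟩
    refine ⟨mem_ambTw.2 ⟨h1, h2, fun z hz => ?_⟩, hxW⟩
    rw [one_mul]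
    exact (hnode ⟨x.1, h1⟩ ⟨x.2, h2⟩).1 ⟨c, hx⟩ z hz
  · rintro x ⟨hxT, hxW⟩
    obtain ⟨h1, h2, hz⟩ := mem_ambTw.1 hxT
    obtain ⟨c', hc'⟩ := (hnode ⟨x.1, h1⟩ ⟨x.2, h2⟩).2 fun z hz' => by
      rw [hz z hz', one_mul]
    exact hCR c hc c' ⟨hc', hxW⟩

/-- **The count** `dim B̄(c) + |Z| = dim W(c)` for `c ≥ c₀`. -/
theorem finrank_redSp_U (h : RedData A π O ρ) (Bκ : Subalgebra k Ωk)
    (U : ℕ → Submodule K Ω) (W : ℕ → Submodule k (Ωk × Ωk))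
    (hWfin : ∀ c, Module.Finite k (W c))
    (hWB : ∀ x : Ωk × Ωk, (x.1 ∈ Bκ ∧ x.2 ∈ Bκ) ↔ ∃ c, x ∈ W c)
    (hIU : ∀ c, h.redSp (U c) ≤ W c)
    (c₀ : ℕ) (hCR : ∀ c, c₀ ≤ c → ∀ c', h.redSp (U c') ⊓ W c ≤ h.redSp (U c))
    (Z : Finset (Bκ →ₐ[k] k)) (θ : (Bκ →ₐ[k] k) → (Bκ →ₐ[k] k))
    (hnode : ∀ a b : Bκ, (∃ c, ((a : Ωk), (b : Ωk)) ∈ h.redSp (U c)) ↔ ∀ z ∈ Z, z a = θ z b)
    (hev : ∀ c, c₀ ≤ c → ∀ v : (Bκ →ₐ[k] k) → k,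
      ∃ a : Bκ, ((a : Ωk), (0 : Ωk)) ∈ W c ∧ ∀ z ∈ Z, z a = v z)
    (c : ℕ) (hc : c₀ ≤ c) :
    finrank k ↥(h.redSp (U c)) + Z.card = finrank k (W c) := by
  have := hWfin c
  rw [redSp_U_eq h Bκ U W hWB hIU c₀ hCR Z θ hnode c hc]
  exact finrank_ambTw_inf (W c) (fun x hx => (hWB x).2 ⟨c, hx⟩) (hev c hc)

/-- **TWIST, graded form**: there is `ζ` with `ζ_z ≠ 0` on `Z` such that
`redSp (V' c) = T_ζ ∩ W(c)` for all `c ≥ c₀` (and `⊆` for all `c`). -/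
theorem exists_zeta (h : RedData A π O ρ) (S : Submodule K Ω) (hS : HasDim k O ρ S)
    (Bκ : Subalgebra k Ωk) (U V' : ℕ → Submodule K Ω)
    (hUfin : ∀ c, Module.Finite K (U c)) (hV'fin : ∀ c, Module.Finite K (V' c))
    (hUS : ∀ c, U c ≤ S) (hV'S : ∀ c, V' c ≤ S) (hV'mono : Monotone V')
    (W : ℕ → Submodule k (Ωk × Ωk)) (hWfin : ∀ c, Module.Finite k (W c))
    (hWB : ∀ x : Ωk × Ωk, (x.1 ∈ Bκ ∧ x.2 ∈ Bκ) ↔ ∃ c, x ∈ W c)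
    (n : ℕ) (hn : n ≠ 0) (u : O) (u₁ u₂ : k) (hu₁ : u₁ ≠ 0) (hu₂ : u₂ ≠ 0)
    (hρu : ρ u = (algebraMap k Ωk u₁, algebraMap k Ωk u₂))
    (hpow : ∀ c, ∀ s ∈ V' c, s ^ n * (u : Ω) ∈ U (n * c))
    (hIU : ∀ c, h.redSp (U c) ≤ W c) (hIV' : ∀ c, h.redSp (V' c) ≤ W c)
    (c₀ : ℕ) (hCR : ∀ c, c₀ ≤ c → ∀ c', h.redSp (U c') ⊓ W c ≤ h.redSp (U c))
    (Z : Finset (Bκ →ₐ[k] k)) (θ : (Bκ →ₐ[k] k) → (Bκ →ₐ[k] k))
    (hθ : Set.InjOn θ (Z : Set (Bκ →ₐ[k] k)))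
    (hnode : ∀ a b : Bκ, (∃ c, ((a : Ωk), (b : Ωk)) ∈ h.redSp (U c)) ↔ ∀ z ∈ Z, z a = θ z b)
    (hev : ∀ c, c₀ ≤ c → ∀ v : (Bκ →ₐ[k] k) → k,
      ∃ a : Bκ, ((a : Ωk), (0 : Ωk)) ∈ W c ∧ ∀ z ∈ Z, z a = v z)
    (hR' : ∀ c, c₀ ≤ c → finrank K (V' c) = finrank K (U c)) :
    ∃ ζ : (Bκ →ₐ[k] k) → k, (∀ z ∈ Z, ζ z ≠ 0) ∧
      (∀ c, h.redSp (V' c) ≤ ambTw Bκ Z θ ζ ⊓ W c) ∧
      ∀ c, c₀ ≤ c → h.redSp (V' c) = ambTw Bκ Z θ ζ ⊓ W c := by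
  classical
  -- the union of the `redSp (V' c)`, pulled back to `Bκ × Bκ`
  let T : Submodule k (Bκ × Bκ) :=
    { carrier := {x | ∃ c, incl Bκ x ∈ h.redSp (V' c)}
      add_mem' := by
        rintro x y ⟨c, hx⟩ ⟨c', hy⟩
        refine ⟨max c c', ?_⟩
        rw [map_add]
        exact add_mem (h.redSp_mono (hV'mono (le_max_left c c')) hx)
          (h.redSp_mono (hV'mono (le_max_right c c')) hy)
      zero_mem' := ⟨0, by rw [map_zero]; exact zero_mem _⟩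
      smul_mem' := by
        rintro a x ⟨c, hx⟩
        refine ⟨c, ?_⟩
        rw [map_smul]
        exact Submodule.smul_mem _ a hx }
  have hT : ∀ x ∈ T, (u₁ • x.1 ^ n, u₂ • x.2 ^ n) ∈ nodeAlg Z θ := by
    rintro x ⟨c, y, hy, hyx⟩
    have hmem : ((y ^ n * u : O) : Ω) ∈ U (n * c) := by
      rw [Subring.coe_mul, Subring.coe_pow]
      exact hpow c _ hy
    have hred := h.ρ_mem_redSp (y ^ n * u) hmem
    have e : ρ (y ^ n * u) =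
        (((u₁ • x.1 ^ n : Bκ) : Ωk), ((u₂ • x.2 ^ n : Bκ) : Ωk)) := by
      rw [map_mul, map_pow, hyx, hρu, incl_apply]
      refine Prod.ext ?_ ?_
      · simp [Algebra.smul_def, mul_comm]
      · simp [Algebra.smul_def, mul_comm]
    rw [e] at hred
    exact (hnode _ _).1 ⟨n * c, hred⟩
  obtain ⟨ζ, hζ, hTζ⟩ := exists_twist (isNode_nodeAlg hθ) T hn hu₁ hu₂ hT
  have hle : ∀ c, h.redSp (V' c) ≤ ambTw Bκ Z θ ζ ⊓ W c := by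
    intro c x hx
    have hxW : x ∈ W c := hIV' c hx
    obtain ⟨h1, h2⟩ := (hWB x).2 ⟨c, hxW⟩
    refine ⟨?_, hxW⟩
    have hxT : ((⟨x.1, h1⟩, ⟨x.2, h2⟩) : Bκ × Bκ) ∈ T := ⟨c, hx⟩
    exact (incl_mem_ambTw (y := (⟨x.1, h1⟩, ⟨x.2, h2⟩))).2 (hTζ hxT)
  refine ⟨ζ, hζ, hle, fun c hc => ?_⟩
  have := hWfin c
  have := hUfin c
  have := hV'fin c
  obtain ⟨hf1, hd1⟩ := h.finrank_redSp hS (hV'S c)
  obtain ⟨hf2, hd2⟩ := h.finrank_redSp hS (hUS c)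
  have e1 := finrank_redSp_U h Bκ U W hWfin hWB hIU c₀ hCR Z θ hnode hev c hc
  have e2 := finrank_ambTw_inf (Z := Z) (θ := θ) (ζ := ζ) (W c)
    (fun x hx => (hWB x).2 ⟨c, hx⟩) (hev c hc)
  have hfin : Module.Finite k ↥(ambTw Bκ Z θ ζ ⊓ W c) :=
    Submodule.finiteDimensional_of_le inf_le_right
  apply Submodule.eq_of_le_of_finrank_le (hle c)
  have := hR' c hc
  omega

/-- **TAU, graded form**: `redSp (V'' c) = redSp (U c)` for `c ≥ c₀`, i.e.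
`Red (L(D'' + cE)°) = B̄(c)`. -/
theorem redSp_V''_eq (h : RedData A π O ρ) (S : Submodule K Ω) (hS : HasDim k O ρ S)
    (Bκ : Subalgebra k Ωk) (U V' V'' : ℕ → Submodule K Ω)
    (hUfin : ∀ c, Module.Finite K (U c)) (hV'fin : ∀ c, Module.Finite K (V' c))
    (hV''fin : ∀ c, Module.Finite K (V'' c))
    (hUS : ∀ c, U c ≤ S) (hV'S : ∀ c, V' c ≤ S) (hV''S : ∀ c, V'' c ≤ S)
    (hV'mono : Monotone V')
    (W : ℕ → Submodule k (Ωk × Ωk)) (hWmono : Monotone W) (hWfin : ∀ c, Module.Finite k (W c))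
    (hWB : ∀ x : Ωk × Ωk, (x.1 ∈ Bκ ∧ x.2 ∈ Bκ) ↔ ∃ c, x ∈ W c)
    (n : ℕ) (hn : n ≠ 0) (u : O) (u₁ u₂ : k) (hu₁ : u₁ ≠ 0) (hu₂ : u₂ ≠ 0)
    (hρu : ρ u = (algebraMap k Ωk u₁, algebraMap k Ωk u₂))
    (hpow : ∀ c, ∀ s ∈ V' c, s ^ n * (u : Ω) ∈ U (n * c))
    (hτ : ∀ (c c' : ℕ) (s t : O), (s : Ω) ∈ V'' c → (t : Ω) ∈ V' c' →
      ρ (s * t) ∈ h.redSp (V' (c + c')))
    (hIU : ∀ c, h.redSp (U c) ≤ W c) (hIV' : ∀ c, h.redSp (V' c) ≤ W c)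
    (hIV'' : ∀ c, h.redSp (V'' c) ≤ W c)
    (c₀ : ℕ) (hCR : ∀ c, c₀ ≤ c → ∀ c', h.redSp (U c') ⊓ W c ≤ h.redSp (U c))
    (Z : Finset (Bκ →ₐ[k] k)) (θ : (Bκ →ₐ[k] k) → (Bκ →ₐ[k] k))
    (hθ : Set.InjOn θ (Z : Set (Bκ →ₐ[k] k)))
    (hnode : ∀ a b : Bκ, (∃ c, ((a : Ωk), (b : Ωk)) ∈ h.redSp (U c)) ↔ ∀ z ∈ Z, z a = θ z b)
    (hev : ∀ c, c₀ ≤ c → ∀ v : (Bκ →ₐ[k] k) → k,
      ∃ a : Bκ, ((a : Ωk), (0 : Ωk)) ∈ W c ∧ ∀ z ∈ Z, z a = v z)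
    (hR' : ∀ c, c₀ ≤ c → finrank K (V' c) = finrank K (U c))
    (hR'' : ∀ c, c₀ ≤ c → finrank K (V'' c) = finrank K (U c))
    (c : ℕ) (hc : c₀ ≤ c) :
    h.redSp (V'' c) = h.redSp (U c) := by
  classical
  obtain ⟨ζ, hζ, hle', heq'⟩ := exists_zeta h S hS Bκ U V' hUfin hV'fin hUS hV'S hV'mono W hWfin
    hWB n hn u u₁ u₂ hu₁ hu₂ hρu hpow hIU hIV' c₀ hCR Z θ hθ hnode hev hR'
  have hle : h.redSp (V'' c) ≤ h.redSp (U c) := by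
    rintro x hx
    have hxW : x ∈ W c := hIV'' c hx
    obtain ⟨h1, h2⟩ := (hWB x).2 ⟨c, hxW⟩
    obtain ⟨s, hs, rfl⟩ := hx
    -- the pair `xb` of elements of `Bκ` lies in the node algebra
    have hxb : ((⟨(ρ s).1, h1⟩, ⟨(ρ s).2, h2⟩) : Bκ × Bκ) ∈ nodeAlg Z θ := by
      refine mem_of_mul_twisted (isNode_nodeAlg hθ) hζ _ fun t ht => ?_
      obtain ⟨c₁, hc₁⟩ := (hWB (incl Bκ t)).1 ⟨t.1.2, t.2.2⟩
      have hc' : incl Bκ t ∈ W (max c₁ c₀) := hWmono (le_max_left c₁ c₀) hc₁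
      have htV : incl Bκ t ∈ h.redSp (V' (max c₁ c₀)) := by
        rw [heq' _ (le_max_right c₁ c₀)]
        exact ⟨incl_mem_ambTw.2 ht, hc'⟩
      obtain ⟨t', ht', ht'ρ⟩ := htV
      have hprod := hle' _ (hτ c (max c₁ c₀) s t' hs ht')
      have e : ρ (s * t') = incl Bκ ((⟨(ρ s).1, h1⟩, ⟨(ρ s).2, h2⟩) * t) := by
        rw [map_mul, ht'ρ, incl_mul]
        rfl
      rw [e] at hprod
      exact incl_mem_ambTw.1 hprod.1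
    obtain ⟨c'', hc''⟩ := (hnode ⟨(ρ s).1, h1⟩ ⟨(ρ s).2, h2⟩).2 hxb
    exact hCR c hc c'' ⟨hc'', hxW⟩
  have := hUfin c
  have := hV''fin c
  obtain ⟨hf1, hd1⟩ := h.finrank_redSp hS (hV''S c)
  obtain ⟨hf2, hd2⟩ := h.finrank_redSp hS (hUS c)
  apply Submodule.eq_of_le_of_finrank_le hle
  have := hR'' c hc
  omega

end Graded

end Fermat.Agent.S34.TauAbs
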