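import Mathlib
import Fermat.Agent.S34.TauAbs

/-!
# S34 — TauAbs2: `TauAbs` with Riemann as an INEQUALITY and evaluation derived (owner: helper91)

Same statements as `S34/TauAbs`, but

* the Riemann inputs are only `finrank K (U c) ≤ finrank K (V' c)` and
  `finrank K (U c) ≤ finrank K (V'' c)` (what `RR0` + `PullStep` give directly);
* `exists_ev` derives the surjectivity of the evaluation at `Z` on `W c` (for `c` large) from the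
  exhaustion of `Bκ × Bκ` by the `W c` and interpolation, so that the final statement
  `exists_redSp_V''_eq` has no evaluation hypothesis.
-/

set_option autoImplicit false

namespace Fermat.Agent.S34.TauAbs2

open Module Fermat.Agent.S34.LiftCore2 Fermat.Agent.S34.NodeAlg Fermat.Agent.S34.TauAbs

section Ev

variable {k Ωk : Type*} [Field k] [CommRing Ωk] [Algebra k Ωk]

/-- **(EVAL) is automatic**: if the `W c` are increasing and exhaust `Bκ × Bκ`, then for `c`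
large the evaluation at the finite set `Z` is onto already on `W c ∩ (Bκ × 0)`. -/
theorem exists_ev (Bκ : Subalgebra k Ωk) (W : ℕ → Submodule k (Ωk × Ωk)) (hWmono : Monotone W)
    (hWB : ∀ x : Ωk × Ωk, (x.1 ∈ Bκ ∧ x.2 ∈ Bκ) ↔ ∃ c, x ∈ W c)
    (Z : Finset (Bκ →ₐ[k] k)) :
    ∃ c₁ : ℕ, ∀ c, c₁ ≤ c → ∀ v : (Bκ →ₐ[k] k) → k,
      ∃ a : Bκ, ((a : Ωk), (0 : Ωk)) ∈ W c ∧ ∀ z ∈ Z, z a = v z := by
  classical
  choose e he using fun y : Bκ →ₐ[k] k => exists_delta Z y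
  have hc : ∀ y : Bκ →ₐ[k] k, ∃ c, (((e y : Bκ) : Ωk), (0 : Ωk)) ∈ W c := fun y =>
    (hWB _).1 ⟨(e y).2, Bκ.zero_mem⟩
  choose cy hcy using hc
  refine ⟨Z.sup cy, fun c hcc v => ⟨∑ y ∈ Z, v y • e y, ?_, fun z hz => ?_⟩⟩
  · have hsum : (((∑ y ∈ Z, v y • e y : Bκ) : Ωk), (0 : Ωk)) =
        ∑ y ∈ Z, v y • (((e y : Bκ) : Ωk), (0 : Ωk)) := by
      refine Prod.ext ?_ ?_
      · rw [Prod.fst_sum]
        simp
      · rw [Prod.snd_sum]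
        simp
    rw [hsum]
    refine Submodule.sum_mem _ fun y hy => Submodule.smul_mem _ _ ?_
    exact hWmono ((Finset.le_sup hy).trans hcc) (hcy y)
  · rw [map_sum, Finset.sum_eq_single z]
    · rw [map_smul, (he z).1, smul_eq_mul, mul_one]
    · intro y' _ hne
      rw [map_smul, (he y').2 z hz hne.symm, smul_zero]
    · intro h
      exact absurd hz h

end Ev

section Graded

variable {K Ω k Ωk : Type*} [Field K] [Field Ω] [Algebra K Ω] [Field k] [CommRing Ωk]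
  [Algebra k Ωk]
variable {A : ValuationSubring K} {π : A →+* k} {O : Subring Ω} {ρ : O →+* Ωk × Ωk}

/-- `TauAbs.exists_zeta` with the Riemann input as an inequality. -/
theorem exists_zeta_of_le (h : RedData A π O ρ) (S : Submodule K Ω) (hS : HasDim k O ρ S)
    (Bκ : Subalgebra k Ωk) (U V' : ℕ → Submodule K Ω)
    (hUfin : ∀ c, Module.Finite K (U c)) (hV'fin : ∀ c, Module.Finite K (V' c))
    (hUS : ∀ c, U c ≤ S) (hV'S : ∀ c, V' c ≤ S) (hV'mono : Monotone V')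
    (W : ℕ → Submodule k (Ωk × Ωk)) (hWfin : ∀ c, Module.Finite k (W c))
    (hWB : ∀ x : Ωk × Ωk, (x.1 ∈ Bκ ∧ x.2 ∈ Bκ) ↔ ∃ c, x ∈ W c)
    (n : ℕ) (hn : n ≠ 0) (u : O) (u₁ u₂ : k) (hu₁ : u₁ ≠ 0) (hu₂ : u₂ ≠ 0)
    (hρu : ρ u = (algebraMap k Ωk u₁, algebraMap k Ωk u₂))
    (hpow : ∀ c, ∀ s ∈ V' c, s ^ n * (u : Ω) ∈ U (n * c))
    (hIU : ∀ c, h.redSp (U c) ≤ W c) (hIV' : ∀ c, h.redSp (V' c) ≤ W c)
    (c₀ : ℕ) (hCR : ∀ c, c₀ ≤ c → ∀ c', h.redSp (U c') ⊓ W c ≤ h.redSp (U c))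
    (Z : Finset (Bκ →ₐ[k] k)) (θ : (Bκ →ₐ[k] k) → (Bκ →ₐ[k] k))
    (hθ : Set.InjOn θ (Z : Set (Bκ →ₐ[k] k)))
    (hnode : ∀ a b : Bκ, (∃ c, ((a : Ωk), (b : Ωk)) ∈ h.redSp (U c)) ↔ ∀ z ∈ Z, z a = θ z b)
    (hev : ∀ c, c₀ ≤ c → ∀ v : (Bκ →ₐ[k] k) → k,
      ∃ a : Bκ, ((a : Ωk), (0 : Ωk)) ∈ W c ∧ ∀ z ∈ Z, z a = v z)
    (hR' : ∀ c, c₀ ≤ c → finrank K (U c) ≤ finrank K (V' c)) :
    ∃ ζ : (Bκ →ₐ[k] k) → k, (∀ z ∈ Z, ζ z ≠ 0) ∧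
      (∀ c, h.redSp (V' c) ≤ ambTw Bκ Z θ ζ ⊓ W c) ∧
      ∀ c, c₀ ≤ c → h.redSp (V' c) = ambTw Bκ Z θ ζ ⊓ W c := by
  classical
  let T : Submodule k (Bκ × Bκ) :=
    { carrier := {x | ∃ c, incl Bκ x ∈ h.redSp (V' c)}
      add_mem' := by
        rintro x y ⟨c, hx⟩ ⟨c', hy⟩
        refine ⟨max c c', ?_⟩
        rw [map_add]
        exact add_mem (h.redSp_mono (hV'mono (le_max_left c c')) hx)
          (h.redSp_mono (hV'mono (le_max_right c c')) hy)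
      zero_mem' := ⟨0, by rw [map_zero]; exact zero_mem _⟩
      smul_mem' := by
        rintro a x ⟨c, hx⟩
        refine ⟨c, ?_⟩
        rw [map_smul]
        exact Submodule.smul_mem _ a hx }
  have hT : ∀ x ∈ T, (u₁ • x.1 ^ n, u₂ • x.2 ^ n) ∈ nodeAlg Z θ := by
    rintro x ⟨c, y, hy, hyx⟩
    have hmem : ((y ^ n * u : O) : Ω) ∈ U (n * c) := by
      rw [Subring.coe_mul, Subring.coe_pow]
      exact hpow c _ hy
    have hred := h.ρ_mem_redSp (y ^ n * u) hmem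
    have e : ρ (y ^ n * u) =
        (((u₁ • x.1 ^ n : Bκ) : Ωk), ((u₂ • x.2 ^ n : Bκ) : Ωk)) := by
      rw [map_mul, map_pow, hyx, hρu, incl_apply]
      refine Prod.ext ?_ ?_
      · simp [Algebra.smul_def, mul_comm]
      · simp [Algebra.smul_def, mul_comm]
    rw [e] at hred
    exact (hnode _ _).1 ⟨n * c, hred⟩
  obtain ⟨ζ, hζ, hTζ⟩ := exists_twist (isNode_nodeAlg hθ) T hn hu₁ hu₂ hT
  have hle : ∀ c, h.redSp (V' c) ≤ ambTw Bκ Z θ ζ ⊓ W c := by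
    intro c x hx
    have hxW : x ∈ W c := hIV' c hx
    obtain ⟨h1, h2⟩ := (hWB x).2 ⟨c, hxW⟩
    refine ⟨?_, hxW⟩
    have hxT : ((⟨x.1, h1⟩, ⟨x.2, h2⟩) : Bκ × Bκ) ∈ T := ⟨c, hx⟩
    exact (incl_mem_ambTw (y := (⟨x.1, h1⟩, ⟨x.2, h2⟩))).2 (hTζ hxT)
  refine ⟨ζ, hζ, hle, fun c hc => ?_⟩
  have := hWfin c
  have := hUfin c
  have := hV'fin c
  obtain ⟨hf1, hd1⟩ := h.finrank_redSp hS (hV'S c)
  obtain ⟨hf2, hd2⟩ := h.finrank_redSp hS (hUS c)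
  have e1 := finrank_redSp_U h Bκ U W hWfin hWB hIU c₀ hCR Z θ hnode hev c hc
  have e2 := finrank_ambTw_inf (Z := Z) (θ := θ) (ζ := ζ) (W c)
    (fun x hx => (hWB x).2 ⟨c, hx⟩) (hev c hc)
  have hfin : Module.Finite k ↥(ambTw Bκ Z θ ζ ⊓ W c) :=
    Submodule.finiteDimensional_of_le inf_le_right
  apply Submodule.eq_of_le_of_finrank_le (hle c)
  have := hR' c hc
  omega

/-- `TauAbs.redSp_V''_eq` with the Riemann inputs as inequalities: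
`redSp (V'' c) = redSp (U c)` for `c ≥ c₀`. -/
theorem redSp_V''_eq_of_le (h : RedData A π O ρ) (S : Submodule K Ω) (hS : HasDim k O ρ S)
    (Bκ : Subalgebra k Ωk) (U V' V'' : ℕ → Submodule K Ω)
    (hUfin : ∀ c, Module.Finite K (U c)) (hV'fin : ∀ c, Module.Finite K (V' c))
    (hV''fin : ∀ c, Module.Finite K (V'' c))
    (hUS : ∀ c, U c ≤ S) (hV'S : ∀ c, V' c ≤ S) (hV''S : ∀ c, V'' c ≤ S)
    (hV'mono : Monotone V')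
    (W : ℕ → Submodule k (Ωk × Ωk)) (hWmono : Monotone W) (hWfin : ∀ c, Module.Finite k (W c))
    (hWB : ∀ x : Ωk × Ωk, (x.1 ∈ Bκ ∧ x.2 ∈ Bκ) ↔ ∃ c, x ∈ W c)
    (n : ℕ) (hn : n ≠ 0) (u : O) (u₁ u₂ : k) (hu₁ : u₁ ≠ 0) (hu₂ : u₂ ≠ 0)
    (hρu : ρ u = (algebraMap k Ωk u₁, algebraMap k Ωk u₂))
    (hpow : ∀ c, ∀ s ∈ V' c, s ^ n * (u : Ω) ∈ U (n * c))
    (hτ : ∀ (c c' : ℕ) (s t : O), (s : Ω) ∈ V'' c → (t : Ω) ∈ V' c' →
      ρ (s * t) ∈ h.redSp (V' (c + c')))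
    (hIU : ∀ c, h.redSp (U c) ≤ W c) (hIV' : ∀ c, h.redSp (V' c) ≤ W c)
    (hIV'' : ∀ c, h.redSp (V'' c) ≤ W c)
    (c₀ : ℕ) (hCR : ∀ c, c₀ ≤ c → ∀ c', h.redSp (U c') ⊓ W c ≤ h.redSp (U c))
    (Z : Finset (Bκ →ₐ[k] k)) (θ : (Bκ →ₐ[k] k) → (Bκ →ₐ[k] k))
    (hθ : Set.InjOn θ (Z : Set (Bκ →ₐ[k] k)))
    (hnode : ∀ a b : Bκ, (∃ c, ((a : Ωk), (b : Ωk)) ∈ h.redSp (U c)) ↔ ∀ z ∈ Z, z a = θ z b)
    (hev : ∀ c, c₀ ≤ c → ∀ v : (Bκ →ₐ[k] k) → k,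
      ∃ a : Bκ, ((a : Ωk), (0 : Ωk)) ∈ W c ∧ ∀ z ∈ Z, z a = v z)
    (hR' : ∀ c, c₀ ≤ c → finrank K (U c) ≤ finrank K (V' c))
    (hR'' : ∀ c, c₀ ≤ c → finrank K (U c) ≤ finrank K (V'' c))
    (c : ℕ) (hc : c₀ ≤ c) :
    h.redSp (V'' c) = h.redSp (U c) := by
  classical
  obtain ⟨ζ, hζ, hle', heq'⟩ := exists_zeta_of_le h S hS Bκ U V' hUfin hV'fin hUS hV'S hV'mono W
    hWfin hWB n hn u u₁ u₂ hu₁ hu₂ hρu hpow hIU hIV' c₀ hCR Z θ hθ hnode hev hR'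
  have hle : h.redSp (V'' c) ≤ h.redSp (U c) := by
    rintro x hx
    have hxW : x ∈ W c := hIV'' c hx
    obtain ⟨h1, h2⟩ := (hWB x).2 ⟨c, hxW⟩
    obtain ⟨s, hs, rfl⟩ := hx
    have hxb : ((⟨(ρ s).1, h1⟩, ⟨(ρ s).2, h2⟩) : Bκ × Bκ) ∈ nodeAlg Z θ := by
      refine mem_of_mul_twisted (isNode_nodeAlg hθ) hζ _ fun t ht => ?_
      obtain ⟨c₁, hc₁⟩ := (hWB (incl Bκ t)).1 ⟨t.1.2, t.2.2⟩
      have hc' : incl Bκ t ∈ W (max c₁ c₀) := hWmono (le_max_left c₁ c₀) hc₁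
      have htV : incl Bκ t ∈ h.redSp (V' (max c₁ c₀)) := by
        rw [heq' _ (le_max_right c₁ c₀)]
        exact ⟨incl_mem_ambTw.2 ht, hc'⟩
      obtain ⟨t', ht', ht'ρ⟩ := htV
      have hprod := hle' _ (hτ c (max c₁ c₀) s t' hs ht')
      have e : ρ (s * t') = incl Bκ ((⟨(ρ s).1, h1⟩, ⟨(ρ s).2, h2⟩) * t) := by
        rw [map_mul, ht'ρ, incl_mul]
        rfl
      rw [e] at hprod
      exact incl_mem_ambTw.1 hprod.1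
    obtain ⟨c'', hc''⟩ := (hnode ⟨(ρ s).1, h1⟩ ⟨(ρ s).2, h2⟩).2 hxb
    exact hCR c hc c'' ⟨hc'', hxW⟩
  have := hUfin c
  have := hV''fin c
  obtain ⟨hf1, hd1⟩ := h.finrank_redSp hS (hV''S c)
  obtain ⟨hf2, hd2⟩ := h.finrank_redSp hS (hUS c)
  apply Submodule.eq_of_le_of_finrank_le hle
  have := hR'' c hc
  omega

/-- **[TAU-ABS], final form** (no evaluation hypothesis, Riemann as inequalities, separate
thresholds): there is `c₁` with `redSp (V'' c) = redSp (U c)` for all `c ≥ c₁`. -/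
theorem exists_redSp_V''_eq (h : RedData A π O ρ) (S : Submodule K Ω) (hS : HasDim k O ρ S)
    (Bκ : Subalgebra k Ωk) (U V' V'' : ℕ → Submodule K Ω)
    (hUfin : ∀ c, Module.Finite K (U c)) (hV'fin : ∀ c, Module.Finite K (V' c))
    (hV''fin : ∀ c, Module.Finite K (V'' c))
    (hUS : ∀ c, U c ≤ S) (hV'S : ∀ c, V' c ≤ S) (hV''S : ∀ c, V'' c ≤ S)
    (hV'mono : Monotone V')
    (W : ℕ → Submodule k (Ωk × Ωk)) (hWmono : Monotone W) (hWfin : ∀ c, Module.Finite k (W c))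
    (hWB : ∀ x : Ωk × Ωk, (x.1 ∈ Bκ ∧ x.2 ∈ Bκ) ↔ ∃ c, x ∈ W c)
    (n : ℕ) (hn : n ≠ 0) (u : O) (u₁ u₂ : k) (hu₁ : u₁ ≠ 0) (hu₂ : u₂ ≠ 0)
    (hρu : ρ u = (algebraMap k Ωk u₁, algebraMap k Ωk u₂))
    (hpow : ∀ c, ∀ s ∈ V' c, s ^ n * (u : Ω) ∈ U (n * c))
    (hτ : ∀ (c c' : ℕ) (s t : O), (s : Ω) ∈ V'' c → (t : Ω) ∈ V' c' →
      ρ (s * t) ∈ h.redSp (V' (c + c')))
    (hIU : ∀ c, h.redSp (U c) ≤ W c) (hIV' : ∀ c, h.redSp (V' c) ≤ W c)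
    (hIV'' : ∀ c, h.redSp (V'' c) ≤ W c)
    (cCR : ℕ) (hCR : ∀ c, cCR ≤ c → ∀ c', h.redSp (U c') ⊓ W c ≤ h.redSp (U c))
    (Z : Finset (Bκ →ₐ[k] k)) (θ : (Bκ →ₐ[k] k) → (Bκ →ₐ[k] k))
    (hθ : Set.InjOn θ (Z : Set (Bκ →ₐ[k] k)))
    (hnode : ∀ a b : Bκ, (∃ c, ((a : Ωk), (b : Ωk)) ∈ h.redSp (U c)) ↔ ∀ z ∈ Z, z a = θ z b)
    (cR : ℕ) (hR' : ∀ c, cR ≤ c → finrank K (U c) ≤ finrank K (V' c))
    (hR'' : ∀ c, cR ≤ c → finrank K (U c) ≤ finrank K (V'' c)) :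
    ∃ c₁ : ℕ, cCR ≤ c₁ ∧ cR ≤ c₁ ∧ ∀ c, c₁ ≤ c → h.redSp (V'' c) = h.redSp (U c) := by
  obtain ⟨cE, hcE⟩ := exists_ev Bκ W hWmono hWB Z
  refine ⟨max (max cCR cR) cE, (le_max_left _ _).trans (le_max_left _ _),
    (le_max_right _ _).trans (le_max_left _ _), fun c hc => ?_⟩
  have h1 : cCR ≤ max (max cCR cR) cE := (le_max_left _ _).trans (le_max_left _ _)
  have h2 : cR ≤ max (max cCR cR) cE := (le_max_right _ _).trans (le_max_left _ _)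
  have h3 : cE ≤ max (max cCR cR) cE := le_max_right _ _
  exact redSp_V''_eq_of_le h S hS Bκ U V' V'' hUfin hV'fin hV''fin hUS hV'S hV''S hV'mono W
    hWmono hWfin hWB n hn u u₁ u₂ hu₁ hu₂ hρu hpow hτ hIU hIV' hIV'' (max (max cCR cR) cE)
    (fun c hc => hCR c (h1.trans hc)) Z θ hθ hnode (fun c hc => hcE c (h3.trans hc))
    (fun c hc => hR' c (h2.trans hc)) (fun c hc => hR'' c (h2.trans hc)) c hc

end Graded

end Fermat.Agent.S34.TauAbs2
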