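import Mathlib
import Fermat.Agent.S34.Plan
import Fermat.Agent.S34.TauAbs2
import Fermat.Agent.S18.WJCalc
import Fermat.Agent.S18.MainLemmas
import Fermat.Agent.S18.RedGlue

/-!
# S34 — TauAdapt [TAU-ADAPT]: `TauAbs2` in Plan vocabulary (owner: helper91)

Everything of `Plan.TauStmt` that is not Galois theory.

* `redData`, `hasDim`        : `LiftCore2.RedData` / `HasDim` from `Plan.Setup2`
                               (`K = Q̄`, `Ω = Q̄((T))`, `R = k((T)) × k((T))`);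
* `coe_redSp`                : `redSp W` is `Plan.redSet O ρ W`;
* `WWs`                      : `Plan.WW` as a submodule; monotone, finite-dimensional, exhausts
                               `BK × BK` (`mem_BK_iff`);
* `mem_WJ_of_pow`            : root-closedness of `WJ` (immediate from integrality);
* `incl_of_pow`              : the power trick: `ρ (L(D + cE) ∩ O) ⊆ W(c)`;
* `md_eq_bbar`               : **`M(D'')(c) = B̄(c)` for `c` large**, from `Setup2`, `CuspReg`,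
                               `IsNodes`, Riemann's inequality, the two power relations and the
                               `τ`-trick inclusion.
-/

set_option autoImplicit false

noncomputable section

namespace Fermat.Agent.S34.TauAdapt

open ModularCurve AlgebraicCurve Module Fermat.Agent.S24 Fermat.Agent.S18.Content
  Fermat.Agent.S18.Plan Fermat.Agent.S18.WJCalc Fermat.Agent.S34.Plan Fermat.Agent.S34.LiftCore2

/-! ## Generic facts on `WJ` -/

section WJ

variable {κ : Type} [Field κ] {L : IntermediateField κ (LaurentSeries κ)}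

/-- Every element of `κ[j]` lies in some `WJ m`. -/
theorem exists_mem_WJ_of_mem_polyJ (hj : jqModC κ ∈ L) {x : LaurentSeries κ}
    (hx : x ∈ polyJ κ) : ∃ m, x ∈ WJ κ L m := by
  refine Algebra.adjoin_induction (p := fun x _ => ∃ m, x ∈ WJ κ L m) ?_ ?_ ?_ ?_ hx
  · intro x hx
    rw [Set.mem_singleton_iff] at hx
    subst hx
    refine ⟨1, ?_⟩
    have := j_pow_mem_WJ (L := L) hj 1
    rwa [pow_one] at this
  · intro c
    refine ⟨0, ?_⟩
    rw [algebraMap_LS_eq_C, ← mul_one (HahnSeries.C c), HahnSeries.C_mul_eq_smul]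
    exact Submodule.smul_mem _ c (one_mem_WJ 0)
  · rintro x y _ _ ⟨m, hm⟩ ⟨m', hm'⟩
    exact ⟨max m m', add_mem (WJ_mono (le_max_left _ _) hm) (WJ_mono (le_max_right _ _) hm')⟩
  · rintro x y _ _ ⟨m, hm⟩ ⟨m', hm'⟩
    exact ⟨m + m', mul_mem_WJ hm hm'⟩

/-- Every element of `L` integral over `κ[j]` lies in some `WJ m`. -/
theorem exists_mem_WJ_of_isIntegral (hj : jqModC κ ∈ L) {x : LaurentSeries κ} (hxL : x ∈ L)
    (hx : IsIntegral (polyJ κ) x) : ∃ m, x ∈ WJ κ L m := by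
  classical
  obtain ⟨P, hP, hPx⟩ := hx
  set P' : Polynomial (LaurentSeries κ) :=
    P.map (algebraMap (polyJ κ) (LaurentSeries κ)) with hP'
  have hP'm : P'.Monic := hP.map _
  have hP'x : P'.eval x = 0 := by
    rw [hP', Polynomial.eval_map]
    exact hPx
  have hcoef : ∀ i, ∃ m, P'.coeff i ∈ WJ κ L m := by
    intro i
    rw [hP', Polynomial.coeff_map]
    exact exists_mem_WJ_of_mem_polyJ hj (P.coeff i).2
  choose m hm using hcoef
  refine ⟨(Finset.range P'.natDegree).sup m, mem_WJ_of_root hxL P' hP'm (fun i hi => ?_) hP'x⟩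
  have h1 : m i ≤ (Finset.range P'.natDegree).sup m := Finset.le_sup (Finset.mem_range.2 hi)
  have h2 : (Finset.range P'.natDegree).sup m ≤
      (P'.natDegree - i) * (Finset.range P'.natDegree).sup m :=
    Nat.le_mul_of_pos_left _ (Nat.sub_pos_of_lt hi)
  exact WJ_mono (h1.trans h2) (hm i)

/-- **Root-closedness of `WJ`**: `x ∈ L`, `xⁿ ∈ WJ (n m)`, `n > 0` imply `x ∈ WJ m`. -/
theorem mem_WJ_of_pow {x : LaurentSeries κ} (hxL : x ∈ L) {n : ℕ} (hn : 0 < n) {m : ℕ}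
    (h : x ^ n ∈ WJ κ L (n * m)) : x ∈ WJ κ L m := by
  obtain ⟨-, h2, h3⟩ := h
  refine ⟨hxL, IsIntegral.of_pow hn h2, ?_⟩
  have e : ((jqModC κ)⁻¹ ^ m * x) ^ n = (jqModC κ)⁻¹ ^ (n * m) * x ^ n := by
    rw [mul_pow, ← pow_mul, mul_comm m n]
  exact IsIntegral.of_pow hn (e ▸ h3)

/-- Variant with a nonzero constant factor: `xⁿ · C a ∈ WJ (n m)`, `a ≠ 0`. -/
theorem mem_WJ_of_pow_mul_C {x : LaurentSeries κ} (hxL : x ∈ L) {n : ℕ} (hn : 0 < n) {m : ℕ}
    {a : κ} (ha : a ≠ 0) (h : x ^ n * HahnSeries.C a ∈ WJ κ L (n * m)) : x ∈ WJ κ L m := by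
  refine mem_WJ_of_pow hxL hn ?_
  have h' := Submodule.smul_mem _ a⁻¹ h
  have e : a⁻¹ • (x ^ n * HahnSeries.C a) = x ^ n := by
    rw [← HahnSeries.C_mul_eq_smul, mul_left_comm, ← map_mul, inv_mul_cancel₀ ha, map_one,
      mul_one]
  rwa [e] at h'

end WJ

/-! ## The filtration `W(c)` -/

section WW

variable (A : ValuationSubring Kbar) (q M : ℕ)

/-- `Plan.WW` as a submodule. -/
def WWs (c : ℕ) : Submodule (kk A) (R2 A) :=
  (WJ (kk A) (Fk A M) (c * (q + 1))).prod (WJ (kk A) (Fk A M) (c * (q + 1)))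

theorem coe_WWs (c : ℕ) : ((WWs A q M c : Submodule (kk A) (R2 A)) : Set (R2 A)) = WW A q M c :=
  rfl

theorem mem_WWs {c : ℕ} {x : R2 A} :
    x ∈ WWs A q M c ↔ x.1 ∈ WJ (kk A) (Fk A M) (c * (q + 1)) ∧
      x.2 ∈ WJ (kk A) (Fk A M) (c * (q + 1)) := Iff.rfl

theorem WWs_mono : Monotone (WWs A q M) := by
  intro c c' hcc' x hx
  have hle : c * (q + 1) ≤ c' * (q + 1) := Nat.mul_le_mul_right _ hcc'
  exact ⟨WJ_mono hle hx.1, WJ_mono hle hx.2⟩

theorem finite_WWs (hfin : ∀ m, Module.Finite (kk A) (WJ (kk A) (Fk A M) m)) (c : ℕ) :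
    Module.Finite (kk A) (WWs A q M c) := by
  rw [Module.Finite.iff_fg]
  exact Submodule.FG.prod (Module.Finite.iff_fg.1 (hfin _)) (Module.Finite.iff_fg.1 (hfin _))

/-- Finiteness of all `WJ m` from finiteness for `m` large. -/
theorem finite_WJ_of_large (h : ∃ m₀ : ℕ, ∀ m : ℕ, m₀ ≤ m →
    Module.Finite (kk A) (WJ (kk A) (Fk A M) m)) (m : ℕ) :
    Module.Finite (kk A) (WJ (kk A) (Fk A M) m) := by
  obtain ⟨m₀, h⟩ := h
  have := h (max m m₀) (le_max_right _ _)
  have hle : WJ (kk A) (Fk A M) m ≤ WJ (kk A) (Fk A M) (max m m₀) := WJ_mono (le_max_left _ _)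
  exact Module.Finite.of_injective (Submodule.inclusion hle) (Submodule.inclusion_injective hle)

/-- Finiteness of all `WJ m` from `Plan.RiemannK`. -/
theorem finite_WJ_of_riemannK (h : RiemannK A M) (m : ℕ) :
    Module.Finite (kk A) (WJ (kk A) (Fk A M) m) := by
  obtain ⟨m₀, h⟩ := h
  exact finite_WJ_of_large A M ⟨m₀, fun m hm => (h m hm).1⟩ m

/-- `B_κ = ⋃ WJ m`. -/
theorem mem_BK_iff {x : Omk A} : x ∈ BK A M ↔ ∃ m, x ∈ WJ (kk A) (Fk A M) m := by
  constructor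
  · intro hx
    obtain ⟨h1, h2⟩ := Algebra.mem_inf.1 hx
    exact exists_mem_WJ_of_isIntegral (jqModC_mem_full (kk A) M) h1 h2
  · rintro ⟨m, h1, h2, -⟩
    exact Algebra.mem_inf.2 ⟨h1, h2⟩

/-- The `W(c)` exhaust `B_κ × B_κ`. -/
theorem mem_BK_prod_iff (x : R2 A) :
    (x.1 ∈ BK A M ∧ x.2 ∈ BK A M) ↔ ∃ c, x ∈ WWs A q M c := by
  constructor
  · rintro ⟨h1, h2⟩
    obtain ⟨m₁, hm₁⟩ := (mem_BK_iff A M).1 h1
    obtain ⟨m₂, hm₂⟩ := (mem_BK_iff A M).1 h2
    refine ⟨max m₁ m₂, WJ_mono ?_ hm₁, WJ_mono ?_ hm₂⟩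
    · exact (le_max_left m₁ m₂).trans (Nat.le_mul_of_pos_right _ (Nat.succ_pos q))
    · exact (le_max_right m₁ m₂).trans (Nat.le_mul_of_pos_right _ (Nat.succ_pos q))
  · rintro ⟨c, h1, h2⟩
    exact ⟨(mem_BK_iff A M).2 ⟨_, h1⟩, (mem_BK_iff A M).2 ⟨_, h2⟩⟩

end WW

/-! ## `RedData` and `(Dim)` from `Setup2`

As in `S18/RedGlue`: `LiftCore2` is abstract in `[Algebra K Ω]`, and for `Ω = K((T))` instance
search finds `HahnSeries.powerSeriesAlgebra`, whose module structure is not definitionally the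
default one.  All abstract statements are therefore instantiated with `HahnSeries.instAlgebra`
on `Q̄((T))` and on both factors of `k((T)) × k((T))` (module structures definitionally the
default ones, `algebraMap c = HahnSeries.C c` by `rfl`). -/

section Setup

/-- The algebra structure on `k((T)) × k((T))` built from `HahnSeries.instAlgebra`. -/
@[reducible] def algR2 (A : ValuationSubring Kbar) : Algebra (kk A) (R2 A) :=
  @Prod.algebra (kk A) (Omk A) (Omk A) _ _ HahnSeries.instAlgebra _ HahnSeries.instAlgebra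

/-- `LiftCore2.RedData` for the two-component reduction, with the algebra structures
`HahnSeries.instAlgebra`. -/
abbrev RedData2 (A : ValuationSubring Kbar) (O : Subring Om) (ρ : O →+* R2 A) : Prop :=
  @RedData Kbar Om (kk A) (R2 A) _ _ HahnSeries.instAlgebra _ _ (algR2 A) A
    (IsLocalRing.residue A) O ρ

/-- `LiftCore2.HasDim` for the two-component reduction, with the algebra structures
`HahnSeries.instAlgebra`. -/
abbrev HasDim2 (A : ValuationSubring Kbar) (O : Subring Om) (ρ : O →+* R2 A)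
    (S : Submodule Kbar Om) : Prop :=
  @HasDim Kbar Om (R2 A) _ _ HahnSeries.instAlgebra _ (kk A) _ (algR2 A) O ρ S

variable {A : ValuationSubring Kbar} {N q M : ℕ} [NeZero N] [NeZero q] {hqN : q ∣ N}
  {O : Subring Om} {ρ : O →+* R2 A}

/-- `Plan.Setup2` gives reduction data in the sense of `LiftCore2`. -/
theorem redData (hS : Setup2 A N q M hqN O ρ) : RedData2 A O ρ :=
  letI : Algebra Kbar Om := HahnSeries.instAlgebra
  letI : Algebra (kk A) (R2 A) := algR2 A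
  { π_surj := IsLocalRing.residue_surjective
    π_eq_zero := fun a => by
      rw [IsLocalRing.residue_eq_zero_iff, IsLocalRing.mem_maximalIdeal, mem_nonunits_iff]
    mem_iff := fun c => hS.C_mem_iff c
    ρ_alg := fun a h => hS.ρ_C a h }

/-- `F_n` as a `Q̄`-subspace of `Q̄((T))`. -/
abbrev FF (n : ℕ) : Submodule Kbar Om := Fermat.Agent.S18.RedGlue.levelSub n

theorem pullRR_le_FF (n n' : ℕ) (B : Divisor Kbar (FN n)) : pullRR n n' B ≤ FF n' :=
  fun _ hg => hg.1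

set_option synthInstance.maxHeartbeats 400000 in
set_option maxHeartbeats 1000000 in
/-- `Plan.Setup2` gives `(Dim)` on `F_{M q}`. -/
theorem hasDim (hS : Setup2 A N q M hqN O ρ) : HasDim2 A O ρ (FF (M * q)) := by
  intro W hW hfin
  exact hS.dim W (fun w hw => hW hw) hfin

/-- `RedData.redSp` for the two-component reduction, instance arguments explicit. -/
abbrev redSp2 (h : RedData2 A O ρ) (W : Submodule Kbar Om) : Submodule (kk A) (R2 A) :=
  @RedData.redSp Kbar Om (kk A) (R2 A) _ _ HahnSeries.instAlgebra _ _ (algR2 A) A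
    (IsLocalRing.residue A) O ρ h W

/-- `redSp` is `Plan.redSet`. -/
theorem coe_redSp2 (h : RedData2 A O ρ) (W : Submodule Kbar Om) :
    ((redSp2 h W : Submodule (kk A) (R2 A)) : Set (R2 A)) = redSet O ρ W := rfl

theorem mem_redSp2 (h : RedData2 A O ρ) (W : Submodule Kbar Om) (x : R2 A) :
    x ∈ redSp2 h W ↔ x ∈ redSet O ρ W := Iff.rfl

theorem redSp2_mono (h : RedData2 A O ρ) {W W' : Submodule Kbar Om} (hWW' : W ≤ W') :
    redSp2 h W ≤ redSp2 h W' := by
  rintro x ⟨y, hy, rfl⟩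
  exact ⟨y, hWW' hy, rfl⟩

end Setup

/-! ## Transport of `B_κ` and of its points to `HahnSeries.instAlgebra` -/

section Transport

variable (A : ValuationSubring Kbar) (M : ℕ)

/-- `B_κ` as a subalgebra for the algebra structure `HahnSeries.instAlgebra` (same carrier as
`Plan.BK A M`). -/
def BK' : @Subalgebra (kk A) (Omk A) _ _ HahnSeries.instAlgebra :=
  @Subalgebra.mk (kk A) (Omk A) _ _ HahnSeries.instAlgebra (BK A M).toSubsemiring (fun c => by
    show HahnSeries.C c ∈ BK A M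
    rw [← algebraMap_LS_eq_C]
    exact (BK A M).algebraMap_mem c)

theorem mem_BK' {x : Omk A} : x ∈ BK' A M ↔ x ∈ BK A M := Iff.rfl

/-- The points of `BK' A M`. -/
abbrev Pt' : Type :=
  @AlgHom (kk A) ↥(BK' A M) (kk A) _ _ _
    (@Subalgebra.algebra (kk A) (Omk A) _ _ HahnSeries.instAlgebra (BK' A M)) _

theorem C_mem_BK (c : kk A) : (HahnSeries.C c : Omk A) ∈ BK A M := by
  rw [← algebraMap_LS_eq_C]
  exact (BK A M).algebraMap_mem c

/-- The underlying ring homomorphism of `pt'`. -/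
def ptRingHom (e : BK A M →ₐ[kk A] kk A) : ↥(BK' A M) →+* kk A where
  toFun x := e ⟨x.1, x.2⟩
  map_one' := by
    have h1 : (⟨((1 : ↥(BK' A M)) : Omk A), (1 : ↥(BK' A M)).2⟩ : BK A M) = 1 := Subtype.ext rfl
    show e ⟨((1 : ↥(BK' A M)) : Omk A), (1 : ↥(BK' A M)).2⟩ = 1
    rw [h1, map_one]
  map_mul' x y := by
    have h1 : (⟨((x * y : ↥(BK' A M)) : Omk A), (x * y).2⟩ : BK A M) =
        ⟨x.1, x.2⟩ * ⟨y.1, y.2⟩ := Subtype.ext rfl
    show e ⟨((x * y : ↥(BK' A M)) : Omk A), (x * y).2⟩ = e ⟨x.1, x.2⟩ * e ⟨y.1, y.2⟩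
    rw [h1, map_mul]
  map_zero' := by
    have h1 : (⟨((0 : ↥(BK' A M)) : Omk A), (0 : ↥(BK' A M)).2⟩ : BK A M) = 0 := Subtype.ext rfl
    show e ⟨((0 : ↥(BK' A M)) : Omk A), (0 : ↥(BK' A M)).2⟩ = 0
    rw [h1, map_zero]
  map_add' x y := by
    have h1 : (⟨((x + y : ↥(BK' A M)) : Omk A), (x + y).2⟩ : BK A M) =
        ⟨x.1, x.2⟩ + ⟨y.1, y.2⟩ := Subtype.ext rfl
    show e ⟨((x + y : ↥(BK' A M)) : Omk A), (x + y).2⟩ = e ⟨x.1, x.2⟩ + e ⟨y.1, y.2⟩
    rw [h1, map_add]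

theorem ptRingHom_apply (e : BK A M →ₐ[kk A] kk A) (x : ↥(BK' A M)) :
    ptRingHom A M e x = e ⟨x.1, x.2⟩ := rfl

/-- Transport of a point of `Plan.BK A M` to a point of `BK' A M`. -/
def pt' (e : BK A M →ₐ[kk A] kk A) : Pt' A M :=
  @AlgHom.mk (kk A) ↥(BK' A M) (kk A) _ _ _
    (@Subalgebra.algebra (kk A) (Omk A) _ _ HahnSeries.instAlgebra (BK' A M)) _
    (ptRingHom A M e) (fun c => by
      have h := e.commutes c
      have e1 : (algebraMap (kk A) (BK A M) c : BK A M) = ⟨HahnSeries.C c, C_mem_BK A M c⟩ :=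
        Subtype.ext (algebraMap_LS_eq_C (kk A) c)
      rw [e1] at h
      exact h)

theorem pt'_apply (e : BK A M →ₐ[kk A] kk A) (x : ↥(BK' A M)) :
    pt' A M e x = e ⟨x.1, x.2⟩ := rfl

theorem pt'_injective : Function.Injective (pt' A M) := by
  intro e e' h
  refine AlgHom.ext fun a => ?_
  have := DFunLike.congr_fun h (⟨a.1, a.2⟩ : BK' A M)
  rw [pt'_apply, pt'_apply] at this
  exact this

end Transport

/-! ## The power trick -/

section Incl

variable {A : ValuationSubring Kbar} {N q M : ℕ} [NeZero N] [NeZero q] {hqN : q ∣ N}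
  {O : Subring Om} {ρ : O →+* R2 A}

/-- **(INCL) by the power trick**: if `sⁿ · u ∈ L(ncE)` for all `s ∈ L(D + cE)`, with
`ρ u = (C c₁, C c₂)`, `c₁ c₂ ≠ 0`, then `ρ (L(D + cE) ∩ O) ⊆ W(c)`. -/
theorem incl_of_pow (hS : Setup2 A N q M hqN O ρ) (E : Divisor Kbar (FN N))
    (hE : IsE N q hqN E) (D : Divisor Kbar (FN N)) {n : ℕ} (hn : 0 < n) (u : O)
    {c₁ c₂ : kk A} (hc₁ : c₁ ≠ 0) (hc₂ : c₂ ≠ 0)
    (hρu : ρ u = (HahnSeries.C c₁, HahnSeries.C c₂))
    (hpow : ∀ c : ℕ, ∀ s ∈ pullRR N (M * q) (D + c • E),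
      s ^ n * (u : Om) ∈ pullRR N (M * q) ((n * c) • E))
    (c : ℕ) (s : O) (hs : (s : Om) ∈ pullRR N (M * q) (D + c • E)) :
    ρ s ∈ WWs A q M c := by
  have hmem : ((s ^ n * u : O) : Om) ∈ pullRR N (M * q) ((n * c) • E) := by
    rw [Subring.coe_mul, Subring.coe_pow]
    exact hpow c _ hs
  have h := hS.incl E hE (n * c) (s ^ n * u) hmem
  rw [map_mul, map_pow, hρu] at h
  obtain ⟨h1, h2⟩ := h
  have e : n * c * (q + 1) = n * (c * (q + 1)) := Nat.mul_assoc _ _ _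
  rw [e] at h1 h2
  exact ⟨mem_WJ_of_pow_mul_C (hS.range s).1 hn hc₁ h1,
    mem_WJ_of_pow_mul_C (hS.range s).2 hn hc₂ h2⟩

end Incl

/-! ## The main adapter -/

section Main

variable {A : ValuationSubring Kbar} {N q M : ℕ} [NeZero N] [NeZero q] {hqN : q ∣ N}
  {O : Subring Om} {ρ : O →+* R2 A}

theorem isE_nonneg {E : Divisor Kbar (FN N)} (hE : IsE N q hqN E) (P : Place Kbar (FN N)) :
    0 ≤ E P := by
  rw [hE P]
  exact add_nonneg (le_max_left _ _) (le_max_left _ _)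

theorem pullRR_add_smul_mono {E : Divisor Kbar (FN N)} (hE : IsE N q hqN E)
    (D : Divisor Kbar (FN N)) (n' : ℕ) : Monotone fun c : ℕ => pullRR N n' (D + c • E) := by
  intro c c' hcc'
  refine Fermat.Agent.S18.Main.pullRR_mono fun P => ?_
  rw [Finsupp.add_apply, Finsupp.add_apply, Finsupp.smul_apply, Finsupp.smul_apply]
  exact add_le_add_right (nsmul_le_nsmul_left (isE_nonneg hE P) hcc') _

theorem pullRR_smul_mono {E : Divisor Kbar (FN N)} (hE : IsE N q hqN E) (n' : ℕ) :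
    Monotone fun c : ℕ => pullRR N n' (c • E) := by
  intro c c' hcc'
  refine Fermat.Agent.S18.Main.pullRR_mono fun P => ?_
  rw [Finsupp.smul_apply, Finsupp.smul_apply]
  exact nsmul_le_nsmul_left (isE_nonneg hE P) hcc'

set_option synthInstance.maxHeartbeats 400000 in
set_option maxHeartbeats 2000000 in
/-- **[TAU-ADAPT]** `M(D'')(c) = B̄(c)` for `c` large: `Plan.Setup2`, `Plan.CuspReg`, `Plan.IsNodes`,
Riemann's inequality for `D'`, `D''`, the power relations `sⁿ u ∈ L(ncE)` (`s ∈ L(D' + cE)`,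
`ρ u` a pair of nonzero constants) and `sⁿ w ∈ L(ncE)` (`s ∈ L(D'' + cE)`, `ρ w = 1`), and the
`τ`-trick inclusion `ρ(L(D'' + cE) ∩ O) · ρ(L(D' + c'E) ∩ O) ⊆ ρ(L(D' + (c+c')E) ∩ O)`. -/
theorem md_eq_bbar (hS : Setup2 A N q M hqN O ρ) (hCR : CuspReg A N q M hqN O ρ)
    (hRR0 : RR0 N (M * q))
    (hWfin : ∀ m, Module.Finite (kk A) (WJ (kk A) (Fk A M) m))
    (E : Divisor Kbar (FN N)) (hE : IsE N q hqN E)
    {ι : Type} [Fintype ι] (e₁ e₂ : ι → (BK A M →ₐ[kk A] kk A))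
    (hnodes : IsNodes A N q M O ρ E e₁ e₂)
    (D' D'' : Divisor Kbar (FN N))
    (hRD' : ∃ c₀ : ℕ, ∀ c : ℕ, c₀ ≤ c → finrank Kbar (pullRR N (M * q) (c • E)) ≤
      finrank Kbar (pullRR N (M * q) (D' + c • E)))
    (hRD'' : ∃ c₀ : ℕ, ∀ c : ℕ, c₀ ≤ c → finrank Kbar (pullRR N (M * q) (c • E)) ≤
      finrank Kbar (pullRR N (M * q) (D'' + c • E)))
    (n : ℕ) (hn : 0 < n) (u w : O) (c₁ c₂ : kk A) (hc₁ : c₁ ≠ 0) (hc₂ : c₂ ≠ 0)
    (hρu : ρ u = (HahnSeries.C c₁, HahnSeries.C c₂)) (hρw : ρ w = 1)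
    (hpow' : ∀ c : ℕ, ∀ s ∈ pullRR N (M * q) (D' + c • E),
      s ^ n * (u : Om) ∈ pullRR N (M * q) ((n * c) • E))
    (hpow'' : ∀ c : ℕ, ∀ s ∈ pullRR N (M * q) (D'' + c • E),
      s ^ n * (w : Om) ∈ pullRR N (M * q) ((n * c) • E))
    (hτ : ∀ (c c' : ℕ) (s t : O), (s : Om) ∈ pullRR N (M * q) (D'' + c • E) →
      (t : Om) ∈ pullRR N (M * q) (D' + c' • E) →
      ρ (s * t) ∈ redSet O ρ (pullRR N (M * q) (D' + (c + c') • E))) :
    ∃ c₀ : ℕ, ∀ c : ℕ, c₀ ≤ c → MD N q M O ρ E D'' c = Bbar N q M O ρ E c := by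
  classical
  have hdec : DecidableEq (Pt' A M) := Classical.decEq _
  have h := redData hS
  obtain ⟨cCR, hCR⟩ := hCR E hE
  obtain ⟨cR', hR'⟩ := hRD'
  obtain ⟨cR'', hR''⟩ := hRD''
  obtain ⟨he₁, he₂, hnode⟩ := hnodes
  -- the node data in raw form, transported to `BK'`
  let f₁ : ι → Pt' A M := fun i => pt' A M (e₁ i)
  let f₂ : ι → Pt' A M := fun i => pt' A M (e₂ i)
  have hf₁ : Function.Injective f₁ := (pt'_injective A M).comp he₁
  have hf₂ : Function.Injective f₂ := (pt'_injective A M).comp he₂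
  let Z : Finset (Pt' A M) := Finset.univ.image f₁
  let θ : Pt' A M → Pt' A M :=
    fun z => if hz : ∃ i, f₁ i = z then f₂ (Classical.choose hz) else z
  have hθe : ∀ i, θ (f₁ i) = f₂ i := by
    intro i
    have hex : ∃ i', f₁ i' = f₁ i := ⟨i, rfl⟩
    show (if hz : ∃ i', f₁ i' = f₁ i then f₂ (Classical.choose hz) else f₁ i) = f₂ i
    rw [dif_pos hex, hf₁ (Classical.choose_spec hex)]
  have hθ : Set.InjOn θ (Z : Set (Pt' A M)) := by
    intro z hz z' hz' hzz'
    obtain ⟨i, -, rfl⟩ := Finset.mem_image.1 (Finset.mem_coe.1 hz)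
    obtain ⟨i', -, rfl⟩ := Finset.mem_image.1 (Finset.mem_coe.1 hz')
    rw [hθe, hθe] at hzz'
    rw [hf₂ hzz']
  have hnode' : ∀ a b : BK' A M,
      (∃ c : ℕ, ((a : Omk A), (b : Omk A)) ∈ redSp2 h (pullRR N (M * q) (c • E))) ↔
        ∀ z ∈ Z, z a = θ z b := by
    intro a b
    have hn := hnode ⟨a.1, a.2⟩ ⟨b.1, b.2⟩
    constructor
    · intro hab z hz
      obtain ⟨i, -, rfl⟩ := Finset.mem_image.1 hz
      rw [hθe]
      exact hn.1 hab i
    · intro hab
      refine hn.2 fun i => ?_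
      have := hab (f₁ i) (Finset.mem_image_of_mem f₁ (Finset.mem_univ i))
      rw [hθe] at this
      exact this
  have hρw' : ρ w = (HahnSeries.C (1 : kk A), HahnSeries.C (1 : kk A)) := by
    rw [hρw, map_one]
    rfl
  have hWB : ∀ x : R2 A, (x.1 ∈ BK' A M ∧ x.2 ∈ BK' A M) ↔ ∃ c, x ∈ WWs A q M c :=
    mem_BK_prod_iff A q M
  obtain ⟨c₁', -, -, hc₁'⟩ := @Fermat.Agent.S34.TauAbs2.exists_redSp_V''_eq Kbar Om (kk A) (Omk A)
    _ _ HahnSeries.instAlgebra _ _ HahnSeries.instAlgebra A (IsLocalRing.residue A) O ρ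
    h (FF (M * q)) (hasDim hS) (BK' A M)
    (fun c => pullRR N (M * q) (c • E)) (fun c => pullRR N (M * q) (D' + c • E))
    (fun c => pullRR N (M * q) (D'' + c • E))
    (fun c => (hRR0 _).1) (fun c => (hRR0 _).1) (fun c => (hRR0 _).1)
    (fun c => pullRR_le_FF _ _ _) (fun c => pullRR_le_FF _ _ _) (fun c => pullRR_le_FF _ _ _)
    (pullRR_add_smul_mono hE D' (M * q))
    (WWs A q M) (WWs_mono A q M) (finite_WWs A q M hWfin) hWB
    n hn.ne' u c₁ c₂ hc₁ hc₂ hρu hpow' hτ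
    (fun c x hx => by
      obtain ⟨y, hy, rfl⟩ := hx
      exact hS.incl E hE c y hy)
    (fun c x hx => by
      obtain ⟨y, hy, rfl⟩ := hx
      exact incl_of_pow hS E hE D' hn u hc₁ hc₂ hρu hpow' c y hy)
    (fun c x hx => by
      obtain ⟨y, hy, rfl⟩ := hx
      exact incl_of_pow hS E hE D'' hn w one_ne_zero one_ne_zero hρw' hpow'' c y hy)
    cCR
    (fun c hc c' x hx => by
      rcases le_total c c' with hcc' | hcc'
      · exact hCR c hc c' hcc' ⟨hx.1, hx.2⟩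
      · exact redSp2_mono h (pullRR_smul_mono hE (M * q) hcc') hx.1)
    Z θ hθ hnode' (max cR' cR'')
    (fun c hc => hR' c ((le_max_left _ _).trans hc))
    (fun c hc => hR'' c ((le_max_right _ _).trans hc))
  refine ⟨c₁', fun c hc => ?_⟩
  have := hc₁' c hc
  exact congrArg (fun W : Submodule (kk A) (R2 A) => (W : Set (R2 A))) this

end Main

end Fermat.Agent.S34.TauAdapt

end
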