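import Mathlib
import Fermat.Agent.S18.MainLemmas
import Fermat.Agent.S37.Gal

/-!
# S34 — `[GALRR]`: Galois equivariance of the pull-back Riemann–Roch spaces (helper89)

Vocabulary of `S18/Plan.lean`: `Kbar = Q̄`, `Om = Q̄((q))`, `FN N = F_N ⊂ Om`,
`pullRR N N' B` (the pull-back to `F_{N'}` of the Riemann–Roch space of a divisor `B` of `F_N`).
`gQ N σ` is the coefficientwise semilinear automorphism of `F_N` attached to `σ ∈ Gal(Q̄/ℚ)`
(`= S37.Gal.gK A N σ` for `σ` in a decomposition group).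

* `mul_mem_pullRR_add`      : **(G2)** `pullRR B₁ * pullRR B₂ ⊆ pullRR (B₁ + B₂)`;
* `coeffMap_mem_pullRR_iff` : **(G1)** `coeffMap σ y ∈ pullRR N N' (gQ N σ • B) ↔ y ∈ pullRR N N' B`;
* `smul_poleDivisor`, `smul_poleDivisor₂`, `gQ_smul_jBar`, `gQ_smul_of_coe_eq_qExpand_jK` :
  **(G3)** pole divisors of coefficient-rational functions (`j`, `j(q^ℓ)`) are Galois stable;
* `exists_mul_tau`          : **(G4)** the `τ`-trick inclusion
  `L(τD' - D' + cE)° · L(D' + c'E)° ⊆ τ L(D' + (c + c')E)°` read after a reduction map `ρ` with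
  `ρ ∘ τ⁻¹ = ρ`.
-/

set_option autoImplicit false

noncomputable section

namespace Fermat.Agent.S34.GalPull

open ModularCurve AlgebraicCurve Fermat.Agent.S24 Fermat.Agent.S18.Content Fermat.Agent.S18.Plan
open Fermat.Agent.S18.Main

set_option synthInstance.maxHeartbeats 400000

variable {N N' : ℕ}

/-! ### (G2) Products -/

/-- **(G2)** The product of pull-back Riemann–Roch spaces lies in the space of the sum. -/
theorem mul_mem_pullRR_add {B₁ B₂ : Divisor Kbar (FN N)} {x t : Om}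
    (hx : x ∈ pullRR N N' B₁) (ht : t ∈ pullRR N N' B₂) : x * t ∈ pullRR N N' (B₁ + B₂) := by
  refine ⟨mul_mem hx.1 ht.1, fun P s hs hB => ?_⟩
  obtain ⟨u, hu0, hu⟩ := exists_ord_eq P (B₁ P)
  have hu' : u⁻¹ ≠ 0 := inv_ne_zero hu0
  have h1 := hx.2 P u hu0 hu.ge
  have h2 := ht.2 P (s * u⁻¹) (mul_ne_zero hs hu') (by
    rw [P.ord_mul hs hu', Place.ord_inv, hu]
    rw [Finsupp.add_apply] at hB
    omega)
  have e : (s : Om) * (x * t) = ((u : Om) * x) * (((s * u⁻¹ : FN N) : Om) * t) := by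
    have hu1 : ((u * u⁻¹ : FN N) : Om) = 1 := by
      rw [mul_inv_cancel₀ hu0]
      rfl
    push_cast at hu1 ⊢
    linear_combination (-(s : Om) * x * t) * hu1
  rw [e]
  exact h1.mul h2

/-! ### (G1) The coefficientwise Galois action -/

/-- The coefficientwise semilinear automorphism of `F_N` attached to `σ ∈ Gal(Q̄/ℚ)`. -/
abbrev gQ (N : ℕ) (σ : Kbar ≃ₐ[ℚ] Kbar) : SemilinearAut Kbar (FN N) :=
  arithmeticGalois (modularFunctionFieldFull N) σ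

theorem coe_gQ_smul (σ : Kbar ≃ₐ[ℚ] Kbar) (y : FN N) :
    ((gQ N σ • y : FN N) : Om) = coeffMap ((σ : Kbar ≃ₐ[ℚ] Kbar) : Kbar →+* Kbar) (y : Om) :=
  rfl

theorem gQ_symm (σ : Kbar ≃ₐ[ℚ] Kbar) : gQ N σ.symm = (gQ N σ)⁻¹ :=
  map_inv (arithmeticGalois (modularFunctionFieldFull N)) σ

theorem coeffMap_symm_coeffMap (σ : Kbar ≃ₐ[ℚ] Kbar) (y : Om) :
    coeffMap ((σ.symm : Kbar ≃ₐ[ℚ] Kbar) : Kbar →+* Kbar)
      (coeffMap ((σ : Kbar ≃ₐ[ℚ] Kbar) : Kbar →+* Kbar) y) = y := by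
  rw [coeffMap_coeffMap,
    coeffMap_congr (g := RingHom.id Kbar) (RingHom.ext fun a => σ.symm_apply_apply a) y,
    coeffMap_id]

theorem coeffMap_coeffMap_symm (σ : Kbar ≃ₐ[ℚ] Kbar) (y : Om) :
    coeffMap ((σ : Kbar ≃ₐ[ℚ] Kbar) : Kbar →+* Kbar)
      (coeffMap ((σ.symm : Kbar ≃ₐ[ℚ] Kbar) : Kbar →+* Kbar) y) = y := by
  rw [coeffMap_coeffMap,
    coeffMap_congr (g := RingHom.id Kbar) (RingHom.ext fun a => σ.apply_symm_apply a) y,
    coeffMap_id]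

/-- `coeffMap σ` maps the valuation ring of `P` into the valuation ring of `σ P`. -/
theorem coeffMap_mem_placeRing (σ : Kbar ≃ₐ[ℚ] Kbar) (P : Place Kbar (FN N)) {z : Om}
    (hz : z ∈ placeRing P) :
    coeffMap ((σ : Kbar ≃ₐ[ℚ] Kbar) : Kbar →+* Kbar) z ∈ placeRing (gQ N σ • P) := by
  obtain ⟨a, ha, rfl⟩ := hz
  exact ⟨gQ N σ • a,
    ValuationSubring.smul_mem_pointwise_smul (gQ N σ) a P.toValuationSubring ha, rfl⟩

/-- `coeffMap σ` maps elements integral over the valuation ring of `P` to elements integral over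
the valuation ring of `σ P`. -/
theorem isIntegral_coeffMap (σ : Kbar ≃ₐ[ℚ] Kbar) (P : Place Kbar (FN N)) {z : Om}
    (hz : IsIntegral (placeRing P) z) :
    IsIntegral (placeRing (gQ N σ • P))
      (coeffMap ((σ : Kbar ≃ₐ[ℚ] Kbar) : Kbar →+* Kbar) z) := by
  let φ : placeRing P →+* placeRing (gQ N σ • P) :=
    ((coeffMap ((σ : Kbar ≃ₐ[ℚ] Kbar) : Kbar →+* Kbar)).comp (placeRing P).subtype).codRestrict
      _ (fun a => coeffMap_mem_placeRing σ P a.2)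
  exact hz.map_of_comp_eq φ (coeffMap ((σ : Kbar ≃ₐ[ℚ] Kbar) : Kbar →+* Kbar))
    (RingHom.ext fun a => rfl)

/-- `coeffMap σ` maps `pullRR N N' B` into `pullRR N N' (σ B)`. -/
theorem coeffMap_mem_pullRR (σ : Kbar ≃ₐ[ℚ] Kbar) {B : Divisor Kbar (FN N)} {y : Om}
    (hy : y ∈ pullRR N N' B) :
    coeffMap ((σ : Kbar ≃ₐ[ℚ] Kbar) : Kbar →+* Kbar) y ∈ pullRR N N' (gQ N σ • B) := by
  refine ⟨coeffMap_mem_laurentBaseChange σ hy.1, fun P t ht hB => ?_⟩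
  obtain ⟨P₀, rfl⟩ : ∃ P₀ : Place Kbar (FN N), gQ N σ • P₀ = P :=
    ⟨(gQ N σ)⁻¹ • P, smul_inv_smul _ _⟩
  obtain ⟨t₀, rfl⟩ : ∃ t₀ : FN N, gQ N σ • t₀ = t := ⟨(gQ N σ)⁻¹ • t, smul_inv_smul _ _⟩
  have ht₀ : t₀ ≠ 0 := by
    rintro rfl
    exact ht (smul_zero _)
  rw [SemilinearAut.divisor_smul_apply_smul, SemilinearAut.ord_smul] at hB
  have h1 := isIntegral_coeffMap σ P₀ (hy.2 P₀ t₀ ht₀ hB)
  rw [map_mul] at h1
  exact h1

/-- **(G1)** `coeffMap σ y ∈ pullRR N N' (σ B) ↔ y ∈ pullRR N N' B`. -/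
theorem coeffMap_mem_pullRR_iff (σ : Kbar ≃ₐ[ℚ] Kbar) {B : Divisor Kbar (FN N)} {y : Om} :
    coeffMap ((σ : Kbar ≃ₐ[ℚ] Kbar) : Kbar →+* Kbar) y ∈ pullRR N N' (gQ N σ • B) ↔
      y ∈ pullRR N N' B := by
  refine ⟨fun h => ?_, coeffMap_mem_pullRR σ⟩
  have h1 := coeffMap_mem_pullRR (N' := N') σ.symm h
  rw [gQ_symm, inv_smul_smul, coeffMap_symm_coeffMap] at h1
  exact h1

/-- `coeffMap σ⁻¹ y ∈ pullRR N N' B ↔ y ∈ pullRR N N' (σ B)`. -/
theorem coeffMap_symm_mem_pullRR_iff (σ : Kbar ≃ₐ[ℚ] Kbar) {B : Divisor Kbar (FN N)} {y : Om} :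
    coeffMap ((σ.symm : Kbar ≃ₐ[ℚ] Kbar) : Kbar →+* Kbar) y ∈ pullRR N N' B ↔
      y ∈ pullRR N N' (gQ N σ • B) := by
  rw [← coeffMap_mem_pullRR_iff (N' := N') σ (B := B), coeffMap_coeffMap_symm]

/-! ### (G3) Galois-stable divisors -/

section Stable

variable {K F : Type*} [Field K] [Field F] [Algebra K F]

/-- A divisor whose coefficients are constant on the orbits of `g` is fixed by `g`. -/
theorem smul_divisor_eq_self (g : SemilinearAut K F) (E : Divisor K F)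
    (hE : ∀ P : Place K F, E (g • P) = E P) : g • E = E := by
  ext P
  rw [SemilinearAut.divisor_smul_apply, ← hE (g⁻¹ • P), smul_inv_smul]

/-- The pole divisor of a `g`-fixed function is fixed by `g`. -/
theorem smul_poleDivisor (g : SemilinearAut K F) {h : F} (hh : g • h = h) (E : Divisor K F)
    (hE : ∀ P : Place K F, E P = max 0 (-(P.ord h))) : g • E = E := by
  refine smul_divisor_eq_self g E fun P => ?_
  have h1 := SemilinearAut.ord_smul g P h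
  rw [hh] at h1
  rw [hE, hE, h1]

/-- The sum of the pole divisors of two `g`-fixed functions is fixed by `g`. -/
theorem smul_poleDivisor₂ (g : SemilinearAut K F) {h₁ h₂ : F} (hh₁ : g • h₁ = h₁)
    (hh₂ : g • h₂ = h₂) (E : Divisor K F)
    (hE : ∀ P : Place K F, E P = max 0 (-(P.ord h₁)) + max 0 (-(P.ord h₂))) : g • E = E := by
  refine smul_divisor_eq_self g E fun P => ?_
  have h1 := SemilinearAut.ord_smul g P h₁
  have h2 := SemilinearAut.ord_smul g P h₂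
  rw [hh₁] at h1
  rw [hh₂] at h2
  rw [hE, hE, h1, h2]

/-- `g • (D + c • E) = g • D + c • E` for a `g`-fixed divisor `E`. -/
theorem smul_add_nsmul (g : SemilinearAut K F) (D E : Divisor K F) (hE : g • E = E) (c : ℕ) :
    g • (D + c • E) = g • D + c • E := by
  rw [smul_add, smul_comm g c E, hE]

end Stable

/-- An element of `F_N` whose `q`-expansion is fixed by `coeffMap σ` is fixed by `gQ N σ`. -/
theorem gQ_smul_of_coeffMap_eq (σ : Kbar ≃ₐ[ℚ] Kbar) (y : FN N)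
    (hy : coeffMap ((σ : Kbar ≃ₐ[ℚ] Kbar) : Kbar →+* Kbar) (y : Om) = (y : Om)) :
    gQ N σ • y = y :=
  Subtype.ext hy

theorem coeffMap_jK (σ : Kbar ≃ₐ[ℚ] Kbar) :
    coeffMap ((σ : Kbar ≃ₐ[ℚ] Kbar) : Kbar →+* Kbar) jK = jK :=
  coeffMap_jqModC _

theorem coeffMap_qExpand_jK (σ : Kbar ≃ₐ[ℚ] Kbar) (ℓ : ℕ) [NeZero ℓ] :
    coeffMap ((σ : Kbar ≃ₐ[ℚ] Kbar) : Kbar →+* Kbar) (qExpand Kbar ℓ jK) = qExpand Kbar ℓ jK := by
  rw [coeffMap_qExpand, coeffMap_jK]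

/-- `j` is Galois invariant. -/
theorem gQ_smul_of_coe_eq_jK (σ : Kbar ≃ₐ[ℚ] Kbar) (y : FN N) (hy : (y : Om) = jK) :
    gQ N σ • y = y :=
  gQ_smul_of_coeffMap_eq σ y (by rw [hy, coeffMap_jK])

/-- `j(q^ℓ)` is Galois invariant. -/
theorem gQ_smul_of_coe_eq_qExpand_jK (σ : Kbar ≃ₐ[ℚ] Kbar) (ℓ : ℕ) [NeZero ℓ] (y : FN N)
    (hy : (y : Om) = qExpand Kbar ℓ jK) : gQ N σ • y = y :=
  gQ_smul_of_coeffMap_eq σ y (by rw [hy, coeffMap_qExpand_jK])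

theorem gQ_smul_jBar [NeZero N] (σ : Kbar ≃ₐ[ℚ] Kbar) : gQ N σ • jBar N = jBar N :=
  gQ_smul_of_coe_eq_jK σ (jBar N) (coe_jBar N)

/-! ### (G4) The `τ`-trick inclusion -/

/-- **(G4)**  Let `τ = σ` act coefficientwise, `g = gQ N σ`, `E` a `g`-stable divisor of `F_N`,
and let `ρ : O →+* R'` be a reduction map on a subring `O` of `Q̄((q))` which is stable under
`τ⁻¹` with `ρ ∘ τ⁻¹ = ρ`.  Then for `x ∈ L(g D' - D' + c E) ∩ O` and `t ∈ L(D' + c' E) ∩ O` there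
is `s ∈ L(D' + (c + c') E) ∩ O` with `ρ s = ρ x * ρ t`  (namely `s = τ⁻¹ (x t)`). -/
theorem exists_mul_tau (σ : Kbar ≃ₐ[ℚ] Kbar) {R' : Type*} [CommRing R'] (O : Subring Om)
    (ρ : O →+* R')
    (hO : ∀ y : O, ∃ h : coeffMap ((σ.symm : Kbar ≃ₐ[ℚ] Kbar) : Kbar →+* Kbar) (y : Om) ∈ O,
      ρ ⟨_, h⟩ = ρ y)
    (D' E : Divisor Kbar (FN N)) (hE : gQ N σ • E = E) (c c' : ℕ) (x t : O)
    (hx : (x : Om) ∈ pullRR N N' (gQ N σ • D' - D' + c • E))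
    (ht : (t : Om) ∈ pullRR N N' (D' + c' • E)) :
    ∃ s : O, (s : Om) ∈ pullRR N N' (D' + (c + c') • E) ∧ ρ s = ρ x * ρ t := by
  obtain ⟨h, hρ⟩ := hO (x * t)
  refine ⟨⟨_, h⟩, ?_, by rw [hρ, map_mul]⟩
  show coeffMap ((σ.symm : Kbar ≃ₐ[ℚ] Kbar) : Kbar →+* Kbar) ((x * t : O) : Om) ∈ _
  rw [coeffMap_symm_mem_pullRR_iff, smul_add_nsmul _ _ _ hE]
  have h1 := mul_mem_pullRR_add hx ht
  have e : gQ N σ • D' - D' + c • E + (D' + c' • E) = gQ N σ • D' + (c + c') • E := by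
    rw [add_smul]
    abel
  rw [e] at h1
  exact h1

/-- **(G4), set form**: the same with the reduction spaces
`redO W := {ρ y | y ∈ O, y ∈ W}` spelled out. -/
theorem mul_mem_red_tau (σ : Kbar ≃ₐ[ℚ] Kbar) {R' : Type*} [CommRing R'] (O : Subring Om)
    (ρ : O →+* R')
    (hO : ∀ y : O, ∃ h : coeffMap ((σ.symm : Kbar ≃ₐ[ℚ] Kbar) : Kbar →+* Kbar) (y : Om) ∈ O,
      ρ ⟨_, h⟩ = ρ y)
    (D' E : Divisor Kbar (FN N)) (hE : gQ N σ • E = E) (c c' : ℕ) (a b : R')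
    (ha : ∃ x : O, (x : Om) ∈ pullRR N N' (gQ N σ • D' - D' + c • E) ∧ ρ x = a)
    (hb : ∃ t : O, (t : Om) ∈ pullRR N N' (D' + c' • E) ∧ ρ t = b) :
    ∃ s : O, (s : Om) ∈ pullRR N N' (D' + (c + c') • E) ∧ ρ s = a * b := by
  obtain ⟨x, hx, rfl⟩ := ha
  obtain ⟨t, ht, rfl⟩ := hb
  exact exists_mul_tau σ O ρ hO D' E hE c c' x t hx ht

end Fermat.Agent.S34.GalPull
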