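import Mathlib
import Fermat.Agent.S34.Plan
import Fermat.Agent.S34.GalPull
import Fermat.Agent.P5.CoreInertia

/-!
# S34 — `[TAU]`, the Galois / divisor half (helper89)

Plan vocabulary (`S34/Plan.lean`).  For `τ` in the inertia group of `A`, a divisor `D₀` of `F_N`
with `n • D₀ = div f`, put `g = Plan.gal N τ`,

* `D'  = g • D₀ - D₀`,            `u = τ f / f`   (`n • D'  = div u`, `ρ u = (c₁, c₂)` constants),
* `D'' = Plan.unipDiv N τ D₀`,     `w = τ u / u`   (`n • D'' = div w`, `ρ w = 1`).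

`exists_tau_data` produces `u`, `w` with these properties together with the three inclusions

* `s ∈ L(D' + cE)  ⟹ sⁿ u ∈ L(n c E)`,
* `s ∈ L(D'' + cE) ⟹ sⁿ w ∈ L(n c E)`,
* `s ∈ L(D'' + cE) ∩ O`, `t ∈ L(D' + c'E) ∩ O ⟹ ρ (s t) ∈ ρ (L(D' + (c + c')E) ∩ O)`  (the `τ`-trick),

which are the Galois-theoretic inputs of the graded twist theorem (`S34/TauAbs2`, `S34/TauAdapt`,
helper91).  `tauStmt_of` derives `Plan.TauStmt` from the remaining (non-Galois) statement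
`AdaptStmt`.
-/

set_option autoImplicit false

noncomputable section

namespace Fermat.Agent.S34.TauGal

open ModularCurve AlgebraicCurve Fermat.Agent.S24 Fermat.Agent.S18.Content Fermat.Agent.S18.Plan
open Fermat.Agent.S18.Main Fermat.Agent.S34.GalPull

set_option synthInstance.maxHeartbeats 400000
set_option maxHeartbeats 800000

variable {A : ValuationSubring Kbar} {N q M : ℕ} [NeZero N] [NeZero q] {hqN : q ∣ N}

/-! ### Divisors -/

/-- `D' = τ D₀ - D₀`. -/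
def dOne (N : ℕ) (τ : Kbar ≃ₐ[ℚ] Kbar) (D : Divisor Kbar (FN N)) : Divisor Kbar (FN N) :=
  Plan.gal N τ • D - D

omit [NeZero N] in
theorem dOne_dOne (τ : Kbar ≃ₐ[ℚ] Kbar) (D : Divisor Kbar (FN N)) :
    dOne N τ (dOne N τ D) = Plan.unipDiv N τ D := by
  unfold dOne Plan.unipDiv
  rw [smul_sub, two_nsmul]
  abel

omit [NeZero N] in
theorem degree_dOne (τ : Kbar ≃ₐ[ℚ] Kbar) (D : Divisor Kbar (FN N)) :
    Divisor.degree (dOne N τ D) = 0 := by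
  unfold dOne
  rw [map_sub, SemilinearAut.degree_smul, sub_self]

omit [NeZero N] in
theorem degree_unipDiv (τ : Kbar ≃ₐ[ℚ] Kbar) (D : Divisor Kbar (FN N)) :
    Divisor.degree (Plan.unipDiv N τ D) = 0 := by
  rw [← dOne_dOne, degree_dOne]

/-- `E = (j)_∞ + (j_q)_∞` is Galois stable. -/
theorem gal_smul_E (τ : Kbar ≃ₐ[ℚ] Kbar) {E : Divisor Kbar (FN N)} (hE : Plan.IsE N q hqN E) :
    Plan.gal N τ • E = E :=
  smul_poleDivisor₂ (Plan.gal N τ) (h₁ := jBar N) (h₂ := jBarLevel N q hqN)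
    (Subtype.ext (coeffMap_coeffEmb _ _)) (Subtype.ext (coeffMap_coeffEmb _ _)) E hE

/-! ### The Kummer ratio -/

omit [NeZero N] in
/-- The ratio `τ f / f` as an element of `F_N`. -/
theorem coe_ratio (τ : Kbar ≃ₐ[ℚ] Kbar) (f : FN N) :
    (((Plan.gal N τ • f) * f⁻¹ : FN N) : Om) =
      coeffMap ((τ : Kbar ≃ₐ[ℚ] Kbar) : Kbar →+* Kbar) (f : Om) * ((f : Om))⁻¹ := by
  push_cast
  rfl

omit [NeZero N] in
theorem ratio_ne_zero (τ : Kbar ≃ₐ[ℚ] Kbar) {f : FN N} (hf : f ≠ 0) :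
    (Plan.gal N τ • f) * f⁻¹ ≠ 0 := by
  refine mul_ne_zero ?_ (inv_ne_zero hf)
  rw [Ne, smul_eq_zero_iff_eq]
  exact hf

omit [NeZero N] in
/-- `div (τ f / f) = n • (τ D - D)` if `div f = n • D`. -/
theorem ord_ratio (τ : Kbar ≃ₐ[ℚ] Kbar) {f : FN N} (hf : f ≠ 0) (n : ℕ)
    (D : Divisor Kbar (FN N)) (hD : ∀ P : Place Kbar (FN N), P.ord f = n * D P)
    (P : Place Kbar (FN N)) :
    P.ord ((Plan.gal N τ • f) * f⁻¹) = n * dOne N τ D P := by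
  have h := P5.CoreInertia.smul_sub_apply_eq_ord (Plan.gal N τ) hf n D
    (fun P => by rw [Finsupp.smul_apply, nsmul_eq_mul, hD P]) P
  rw [← h, Finsupp.smul_apply, nsmul_eq_mul]
  rfl

omit [NeZero N] [NeZero q] in
/-- The power trick: `s ∈ L(D + cE)`, `div u = n • D` ⟹ `sⁿ u ∈ L(n c E)`. -/
theorem pow_mul_mem (hle : modularFunctionFieldBar N ≤ modularFunctionFieldBar (M * q))
    {u : FN N} (hu : u ≠ 0) (n : ℕ) (D E : Divisor Kbar (FN N))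
    (hD : ∀ P : Place Kbar (FN N), P.ord u = n * D P) (c : ℕ) {s : Om}
    (hs : s ∈ pullRR N (M * q) (D + c • E)) :
    s ^ n * (u : Om) ∈ pullRR N (M * q) ((n * c) • E) := by
  have h1 := pow_mem_pullRR (N' := M * q) n (B' := n • (D + c • E))
    (fun P => by rw [Finsupp.smul_apply, nsmul_eq_mul]) hs
  have h2 := mul_mem_pullRR hle hu (B' := (n * c) • E)
    (fun P => by
      rw [hD P]
      simp only [Finsupp.add_apply, Finsupp.smul_apply, nsmul_eq_mul, Nat.cast_mul]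
      ring) h1
  rw [mul_comm (s ^ n) (u : Om)]
  exact h2

/-! ### The data of the `τ`-trick -/

/-- **[TAU], Galois half.**  For `τ` in inertia and `n • D₀` principal: functions `u`, `w` of
`F_N` in `O` with `ρ u` a pair of nonzero constants, `ρ w = 1`, `div u = n • D'`,
`div w = n • D''`, the two power-trick inclusions and the `τ`-trick inclusion. -/
theorem exists_tau_data (hle : modularFunctionFieldBar N ≤ modularFunctionFieldBar (M * q))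
    {O : Subring Om} {ρ : O →+* Plan.R2 A} (hS : Plan.Setup2 A N q M hqN O ρ)
    (E : Divisor Kbar (FN N)) (hE : Plan.IsE N q hqN E)
    (τ : Kbar ≃ₐ[ℚ] Kbar) (hτ : τ ∈ A.inertiaSubgroupIn ℚ)
    (D₀ : Divisor Kbar (FN N)) (n : ℕ)
    (hprin : n • D₀ ∈ Divisor.principal (K := Kbar) (F := FN N)) :
    ∃ (u w : FN N) (hu : (u : Om) ∈ O) (hw : (w : Om) ∈ O) (c₁ c₂ : kk A),
      u ≠ 0 ∧ w ≠ 0 ∧ c₁ ≠ 0 ∧ c₂ ≠ 0 ∧
      ρ ⟨_, hu⟩ = (HahnSeries.C c₁, HahnSeries.C c₂) ∧ ρ ⟨_, hw⟩ = 1 ∧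
      (∀ P : Place Kbar (FN N), P.ord u = n * dOne N τ D₀ P) ∧
      (∀ P : Place Kbar (FN N), P.ord w = n * Plan.unipDiv N τ D₀ P) ∧
      (∀ (c : ℕ) (s : Om), s ∈ pullRR N (M * q) (dOne N τ D₀ + c • E) →
        s ^ n * (u : Om) ∈ pullRR N (M * q) ((n * c) • E)) ∧
      (∀ (c : ℕ) (s : Om), s ∈ pullRR N (M * q) (Plan.unipDiv N τ D₀ + c • E) →
        s ^ n * (w : Om) ∈ pullRR N (M * q) ((n * c) • E)) ∧
      (∀ (c c' : ℕ) (s t : O), (s : Om) ∈ pullRR N (M * q) (Plan.unipDiv N τ D₀ + c • E) →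
        (t : Om) ∈ pullRR N (M * q) (dOne N τ D₀ + c' • E) →
        ρ (s * t) ∈ Plan.redSet O ρ (pullRR N (M * q) (dOne N τ D₀ + (c + c') • E))) := by
  obtain ⟨f, hf0, hfD⟩ := hprin
  have hfD' : ∀ P : Place Kbar (FN N), P.ord f = n * D₀ P := fun P => by
    rw [← hfD P, Finsupp.smul_apply, nsmul_eq_mul]
  have hfOm : (f : Om) ≠ 0 := fun h => hf0 (Subtype.ext h)
  -- the function `u`
  set u : FN N := (Plan.gal N τ • f) * f⁻¹ with hu_def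
  have hu0 : u ≠ 0 := ratio_ne_zero τ hf0
  have huOm : (u : Om) ≠ 0 := fun h => hu0 (Subtype.ext h)
  obtain ⟨hu', c₁, c₂, hc₁, hc₂, hρu'⟩ := hS.inertia_ratio τ hτ (f : Om) (hle f.2) hfOm
  have hcoe_u : (u : Om) = coeffMap ((τ : Kbar ≃ₐ[ℚ] Kbar) : Kbar →+* Kbar) (f : Om)
      * ((f : Om))⁻¹ := coe_ratio τ f
  have hu : (u : Om) ∈ O := by rw [hcoe_u]; exact hu'
  have hρu : ρ ⟨_, hu⟩ = (HahnSeries.C c₁, HahnSeries.C c₂) := by
    rw [← hρu']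
    exact congrArg ρ (Subtype.ext hcoe_u)
  have hu_ord : ∀ P : Place Kbar (FN N), P.ord u = n * dOne N τ D₀ P :=
    fun P => ord_ratio τ hf0 n D₀ hfD' P
  -- the function `w`
  set w : FN N := (Plan.gal N τ • u) * u⁻¹ with hw_def
  have hw0 : w ≠ 0 := ratio_ne_zero τ hu0
  obtain ⟨h₁, hρ₁⟩ := hS.inertia τ hτ ⟨_, hu⟩
  have hC₁ : (HahnSeries.C c₁ : Omk A) ≠ 0 :=
    (map_ne_zero_iff _ HahnSeries.C_injective).2 hc₁
  have hC₂ : (HahnSeries.C c₂ : Omk A) ≠ 0 :=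
    (map_ne_zero_iff _ HahnSeries.C_injective).2 hc₂
  have h₂ : ((u : Om))⁻¹ ∈ O :=
    hS.inv_mem ⟨_, hu⟩ (by rw [hρu]; exact hC₁) (by rw [hρu]; exact hC₂)
  have hcoe_w : (w : Om) = coeffMap ((τ : Kbar ≃ₐ[ℚ] Kbar) : Kbar →+* Kbar) (u : Om)
      * ((u : Om))⁻¹ := coe_ratio τ u
  have hw : (w : Om) ∈ O := by rw [hcoe_w]; exact O.mul_mem h₁ h₂
  have hρw : ρ ⟨_, hw⟩ = 1 := by
    have e1 : (⟨(w : Om), hw⟩ : O) = ⟨_, h₁⟩ * ⟨_, h₂⟩ := Subtype.ext hcoe_w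
    have e2 : (⟨(u : Om), hu⟩ : O) * ⟨_, h₂⟩ = 1 := Subtype.ext (mul_inv_cancel₀ huOm)
    rw [e1, map_mul, hρ₁, ← map_mul, e2, map_one]
  have hw_ord : ∀ P : Place Kbar (FN N), P.ord w = n * Plan.unipDiv N τ D₀ P := fun P => by
    rw [← dOne_dOne]
    exact ord_ratio τ hu0 n (dOne N τ D₀) hu_ord P
  refine ⟨u, w, hu, hw, c₁, c₂, hu0, hw0, hc₁, hc₂, hρu, hρw, hu_ord, hw_ord, ?_, ?_, ?_⟩
  · intro c s hs
    exact pow_mul_mem hle hu0 n (dOne N τ D₀) E hu_ord c hs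
  · intro c s hs
    exact pow_mul_mem hle hw0 n (Plan.unipDiv N τ D₀) E hw_ord c hs
  · intro c c' s t hs ht
    have hO : ∀ y : O, ∃ h : coeffMap ((τ.symm : Kbar ≃ₐ[ℚ] Kbar) : Kbar →+* Kbar) (y : Om) ∈ O,
        ρ ⟨_, h⟩ = ρ y := fun y => hS.inertia τ.symm (inv_mem hτ) y
    rw [← dOne_dOne] at hs
    obtain ⟨s', hs', hρs'⟩ := exists_mul_tau (N' := M * q) τ O ρ hO (dOne N τ D₀) E
      (gal_smul_E τ hE) c c' s t hs ht
    exact ⟨s', hs', by rw [hρs', map_mul]⟩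

/-! ### `Plan.TauStmt` from the adapter -/

/-- The non-Galois half of `[TAU]` (the instance of the graded twist theorem, `S34/TauAdapt`):
from the data produced by `exists_tau_data`, `M(D'')(c) = B̄(c)` for `c` large. -/
def AdaptStmt (A : ValuationSubring Kbar) (N q M : ℕ) [NeZero N] [NeZero q] (hqN : q ∣ N)
    (O : Subring Om) (ρ : O →+* Plan.R2 A) : Prop :=
  ∀ E : Divisor Kbar (FN N), Plan.IsE N q hqN E →
  ∀ D' D'' : Divisor Kbar (FN N), Divisor.degree D' = 0 → Divisor.degree D'' = 0 →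
  ∀ n : ℕ, 0 < n → ∀ (u w : O) (c₁ c₂ : kk A), c₁ ≠ 0 → c₂ ≠ 0 →
    ρ u = (HahnSeries.C c₁, HahnSeries.C c₂) → ρ w = 1 →
    (∀ (c : ℕ) (s : Om), s ∈ pullRR N (M * q) (D' + c • E) →
      s ^ n * (u : Om) ∈ pullRR N (M * q) ((n * c) • E)) →
    (∀ (c : ℕ) (s : Om), s ∈ pullRR N (M * q) (D'' + c • E) →
      s ^ n * (w : Om) ∈ pullRR N (M * q) ((n * c) • E)) →
    (∀ (c c' : ℕ) (s t : O), (s : Om) ∈ pullRR N (M * q) (D'' + c • E) →
      (t : Om) ∈ pullRR N (M * q) (D' + c' • E) →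
      ρ (s * t) ∈ Plan.redSet O ρ (pullRR N (M * q) (D' + (c + c') • E))) →
    ∃ c₀ : ℕ, ∀ c : ℕ, c₀ ≤ c → Plan.MD N q M O ρ E D'' c = Plan.Bbar N q M O ρ E c

/-- **[TAU]** `Plan.TauStmt` from the two-component reduction and the adapter statement. -/
theorem tauStmt_of (hle : modularFunctionFieldBar N ≤ modularFunctionFieldBar (M * q))
    {O : Subring Om} {ρ : O →+* Plan.R2 A} (hS : Plan.Setup2 A N q M hqN O ρ)
    (hAd : AdaptStmt A N q M hqN O ρ) : Plan.TauStmt A N q M hqN O ρ := by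
  intro E hE τ hτ D₀ n _ hn hprin
  obtain ⟨u, w, hu, hw, c₁, c₂, -, hw0, hc₁, hc₂, hρu, hρw, -, hw_ord, hp', hp'', hmul⟩ :=
    exists_tau_data hle hS E hE τ hτ D₀ n hprin
  refine ⟨w, hw0, hw_ord, hw, hρw, ?_⟩
  exact hAd E hE (dOne N τ D₀) (Plan.unipDiv N τ D₀) (degree_dOne τ D₀) (degree_unipDiv τ D₀) n hn
    ⟨_, hu⟩ ⟨_, hw⟩ c₁ c₂ hc₁ hc₂ hρu hρw hp' hp'' hmul

end Fermat.Agent.S34.TauGal
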