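import Mathlib
import Fermat.Agent.S34.TauGal
import Fermat.Agent.S34.TauAdapt
import Fermat.Agent.S34.RiemannE
import Fermat.Agent.S34.CuspRegRK
import Fermat.Agent.S34.LiftInst

/-!
# S34 / P6 — `Plan.TauStmt` at the P6 levels (assembly glue, owner: helper74)

`TauGal.tauStmt_of` (helper89: the Galois half) fed with `TauAdapt.md_eq_bbar` (helper91: the graded
twist theorem in Plan vocabulary), Riemann's inequality `RiemannE.finrank_le_add` (helper7) and
`CuspReg.riemannK` (helper86).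
-/

set_option autoImplicit false

open ModularCurve CuspForm AlgebraicCurve

namespace Fermat.Agent.S34.TauFinal

open Fermat.Agent.S24 Fermat.Agent.S18.Content Fermat.Agent.S18.Plan

/-- **[TAU]** `Plan.TauStmt` at the P6 levels, from `Setup2`, `CuspReg` and `NodeStmt`. -/
theorem tauStmt {q N' N M : ℕ} [NeZero N] [NeZero q] (hL : Plan.Levels q N' N M) (hqN : q ∣ N)
    (A : ValuationSubring Kbar) (hA : A.LiesOverPrime q) {O : Subring Om} {ρ : O →+* Plan.R2 A}
    (hS : Plan.Setup2 A N q M hqN O ρ) (hCR : Plan.CuspReg A N q M hqN O ρ)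
    (hNode : Plan.NodeStmt A N q M hqN O ρ) : Plan.TauStmt A N q M hqN O ρ := by
  have : NeZero (M * q) := RiemannE.neZero_top hL
  have hle : modularFunctionFieldBar N ≤ modularFunctionFieldBar (M * q) :=
    Fermat.Agent.S18.Main.fieldBar_le (RiemannE.dvd_top hL)
  refine TauGal.tauStmt_of hle hS ?_
  intro E hE D' D'' hD' hD'' n hn u w c₁ c₂ hc₁ hc₂ hρu hρw hp' hp'' hmul
  obtain ⟨ι, _, _, e₁, e₂, hN⟩ := hNode E hE
  obtain ⟨c₀, hc₀⟩ := RiemannE.finrank_le_add hqN hL E hE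
  exact TauAdapt.md_eq_bbar hS hCR (RiemannE.rr0 hL)
    (TauAdapt.finite_WJ_of_riemannK A M (CuspReg.riemannK hL A hA)) E hE e₁ e₂ hN D' D''
    ⟨c₀, fun c hc => hc₀ c hc D' hD'⟩ ⟨c₀, fun c hc => hc₀ c hc D'' hD''⟩
    n hn u w c₁ c₂ hc₁ hc₂ hρu hρw hp' hp'' hmul

end Fermat.Agent.S34.TauFinal
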