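import Mathlib
import Fermat.Agent.S34.InclPull
import Fermat.Agent.S34.PoleDeg

/-!
# P6 / S34 — [INCL], Plan instance (owner: helper23)

The field `Setup2.incl` of `S34/Plan.lean` from the Plan contracts:

* `pointwise_of_poleStmt` : `Plan.PoleStmt` read at every place of `F_N`;
* `coe_jBarLevel_eq`      : `j_d = j(T^d)` inside `Q̄((T))`;
* `incl_of_levels`        : `Setup2.incl` from `Levels`, `PoleStmt`, an endomorphism `σ` of `F_{Mq}`
                            with `σ j_q = j`, and the [VAL] facts on `(O, ρ)`;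
* `incl_of_sigma`         : the same for an automorphism `σ` with `σ ∘ β = α` (Atkin–Lehner shape of
                            `S34/ALInvol`).
-/

set_option autoImplicit false

noncomputable section

namespace Fermat.Agent.S34.InclInst

open ModularCurve AlgebraicCurve Fermat.Agent.S24 Fermat.Agent.S18.Content Fermat.Agent.S18.Plan
open Fermat.Agent.S18 Fermat.Agent.S34.Incl Fermat.Agent.S34.Plan

set_option synthInstance.maxHeartbeats 400000
set_option maxHeartbeats 1600000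

/-- `Plan.PoleStmt`, read at every place of `F_N`. -/
theorem pointwise_of_poleStmt {q N' N M : ℕ} [NeZero N] [NeZero q] (h : Levels q N' N M)
    (hqN : q ∣ N) (hpole : PoleStmt N q hqN) :
    (∀ v : Place Kbar (FN N),
      max 0 (-(v.ord (jBarLevel N q hqN))) ≤ q * max 0 (-(v.ord (jBar N)))) ∧
    (∀ v : Place Kbar (FN N),
      max 0 (-(v.ord (jBar N))) ≤ q * max 0 (-(v.ord (jBarLevel N q hqN)))) := by
  obtain ⟨Cj, hCj⟩ := PoleDeg.exists_poleJ N
  obtain ⟨Cq, hCq⟩ := PoleDeg.exists_poleJq h hqN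
  obtain ⟨h1, h2, -⟩ := hpole Cj Cq hCj hCq
  refine ⟨fun v => ?_, fun v => ?_⟩
  · rw [← hCq v, ← hCj v]
    exact h1 v
  · rw [← hCq v, ← hCj v]
    exact h2 v

/-- `j_d = j(T^d)` inside `Q̄((T))`. -/
theorem coe_jBarLevel_eq (N : ℕ) [NeZero N] (d : ℕ) [NeZero d] (hd : d ∣ N) :
    ((jBarLevel N d hd : FN N) : Om) = qExpand Kbar d jK := by
  have h1 : (coeffEmb Kbar jq : Om) = jK := Main.coe_jBar N
  show coeffEmb Kbar (qExpand ℚ d jq) = qExpand Kbar d jK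
  rw [← h1]
  ext k
  by_cases hk : (d : ℤ) ∣ k
  · obtain ⟨m, rfl⟩ := hk
    rw [coeffEmb_coeff, qExpand_coeff_mul, qExpand_coeff_mul, coeffEmb_coeff]
  · rw [coeffEmb_coeff, qExpand_coeff_of_not_dvd d _ hk, qExpand_coeff_of_not_dvd d _ hk,
      map_zero]

variable (A : ValuationSubring Kbar)

/-- **`Setup2.incl`** from `Levels`, `PoleStmt`, an endomorphism `σ` of `F_{Mq}` with `σ j_q = j`,
and a `σ`-stable `O ⊆ F_{Mq} ∩ Ocal`, integral over `O_M`, with `ρ g = (red g, red (σ g))` and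
values in `F_{M,k} × F_{M,k}`. -/
theorem incl_of_levels {q N' N M : ℕ} [NeZero N] [NeZero q] (h : Levels q N' N M) (hqN : q ∣ N)
    (hA : A.LiesOverPrime q) (hpole : PoleStmt N q hqN)
    (σ : FN (M * q) →ₐ[Kbar] FN (M * q)) (xq : FN (M * q))
    (hxq : (xq : Om) = ((jBarLevel N q hqN : FN N) : Om))
    (hσ : ((σ xq : FN (M * q)) : Om) = jK)
    (O : Subring Om) (ρ : O →+* R2 A)
    (hF : ∀ g : O, (g : Om) ∈ modularFunctionFieldBar (M * q))
    (hOcal : ∀ g : O, (g : Om) ∈ Ocal A)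
    (hint : ∀ g : O, IsIntegral (OM A M) (g : Om))
    (hσO : ∀ g : O, ((σ ⟨(g : Om), hF g⟩ : FN (M * q)) : Om) ∈ O)
    (hρ : ∀ g : O, ρ g = (red A ⟨(g : Om), hOcal g⟩,
      red A ⟨((σ ⟨(g : Om), hF g⟩ : FN (M * q)) : Om), hOcal ⟨_, hσO g⟩⟩))
    (hrange : ∀ g : O, (ρ g).1 ∈ Fk A M ∧ (ρ g).2 ∈ Fk A M) :
    ∀ E : Divisor Kbar (FN N), IsE N q hqN E → ∀ (c : ℕ) (g : O),
      (g : Om) ∈ pullRR N (M * q) (c • E) → ρ g ∈ WW A q M c := by
  have hM0 : M ≠ 0 := by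
    rw [h.M_eq]
    refine Nat.mul_ne_zero ?_ h.N'_pos.ne'
    unfold aux
    split_ifs <;> norm_num
  have : NeZero M := ⟨hM0⟩
  have : Fact q.Prime := ⟨h.prime⟩
  obtain ⟨ha, hb⟩ := pointwise_of_poleStmt h hqN hpole
  exact InclPull.incl_of A N q M hqN (InclPull.dvd_of_levels h) (InclPull.not_dvd_of_levels h) hA
    ha hb σ xq hxq hσ O ρ hF hOcal hint hσO hρ hrange

/-- **`Setup2.incl`** for an automorphism `σ` of `F_{Mq}` with `σ ∘ β = α`
(`β = heckeBetaBar`, `α = heckeAlphaBar`: the Atkin–Lehner involution of `S34/ALInvol`). -/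
theorem incl_of_sigma {q N' N M : ℕ} [NeZero N] [NeZero q] [NeZero M] (h : Levels q N' N M)
    (hqN : q ∣ N) (hA : A.LiesOverPrime q) (hpole : PoleStmt N q hqN)
    (σ : FN (M * q) ≃ₐ[Kbar] FN (M * q))
    (hβ : ∀ f, σ (heckeBetaBar Kbar M q f) = heckeAlphaBar Kbar M q f)
    (O : Subring Om) (ρ : O →+* R2 A)
    (hF : ∀ g : O, (g : Om) ∈ modularFunctionFieldBar (M * q))
    (hOcal : ∀ g : O, (g : Om) ∈ Ocal A)
    (hint : ∀ g : O, IsIntegral (OM A M) (g : Om))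
    (hσO : ∀ g : O, ((σ ⟨(g : Om), hF g⟩ : FN (M * q)) : Om) ∈ O)
    (hρ : ∀ g : O, ρ g = (red A ⟨(g : Om), hOcal g⟩,
      red A ⟨((σ ⟨(g : Om), hF g⟩ : FN (M * q)) : Om), hOcal ⟨_, hσO g⟩⟩))
    (hrange : ∀ g : O, (ρ g).1 ∈ Fk A M ∧ (ρ g).2 ∈ Fk A M) :
    ∀ E : Divisor Kbar (FN N), IsE N q hqN E → ∀ (c : ℕ) (g : O),
      (g : Om) ∈ pullRR N (M * q) (c • E) → ρ g ∈ WW A q M c := by
  refine incl_of_levels A h hqN hA hpole (σ : FN (M * q) →ₐ[Kbar] FN (M * q))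
    (heckeBetaBar Kbar M q (jBar M)) ?_ ?_ O ρ hF hOcal hint hσO hρ hrange
  · rw [coe_heckeBetaBar, Main.coe_jBar M, coe_jBarLevel_eq]
  · show ((σ (heckeBetaBar Kbar M q (jBar M)) : FN (M * q)) : Om) = jK
    rw [hβ, coe_heckeAlphaBar, Main.coe_jBar M]

end Fermat.Agent.S34.InclInst

end
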