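import Mathlib
import Fermat.Agent.S34.InclInst

/-!
# P6 / S34 — [INCL]: the integrality input `hint`, and `Setup2.incl` in `(hO)/(hρ)` form
(owner: helper23)

* `isIntegral_OM_of_coeff` : if every element of the subring `O ⊆ Q̄((T))` is a combination of a
  finite family `w` with coefficients in `F_M ∩ Ocal`, and `F_M ∩ Ocal ⊆ O`, then every element of
  `O` is integral over `O_M = F_M ∩ Ocal`;
* `incl_of_hO` : the field `Setup2.incl` for `O = {g ∈ F_{Mq} | g, σ g ∈ Ocal}` and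
  `ρ g = (red g, red (σ g))` (the `(hO)/(hρ)` spelling of `S34/ValInertia`, `S34/ValSmall`), from
  `Levels`, `PoleStmt`, `σ ∘ β = α`, `σ ∘ σ = id`, the coefficient statement and `Setup2.range`.
-/

set_option autoImplicit false

noncomputable section

namespace Fermat.Agent.S34.InclInt

open ModularCurve AlgebraicCurve Fermat.Agent.S24 Fermat.Agent.S18.Content Fermat.Agent.S18.Plan
open Fermat.Agent.S18 Fermat.Agent.S34.Incl Fermat.Agent.S34.Plan

set_option synthInstance.maxHeartbeats 400000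
set_option maxHeartbeats 1600000

variable (A : ValuationSubring Kbar)

/-- **(hint)**: a subring `O ⊇ F_M ∩ Ocal` of `Q̄((T))` which is spanned over `F_M ∩ Ocal` by a
finite family is integral over `O_M = F_M ∩ Ocal`. -/
theorem isIntegral_OM_of_coeff (M : ℕ) (O : Subring Om)
    (hOM : ∀ h : Om, h ∈ modularFunctionFieldBar M → h ∈ Ocal A → h ∈ O) {d : ℕ}
    (w : Fin d → O)
    (hcoeff : ∀ g : O, ∃ c : Fin d → Om,
      (∀ i, c i ∈ modularFunctionFieldBar M ∧ c i ∈ Ocal A) ∧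
        (g : Om) = ∑ i, c i * (w i : Om)) :
    ∀ g : O, IsIntegral (OM A M) (g : Om) := by
  classical
  intro g
  let S : Subalgebra (OM A M) Om :=
    { O.toSubsemiring with
      algebraMap_mem' := fun r => hOM _ r.2.2 r.2.1 }
  have hS : ∀ x : Om, x ∈ S ↔ x ∈ O := fun x => Iff.rfl
  have hFG : S.toSubmodule.FG := by
    refine ⟨Finset.univ.image (fun i => (w i : Om)), ?_⟩
    apply le_antisymm
    · rw [Submodule.span_le]
      intro x hx
      rw [Finset.coe_image, Set.mem_image] at hx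
      obtain ⟨i, -, rfl⟩ := hx
      exact (hS _).mpr (w i).2
    · intro x hx
      obtain ⟨c, hc, e⟩ := hcoeff ⟨x, (hS x).mp hx⟩
      have e' : x = ∑ i, c i * (w i : Om) := e
      rw [e']
      refine Submodule.sum_mem _ fun i _ => ?_
      have h1 : c i * (w i : Om) = (⟨c i, (hc i).2, (hc i).1⟩ : OM A M) • (w i : Om) := rfl
      rw [h1]
      refine Submodule.smul_mem _ _ (Submodule.subset_span ?_)
      rw [Finset.coe_image, Set.mem_image]
      exact ⟨i, Finset.mem_coe.mpr (Finset.mem_univ i), rfl⟩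
  exact IsIntegral.of_mem_of_fg S hFG (g : Om) ((hS _).mpr g.2)

/-- **`Setup2.incl`** in the `(hO)/(hρ)` spelling: `O = {g ∈ F_{Mq} | g, σ g ∈ Ocal}`,
`ρ g = (red g, red (σ g))`, `σ ∘ β = α`, `σ ∘ σ = id`; every element of `O` is a combination of
`w` with coefficients in `F_M ∩ Ocal ⊆ O`; `ρ` takes values in `F_{M,k} × F_{M,k}`. -/
theorem incl_of_hO {q N' N M : ℕ} [NeZero N] [NeZero q] [NeZero M] (h : Levels q N' N M)
    (hqN : q ∣ N) (hA : A.LiesOverPrime q) (hpole : PoleStmt N q hqN)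
    (σ : FN (M * q) ≃ₐ[Kbar] FN (M * q))
    (hβ : ∀ f, σ (heckeBetaBar Kbar M q f) = heckeAlphaBar Kbar M q f)
    (hσσ : ∀ x, σ (σ x) = x)
    (O : Subring Om) (ρ : O →+* R2 A)
    (hO : ∀ g : Om, g ∈ O ↔ ∃ hg : g ∈ modularFunctionFieldBar (M * q),
      g ∈ Ocal A ∧ ((σ ⟨g, hg⟩ : FN (M * q)) : Om) ∈ Ocal A)
    (hρ : ∀ (g : O) (hg : (g : Om) ∈ modularFunctionFieldBar (M * q)) (h1 : (g : Om) ∈ Ocal A)
      (h2 : ((σ ⟨(g : Om), hg⟩ : FN (M * q)) : Om) ∈ Ocal A),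
      ρ g = (red A ⟨(g : Om), h1⟩, red A ⟨_, h2⟩))
    (hOM : ∀ y : Om, y ∈ modularFunctionFieldBar M → y ∈ Ocal A → y ∈ O) {d : ℕ}
    (w : Fin d → O)
    (hcoeff : ∀ g : O, ∃ c : Fin d → Om,
      (∀ i, c i ∈ modularFunctionFieldBar M ∧ c i ∈ Ocal A) ∧
        (g : Om) = ∑ i, c i * (w i : Om))
    (hrange : ∀ g : O, (ρ g).1 ∈ Fk A M ∧ (ρ g).2 ∈ Fk A M) :
    ∀ E : Divisor Kbar (FN N), IsE N q hqN E → ∀ (c : ℕ) (g : O),
      (g : Om) ∈ pullRR N (M * q) (c • E) → ρ g ∈ WW A q M c := by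
  have hF : ∀ g : O, (g : Om) ∈ modularFunctionFieldBar (M * q) := fun g =>
    ((hO (g : Om)).mp g.2).fst
  have hOcal : ∀ g : O, (g : Om) ∈ Ocal A := fun g => ((hO (g : Om)).mp g.2).snd.1
  have hσ2 : ∀ g : O, ((σ ⟨(g : Om), hF g⟩ : FN (M * q)) : Om) ∈ Ocal A := fun g =>
    ((hO (g : Om)).mp g.2).snd.2
  have hσO : ∀ g : O, ((σ ⟨(g : Om), hF g⟩ : FN (M * q)) : Om) ∈ O := by
    intro g
    refine (hO _).mpr ⟨(σ ⟨(g : Om), hF g⟩).2, hσ2 g, ?_⟩
    have e : (⟨((σ ⟨(g : Om), hF g⟩ : FN (M * q)) : Om), (σ ⟨(g : Om), hF g⟩).2⟩ : FN (M * q)) =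
        σ ⟨(g : Om), hF g⟩ := rfl
    rw [e, hσσ]
    exact hOcal g
  exact InclInst.incl_of_sigma A h hqN hA hpole σ hβ O ρ hF hOcal
    (isIntegral_OM_of_coeff A M O hOM w hcoeff) hσO
    (fun g => hρ g (hF g) (hOcal g) (hσ2 g)) hrange

end Fermat.Agent.S34.InclInt

end
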