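import Mathlib
import Fermat.Agent.S34.Plan
import Fermat.Agent.S37.Gal
import Fermat.Agent.S05.Inertia

/-!
# S34 / P6 [VAL-INERTIA] (helper5): the inertia fields of `Plan.Setup2`, hypothesis form

For the two-component reduction `(O, ρ)`, `O = {g ∈ F_L : g, σ g ∈ Ocal}`, `ρ g = (red g, red σ g)`
(hypotheses `hO`, `hρ`), an automorphism `σ` commuting with the coefficientwise Galois action
(`hστ`), and `τ` in the inertia group of `A`: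

* `inertia` : `τ` preserves `O` and `ρ ∘ τ = ρ`;
* `inertia_ratio` : for every `f ≠ 0` in `F_L`, `τ f / f ∈ O` and `ρ (τ f / f)` is a pair of
  nonzero constants (uses the scaling property `hscale` of the first valuation).

Generic facts: `const_ratio` (`c / τ c` is a unit of `A` for `τ` in the decomposition group),
`ratio_mem` (`τ f / f ∈ Ocal` with constant nonzero reduction when `f` is a constant times a unit).
-/

set_option autoImplicit false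
set_option synthInstance.maxHeartbeats 400000
set_option maxHeartbeats 1000000

noncomputable section

namespace Fermat.Agent.S34.ValInertia

open ModularCurve AlgebraicCurve Fermat.Agent.S24 Fermat.Agent.S18.Content Fermat.Agent.S18.Plan

section Const

variable (A : ValuationSubring Kbar)

/-- An element of the inertia group lies in the decomposition group and acts trivially on the
residue field. -/
theorem exists_decomp {τ : Kbar ≃ₐ[ℚ] Kbar} (hτ : τ ∈ A.inertiaSubgroupIn ℚ) :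
    ∃ s : A.decompositionSubgroup ℚ, (s : Kbar ≃ₐ[ℚ] Kbar) = τ ∧
      Fermat.Agent.S37.Gal.sigmaBar A s = RingHom.id _ := by
  obtain ⟨s, hs, rfl⟩ := hτ
  refine ⟨s, rfl, ?_⟩
  have h1 : MulSemiringAction.toRingAut (A.decompositionSubgroup ℚ)
      (IsLocalRing.ResidueField A) s = 1 := hs
  ext x
  show (MulSemiringAction.toRingAut (A.decompositionSubgroup ℚ)
      (IsLocalRing.ResidueField A) s) x = x
  rw [h1]
  rfl

/-- For `s` in the decomposition group and a constant `c ≠ 0`, `c / s c` is a unit of `A`. -/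
theorem const_ratio (s : A.decompositionSubgroup ℚ) (c : Kbar) (hc : c ≠ 0) :
    ∃ h : c / (s : Kbar ≃ₐ[ℚ] Kbar) c ∈ A, IsLocalRing.residue A ⟨_, h⟩ ≠ 0 := by
  have : Algebra.IsAlgebraic ℚ Kbar := AlgebraicClosure.isAlgebraic ℚ
  have hv := Fermat.Agent.S05.Inertia.valuation_apply A s.2 c
  have hsc : (s : Kbar ≃ₐ[ℚ] Kbar) c ≠ 0 := by
    rw [Ne, map_eq_zero]; exact hc
  have hv0 : A.valuation c ≠ 0 := (Valuation.ne_zero_iff _).mpr hc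
  have h1 : A.valuation (c / (s : Kbar ≃ₐ[ℚ] Kbar) c) = 1 := by
    rw [map_div₀, hv, div_self hv0]
  have hmem : c / (s : Kbar ≃ₐ[ℚ] Kbar) c ∈ A := (A.valuation_le_one_iff _).mp h1.le
  refine ⟨hmem, ?_⟩
  have hu : IsUnit (⟨_, hmem⟩ : A) := (A.valuation_eq_one_iff ⟨_, hmem⟩).mpr h1
  exact (IsLocalRing.residue_ne_zero_iff_isUnit _).mpr hu

/-- If `c • f` is a unit of `Ocal` for a constant `c ≠ 0`, then for `s` in the decomposition group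
acting trivially on the residue field, `s f / f ∈ Ocal` and its reduction is a nonzero
constant. -/
theorem ratio_mem (s : A.decompositionSubgroup ℚ)
    (hs : Fermat.Agent.S37.Gal.sigmaBar A s = RingHom.id _) (f : Om) (c : Kbar) (hc : c ≠ 0)
    (h : HahnSeries.C c * f ∈ Ocal A) (hred : red A ⟨_, h⟩ ≠ 0) :
    ∃ (hr : coeffMap ((s : Kbar ≃ₐ[ℚ] Kbar) : Kbar →+* Kbar) f * f⁻¹ ∈ Ocal A) (c₁ : kk A),
      c₁ ≠ 0 ∧ red A ⟨_, hr⟩ = HahnSeries.C c₁ := by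
  set τ : Kbar →+* Kbar := ((s : Kbar ≃ₐ[ℚ] Kbar) : Kbar →+* Kbar) with hτ
  -- `u = c f` and `τ u`
  have hτu : coeffMap τ (HahnSeries.C c * f) ∈ Ocal A :=
    Fermat.Agent.S37.Gal.coeffMap_mem_Ocal A s h
  have hτred : red A ⟨_, hτu⟩ = red A ⟨_, h⟩ := by
    have h1 := Fermat.Agent.S37.Gal.red_coeffMap A s (HahnSeries.C c * f) h
    rw [hs, coeffMap_id] at h1
    exact h1
  have hinv : (HahnSeries.C c * f)⁻¹ ∈ Ocal A := inv_mem_Ocal A ⟨_, h⟩ hred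
  have hinvred : red A ⟨_, hinv⟩ = (red A ⟨_, h⟩)⁻¹ := red_inv A ⟨_, h⟩ hred
  have hprod : coeffMap τ (HahnSeries.C c * f) * (HahnSeries.C c * f)⁻¹ ∈ Ocal A :=
    (Ocal A).mul_mem hτu hinv
  have hprodred : red A ⟨_, hprod⟩ = 1 := by
    have e : (⟨_, hprod⟩ : Ocal A) = ⟨_, hτu⟩ * ⟨_, hinv⟩ := rfl
    rw [e, map_mul, hτred, hinvred, mul_inv_cancel₀ hred]
  -- the constant
  obtain ⟨hcA, hcres⟩ := const_ratio A s c hc
  have hCO : (HahnSeries.C (c / (s : Kbar ≃ₐ[ℚ] Kbar) c) : Om) ∈ Ocal A := C_mem_Ocal A hcA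
  have hCred := red_C A hcA
  -- the identity
  have hτC : coeffMap τ (HahnSeries.C c : Om) = HahnSeries.C ((s : Kbar ≃ₐ[ℚ] Kbar) c) := by
    rw [HahnSeries.C_apply, coeffMap_single]
    rfl
  have hsc : (s : Kbar ≃ₐ[ℚ] Kbar) c ≠ 0 := by
    rw [Ne, map_eq_zero]; exact hc
  have hCc : (HahnSeries.C c : Om) ≠ 0 := by
    rw [Ne, map_eq_zero]; exact hc
  have hCsc : (HahnSeries.C ((s : Kbar ≃ₐ[ℚ] Kbar) c) : Om) ≠ 0 := by
    rw [Ne, map_eq_zero]; exact hsc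
  have hid : coeffMap τ f * f⁻¹ =
      HahnSeries.C (c / (s : Kbar ≃ₐ[ℚ] Kbar) c) *
        (coeffMap τ (HahnSeries.C c * f) * (HahnSeries.C c * f)⁻¹) := by
    rw [map_mul, hτC, map_div₀, mul_inv]
    field_simp
  have hr : coeffMap τ f * f⁻¹ ∈ Ocal A := by
    rw [hid]; exact (Ocal A).mul_mem hCO hprod
  refine ⟨hr, IsLocalRing.residue A ⟨_, hcA⟩, hcres, ?_⟩
  have e : (⟨_, hr⟩ : Ocal A) = ⟨_, hCO⟩ * ⟨_, hprod⟩ := Subtype.ext hid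
  rw [e, map_mul, hprodred, mul_one, hCred]

end Const

section Fields

variable (A : ValuationSubring Kbar) (L : ℕ) (σ : FN L ≃ₐ[Kbar] FN L)
  (O : Subring Om) (ρ : O →+* Plan.R2 A)

/-- **`Plan.Setup2.inertia`**, hypothesis form. -/
theorem inertia
    (hO : ∀ g : Om, g ∈ O ↔ ∃ hg : g ∈ modularFunctionFieldBar L,
      g ∈ Ocal A ∧ ((σ ⟨g, hg⟩ : FN L) : Om) ∈ Ocal A)
    (hρ : ∀ (g : O) (hg : (g : Om) ∈ modularFunctionFieldBar L) (h1 : (g : Om) ∈ Ocal A)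
      (h2 : ((σ ⟨(g : Om), hg⟩ : FN L) : Om) ∈ Ocal A),
      ρ g = (red A ⟨(g : Om), h1⟩, red A ⟨_, h2⟩))
    (hστ : ∀ (s : A.decompositionSubgroup ℚ) (x : FN L),
      σ (Fermat.Agent.S37.Gal.gK A L s • x) = Fermat.Agent.S37.Gal.gK A L s • σ x) :
    ∀ τ : Kbar ≃ₐ[ℚ] Kbar, τ ∈ A.inertiaSubgroupIn ℚ → ∀ g : O,
      ∃ h : coeffMap (τ : Kbar →+* Kbar) (g : Om) ∈ O, ρ ⟨_, h⟩ = ρ g := by
  intro τ hτ g
  obtain ⟨s, rfl, hs⟩ := exists_decomp A hτ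
  obtain ⟨hg, h1, h2⟩ := (hO (g : Om)).mp g.2
  set G : FN L := ⟨(g : Om), hg⟩ with hG
  -- `τ g` as an element of `F_L`
  have hcoe : ((Fermat.Agent.S37.Gal.gK A L s • G : FN L) : Om) =
      coeffMap ((s : Kbar ≃ₐ[ℚ] Kbar) : Kbar →+* Kbar) (g : Om) := rfl
  have hτF : coeffMap ((s : Kbar ≃ₐ[ℚ] Kbar) : Kbar →+* Kbar) (g : Om) ∈
      modularFunctionFieldBar L := by
    rw [← hcoe]; exact (Fermat.Agent.S37.Gal.gK A L s • G).2
  have hτ1 : coeffMap ((s : Kbar ≃ₐ[ℚ] Kbar) : Kbar →+* Kbar) (g : Om) ∈ Ocal A :=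
    Fermat.Agent.S37.Gal.coeffMap_mem_Ocal A s h1
  have hσcoe : ((σ ⟨_, hτF⟩ : FN L) : Om) =
      coeffMap ((s : Kbar ≃ₐ[ℚ] Kbar) : Kbar →+* Kbar) ((σ G : FN L) : Om) := by
    have e : (⟨_, hτF⟩ : FN L) = Fermat.Agent.S37.Gal.gK A L s • G := Subtype.ext hcoe.symm
    rw [e, hστ s G]
    rfl
  have hτ2' : coeffMap ((s : Kbar ≃ₐ[ℚ] Kbar) : Kbar →+* Kbar) ((σ G : FN L) : Om) ∈ Ocal A :=
    Fermat.Agent.S37.Gal.coeffMap_mem_Ocal A s h2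
  have hτ2 : ((σ ⟨_, hτF⟩ : FN L) : Om) ∈ Ocal A := by rw [hσcoe]; exact hτ2'
  have hmem : coeffMap ((s : Kbar ≃ₐ[ℚ] Kbar) : Kbar →+* Kbar) (g : Om) ∈ O :=
    (hO _).mpr ⟨hτF, hτ1, hτ2⟩
  refine ⟨hmem, ?_⟩
  rw [hρ ⟨_, hmem⟩ hτF hτ1 hτ2, hρ g hg h1 h2]
  have e1 : red A ⟨_, hτ1⟩ = red A ⟨(g : Om), h1⟩ := by
    have h := Fermat.Agent.S37.Gal.red_coeffMap A s (g : Om) h1
    rw [hs, coeffMap_id] at h
    exact h
  have e2 : red A ⟨_, hτ2⟩ = red A ⟨_, h2⟩ := by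
    rw [red_congr A hσcoe hτ2 hτ2']
    have h := Fermat.Agent.S37.Gal.red_coeffMap A s ((σ G : FN L) : Om) h2
    rw [hs, coeffMap_id] at h
    exact h
  rw [e1, e2]

/-- **`Plan.Setup2.inertia_ratio`**, hypothesis form. -/
theorem inertia_ratio
    (hO : ∀ g : Om, g ∈ O ↔ ∃ hg : g ∈ modularFunctionFieldBar L,
      g ∈ Ocal A ∧ ((σ ⟨g, hg⟩ : FN L) : Om) ∈ Ocal A)
    (hρ : ∀ (g : O) (hg : (g : Om) ∈ modularFunctionFieldBar L) (h1 : (g : Om) ∈ Ocal A)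
      (h2 : ((σ ⟨(g : Om), hg⟩ : FN L) : Om) ∈ Ocal A),
      ρ g = (red A ⟨(g : Om), h1⟩, red A ⟨_, h2⟩))
    (hστ : ∀ (s : A.decompositionSubgroup ℚ) (x : FN L),
      σ (Fermat.Agent.S37.Gal.gK A L s • x) = Fermat.Agent.S37.Gal.gK A L s • σ x)
    (hscale : ∀ y : Om, y ∈ modularFunctionFieldBar L → y ≠ 0 →
      ∃ c : Kbar, c ≠ 0 ∧ ∃ h : HahnSeries.C c * y ∈ Ocal A, red A ⟨_, h⟩ ≠ 0) :
    ∀ τ : Kbar ≃ₐ[ℚ] Kbar, τ ∈ A.inertiaSubgroupIn ℚ →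
    ∀ f : Om, f ∈ modularFunctionFieldBar L → f ≠ 0 →
      ∃ (h : coeffMap (τ : Kbar →+* Kbar) f * f⁻¹ ∈ O) (c₁ c₂ : kk A), c₁ ≠ 0 ∧ c₂ ≠ 0 ∧
        ρ ⟨_, h⟩ = (HahnSeries.C c₁, HahnSeries.C c₂) := by
  intro τ hτ f hf hf0
  obtain ⟨s, rfl, hs⟩ := exists_decomp A hτ
  set Ff : FN L := ⟨f, hf⟩ with hFf
  have hFf0 : Ff ≠ 0 := fun h => hf0 (congrArg Subtype.val h)
  -- first component
  obtain ⟨c, hc, hcO, hcred⟩ := hscale f hf hf0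
  obtain ⟨hr₁, c₁, hc₁, hred₁⟩ := ratio_mem A s hs f c hc hcO hcred
  -- the ratio as an element of `F_L`
  set r : FN L := Fermat.Agent.S37.Gal.gK A L s • Ff * Ff⁻¹ with hr
  have hrcoe : (r : Om) = coeffMap ((s : Kbar ≃ₐ[ℚ] Kbar) : Kbar →+* Kbar) f * f⁻¹ := rfl
  have hrF : coeffMap ((s : Kbar ≃ₐ[ℚ] Kbar) : Kbar →+* Kbar) f * f⁻¹ ∈
      modularFunctionFieldBar L := by
    rw [← hrcoe]; exact r.2
  -- second component
  have hσf0 : ((σ Ff : FN L) : Om) ≠ 0 := by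
    intro h
    apply hFf0
    have : σ Ff = 0 := Subtype.ext h
    exact (map_eq_zero_iff σ σ.injective).mp this
  obtain ⟨c', hc', hcO', hcred'⟩ := hscale ((σ Ff : FN L) : Om) (σ Ff).2 hσf0
  obtain ⟨hr₂, c₂, hc₂, hred₂⟩ := ratio_mem A s hs ((σ Ff : FN L) : Om) c' hc' hcO' hcred'
  have hσcoe : ((σ ⟨_, hrF⟩ : FN L) : Om) =
      coeffMap ((s : Kbar ≃ₐ[ℚ] Kbar) : Kbar →+* Kbar) ((σ Ff : FN L) : Om) *
        ((σ Ff : FN L) : Om)⁻¹ := by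
    have e : (⟨_, hrF⟩ : FN L) = r := Subtype.ext hrcoe.symm
    rw [e, hr, map_mul, map_inv₀, hστ s Ff]
    rfl
  have hσO : ((σ ⟨_, hrF⟩ : FN L) : Om) ∈ Ocal A := by rw [hσcoe]; exact hr₂
  have hmem : coeffMap ((s : Kbar ≃ₐ[ℚ] Kbar) : Kbar →+* Kbar) f * f⁻¹ ∈ O :=
    (hO _).mpr ⟨hrF, hr₁, hσO⟩
  refine ⟨hmem, c₁, c₂, hc₁, hc₂, ?_⟩
  rw [hρ ⟨_, hmem⟩ hrF hr₁ hσO, hred₁, red_congr A hσcoe hσO hr₂, hred₂]

end Fields

end Fermat.Agent.S34.ValInertia
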