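import Mathlib
import Fermat.Agent.S18.RR0.PullBase
import Fermat.Agent.S18.PullPlan
import Fermat.Agent.S18.PullStep
import Fermat.Agent.S18.SurjFree
import Fermat.Prelude.Thm_ModularCurve_coeffMap_qExpand
import Fermat.Prelude.Def_ModularCurve_HeckeOperator

/-!
# S34 / P6 — pull-back spaces of `c (x)_∞` from integrality (helper60)

Characteristic-zero bookkeeping in the vocabulary of `S18/Plan` (`pullRR N N' B`: sections in
`F_{N'}`, divisor `B` on the base field `F_N`).

* `coe_mem_pullRR_of_isIntegral` : for ANY `x ∈ F_N^×` (not only `j`): if `y ∈ F_{N'}` is integral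
  over `Q̄[x]` and `x⁻ᶜ y` is integral over `Q̄[x⁻¹]`, then `y ∈ pullRR N N' (c (x)_∞)`
  (the proof of `S18.RR0.pullRR_base_ge`, with `x` in place of `j`).
* `isIntegral_polyRing_map` : integrality over `Q̄[x]` is transported by `Q̄`-algebra maps.
* `coe_mem_pullRR_level` : level change for `j`:
  `L_{F_M}(c (j)_∞) ⊆ pullRR N n (c (j)_∞)` for `M ∣ n`, `N ∣ n`.
* `qExpand_mem_pullRR` : `h ∈ L_{F_M}(c (j)_∞) ⟹ h(T^q) ∈ pullRR N (M * q) (c (j_q)_∞)` for
  `q ∣ N ∣ M * q`, `j_q = j(T^q)`.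
* `sub_pow_mem_pullRR` : `x - y^q ∈ pullRR N n (q (y)_∞)` when `(x)_∞ ≤ q (y)_∞`.
-/

set_option autoImplicit false

noncomputable section

namespace Fermat.Agent.S34.PullWJ

open IntermediateField ModularCurve AlgebraicCurve Fermat.Agent.S24 Fermat.Agent.S18.Plan
open Fermat.Agent.Lib Fermat.Agent.S18.Content Fermat.Agent.S18 Fermat.Agent.S18.RR0

/-! ### Integrality ⟹ membership, for an arbitrary `x` -/

section Generic

variable {N N' : ℕ} [NeZero N] [NeZero N']

omit [NeZero N] [NeZero N'] in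
/-- If `y ∈ F_{N'}` is integral over `Q̄[x]` and `x⁻ᶜ y` is integral over `Q̄[x⁻¹]`
(`x ∈ F_N^×`, seen in `F_{N'}` as `x'`), then `y ∈ pullRR N N' (c (x)_∞)`. -/
theorem coe_mem_pullRR_of_isIntegral (c : ℕ) (x : FN N) (hx0 : x ≠ 0) (D : Divisor Kbar (FN N))
    (hD : ∀ P : Place Kbar (FN N), D P = c * max 0 (-(P.ord x)))
    (x' : FN N') (hxx : (x' : Om) = (x : Om)) (y : FN N')
    (hint1 : IsIntegral (FFPlaces.polyRing Kbar x') y)
    (hint2 : IsIntegral (FFPlaces.polyRing Kbar x'⁻¹) (x'⁻¹ ^ c * y)) :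
    (y : Om) ∈ pullRR N N' D := by
  refine ⟨y.2, fun P t ht hB => ?_⟩
  by_cases hx : 0 ≤ P.ord x
  · have hxP : x ∈ P.toValuationSubring := (FFPlaces.mem_iff_ord_nonneg P hx0).mpr hx
    have htP : t ∈ P.toValuationSubring := by
      rw [FFPlaces.mem_iff_ord_nonneg P ht]
      rw [hD, max_eq_left (by omega), mul_zero] at hB
      exact hB
    have htS : (t : Om) ∈ placeRing P := ⟨t, htP, rfl⟩
    have h1 : IsIntegral (placeRing P) (algebraMap (FN N') Om y) :=
      isIntegral_subring_of_algebra (algebraMap (FN N') Om) (placeRing P)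
        (polyRing_mem_placeRing P x hxP x' hxx) hint1
    exact (isIntegral_algebraMap (R := placeRing P) (x := ⟨(t : Om), htS⟩)).mul h1
  · have hx' : P.ord x < 0 := not_le.mp hx
    have hxP : x⁻¹ ∈ P.toValuationSubring := by
      rw [FFPlaces.mem_iff_ord_nonneg P (inv_ne_zero hx0), Place.ord_inv]
      omega
    have hsP : t * x ^ c ∈ P.toValuationSubring := by
      rw [FFPlaces.mem_iff_ord_nonneg P (mul_ne_zero ht (pow_ne_zero _ hx0)),
        P.ord_mul ht (pow_ne_zero _ hx0), RR0.ord_pow]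
      rw [hD, max_eq_right (by omega)] at hB
      linarith
    have hsS : ((t * x ^ c : FN N) : Om) ∈ placeRing P := ⟨_, hsP, rfl⟩
    have h1 : IsIntegral (placeRing P) (algebraMap (FN N') Om (x'⁻¹ ^ c * y)) :=
      isIntegral_subring_of_algebra (algebraMap (FN N') Om) (placeRing P)
        (polyRing_mem_placeRing P x⁻¹ hxP x'⁻¹ (by
          rw [IntermediateField.coe_inv, IntermediateField.coe_inv, hxx])) hint2
    have h2 := (isIntegral_algebraMap (R := placeRing P)
      (x := ⟨((t * x ^ c : FN N) : Om), hsS⟩)).mul h1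
    have hJ : ((x : FN N) : Om) ≠ 0 := coe_ne_zero hx0
    have e : algebraMap (placeRing P) Om ⟨((t * x ^ c : FN N) : Om), hsS⟩
          * algebraMap (FN N') Om (x'⁻¹ ^ c * y) = (t : Om) * (y : Om) := by
      show ((t * x ^ c : FN N) : Om) * ((x'⁻¹ ^ c * y : FN N') : Om) = _
      rw [IntermediateField.coe_mul, IntermediateField.coe_mul, IntermediateField.coe_pow,
        IntermediateField.coe_pow, IntermediateField.coe_inv, hxx, inv_pow]
      field_simp
    rw [e] at h2
    exact h2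

end Generic

/-! ### Transport of integrality over `Q̄[x]` -/

/-- A `K`-algebra map carries integrality over `K[x]` to integrality over `K[β x]`. -/
theorem isIntegral_polyRing_map {K F F' : Type*} [Field K] [Field F] [Field F'] [Algebra K F]
    [Algebra K F'] (β : F →ₐ[K] F') (x y : F) (h : IsIntegral (FFPlaces.polyRing K x) y) :
    IsIntegral (FFPlaces.polyRing K (β x)) (β y) := by
  have hmap : ∀ r : FFPlaces.polyRing K x, β (r : F) ∈ FFPlaces.polyRing K (β x) := by
    rintro ⟨r, hr⟩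
    have h1 : β r ∈ (Algebra.adjoin K {x}).map β := ⟨r, hr, rfl⟩
    rw [AlgHom.map_adjoin, Set.image_singleton] at h1
    exact h1
  let φ : FFPlaces.polyRing K x →+* FFPlaces.polyRing K (β x) :=
    ((β : F →+* F').comp (algebraMap (FFPlaces.polyRing K x) F)).codRestrict
      (FFPlaces.polyRing K (β x)).toSubring hmap
  exact IsIntegral.map_of_comp_eq φ (β : F →+* F') (by ext r; rfl) h

/-! ### Level change for `j` -/

section Level

/-- `L_{F_M}(c (j)_∞) ⊆ pullRR N n (c (j)_∞)` whenever `M ∣ n` and `N ∣ n`. -/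
theorem coe_mem_pullRR_level (M N n : ℕ) [NeZero M] [NeZero N] [NeZero n] (hM : M ∣ n)
    (hN : N ∣ n) (c : ℕ) (CpM : Divisor Kbar (FN M))
    (hCpM : ∀ P, CpM P = max 0 (-(P.ord (jBar M))))
    (Cj : Divisor Kbar (FN N)) (hCj : ∀ P, Cj P = max 0 (-(P.ord (jBar N))))
    {g : FN M} (hg : g ∈ riemannRochSpace (c • CpM)) :
    (g : Om) ∈ pullRR N n (c • Cj) := by
  have h1 : (g : Om) ∈ pullRR M n (c • CpM) := PullPlan.coe_mem_pullRR (PullStep.bar_le hM) hg
  obtain ⟨Cp₁, hCp₁, -⟩ := Char0.exists_poleDivisor_jBar 1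
  rw [SurjFree.pullRR_eq_one n M hM c CpM hCpM Cp₁ hCp₁] at h1
  rw [SurjFree.pullRR_eq_one n N hN c Cj hCj Cp₁ hCp₁]
  exact h1

end Level

/-! ### The second degeneracy map -/

section Beta

variable (M q N : ℕ) [NeZero M] [NeZero q] [NeZero N]

/-- `j_q = j(T^q)` as a Laurent series. -/
theorem coe_jBarLevel (hqN : q ∣ N) :
    ((jBarLevel N q hqN : FN N) : Om) = qExpand Kbar q (jqModC Kbar) := by
  show coeffEmb Kbar (qExpand ℚ q jq) = _
  rw [coeffEmb, coeffMap_qExpand]
  exact congrArg _ (InclFree.coe_jBar_eq N)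

theorem jBarLevel_ne_zero (hqN : q ∣ N) : jBarLevel N q hqN ≠ 0 := by
  intro h0
  have h1 := coe_jBarLevel q N hqN
  rw [h0] at h1
  have h2 : qExpand Kbar q (jqModC Kbar) = 0 := h1.symm
  rw [map_eq_zero] at h2
  exact WJPlaces.jqModC_ne_zero (κ := Kbar) h2

/-- `h ∈ L_{F_M}(c (j)_∞) ⟹ h(T^q) ∈ pullRR N (M * q) (c (j_q)_∞)`. -/
theorem qExpand_mem_pullRR (hqN : q ∣ N) (c : ℕ) (CpM : Divisor Kbar (FN M))
    (hCpM : ∀ P, CpM P = max 0 (-(P.ord (jBar M))))
    (Cq : Divisor Kbar (FN N)) (hCq : ∀ P, Cq P = max 0 (-(P.ord (jBarLevel N q hqN))))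
    {g : FN M} (hg : g ∈ riemannRochSpace (c • CpM)) :
    qExpand Kbar q (g : Om) ∈ pullRR N (M * q) (c • Cq) := by
  have : NeZero (M * q) := ⟨Nat.mul_ne_zero (NeZero.ne M) (NeZero.ne q)⟩
  have hD' : ∀ v : Place Kbar (FN M), (c • CpM) v = c * max 0 (-(v.ord (jBar M))) := fun v => by
    rw [Finsupp.smul_apply, hCpM, nsmul_eq_mul]
  have hint1 := isIntegral_polyRing_of_mem c (c • CpM) hD' g hg
  have hint2 := isIntegral_polyRing_inv_of_mem c (c • CpM) hD' g hg
  let β : FN M →ₐ[Kbar] FN (M * q) := heckeBetaBar Kbar M q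
  have hβ : ∀ y : FN M, ((β y : FN (M * q)) : Om) = qExpand Kbar q (y : Om) := fun y => rfl
  have h1 := isIntegral_polyRing_map β (jBar M) g hint1
  have h2 := isIntegral_polyRing_map β (jBar M)⁻¹ ((jBar M)⁻¹ ^ c * g) hint2
  rw [map_inv₀, map_mul, map_pow, map_inv₀] at h2
  have hxx : ((β (jBar M) : FN (M * q)) : Om) = ((jBarLevel N q hqN : FN N) : Om) := by
    rw [hβ, coe_jBarLevel q N hqN, InclFree.coe_jBar_eq M]
  have hmem := coe_mem_pullRR_of_isIntegral (N := N) (N' := M * q) c (jBarLevel N q hqN)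
    (jBarLevel_ne_zero q N hqN) (c • Cq) (fun P => by
      rw [Finsupp.smul_apply, hCq, nsmul_eq_mul]) (β (jBar M)) hxx (β g) h1 h2
  rw [hβ] at hmem
  exact hmem

end Beta

/-! ### `x - y^q` -/

section Sub

variable {N n : ℕ} [NeZero N]

/-- The pole divisor of a nonzero element of `F_N` exists. -/
theorem exists_poleDivisor (y : FN N) (hy : y ≠ 0) :
    ∃ C : Divisor Kbar (FN N), ∀ P, C P = max 0 (-(P.ord y)) := by
  obtain ⟨D, hD, -⟩ := Char0.exists_divisor N y hy
  refine ⟨D.mapRange (fun n => max 0 (-n)) (by simp), fun P => ?_⟩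
  rw [Finsupp.mapRange_apply, hD]

omit [NeZero N] in
/-- If `(x)_∞ ≤ q (y)_∞` on `F_N` then `x - y^q ∈ pullRR N n (q (y)_∞)`. -/
theorem sub_pow_mem_pullRR (hle : modularFunctionFieldBar N ≤ modularFunctionFieldBar n)
    (q : ℕ) (x y : FN N) (Cx Cy : Divisor Kbar (FN N))
    (hCx : ∀ P, Cx P = max 0 (-(P.ord x))) (hCy : ∀ P, Cy P = max 0 (-(P.ord y)))
    (hxy : ∀ P, Cx P ≤ q * Cy P) :
    (x : Om) - (y : Om) ^ q ∈ pullRR N n (q • Cy) := by
  have hmem : x - y ^ q ∈ riemannRochSpace (q • Cy) := by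
    refine Submodule.sub_mem _ ?_ ?_
    · rw [mem_riemannRochSpace_iff]
      intro P
      by_cases hx0 : x = 0
      · exact Or.inl hx0
      right
      have h1 := hxy P
      rw [hCx] at h1
      rw [Finsupp.smul_apply, nsmul_eq_mul]
      have h2 := le_max_right 0 (-(P.ord x))
      linarith
    · rw [mem_riemannRochSpace_iff]
      intro P
      by_cases hy0 : y = 0
      · by_cases hq : q = 0
        · right
          rw [hq, pow_zero, Place.ord_one, zero_smul, Finsupp.zero_apply, neg_zero]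
        · left
          rw [hy0, zero_pow hq]
      right
      rw [Finsupp.smul_apply, nsmul_eq_mul, hCy, RR0.ord_pow]
      have h2 := le_max_right 0 (-(P.ord y))
      have h3 : (0 : ℤ) ≤ (q : ℤ) := Nat.cast_nonneg q
      nlinarith
  have h := PullPlan.coe_mem_pullRR hle hmem
  exact h

end Sub

end Fermat.Agent.S34.PullWJ

end
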