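import Mathlib
import Fermat.Agent.S34.Plan
import Fermat.Agent.S34.PullWJ
import Fermat.Agent.S18.MainLemmas
import Fermat.Agent.Lib.KroneckerCongOcal

/-!
# S34 / P6 — the fields `lift₁`, `lift₂`, `exists_z`, `exists_x`, `ρ_j`, `ρ_jq` of `Plan.Setup2`
(helper60)

Hypothesis form over an abstract two-component reduction `(O, ρ)`:

* `HV5`  : for `h ∈ F_M ∩ Ocal`: `h ∈ O` and `ρ h = (red h, (red h)(T^q))`   ([VAL] (V5));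
* `HV5'` : for `h ∈ F_M ∩ Ocal`: `h(T^q) ∈ O` and `(ρ (h(T^q))).2 = red h`
  ([VAL] (V4)+(V5): `h(T^q) = σ h = σ⁻¹ h`);
* `Plan.PoleStmt N q hqN`, and the fields `ρ_j`, `ρ_jq` of `Setup2`.

The conclusions are the fields of `Plan.Setup2` verbatim (`ρ_j_of` from `HV5`; `ρ_jq_of` from
`HV5'` and the field `fst_eq`).  Inputs from S18: the `r`-free
`(Surj)` at the good level `M` (`SurjFree.exists_lift_of_mem_WJ`) and the base-level independence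
of `pullRR · n (c (j)_∞)`.
-/

set_option autoImplicit false

noncomputable section

namespace Fermat.Agent.S34.ValLift

open ModularCurve AlgebraicCurve Fermat.Agent.S24 Fermat.Agent.S18.Content Fermat.Agent.S18.Plan
open Fermat.Agent.S18 Fermat.Agent.S34.Plan

variable (A : ValuationSubring Kbar) (N q M : ℕ) [NeZero N] [NeZero q] [NeZero M] (hqN : q ∣ N)
variable (O : Subring Om) (ρ : O →+* R2 A)

/-- [VAL] (V5): `F_M ∩ Ocal ⊆ O` and `ρ h = (red h, (red h)(T^q))` there. -/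
def HV5 : Prop :=
  ∀ h : Om, h ∈ modularFunctionFieldBar M → ∀ hO : h ∈ Ocal A,
    ∃ hh : h ∈ O, ρ ⟨h, hh⟩ = (red A ⟨h, hO⟩, qExpand (kk A) q (red A ⟨h, hO⟩))

/-- [VAL] (V4)+(V5): for `h ∈ F_M ∩ Ocal`, `h(T^q) ∈ O` with second component `red h`. -/
def HV5' : Prop :=
  ∀ h : Om, h ∈ modularFunctionFieldBar M → ∀ hO : h ∈ Ocal A,
    ∃ hh : qExpand Kbar q h ∈ O, (ρ ⟨_, hh⟩).2 = red A ⟨h, hO⟩

/-- **`Setup2.lift₁`**. -/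
theorem lift₁_of (hq : q.Prime) (hqM : ¬ q ∣ M) (hTF : 4 ∣ M ∨ 9 ∣ M)
    (hA : A.LiesOverPrime q) (hN : N ∣ M * q) (h5 : HV5 A q M O ρ) :
    ∃ m₀ : ℕ, ∀ Cj : Divisor Kbar (FN N), IsPoleJ N Cj → ∀ m : ℕ, m₀ ≤ m → ∀ a : Omk A,
      a ∈ WJ (kk A) (Fk A M) m →
        ∃ g : O, (g : Om) ∈ pullRR N (M * q) (m • Cj) ∧ ρ g = (a, qExpand (kk A) q a) := by
  have : Fact q.Prime := ⟨hq⟩
  have : NeZero (M * q) := ⟨Nat.mul_ne_zero (NeZero.ne M) (NeZero.ne q)⟩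
  obtain ⟨c₀, hc₀⟩ := SurjFree.exists_lift_of_mem_WJ M q hqM hTF A hA
  refine ⟨c₀, fun Cj hCj m hm a ha => ?_⟩
  obtain ⟨CpM, hCpM, -⟩ := Char0.exists_poleDivisor_jBar M
  obtain ⟨g, hgO, hgL, hgred⟩ := hc₀ m hm CpM hCpM a ha
  have h1 : (g : Om) ∈ pullRR N (M * q) (m • Cj) :=
    PullWJ.coe_mem_pullRR_level M N (M * q) (dvd_mul_right M q) hN m CpM hCpM Cj hCj hgL
  obtain ⟨hh, hρ⟩ := h5 (g : Om) g.2 hgO
  refine ⟨⟨_, hh⟩, h1, ?_⟩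
  rw [hρ, hgred]

/-- **`Setup2.lift₂`**. -/
theorem lift₂_of (hq : q.Prime) (hqM : ¬ q ∣ M) (hTF : 4 ∣ M ∨ 9 ∣ M)
    (hA : A.LiesOverPrime q) (h5' : HV5' A q M O ρ) :
    ∃ m₀ : ℕ, ∀ Cq : Divisor Kbar (FN N), IsPoleJq N q hqN Cq → ∀ m : ℕ, m₀ ≤ m →
      ∀ a : Omk A, a ∈ WJ (kk A) (Fk A M) m →
        ∃ g : O, (g : Om) ∈ pullRR N (M * q) (m • Cq) ∧ (ρ g).2 = a := by
  have : Fact q.Prime := ⟨hq⟩
  obtain ⟨c₀, hc₀⟩ := SurjFree.exists_lift_of_mem_WJ M q hqM hTF A hA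
  refine ⟨c₀, fun Cq hCq m hm a ha => ?_⟩
  obtain ⟨CpM, hCpM, -⟩ := Char0.exists_poleDivisor_jBar M
  obtain ⟨g, hgO, hgL, hgred⟩ := hc₀ m hm CpM hCpM a ha
  obtain ⟨hh, hρ⟩ := h5' (g : Om) g.2 hgO
  exact ⟨⟨_, hh⟩, PullWJ.qExpand_mem_pullRR M q N hqN m CpM hCpM Cq hCq hgL, hρ.trans hgred⟩

/-- **`Setup2.exists_z`**: `z = j - j_q^q`. -/
theorem exists_z_of (hN : N ∣ M * q) (hPole : PoleStmt N q hqN)
    (hρj : ∃ h : (jK : Om) ∈ O, ρ ⟨_, h⟩ = (jk A, jk A ^ q))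
    (hρjq : ∃ h : (qExpand Kbar q jK : Om) ∈ O, ρ ⟨_, h⟩ = (jk A ^ q, jk A)) :
    ∀ Cq : Divisor Kbar (FN N), IsPoleJq N q hqN Cq →
      ∃ z : O, (z : Om) ∈ pullRR N (M * q) (q • Cq) ∧ ρ z = (jk A - jk A ^ (q ^ 2), 0) := by
  have : NeZero (M * q) := ⟨Nat.mul_ne_zero (NeZero.ne M) (NeZero.ne q)⟩
  intro Cq hCq
  obtain ⟨Cj, hCj, -⟩ := Char0.exists_poleDivisor_jBar N
  obtain ⟨-, h2, -⟩ := hPole Cj Cq hCj hCq
  obtain ⟨hj, hρj'⟩ := hρj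
  obtain ⟨hjq, hρjq'⟩ := hρjq
  refine ⟨⟨jK, hj⟩ - ⟨qExpand Kbar q jK, hjq⟩ ^ q, ?_, ?_⟩
  · have h := PullWJ.sub_pow_mem_pullRR (PullStep.bar_le hN) q (jBar N) (jBarLevel N q hqN)
      Cj Cq hCj hCq h2
    rw [InclFree.coe_jBar_eq, PullWJ.coe_jBarLevel] at h
    exact h
  · rw [map_sub, map_pow, hρj', hρjq']
    refine Prod.ext ?_ ?_
    · show jk A - (jk A ^ q) ^ q = jk A - jk A ^ (q ^ 2)
      rw [← pow_mul, sq]
    · show jk A ^ q - jk A ^ q = 0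
      exact sub_self _

/-- **`Setup2.exists_x`**: `x = j_q - j^q`. -/
theorem exists_x_of (hN : N ∣ M * q) (hPole : PoleStmt N q hqN)
    (hρj : ∃ h : (jK : Om) ∈ O, ρ ⟨_, h⟩ = (jk A, jk A ^ q))
    (hρjq : ∃ h : (qExpand Kbar q jK : Om) ∈ O, ρ ⟨_, h⟩ = (jk A ^ q, jk A)) :
    ∀ Cj : Divisor Kbar (FN N), IsPoleJ N Cj →
      ∃ x : O, (x : Om) ∈ pullRR N (M * q) (q • Cj) ∧ ρ x = (0, jk A - jk A ^ (q ^ 2)) := by
  have : NeZero (M * q) := ⟨Nat.mul_ne_zero (NeZero.ne M) (NeZero.ne q)⟩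
  intro Cj hCj
  obtain ⟨Cq, hCq⟩ : ∃ Cq : Divisor Kbar (FN N), IsPoleJq N q hqN Cq :=
    PullWJ.exists_poleDivisor (jBarLevel N q hqN) (PullWJ.jBarLevel_ne_zero q N hqN)
  obtain ⟨h1, -, -⟩ := hPole Cj Cq hCj hCq
  obtain ⟨hj, hρj'⟩ := hρj
  obtain ⟨hjq, hρjq'⟩ := hρjq
  refine ⟨⟨qExpand Kbar q jK, hjq⟩ - ⟨jK, hj⟩ ^ q, ?_, ?_⟩
  · have h := PullWJ.sub_pow_mem_pullRR (PullStep.bar_le hN) q (jBarLevel N q hqN) (jBar N)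
      Cq Cj hCq hCj h1
    rw [InclFree.coe_jBar_eq, PullWJ.coe_jBarLevel] at h
    exact h
  · rw [map_sub, map_pow, hρj', hρjq']
    refine Prod.ext ?_ ?_
    · show jk A ^ q - jk A ^ q = 0
      exact sub_self _
    · show jk A - (jk A ^ q) ^ q = jk A - jk A ^ (q ^ 2)
      rw [← pow_mul, sq]

/-! ### The fields `ρ_j`, `ρ_jq` -/

omit [NeZero N] [NeZero q] in
theorem jK_mem_level : (jK : Om) ∈ modularFunctionFieldBar M := by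
  have h := (jBar M).2
  rwa [InclFree.coe_jBar_eq M] at h

omit [NeZero N] [NeZero M] in
/-- In characteristic `q`: `j̄(T^q) = j̄^q`. -/
theorem qExpand_jk [Fact q.Prime] [CharP (kk A) q] : qExpand (kk A) q (jk A) = jk A ^ q := by
  rw [Lib.KroneckerCong.pow_char_eq q (jk A), coeffMap_jqModC]

omit [NeZero N] in
/-- **`Setup2.ρ_j`**. -/
theorem ρ_j_of (hq : q.Prime) (hA : A.LiesOverPrime q) (h5 : HV5 A q M O ρ) :
    ∃ h : (jK : Om) ∈ O, ρ ⟨_, h⟩ = (jk A, jk A ^ q) := by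
  have : Fact q.Prime := ⟨hq⟩
  have : CharP (kk A) q := charP_residueField_of_liesOverPrime A q hA
  obtain ⟨hh, hρ⟩ := h5 jK (jK_mem_level M) (Main.jK_mem_Ocal A)
  refine ⟨hh, ?_⟩
  rw [hρ, Main.red_jK, qExpand_jk]

omit [NeZero N] in
/-- **`Setup2.ρ_jq`**. -/
theorem ρ_jq_of (hq : q.Prime) (hA : A.LiesOverPrime q) (h5' : HV5' A q M O ρ)
    (hfst : ∀ (g : O) (h : (g : Om) ∈ Ocal A), (ρ g).1 = red A ⟨(g : Om), h⟩) :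
    ∃ h : (qExpand Kbar q jK : Om) ∈ O, ρ ⟨_, h⟩ = (jk A ^ q, jk A) := by
  have : Fact q.Prime := ⟨hq⟩
  have : CharP (kk A) q := charP_residueField_of_liesOverPrime A q hA
  obtain ⟨hh, hρ⟩ := h5' jK (jK_mem_level M) (Main.jK_mem_Ocal A)
  refine ⟨hh, Prod.ext ?_ ?_⟩
  · have hO : qExpand Kbar q jK ∈ Ocal A :=
      Lib.KroneckerCong.qExpand_mem_Ocal A q (Main.jK_mem_Ocal A)
    show (ρ ⟨_, hh⟩).1 = jk A ^ q
    rw [hfst ⟨_, hh⟩ hO]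
    have h1 := Lib.KroneckerCong.red_qExpand A q ⟨jK, Main.jK_mem_Ocal A⟩
    rw [Main.red_jK, qExpand_jk] at h1
    exact h1
  · show (ρ ⟨_, hh⟩).2 = jk A
    rw [hρ, Main.red_jK]

end Fermat.Agent.S34.ValLift

end
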