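import Mathlib
import Fermat.Agent.S34.ValLift
import Fermat.Agent.S34.Val
import Fermat.Agent.S34.InclPull
import Fermat.Agent.S34.PoleBound

/-!
# S34 / P6 — `ValLift` for the concrete pair `(Val.O2, Val.Red)` (helper60)

* `HV5b`, `lift₂'_of` : the **transposed graph lift** (both components):
  `ρ g = (a(T^q), a)` with `g ∈ pullRR N (M * q) (m (j_q)_∞)` — requested by S35 (`(L2')`);
* for helper49's concrete `(O2 A M q σ, Red A M q σ)` with `Val.IsAL M q σ`, `Plan.Levels q N' N M`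
  and `A.LiesOverPrime q`: the six fields `lift₁`, `lift₂`, `exists_z`, `exists_x`, `ρ_j`, `ρ_jq` of
  `Plan.Setup2` (verbatim) and `lift₂'`.
-/

set_option autoImplicit false

noncomputable section

namespace Fermat.Agent.S34.ValLiftInst

open ModularCurve AlgebraicCurve Fermat.Agent.S24 Fermat.Agent.S18.Content Fermat.Agent.S18.Plan
open Fermat.Agent.S18 Fermat.Agent.S34.Plan Fermat.Agent.S34

/-! ### The transposed graph lift, hypothesis form -/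

section Abstract

variable (A : ValuationSubring Kbar) (N q M : ℕ) [NeZero N] [NeZero q] [NeZero M] (hqN : q ∣ N)
variable (O : Subring Om) (ρ : O →+* R2 A)

/-- (V5′) with both components: for `h ∈ F_M ∩ Ocal`, `h(T^q) ∈ O` and
`ρ (h(T^q)) = ((red h)(T^q), red h)`. -/
def HV5b : Prop :=
  ∀ h : Om, h ∈ modularFunctionFieldBar M → ∀ hO : h ∈ Ocal A,
    ∃ hh : qExpand Kbar q h ∈ O,
      ρ ⟨_, hh⟩ = (qExpand (kk A) q (red A ⟨h, hO⟩), red A ⟨h, hO⟩)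

omit [NeZero N] [NeZero M] in
theorem hv5'_of_hv5b (h : HV5b A q M O ρ) : ValLift.HV5' A q M O ρ := fun f hM hO => by
  obtain ⟨hh, e⟩ := h f hM hO
  exact ⟨hh, by rw [e]⟩

/-- **(L2′) the transposed graph lift**: for `m` large every `a ∈ WJ m` is the second component
of `ρ g = (a(T^q), a)` with `g ∈ pullRR N (M * q) (m (j_q)_∞) ∩ O`. -/
theorem lift₂'_of (hq : q.Prime) (hqM : ¬ q ∣ M) (hTF : 4 ∣ M ∨ 9 ∣ M)
    (hA : A.LiesOverPrime q) (h5b : HV5b A q M O ρ) :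
    ∃ m₀ : ℕ, ∀ Cq : Divisor Kbar (FN N), IsPoleJq N q hqN Cq → ∀ m : ℕ, m₀ ≤ m →
      ∀ a : Omk A, a ∈ WJ (kk A) (Fk A M) m →
        ∃ g : O, (g : Om) ∈ pullRR N (M * q) (m • Cq) ∧ ρ g = (qExpand (kk A) q a, a) := by
  have : Fact q.Prime := ⟨hq⟩
  obtain ⟨c₀, hc₀⟩ := SurjFree.exists_lift_of_mem_WJ M q hqM hTF A hA
  refine ⟨c₀, fun Cq hCq m hm a ha => ?_⟩
  obtain ⟨CpM, hCpM, -⟩ := Char0.exists_poleDivisor_jBar M
  obtain ⟨g, hgO, hgL, hgred⟩ := hc₀ m hm CpM hCpM a ha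
  obtain ⟨hh, hρ⟩ := h5b (g : Om) g.2 hgO
  refine ⟨⟨_, hh⟩, PullWJ.qExpand_mem_pullRR M q N hqN m CpM hCpM Cq hCq hgL, ?_⟩
  rw [hρ, hgred]

end Abstract

/-! ### The concrete pair `(Val.O2, Val.Red)` -/

section Concrete

variable (A : ValuationSubring Kbar) {N q M N' : ℕ} [NeZero N] [NeZero q] [NeZero M]
  (hqN : q ∣ N) {σ : FN (M * q) ≃ₐ[Kbar] FN (M * q)}

omit [NeZero N] in
theorem hv5 (hσ : Val.IsAL M q σ) : ValLift.HV5 A q M (Val.O2 A M q σ) (Val.Red A M q σ) :=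
  fun _ hM hO => hσ.Red_level A hM hO

omit [NeZero N] in
theorem hv5b (hσ : Val.IsAL M q σ) : HV5b A q M (Val.O2 A M q σ) (Val.Red A M q σ) :=
  fun _ hM hO => hσ.Red_level_beta A hM hO

omit [NeZero N] [NeZero q] [NeZero M] in
theorem four_or_nine (hL : Levels q N' N M) : 4 ∣ M ∨ 9 ∣ M := by
  rw [hL.M_eq]
  unfold aux
  split_ifs
  · exact Or.inr (Dvd.intro _ rfl)
  · exact Or.inl (Dvd.intro _ rfl)

/-- **`Setup2.lift₁`** for `(O2, Red)`. -/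
theorem lift₁ (hL : Levels q N' N M) (hA : A.LiesOverPrime q) (hσ : Val.IsAL M q σ) :
    ∃ m₀ : ℕ, ∀ Cj : Divisor Kbar (FN N), IsPoleJ N Cj → ∀ m : ℕ, m₀ ≤ m → ∀ a : Omk A,
      a ∈ WJ (kk A) (Fk A M) m →
        ∃ g : Val.O2 A M q σ, (g : Om) ∈ pullRR N (M * q) (m • Cj) ∧
          Val.Red A M q σ g = (a, qExpand (kk A) q a) :=
  ValLift.lift₁_of A N q M _ _ hL.prime (InclPull.not_dvd_of_levels hL) (four_or_nine hL) hA
    (InclPull.dvd_of_levels hL) (hv5 A hσ)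

/-- **`Setup2.lift₂`** for `(O2, Red)`. -/
theorem lift₂ (hL : Levels q N' N M) (hA : A.LiesOverPrime q) (hσ : Val.IsAL M q σ) :
    ∃ m₀ : ℕ, ∀ Cq : Divisor Kbar (FN N), IsPoleJq N q hqN Cq → ∀ m : ℕ, m₀ ≤ m →
      ∀ a : Omk A, a ∈ WJ (kk A) (Fk A M) m →
        ∃ g : Val.O2 A M q σ, (g : Om) ∈ pullRR N (M * q) (m • Cq) ∧
          (Val.Red A M q σ g).2 = a :=
  ValLift.lift₂_of A N q M hqN _ _ hL.prime (InclPull.not_dvd_of_levels hL) (four_or_nine hL) hA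
    (hv5'_of_hv5b A q M _ _ (hv5b A hσ))

/-- **(L2′)** for `(O2, Red)`: the transposed graph lift. -/
theorem lift₂' (hL : Levels q N' N M) (hA : A.LiesOverPrime q) (hσ : Val.IsAL M q σ) :
    ∃ m₀ : ℕ, ∀ Cq : Divisor Kbar (FN N), IsPoleJq N q hqN Cq → ∀ m : ℕ, m₀ ≤ m →
      ∀ a : Omk A, a ∈ WJ (kk A) (Fk A M) m →
        ∃ g : Val.O2 A M q σ, (g : Om) ∈ pullRR N (M * q) (m • Cq) ∧
          Val.Red A M q σ g = (qExpand (kk A) q a, a) :=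
  lift₂'_of A N q M hqN _ _ hL.prime (InclPull.not_dvd_of_levels hL) (four_or_nine hL) hA
    (hv5b A hσ)

omit [NeZero N] in
/-- **`Setup2.ρ_j`** for `(O2, Red)`. -/
theorem ρ_j (hL : Levels q N' N M) (hA : A.LiesOverPrime q) (hσ : Val.IsAL M q σ) :
    ∃ h : (jK : Om) ∈ Val.O2 A M q σ, Val.Red A M q σ ⟨_, h⟩ = (jk A, jk A ^ q) :=
  ValLift.ρ_j_of A q M _ _ hL.prime hA (hv5 A hσ)

omit [NeZero N] in
/-- **`Setup2.ρ_jq`** for `(O2, Red)`. -/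
theorem ρ_jq (hL : Levels q N' N M) (hA : A.LiesOverPrime q) (hσ : Val.IsAL M q σ) :
    ∃ h : (qExpand Kbar q jK : Om) ∈ Val.O2 A M q σ,
      Val.Red A M q σ ⟨_, h⟩ = (jk A ^ q, jk A) :=
  ValLift.ρ_jq_of A q M _ _ hL.prime hA (hv5'_of_hv5b A q M _ _ (hv5b A hσ))
    (Val.fst_eq A M q σ)

/-- **`Setup2.exists_z`** for `(O2, Red)`. -/
theorem exists_z (hL : Levels q N' N M) (hA : A.LiesOverPrime q) (hσ : Val.IsAL M q σ) :
    ∀ Cq : Divisor Kbar (FN N), IsPoleJq N q hqN Cq →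
      ∃ z : Val.O2 A M q σ, (z : Om) ∈ pullRR N (M * q) (q • Cq) ∧
        Val.Red A M q σ z = (jk A - jk A ^ (q ^ 2), 0) :=
  ValLift.exists_z_of A N q M hqN _ _ (InclPull.dvd_of_levels hL) (PoleBound.poleStmt hqN hL)
    (ρ_j A hL hA hσ) (ρ_jq A hL hA hσ)

include hqN in
/-- **`Setup2.exists_x`** for `(O2, Red)`. -/
theorem exists_x (hL : Levels q N' N M) (hA : A.LiesOverPrime q) (hσ : Val.IsAL M q σ) :
    ∀ Cj : Divisor Kbar (FN N), IsPoleJ N Cj →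
      ∃ x : Val.O2 A M q σ, (x : Om) ∈ pullRR N (M * q) (q • Cj) ∧
        Val.Red A M q σ x = (0, jk A - jk A ^ (q ^ 2)) :=
  ValLift.exists_x_of A N q M hqN _ _ (InclPull.dvd_of_levels hL) (PoleBound.poleStmt hqN hL)
    (ρ_j A hL hA hσ) (ρ_jq A hL hA hσ)

end Concrete

end Fermat.Agent.S34.ValLiftInst

end
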