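import Mathlib
import Fermat.Agent.S34.Plan
import Fermat.Agent.S34.PlanTop
import Fermat.Agent.S34.Val
import Fermat.Agent.S34.ValLiftInst
import Fermat.Agent.S34.ValIndep
import Fermat.Agent.S34.ValSpan
import Fermat.Agent.S34.ValDSR
import Fermat.Agent.S34.FkFrob
import Fermat.Agent.S34.InclInt
import Fermat.Agent.S34.ValInertia
import Fermat.Agent.S34.ValArch
import Fermat.Agent.S34.Sigma
import Fermat.Agent.S18.Red
import Fermat.Agent.S18.RRl.WJPlace

/-!
# S34 / P6 — [VAL-ASM]: assembly of the block [VAL] (helper81)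

For `Plan.Levels q N' N M` and `A` over `q`, the pair `(Val.O2 A M q σ, Val.Red A M q σ)` with
`σ := Sigma.sigma M q _` the Atkin–Lehner involution satisfies the whole interface `Plan.Setup2`:

* `setup2`    : `Plan.Setup2 A N q M hqN (Val.O2 A M q σ) (Val.Red A M q σ)`;
* `valStmt`   : `Plan.ValStmt A N q M hqN`;
* `scaleProp` : one-valuation scaling at the bad level `M * q` (the `hscale` hypothesis of
  `DescInst.unipDiv_of`, `CharBad.ScaleProp A (M * q)` unfolded);
* `redInto`   : reductions of `F_{Mq} ∩ Ocal` lie in `Fk A M` (`CharBad.RedInto A (M * q) M`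
  unfolded).

Everything is wiring of the leaves `Val`, `ValLiftInst`, `ValIndep`, `ValSpan`, `ValDSR`, `FkFrob`,
`InclInt`, `ValInertia`, `ValArch`, `Sigma`, `PoleBound`.
-/

set_option autoImplicit false

noncomputable section

namespace Fermat.Agent.S34.ValAsm

open ModularCurve AlgebraicCurve Fermat.Agent.S24 Fermat.Agent.S18.Content Fermat.Agent.S18.Plan
open Fermat.Agent.S18 Fermat.Agent.S34.Plan Fermat.Agent.S34

set_option synthInstance.maxHeartbeats 400000
set_option maxHeartbeats 1600000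

/-- `j̄ ≠ j̄^(q²)` for `q > 1` (`j̄` is transcendental over `k`). -/
theorem jk_sub_ne_zero (A : ValuationSubring Kbar) {q : ℕ} (hq : 1 < q) :
    jk A - jk A ^ (q ^ 2) ≠ 0 := by
  have hP : (Polynomial.X - Polynomial.X ^ (q ^ 2) : Polynomial (kk A)) ≠ 0 := by
    intro h0
    have h1 := congrArg (fun P : Polynomial (kk A) => P.coeff 1) h0
    have hq2 : q ^ 2 ≠ 1 := by
      have : 1 < q ^ 2 := Nat.one_lt_pow (by norm_num) hq
      omega
    simp only [Polynomial.coeff_sub, Polynomial.coeff_X_one, Polynomial.coeff_X_pow,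
      Polynomial.coeff_zero] at h1
    rw [if_neg (fun h => hq2 h.symm), sub_zero] at h1
    exact one_ne_zero h1
  have h := RRl.WJPlace.aeval_jqModC_ne_zero (κ := kk A) _ hP
  simpa using h

section Main

variable (A : ValuationSubring Kbar) {q N' N M : ℕ}

/-- The coprimality of the good level and `q`. -/
theorem coprime_of_levels (hL : Levels q N' N M) : Nat.Coprime M q :=
  Nat.Coprime.symm ((Nat.Prime.coprime_iff_not_dvd hL.prime).mpr (InclPull.not_dvd_of_levels hL))

theorem neZero_M (hL : Levels q N' N M) : NeZero M := by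
  refine ⟨?_⟩
  rw [hL.M_eq]
  refine Nat.mul_ne_zero ?_ hL.N'_pos.ne'
  unfold aux
  split_ifs <;> norm_num

variable [NeZero N] [NeZero q] [NeZero M]

omit [NeZero N] in
/-- The Atkin–Lehner involution satisfies the hypotheses `Val.IsAL`. -/
theorem isAL (hL : Levels q N' N M) :
    Val.IsAL M q (Sigma.sigma M q (coprime_of_levels hL)) :=
  ⟨Sigma.sigma_alpha _, Sigma.sigma_beta _, Sigma.sigma_sigma _ hL.prime⟩

/-- **[VAL]** the whole interface `Plan.Setup2` for `(Val.O2, Val.Red)` with the Atkin–Lehner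
involution, together with the one-valuation scaling at the bad level `M * q`. -/
theorem setup2_and_scale (hL : Levels q N' N M) (hqN : q ∣ N) (hA : A.LiesOverPrime q) :
    Setup2 A N q M hqN (Val.O2 A M q (Sigma.sigma M q (coprime_of_levels hL)))
      (Val.Red A M q (Sigma.sigma M q (coprime_of_levels hL))) ∧
    ValArch.Scale₁ A (modularFunctionFieldBar (M * q)) ∧
    (∀ y : Ocal A, (y : Om) ∈ modularFunctionFieldBar (M * q) → red A y ∈ Fk A M) := by
  have hq : q.Prime := hL.prime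
  have : Fact q.Prime := ⟨hq⟩
  have hqM : ¬ q ∣ M := InclPull.not_dvd_of_levels hL
  have hσ : Val.IsAL M q (Sigma.sigma M q (coprime_of_levels hL)) := isAL hL
  have hστ : ∀ (s : A.decompositionSubgroup ℚ) (x : FN (M * q)),
      Sigma.sigma M q (coprime_of_levels hL) (Fermat.Agent.S37.Gal.gK A (M * q) s • x) =
        Fermat.Agent.S37.Gal.gK A (M * q) s • Sigma.sigma M q (coprime_of_levels hL) x :=
    fun s x => (Sigma.galois_smul_sigma (coprime_of_levels hL) hq _ x).symm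
  generalize Sigma.sigma M q (coprime_of_levels hL) = σ at hσ hστ ⊢
  have hRed : RedStmt A M := Red.redStmt M q hqM A hA
  have hV5 : ∀ h : Om, h ∈ modularFunctionFieldBar M → ∀ hO : h ∈ Ocal A,
      ∃ hh : h ∈ Val.O2 A M q σ,
        Val.Red A M q σ ⟨h, hh⟩ = (red A ⟨h, hO⟩, qExpand (kk A) q (red A ⟨h, hO⟩)) :=
    fun _ hM hO => hσ.Red_level A hM hO
  -- the family `w`
  obtain ⟨Cq, hCq⟩ := PlanTop.exists_isPoleJq N q hqN
  obtain ⟨Cj, hCj⟩ := PlanTop.exists_isPoleJ N
  obtain ⟨z, -, hz⟩ := ValLiftInst.exists_z A hqN hL hA hσ Cq hCq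
  obtain ⟨x, -, hx⟩ := ValLiftInst.exists_x A hqN hL hA hσ Cj hCj
  obtain ⟨hjq, hρjq⟩ := ValLiftInst.ρ_jq A hL hA hσ
  obtain ⟨w, hw0, hws⟩ := ValIndep.exists_family A q (Val.Red A M q σ) (Val.inv_mem A M q σ)
    z x ⟨_, hjq⟩ (jk A - jk A ^ (q ^ 2)) (jk A ^ q) (jk_sub_ne_zero A hq.one_lt) hz hx hρjq
  have hind : ∀ a : Fin (q + 1) → Omk A, (∀ i, a i ∈ Fk A M) →
      ∑ i, (a i, qExpand (kk A) q (a i)) * Val.Red A M q σ (w i) = 0 → ∀ i, a i = 0 :=
    fun a _ h => ValIndep.hind A q (Val.Red A M q σ) w hw0 hws a h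
  have hspan : ∀ g : Om, g ∈ modularFunctionFieldBar (M * q) →
      ∃ c : Fin (q + 1) → Om, (∀ i, c i ∈ modularFunctionFieldBar M) ∧
        g = ∑ i, c i * (w i : Om) :=
    ValSpan.span_of A M q hq hqM (Val.O2 A M q σ) (Val.Red A M q σ) rfl w
      (fun i => Val.mem_field A M q σ (w i)) hRed hV5 hind
  have hΦ := FkFrob.qExpand_mem_Fk A q M hq hA
  have hwr : ∀ i, (Val.Red A M q σ (w i)).1 ∈ Fk A M ∧ (Val.Red A M q σ (w i)).2 ∈ Fk A M := by
    intro i
    refine Fin.cases ?_ (fun j => ?_) i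
    · rw [hw0]
      exact ⟨one_mem _, zero_mem _⟩
    · rw [hws j]
      exact ⟨zero_mem _, pow_mem (jqModC_mem_full _ M) _⟩
  have hrange := ValDSR.range_of w hRed hV5 hspan hind (Val.mem_field A M q σ) hwr hΦ
  have hscale := ValDSR.scale_of w hRed hV5 hspan hind
  have hdim := ValDSR.dim_of w hRed hV5 hspan hind
  have hcoeff : ∀ g : Val.O2 A M q σ, ∃ c : Fin (q + 1) → Om,
      (∀ i, c i ∈ modularFunctionFieldBar M ∧ c i ∈ Ocal A) ∧
        (g : Om) = ∑ i, c i * (w i : Om) :=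
    fun g => ValDSR.coeff_mem_of w hRed hV5 hspan hind g (Val.mem_field A M q σ g)
  have hO : ∀ g : Om, g ∈ Val.O2 A M q σ ↔ ∃ hg : g ∈ modularFunctionFieldBar (M * q),
      g ∈ Ocal A ∧ ((σ ⟨g, hg⟩ : FN (M * q)) : Om) ∈ Ocal A := fun g => Val.mem_O2
  have hρ : ∀ (g : Val.O2 A M q σ) (hg : (g : Om) ∈ modularFunctionFieldBar (M * q))
      (h1 : (g : Om) ∈ Ocal A) (h2 : ((σ ⟨(g : Om), hg⟩ : FN (M * q)) : Om) ∈ Ocal A),
      Val.Red A M q σ g = (red A ⟨(g : Om), h1⟩, red A ⟨_, h2⟩) :=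
    fun g hg h1 h2 => Prod.ext (Val.fst_eq A M q σ g h1) (Val.snd_eq A M q σ g hg h2)
  have hOM : ∀ y : Om, y ∈ modularFunctionFieldBar M → y ∈ Ocal A → y ∈ Val.O2 A M q σ :=
    fun y hM hO' => (hV5 y hM hO').fst
  -- joint scaling and the one-valuation scaling
  have hJ : ValArch.JointScale A (modularFunctionFieldBar (M * q)) σ := by
    intro y hy
    obtain ⟨c, hc, hmem, hne⟩ := hscale (y : Om) y.2 (fun h0 => hy (Subtype.ext h0))
    obtain ⟨hF, h1, h2⟩ := Val.mem_O2.mp hmem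
    have e2 : ((σ ⟨HahnSeries.C c * (y : Om), hF⟩ : FN (M * q)) : Om) =
        HahnSeries.C c * ((σ y : FN (M * q)) : Om) := by
      have e3 : (⟨HahnSeries.C c * (y : Om), hF⟩ : FN (M * q)) =
          algebraMap Kbar (FN (M * q)) c * y := Subtype.ext (ValArch.coe_const_mul c y).symm
      rw [e3, ValArch.sigma_const_mul, ValArch.coe_const_mul]
    have h2' : HahnSeries.C c * ((σ y : FN (M * q)) : Om) ∈ Ocal A := e2 ▸ h2
    refine ⟨c, hc, h1, h2', ?_⟩
    by_contra hcon
    push Not at hcon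
    apply hne
    rw [hρ ⟨_, hmem⟩ hF h1 h2]
    exact Prod.ext hcon.1 ((red_congr A e2 h2 h2').trans hcon.2)
  have hR : ValArch.RankOne A := ValArch.rankOne_algClosure A q hA
  have hwF := Val.mem_field A M q σ (w 0)
  have hwO := Val.mem_Ocal A M q σ (w 0)
  have hwσ := Val.sigma_mem_Ocal A M q σ (w 0) hwF
  have he1 : red A ⟨((w 0 : Val.O2 A M q σ) : Om), hwO⟩ = 1 :=
    (Val.fst_eq A M q σ (w 0) hwO).symm.trans (congrArg Prod.fst hw0)
  have hσe0 : red A ⟨_, hwσ⟩ = 0 :=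
    (Val.snd_eq A M q σ (w 0) hwF hwσ).symm.trans (congrArg Prod.snd hw0)
  have hS1 : ValArch.Scale₁ A (modularFunctionFieldBar (M * q)) :=
    ValArch.scale₁ hJ hR ⟨((w 0 : Val.O2 A M q σ) : Om), hwF⟩ hwO he1 hwσ hσe0 (hσ.invol _)
  have hInto : ∀ y : Ocal A, (y : Om) ∈ modularFunctionFieldBar (M * q) → red A y ∈ Fk A M :=
    ValArch.redInto hJ hR ⟨((w 0 : Val.O2 A M q σ) : Om), hwF⟩ hwO he1 hwσ hσe0 (hσ.invol _)
      (fun a => a ∈ Fk A M) (fun g h₁ h₂ => by
        have hg : ((g : FN (M * q)) : Om) ∈ Val.O2 A M q σ := Val.mem_O2.mpr ⟨g.2, h₁, h₂⟩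
        have h := (hrange ⟨_, hg⟩).1
        rwa [Val.fst_eq A M q σ ⟨_, hg⟩ h₁] at h)
  refine ⟨?_, hS1, hInto⟩
  exact
    { mem_field := Val.mem_field A M q σ
      mem_Ocal := Val.mem_Ocal A M q σ
      fst_eq := Val.fst_eq A M q σ
      C_mem_iff := Val.C_mem_iff A M q σ
      ρ_C := Val.Red_C A M q σ
      scale := hscale
      dim := hdim
      range := hrange
      inv_mem := Val.inv_mem A M q σ
      incl := InclInt.incl_of_hO A hL hqN hA (PoleBound.poleStmt hqN hL) σ hσ.beta hσ.invol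
        (Val.O2 A M q σ) (Val.Red A M q σ) hO hρ hOM w hcoeff hrange
      lift₁ := ValLiftInst.lift₁ A hL hA hσ
      lift₂ := ValLiftInst.lift₂ A hqN hL hA hσ
      exists_z := ValLiftInst.exists_z A hqN hL hA hσ
      exists_x := ValLiftInst.exists_x A hqN hL hA hσ
      ρ_j := ValLiftInst.ρ_j A hL hA hσ
      ρ_jq := ValLiftInst.ρ_jq A hL hA hσ
      inertia := ValInertia.inertia A (M * q) σ (Val.O2 A M q σ) (Val.Red A M q σ) hO hρ hστ
      inertia_ratio := ValInertia.inertia_ratio A (M * q) σ (Val.O2 A M q σ) (Val.Red A M q σ)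
        hO hρ hστ (ValArch.scaleProp_of_scale₁ hS1) }

/-- **`Plan.Setup2`** for `(Val.O2, Val.Red)` with the Atkin–Lehner involution. -/
theorem setup2 (hL : Levels q N' N M) (hqN : q ∣ N) (hA : A.LiesOverPrime q) :
    Setup2 A N q M hqN (Val.O2 A M q (Sigma.sigma M q (coprime_of_levels hL)))
      (Val.Red A M q (Sigma.sigma M q (coprime_of_levels hL))) :=
  (setup2_and_scale A hL hqN hA).1

/-- `setup2` with an arbitrary proof of the coprimality (the spelling asked by S35). -/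
theorem setup2' (hL : Levels q N' N M) (hqN : q ∣ N) (hA : A.LiesOverPrime q)
    (hcop : Nat.Coprime M q) :
    Setup2 A N q M hqN (Val.O2 A M q (Sigma.sigma M q hcop))
      (Val.Red A M q (Sigma.sigma M q hcop)) :=
  setup2 A hL hqN hA

end Main

section Top

variable (A : ValuationSubring Kbar) {q N' N M : ℕ} [NeZero N] [NeZero q]

/-- **[VAL]** (`Plan.ValStmt`): the two-component reduction exists. -/
theorem valStmt (hL : Levels q N' N M) (hqN : q ∣ N) (hA : A.LiesOverPrime q) :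
    ValStmt A N q M hqN := by
  have := neZero_M hL
  exact ⟨_, _, setup2 A hL hqN hA⟩

/-- **(V1')** one-valuation scaling at the bad level `M * q` (`CharBad.ScaleProp A (M * q)`,
the hypothesis `hscale` of `DescInst.unipDiv_of`). -/
theorem scaleProp (hL : Levels q N' N M) (hqN : q ∣ N) (hA : A.LiesOverPrime q) :
    ∀ y : Om, y ∈ modularFunctionFieldBar (M * q) → y ≠ 0 →
      ∃ c : Kbar, c ≠ 0 ∧ ∃ h : HahnSeries.C c * y ∈ Ocal A, red A ⟨_, h⟩ ≠ 0 := by
  have := neZero_M hL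
  exact ValArch.scaleProp_of_scale₁ (setup2_and_scale A hL hqN hA).2.1

/-- **(HB)** the reductions of `F_{Mq} ∩ Ocal` lie in `F_{M,k}` (`CharBad.RedInto A (M * q) M`). -/
theorem redInto (hL : Levels q N' N M) (hqN : q ∣ N) (hA : A.LiesOverPrime q) :
    ∀ y : Ocal A, (y : Om) ∈ modularFunctionFieldBar (M * q) → red A y ∈ Fk A M := by
  have := neZero_M hL
  exact (setup2_and_scale A hL hqN hA).2.2

end Top

end Fermat.Agent.S34.ValAsm

end
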