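import Mathlib
import Fermat.Agent.S34.Plan
import Fermat.Agent.S34.BKappa

/-!
# S34 (P6) — [BK] in Plan vocabulary (helper2)

`Plan.BK A M` is `BKappa.BK (kk A) M`; hence (G1):
`a ∈ Plan.BK A M ↔ ∃ m, a ∈ WJ (kk A) (Fk A M) m`, and the Dedekind facts for `↥(Plan.BK A M)`.
-/

set_option autoImplicit false

noncomputable section

namespace Fermat.Agent.S34.BKPlan

open ModularCurve AlgebraicCurve
open Fermat.Agent.S24 Fermat.Agent.S18.Content Fermat.Agent.S18.Plan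
open Fermat.Agent.S34

variable (A : ValuationSubring Kbar) (M : ℕ)

/-- `Plan.BK A M` is the ring `B_κ` of `S34/BKappa` at `κ = kk A`. -/
theorem planBK_eq : Plan.BK A M = BKappa.BK (kk A) M := by
  unfold Plan.BK BKappa.BK
  exact inf_comm _ _

variable {A M}

/-- (G1): `B_κ = ⋃ₘ WJ m`, for `Plan.BK`. -/
theorem mem_planBK_iff {a : Omk A} :
    a ∈ Plan.BK A M ↔ ∃ m, a ∈ WJ (kk A) (Fk A M) m := by
  rw [planBK_eq]
  exact BKappa.mem_BK_iff_exists_WJ

theorem mem_planBK_of_mem_WJ {a : Omk A} (m : ℕ) (h : a ∈ WJ (kk A) (Fk A M) m) :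
    a ∈ Plan.BK A M :=
  mem_planBK_iff.2 ⟨m, h⟩

theorem exists_WJ_of_mem_planBK {a : Omk A} (h : a ∈ Plan.BK A M) :
    ∃ m, a ∈ WJ (kk A) (Fk A M) m :=
  mem_planBK_iff.1 h

/-- The shape of `NodeInst.nodeStmt_of`'s hypothesis `hBK`. -/
theorem hBK : ∀ a : Omk A, a ∈ Plan.BK A M → ∃ m, a ∈ WJ (kk A) (Fk A M) m :=
  fun _ h => exists_WJ_of_mem_planBK h

theorem mem_planBK {a : Omk A} :
    a ∈ Plan.BK A M ↔ a ∈ Fk A M ∧ IsIntegral (polyJ (kk A)) a := by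
  rw [planBK_eq]
  exact BKappa.mem_BK

variable (A M)

/-- `↥(Plan.BK A M)` is a Dedekind domain (`q ∤ M`, `A` over `q`). -/
theorem isDedekindDomain_planBK (q : ℕ) [Fact q.Prime] (hq : ¬ q ∣ M) [NeZero M]
    (hA : A.LiesOverPrime q) : IsDedekindDomain ↥(Plan.BK A M) := by
  rw [planBK_eq]
  exact BKappa.isDedekindDomain_BK_kk A M q hq hA

theorem not_isField_planBK : ¬ IsField ↥(Plan.BK A M) := by
  rw [planBK_eq]
  exact BKappa.not_isField_BK_kk A M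

end Fermat.Agent.S34.BKPlan
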