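import Mathlib
import Fermat.Agent.S18.MainLemmas
import Fermat.Agent.S18.RR0.PullBase
import Fermat.Agent.S18.RRl.WJPlace
import Fermat.Agent.S18.Char0

/-!
# S34 — [CR-POLE]: pole membership for the cusp-regularity families (helper78)

Everything is in the S18 vocabulary `pullRR N N₂ B` (`B` a divisor of the base field `F_N`,
sections in `F_{N₂}`), generic in the two levels and symmetric in a pair `x, y` of elements of
`F_N` subject to the crude pole bounds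

  `(P1c)`  `q * min 0 (ord_P x) ≤ ord_P y`  and  `q * min 0 (ord_P y) ≤ ord_P x`  for every place
  `P` of `F_N`

(for `x = j`, `y = j_q` this is `(j_q)_∞ ≤ q (j)_∞`, `(j)_∞ ≤ q (j_q)_∞`).  With
`Cx = (x)_∞`, `E = (x)_∞ + (y)_∞`:

* `cusp_mul_mem`     : `h ∈ L(c (x)_∞)`, `q ≤ c`  ⟹  `(x - y^q) * h * y^(c-q) ∈ L(c E)`;
* `cusp_family_mem`  : `h ∈ L(c₁ (x)_∞)`, `c₁ ≤ c`, `q ≤ c`
                        ⟹  `(x - y^q) * h * x^(c-c₁) * y^(c-q) ∈ L(c E)`;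
* `pullRR_pole_le`   : `L(c₁ (x)_∞) ⊆ L(c E)` for `c₁ ≤ c`.

Feeders for the hypothesis `h ∈ pullRR N N₂ (c • Cx)`:

* `mem_pullRR_of_isIntegral`  : `h` integral over `Q̄[x]` and `x⁻ᶜ h` integral over `Q̄[x⁻¹]`;
* `mem_pullRR_of_mem_WJ`      : `h ∈ WJ Q̄ L c` (for `x = j`);
* `map_mem_pullRR`            : `h = φ y₀` for a `Q̄`-algebra hom `φ : F_M → F_{N₂}` with
                                `φ j = x` and `y₀ ∈ L_{F_M}(c (j)_∞)`;
* `map_mem_pullRR_of_one`     : the same with `y₀ ∈ pullRR 1 M (c • (j)_∞)`.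
-/

set_option autoImplicit false

noncomputable section

namespace Fermat.Agent.S34.CuspPole

open ModularCurve AlgebraicCurve Fermat.Agent.S24 Fermat.Agent.S18.Content Fermat.Agent.S18.Plan
open Fermat.Agent.Lib Fermat.Agent.S18 Fermat.Agent.S18.Main

/-! ### Orders -/

section Ord

variable {N : ℕ}

theorem coe_ne_zero {a : FN N} (ha : a ≠ 0) : (a : Om) ≠ 0 := fun h0 => ha (Subtype.ext h0)

/-- Under `(P1c)`, `x` regular at `P` implies `y` regular at `P`. -/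
theorem ord_nonneg_of_nonneg {q : ℕ} {P : Place Kbar (FN N)} {x y : FN N}
    (hxy : (q : ℤ) * min 0 (P.ord x) ≤ P.ord y) (hx : 0 ≤ P.ord x) : 0 ≤ P.ord y := by
  rw [min_eq_left hx, mul_zero] at hxy
  exact hxy

/-- Under `(P1c)`, a pole of `x` is a pole of `y`. -/
theorem ord_neg_of_neg {q : ℕ} {P : Place Kbar (FN N)} {x y : FN N}
    (hyx : (q : ℤ) * min 0 (P.ord y) ≤ P.ord x) (hx : P.ord x < 0) : P.ord y < 0 := by
  by_contra hy
  rw [min_eq_left (not_lt.mp hy), mul_zero] at hyx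
  omega

end Ord

/-! ### The main membership statements -/

section Main

variable {N N₂ : ℕ}

/-- `L(c₁ (x)_∞) ⊆ L(c (x)_∞)` for `c₁ ≤ c`, with a power of `x` to spare:
`h ∈ L(c₁ (x)_∞)` implies `h * x^(c - c₁) ∈ L(c (x)_∞)`. -/
theorem mul_pow_mem_pullRR (hle : modularFunctionFieldBar N ≤ modularFunctionFieldBar N₂)
    (x : FN N) (hx0 : x ≠ 0) (Cx : Divisor Kbar (FN N))
    (hCx : ∀ P, Cx P = max 0 (-(P.ord x))) {c₁ c : ℕ} (hc : c₁ ≤ c) {h : Om}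
    (hh : h ∈ pullRR N N₂ (c₁ • Cx)) : h * (x : Om) ^ (c - c₁) ∈ pullRR N N₂ (c • Cx) := by
  refine ⟨mul_mem hh.1 (pow_mem (hle x.2) _), fun P t ht hB => ?_⟩
  have hxp : x ^ (c - c₁) ≠ 0 := pow_ne_zero _ hx0
  have h1 := hh.2 P (t * x ^ (c - c₁)) (mul_ne_zero ht hxp) (by
    rw [P.ord_mul ht hxp, Main.ord_pow, Finsupp.smul_apply, hCx, nsmul_eq_mul]
    rw [Finsupp.smul_apply, hCx, nsmul_eq_mul] at hB
    have hcc : ((c - c₁ : ℕ) : ℤ) = (c : ℤ) - c₁ := by push_cast [hc]; ring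
    rw [hcc]
    rcases le_or_gt 0 (P.ord x) with hx | hx
    · rw [max_eq_left (by omega), mul_zero] at hB ⊢
      have : 0 ≤ ((c : ℤ) - c₁) * P.ord x := mul_nonneg (by omega) hx
      omega
    · rw [max_eq_right (by omega)] at hB ⊢
      nlinarith)
  have e : (t : Om) * (h * (x : Om) ^ (c - c₁)) = ((t * x ^ (c - c₁) : FN N) : Om) * h := by
    push_cast
    ring
  rw [e]
  exact h1

/-- `L(c₁ (x)_∞) ⊆ L(c E)` for `c₁ ≤ c` and `E ≥ (x)_∞`. -/
theorem pullRR_pole_le (Cx E : Divisor Kbar (FN N)) (hE : ∀ P, Cx P ≤ E P)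
    (hCx : ∀ P, 0 ≤ Cx P) {c₁ c : ℕ} (hc : c₁ ≤ c) :
    pullRR N N₂ (c₁ • Cx) ≤ pullRR N N₂ (c • E) := by
  refine pullRR_mono fun P => ?_
  rw [Finsupp.smul_apply, Finsupp.smul_apply, nsmul_eq_mul, nsmul_eq_mul]
  have h1 : (c₁ : ℤ) * Cx P ≤ (c : ℤ) * Cx P :=
    mul_le_mul_of_nonneg_right (by exact_mod_cast hc) (hCx P)
  have h2 : (c : ℤ) * Cx P ≤ (c : ℤ) * E P :=
    mul_le_mul_of_nonneg_left (hE P) (by positivity)
  exact h1.trans h2

/-- **Pole membership, first family** (`g = z · h · j_q^(c-q)`): for `x, y ∈ F_N` with the crude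
pole bounds `(P1c)`, `E = (x)_∞ + (y)_∞`, `q ≤ c` and `h ∈ L(c (x)_∞)`:
`(x - y^q) * h * y^(c-q) ∈ L(c E)`. -/
theorem cusp_mul_mem (hle : modularFunctionFieldBar N ≤ modularFunctionFieldBar N₂) (q : ℕ)
    (x y : FN N) (hx0 : x ≠ 0) (hy0 : y ≠ 0)
    (hxy : ∀ P : Place Kbar (FN N), (q : ℤ) * min 0 (P.ord x) ≤ P.ord y)
    (hyx : ∀ P : Place Kbar (FN N), (q : ℤ) * min 0 (P.ord y) ≤ P.ord x)
    (Cx E : Divisor Kbar (FN N)) (hCx : ∀ P, Cx P = max 0 (-(P.ord x)))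
    (hE : ∀ P, E P = max 0 (-(P.ord x)) + max 0 (-(P.ord y)))
    {c : ℕ} (hq : q ≤ c) {h : Om} (hh : h ∈ pullRR N N₂ (c • Cx)) :
    ((x : Om) - (y : Om) ^ q) * h * (y : Om) ^ (c - q) ∈ pullRR N N₂ (c • E) := by
  have hxm : (x : Om) ∈ modularFunctionFieldBar N₂ := hle x.2
  have hym : (y : Om) ∈ modularFunctionFieldBar N₂ := hle y.2
  refine ⟨mul_mem (mul_mem (sub_mem hxm (pow_mem hym _)) hh.1) (pow_mem hym _),
    fun P t ht hB => ?_⟩
  rw [Finsupp.smul_apply, hE, nsmul_eq_mul] at hB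
  obtain ⟨d, rfl⟩ := Nat.exists_eq_add_of_le hq
  rw [Nat.add_sub_cancel_left]
  have hx0' : (x : Om) ≠ 0 := coe_ne_zero hx0
  have hy0' : (y : Om) ≠ 0 := coe_ne_zero hy0
  rcases le_or_gt 0 (P.ord x) with hx | hx
  · -- `x`, `y` regular at `P`
    have hy : 0 ≤ P.ord y := ord_nonneg_of_nonneg (hxy P) hx
    rw [max_eq_left (by omega), max_eq_left (by omega), add_zero, mul_zero] at hB
    have htP : t ∈ P.toValuationSubring := mem_of_ord_nonneg P ht hB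
    have hxP : x ∈ P.toValuationSubring := mem_of_ord_nonneg P hx0 hx
    have hyP : y ∈ P.toValuationSubring := mem_of_ord_nonneg P hy0 hy
    have h1 : IsIntegral (placeRing P) (((1 : FN N) : Om) * h) := hh.2 P 1 one_ne_zero (by
      rw [Finsupp.smul_apply, hCx, max_eq_left (by omega), smul_zero, Place.ord_one])
    have hmem : t * (x - y ^ q) * y ^ d ∈ P.toValuationSubring :=
      mul_mem (mul_mem htP (sub_mem hxP (pow_mem hyP _))) (pow_mem hyP _)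
    have e : (t : Om) * (((x : Om) - (y : Om) ^ q) * h * (y : Om) ^ d)
        = ((t * (x - y ^ q) * y ^ d : FN N) : Om) * (((1 : FN N) : Om) * h) := by
      push_cast
      ring
    rw [e]
    exact (isIntegral_coe P hmem).mul h1
  · -- a common pole of `x` and `y`
    have hy : P.ord y < 0 := ord_neg_of_neg (hyx P) hx
    have hxy' := hxy P
    have hyx' := hyx P
    rw [min_eq_right hx.le] at hxy'
    rw [min_eq_right hy.le] at hyx'
    rw [max_eq_right (by omega), max_eq_right (by omega)] at hB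
    have hxi : (x⁻¹) ^ (q + d) ≠ 0 := pow_ne_zero _ (inv_ne_zero hx0)
    have h1 : IsIntegral (placeRing P) ((((x⁻¹) ^ (q + d) : FN N) : Om) * h) :=
      hh.2 P ((x⁻¹) ^ (q + d)) hxi (by
        rw [Finsupp.smul_apply, hCx, max_eq_right (by omega), nsmul_eq_mul, Main.ord_pow,
          Place.ord_inv])
    -- `u₁ = t x^c y^c` and `u₂ = x y^{-q} - 1` are regular at `P`
    have hxc : x ^ (q + d) ≠ 0 := pow_ne_zero _ hx0
    have hyc : y ^ (q + d) ≠ 0 := pow_ne_zero _ hy0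
    have hu₁ : t * x ^ (q + d) * y ^ (q + d) ∈ P.toValuationSubring := by
      apply mem_of_ord_nonneg P (mul_ne_zero (mul_ne_zero ht hxc) hyc)
      rw [P.ord_mul (mul_ne_zero ht hxc) hyc, P.ord_mul ht hxc, Main.ord_pow, Main.ord_pow]
      push_cast at hB ⊢
      linarith
    have hyq : (y⁻¹) ^ q ≠ 0 := pow_ne_zero _ (inv_ne_zero hy0)
    have hu₂ : x * (y⁻¹) ^ q - 1 ∈ P.toValuationSubring := by
      refine sub_mem ?_ (one_mem _)
      apply mem_of_ord_nonneg P (mul_ne_zero hx0 hyq)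
      rw [P.ord_mul hx0 hyq, Main.ord_pow, Place.ord_inv]
      linarith
    have hmem : (t * x ^ (q + d) * y ^ (q + d)) * (x * (y⁻¹) ^ q - 1) ∈ P.toValuationSubring :=
      mul_mem hu₁ hu₂
    have e : (t : Om) * (((x : Om) - (y : Om) ^ q) * h * (y : Om) ^ d)
        = (((t * x ^ (q + d) * y ^ (q + d)) * (x * (y⁻¹) ^ q - 1) : FN N) : Om)
          * ((((x⁻¹) ^ (q + d) : FN N) : Om) * h) := by
      push_cast
      simp only [inv_pow]
      field_simp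
      ring
    rw [e]
    exact (isIntegral_coe P hmem).mul h1

/-- **Pole membership, second form** (`g = z · h · j^(c-c₁) · j_q^(c-q)`): for `c₁ ≤ c`, `q ≤ c`
and `h ∈ L(c₁ (x)_∞)`: `(x - y^q) * h * x^(c-c₁) * y^(c-q) ∈ L(c E)`. -/
theorem cusp_family_mem (hle : modularFunctionFieldBar N ≤ modularFunctionFieldBar N₂) (q : ℕ)
    (x y : FN N) (hx0 : x ≠ 0) (hy0 : y ≠ 0)
    (hxy : ∀ P : Place Kbar (FN N), (q : ℤ) * min 0 (P.ord x) ≤ P.ord y)
    (hyx : ∀ P : Place Kbar (FN N), (q : ℤ) * min 0 (P.ord y) ≤ P.ord x)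
    (Cx E : Divisor Kbar (FN N)) (hCx : ∀ P, Cx P = max 0 (-(P.ord x)))
    (hE : ∀ P, E P = max 0 (-(P.ord x)) + max 0 (-(P.ord y)))
    {c₁ c : ℕ} (hc : c₁ ≤ c) (hq : q ≤ c) {h : Om} (hh : h ∈ pullRR N N₂ (c₁ • Cx)) :
    ((x : Om) - (y : Om) ^ q) * h * (x : Om) ^ (c - c₁) * (y : Om) ^ (c - q)
      ∈ pullRR N N₂ (c • E) := by
  have h1 := cusp_mul_mem hle q x y hx0 hy0 hxy hyx Cx E hCx hE hq
    (mul_pow_mem_pullRR hle x hx0 Cx hCx hc hh)
  have e : ((x : Om) - (y : Om) ^ q) * h * (x : Om) ^ (c - c₁) * (y : Om) ^ (c - q)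
      = ((x : Om) - (y : Om) ^ q) * (h * (x : Om) ^ (c - c₁)) * (y : Om) ^ (c - q) := by ring
  rw [e]
  exact h1

end Main

/-! ### Feeders: `h ∈ L(c (x)_∞)` from integrality -/

section Feeders

variable {N N₂ : ℕ}

/-- `Q̄[u]` lies in the valuation ring of `P` when `u ∈ F_N` is regular at `P`. -/
theorem adjoin_mem_placeRing (P : Place Kbar (FN N)) (u : FN N)
    (hu : u ∈ P.toValuationSubring) (u' : Om) (huu : (u : Om) = u')
    (r : Algebra.adjoin Kbar {u'}) : (r : Om) ∈ placeRing P := by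
  subst huu
  obtain ⟨r, hr⟩ := r
  show r ∈ placeRing P
  induction hr using Algebra.adjoin_induction with
  | mem z hz =>
    rw [Set.mem_singleton_iff] at hz
    subst hz
    exact ⟨u, hu, rfl⟩
  | algebraMap a =>
    exact ⟨algebraMap Kbar (FN N) a, P.algebraMap_mem' a, rfl⟩
  | add a b _ _ ha hb => exact add_mem ha hb
  | mul a b _ _ ha hb => exact mul_mem ha hb

/-- Integrality over `Q̄[u]` gives integrality over the valuation ring of a place at which `u` is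
regular. -/
theorem isIntegral_placeRing_of_adjoin (P : Place Kbar (FN N)) (u : FN N)
    (hu : u ∈ P.toValuationSubring) (u' : Om) (huu : (u : Om) = u') {z : Om}
    (hz : IsIntegral (Algebra.adjoin Kbar {u'}) z) : IsIntegral (placeRing P) z :=
  RR0.isIntegral_subring_of_algebra (R := Algebra.adjoin Kbar {u'}) (RingHom.id Om) (placeRing P)
    (fun r => adjoin_mem_placeRing P u hu u' huu r) hz

/-- **Feeder, integrality form**: `h ∈ F_{N₂}` integral over `Q̄[x]` with `x⁻ᶜ h` integral over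
`Q̄[x⁻¹]` lies in `L(c (x)_∞)`. -/
theorem mem_pullRR_of_isIntegral (x : FN N) (hx0 : x ≠ 0) (Cx : Divisor Kbar (FN N))
    (hCx : ∀ P, Cx P = max 0 (-(P.ord x))) (c : ℕ) {h : Om}
    (hm : h ∈ modularFunctionFieldBar N₂)
    (h1 : IsIntegral (Algebra.adjoin Kbar {(x : Om)}) h)
    (h2 : IsIntegral (Algebra.adjoin Kbar {(x : Om)⁻¹}) ((x : Om)⁻¹ ^ c * h)) :
    h ∈ pullRR N N₂ (c • Cx) := by
  refine ⟨hm, fun P t ht hB => ?_⟩
  rw [Finsupp.smul_apply, hCx, nsmul_eq_mul] at hB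
  have hx0' : (x : Om) ≠ 0 := coe_ne_zero hx0
  rcases le_or_gt 0 (P.ord x) with hx | hx
  · rw [max_eq_left (by omega), mul_zero] at hB
    have htP := mem_of_ord_nonneg P ht hB
    have hxP := mem_of_ord_nonneg P hx0 hx
    exact (isIntegral_coe P htP).mul (isIntegral_placeRing_of_adjoin P x hxP _ rfl h1)
  · rw [max_eq_right (by omega)] at hB
    have hxi : x⁻¹ ∈ P.toValuationSubring := by
      apply mem_of_ord_nonneg P (inv_ne_zero hx0)
      rw [Place.ord_inv]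
      omega
    have h3 : IsIntegral (placeRing P) ((x : Om)⁻¹ ^ c * h) :=
      isIntegral_placeRing_of_adjoin P x⁻¹ hxi _ (by push_cast; rfl) h2
    have hxc : x ^ c ≠ 0 := pow_ne_zero _ hx0
    have hmem : t * x ^ c ∈ P.toValuationSubring := by
      apply mem_of_ord_nonneg P (mul_ne_zero ht hxc)
      rw [P.ord_mul ht hxc, Main.ord_pow]
      linarith
    have e : (t : Om) * h = ((t * x ^ c : FN N) : Om) * ((x : Om)⁻¹ ^ c * h) := by
      push_cast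
      simp only [inv_pow]
      field_simp
    rw [e]
    exact (isIntegral_coe P hmem).mul h3

/-- **Feeder, `WJ` form** (`x = j`): `WJ Q̄ L c ⊆ L(c (j)_∞)` for `L ≤ F_{N₂}`. -/
theorem mem_pullRR_of_mem_WJ [NeZero N] (Cp : Divisor Kbar (FN N))
    (hCp : ∀ P, Cp P = max 0 (-(P.ord (jBar N)))) (c : ℕ) (L : IntermediateField Kbar Om)
    (hL : L ≤ modularFunctionFieldBar N₂) {h : Om} (hh : h ∈ WJ Kbar L c) :
    h ∈ pullRR N N₂ (c • Cp) := by
  obtain ⟨hhL, h1, h2⟩ := hh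
  have hjL : jqModC Kbar ∈ modularFunctionFieldBar N := by
    have h0 := (jBar N).2
    rw [Main.coe_jBar N] at h0
    exact h0
  have hjeq : jBar N = ⟨jqModC Kbar, hjL⟩ := Subtype.ext (Main.coe_jBar N)
  have hj0 : jBar N ≠ 0 := Main.jBar_ne_zero N
  refine ⟨hL hhL, fun P t ht hB => ?_⟩
  rw [Finsupp.smul_apply, hCp, nsmul_eq_mul] at hB
  rcases le_or_gt 0 (P.ord (jBar N)) with hx | hx
  · rw [max_eq_left (by omega), mul_zero] at hB
    have htP := mem_of_ord_nonneg P ht hB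
    have hxP : (⟨jqModC Kbar, hjL⟩ : FN N) ∈ P.toValuationSubring := by
      rw [← hjeq]
      exact mem_of_ord_nonneg P hj0 hx
    have h3 : IsIntegral (placeRing P) h :=
      RR0.isIntegral_subring_of_algebra (R := polyJ Kbar) (RingHom.id Om) (placeRing P)
        (fun r => by
          obtain ⟨a, ha, hae⟩ := RRl.WJPlace.polyJ_lift (modularFunctionFieldBar N) hjL P hxP r
          exact ⟨a, ha, hae⟩) h1
    exact (isIntegral_coe P htP).mul h3
  · rw [max_eq_right (by omega)] at hB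
    have hxP : P.ord (⟨jqModC Kbar, hjL⟩ : FN N) < 0 := by
      rw [← hjeq]
      exact hx
    have h3 : IsIntegral (placeRing P) ((jqModC Kbar)⁻¹ ^ c * h) :=
      RR0.isIntegral_subring_of_algebra (R := OinfJ Kbar) (RingHom.id Om) (placeRing P)
        (fun r => by
          obtain ⟨a, ha, hae⟩ := RRl.WJPlace.OinfJ_lift (modularFunctionFieldBar N) hjL P hxP r
          exact ⟨a, ha, hae⟩) h2
    have hxc : jBar N ^ c ≠ 0 := pow_ne_zero _ hj0
    have hmem : t * jBar N ^ c ∈ P.toValuationSubring := by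
      apply mem_of_ord_nonneg P (mul_ne_zero ht hxc)
      rw [P.ord_mul ht hxc, Main.ord_pow]
      linarith
    have hj0' : jqModC Kbar ≠ 0 := by
      have := coe_ne_zero hj0
      rwa [Main.coe_jBar N] at this
    have e : (t : Om) * h = ((t * jBar N ^ c : FN N) : Om) * ((jqModC Kbar)⁻¹ ^ c * h) := by
      push_cast
      rw [Main.coe_jBar N]
      simp only [inv_pow]
      field_simp
    rw [e]
    exact (isIntegral_coe P hmem).mul h3

/-- Integrality over `Q̄[u]` is transported by a ring hom commuting with the constants. -/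
theorem isIntegral_adjoin_map {F : Type*} [Field F] [Algebra Kbar F] (ι : F →+* Om)
    (hι : ∀ a : Kbar, ι (algebraMap Kbar F a) = algebraMap Kbar Om a) (u : F) (u' : Om)
    (hu : ι u = u') {z : F} (hz : IsIntegral (Algebra.adjoin Kbar {u}) z) :
    IsIntegral (Algebra.adjoin Kbar {u'}) (ι z) := by
  subst hu
  have h1 : IsIntegral (Algebra.adjoin Kbar {ι u}).toSubring (ι z) :=
    RR0.isIntegral_subring_of_algebra (R := Algebra.adjoin Kbar {u}) ι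
      (Algebra.adjoin Kbar {ι u}).toSubring (fun r => by
        obtain ⟨r, hr⟩ := r
        show ι r ∈ Algebra.adjoin Kbar {ι u}
        induction hr using Algebra.adjoin_induction with
        | mem w hw =>
          rw [Set.mem_singleton_iff] at hw
          subst hw
          exact Algebra.self_mem_adjoin_singleton Kbar _
        | algebraMap a =>
          rw [hι]
          exact Subalgebra.algebraMap_mem _ a
        | add a b _ _ ha hb =>
          rw [map_add]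
          exact add_mem ha hb
        | mul a b _ _ ha hb =>
          rw [map_mul]
          exact mul_mem ha hb) hz
  exact h1

variable {M : ℕ}

/-- **Feeder, transport form**: for a `Q̄`-algebra hom `φ : F_M → F_{N₂}` with `φ j = x ∈ F_N`
(e.g. the inclusion with `x = j`, or `V_q` with `x = j_q`), `φ` maps `L_{F_M}(c (j)_∞)` into
`L(c (x)_∞)`. -/
theorem map_mem_pullRR [NeZero M] (φ : FN M →ₐ[Kbar] FN N₂) (x : FN N) (hx0 : x ≠ 0)
    (hφ : ((φ (jBar M) : FN N₂) : Om) = (x : Om)) (Cx : Divisor Kbar (FN N))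
    (hCx : ∀ P, Cx P = max 0 (-(P.ord x))) (c : ℕ) (D' : Divisor Kbar (FN M))
    (hD' : ∀ v : Place Kbar (FN M), D' v = c * max 0 (-(v.ord (jBar M))))
    (y₀ : FN M) (hy₀ : y₀ ∈ riemannRochSpace D') :
    ((φ y₀ : FN N₂) : Om) ∈ pullRR N N₂ (c • Cx) := by
  have h1 := RR0.isIntegral_polyRing_of_mem c D' hD' y₀ hy₀
  have h2 := RR0.isIntegral_polyRing_inv_of_mem c D' hD' y₀ hy₀
  let ι : FN M →+* Om := (algebraMap (FN N₂) Om).comp (φ : FN M →+* FN N₂)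
  have hι : ∀ a : Kbar, ι (algebraMap Kbar (FN M) a) = algebraMap Kbar Om a := by
    intro a
    show algebraMap (FN N₂) Om (φ (algebraMap Kbar (FN M) a)) = algebraMap Kbar Om a
    rw [AlgHom.commutes]
    rfl
  have hιj : ι (jBar M) = (x : Om) := hφ
  have hιj' : ι (jBar M)⁻¹ = (x : Om)⁻¹ := by rw [map_inv₀, hιj]
  have h1' := isIntegral_adjoin_map ι hι (jBar M) (x : Om) hιj h1
  have h2' := isIntegral_adjoin_map ι hι (jBar M)⁻¹ (x : Om)⁻¹ hιj' h2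
  rw [map_mul, map_pow, hιj'] at h2'
  exact mem_pullRR_of_isIntegral x hx0 Cx hCx c (φ y₀).2 h1' h2'

/-- The same with the hypothesis in the form `y₀ ∈ pullRR 1 M (c • (j)_∞)` (the S18 form of
`L_{F_M}(c (j)_∞)`). -/
theorem map_mem_pullRR_of_one [NeZero M] (φ : FN M →ₐ[Kbar] FN N₂) (x : FN N) (hx0 : x ≠ 0)
    (hφ : ((φ (jBar M) : FN N₂) : Om) = (x : Om)) (Cx : Divisor Kbar (FN N))
    (hCx : ∀ P, Cx P = max 0 (-(P.ord x))) (c : ℕ) (Cp₁ : Divisor Kbar (FN 1))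
    (hCp₁ : ∀ P, Cp₁ P = max 0 (-(P.ord (jBar 1))))
    (y₀ : FN M) (hy₀ : (y₀ : Om) ∈ pullRR 1 M (c • Cp₁)) :
    ((φ y₀ : FN N₂) : Om) ∈ pullRR N N₂ (c • Cx) := by
  obtain ⟨Cp', hCp', -⟩ := Char0.exists_poleDivisor_jBar M
  have hD' : ∀ v : Place Kbar (FN M), (c • Cp') v = c * max 0 (-(v.ord (jBar M))) := fun v => by
    rw [Finsupp.smul_apply, hCp', nsmul_eq_mul]
  rw [RR0.pullRR_base (one_dvd M) c (c • Cp₁) (fun P => by
      rw [Finsupp.smul_apply, hCp₁, nsmul_eq_mul, RR0.poleMult]) (c • Cp') hD'] at hy₀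
  obtain ⟨y₁, hy₁, hy₁e⟩ := hy₀
  have hy : y₁ = y₀ := RR0.inclLin_injective hy₁e
  rw [hy] at hy₁
  exact map_mem_pullRR φ x hx0 hφ Cx hCx c (c • Cp') hD' y₀ hy₁

/-- `L_{F_M}(c (j)_∞) ⊆ L(c (j)_∞)` at the levels `(N, N₂)`, for `F_M ≤ F_{N₂}`. -/
theorem pullRR_one_le [NeZero N] [NeZero M]
    (hle : modularFunctionFieldBar M ≤ modularFunctionFieldBar N₂)
    (Cp : Divisor Kbar (FN N)) (hCp : ∀ P, Cp P = max 0 (-(P.ord (jBar N)))) (c : ℕ)
    (Cp₁ : Divisor Kbar (FN 1)) (hCp₁ : ∀ P, Cp₁ P = max 0 (-(P.ord (jBar 1)))) :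
    pullRR 1 M (c • Cp₁) ≤ pullRR N N₂ (c • Cp) := by
  intro h hh
  have h1 := map_mem_pullRR_of_one (N := N) (IntermediateField.inclusion hle) (jBar N)
    (Main.jBar_ne_zero N) (by
      rw [Main.coe_jBar N]
      exact Main.coe_jBar M) Cp hCp c Cp₁ hCp₁ ⟨h, hh.1⟩ hh
  exact h1

end Feeders

/-! ### Assembled forms for `x = j`: the two families of the cusp-regularity step -/

section Assembled

variable {N N₂ M : ℕ}

/-- Under `(P1c)` the pole divisor of `y` exists (its support lies in the poles of `x`). -/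
theorem exists_poleDivisor {q : ℕ} (x y : FN N)
    (hxy : ∀ P : Place Kbar (FN N), (q : ℤ) * min 0 (P.ord x) ≤ P.ord y)
    (Cx : Divisor Kbar (FN N)) (hCx : ∀ P, Cx P = max 0 (-(P.ord x))) :
    ∃ Cy : Divisor Kbar (FN N), ∀ P, Cy P = max 0 (-(P.ord y)) := by
  classical
  refine ⟨Finsupp.onFinset Cx.support (fun P => max 0 (-(P.ord y))) (fun P hP => ?_),
    fun P => rfl⟩
  rw [Finsupp.mem_support_iff, hCx]
  intro h0
  apply hP
  have hx : 0 ≤ P.ord x := by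
    by_contra hx
    rw [max_eq_right (by omega)] at h0
    omega
  have hy := ord_nonneg_of_nonneg (hxy P) hx
  exact max_eq_left (by omega)

/-- The divisor `E = (x)_∞ + (y)_∞` exists. -/
theorem exists_poleSum {q : ℕ} (x y : FN N)
    (hxy : ∀ P : Place Kbar (FN N), (q : ℤ) * min 0 (P.ord x) ≤ P.ord y)
    (Cx : Divisor Kbar (FN N)) (hCx : ∀ P, Cx P = max 0 (-(P.ord x))) :
    ∃ E : Divisor Kbar (FN N), ∀ P, E P = max 0 (-(P.ord x)) + max 0 (-(P.ord y)) := by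
  obtain ⟨Cy, hCy⟩ := exists_poleDivisor x y hxy Cx hCx
  exact ⟨Cx + Cy, fun P => by rw [Finsupp.add_apply, hCx, hCy]⟩

/-- For `x = j`, `y = j_q ∈ F_N`: the divisor `E = (j)_∞ + (j_q)_∞` of `F_N` exists. -/
theorem exists_E [NeZero N] {q : ℕ} (y : FN N)
    (hxy : ∀ P : Place Kbar (FN N), (q : ℤ) * min 0 (P.ord (jBar N)) ≤ P.ord y) :
    ∃ E : Divisor Kbar (FN N),
      ∀ P, E P = max 0 (-(P.ord (jBar N))) + max 0 (-(P.ord y)) := by
  obtain ⟨Cp, hCp, -⟩ := Char0.exists_poleDivisor_jBar N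
  exact exists_poleSum (jBar N) y hxy Cp hCp

/-- **First family** (`x = j`, `y = j_q`): for `h ∈ L_{F_M}(c₁ (j)_∞)`, `c₁ ≤ c`, `q ≤ c`:
`(j - j_q^q) * h * j^(c-c₁) * j_q^(c-q) ∈ L(c E)`. -/
theorem cusp_incl_mem [NeZero N] [NeZero M]
    (hle : modularFunctionFieldBar N ≤ modularFunctionFieldBar N₂)
    (hleM : modularFunctionFieldBar M ≤ modularFunctionFieldBar N₂) (q : ℕ)
    (y : FN N) (hy0 : y ≠ 0)
    (hxy : ∀ P : Place Kbar (FN N), (q : ℤ) * min 0 (P.ord (jBar N)) ≤ P.ord y)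
    (hyx : ∀ P : Place Kbar (FN N), (q : ℤ) * min 0 (P.ord y) ≤ P.ord (jBar N))
    (E : Divisor Kbar (FN N))
    (hE : ∀ P, E P = max 0 (-(P.ord (jBar N))) + max 0 (-(P.ord y)))
    {c₁ c : ℕ} (hc : c₁ ≤ c) (hq : q ≤ c)
    (Cp₁ : Divisor Kbar (FN 1)) (hCp₁ : ∀ P, Cp₁ P = max 0 (-(P.ord (jBar 1))))
    {h : Om} (hh : h ∈ pullRR 1 M (c₁ • Cp₁)) :
    (jK - (y : Om) ^ q) * h * jK ^ (c - c₁) * (y : Om) ^ (c - q) ∈ pullRR N N₂ (c • E) := by
  obtain ⟨Cp, hCp, -⟩ := Char0.exists_poleDivisor_jBar N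
  have h1 := pullRR_one_le hleM Cp hCp c₁ Cp₁ hCp₁ hh
  have h2 := cusp_family_mem hle q (jBar N) y (Main.jBar_ne_zero N) hy0 hxy hyx Cp E hCp hE hc hq
    h1
  rw [Main.coe_jBar N] at h2
  exact h2

/-- **First family, without the `j`-power**: for `h ∈ L_{F_M}(c₁ (j)_∞)`, `c₁ ≤ c`, `q ≤ c`:
`(j - j_q^q) * h * j_q^(c-q) ∈ L(c E)`. -/
theorem cusp_incl_mem' [NeZero N] [NeZero M]
    (hle : modularFunctionFieldBar N ≤ modularFunctionFieldBar N₂)
    (hleM : modularFunctionFieldBar M ≤ modularFunctionFieldBar N₂) (q : ℕ)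
    (y : FN N) (hy0 : y ≠ 0)
    (hxy : ∀ P : Place Kbar (FN N), (q : ℤ) * min 0 (P.ord (jBar N)) ≤ P.ord y)
    (hyx : ∀ P : Place Kbar (FN N), (q : ℤ) * min 0 (P.ord y) ≤ P.ord (jBar N))
    (E : Divisor Kbar (FN N))
    (hE : ∀ P, E P = max 0 (-(P.ord (jBar N))) + max 0 (-(P.ord y)))
    {c₁ c : ℕ} (hc : c₁ ≤ c) (hq : q ≤ c)
    (Cp₁ : Divisor Kbar (FN 1)) (hCp₁ : ∀ P, Cp₁ P = max 0 (-(P.ord (jBar 1))))
    {h : Om} (hh : h ∈ pullRR 1 M (c₁ • Cp₁)) :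
    (jK - (y : Om) ^ q) * h * (y : Om) ^ (c - q) ∈ pullRR N N₂ (c • E) := by
  obtain ⟨Cp, hCp, -⟩ := Char0.exists_poleDivisor_jBar N
  have h1 := pullRR_one_le hleM Cp hCp c₁ Cp₁ hCp₁ hh
  have h1' : h ∈ pullRR N N₂ (c • Cp) :=
    pullRR_pole_le Cp Cp (fun P => le_rfl) (fun P => by rw [hCp]; exact le_max_left _ _) hc h1
  have h2 := cusp_mul_mem hle q (jBar N) y (Main.jBar_ne_zero N) hy0 hxy hyx Cp E hCp hE hq h1'
  rw [Main.coe_jBar N] at h2
  exact h2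

/-- **Second (conjugate) family** (`x = j_q`, `y = j`): for a `Q̄`-algebra hom
`φ : F_M → F_{N₂}` with `φ j = j_q` (i.e. `φ = V_q`) and `y₀ ∈ L_{F_M}(c₁ (j)_∞)`, `c₁ ≤ c`,
`q ≤ c`: `(j_q - j^q) * φ y₀ * j_q^(c-c₁) * j^(c-q) ∈ L(c E)`. -/
theorem cusp_conj_mem [NeZero N] [NeZero M]
    (hle : modularFunctionFieldBar N ≤ modularFunctionFieldBar N₂) (q : ℕ)
    (y : FN N) (hy0 : y ≠ 0)
    (hxy : ∀ P : Place Kbar (FN N), (q : ℤ) * min 0 (P.ord (jBar N)) ≤ P.ord y)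
    (hyx : ∀ P : Place Kbar (FN N), (q : ℤ) * min 0 (P.ord y) ≤ P.ord (jBar N))
    (E : Divisor Kbar (FN N))
    (hE : ∀ P, E P = max 0 (-(P.ord (jBar N))) + max 0 (-(P.ord y)))
    (φ : FN M →ₐ[Kbar] FN N₂) (hφ : ((φ (jBar M) : FN N₂) : Om) = (y : Om))
    {c₁ c : ℕ} (hc : c₁ ≤ c) (hq : q ≤ c)
    (Cp₁ : Divisor Kbar (FN 1)) (hCp₁ : ∀ P, Cp₁ P = max 0 (-(P.ord (jBar 1))))
    (y₀ : FN M) (hy₀ : (y₀ : Om) ∈ pullRR 1 M (c₁ • Cp₁)) :
    ((y : Om) - jK ^ q) * ((φ y₀ : FN N₂) : Om) * (y : Om) ^ (c - c₁) * jK ^ (c - q)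
      ∈ pullRR N N₂ (c • E) := by
  obtain ⟨Cp, hCp, -⟩ := Char0.exists_poleDivisor_jBar N
  obtain ⟨Cy, hCy⟩ := exists_poleDivisor (jBar N) y hxy Cp hCp
  have h1 := map_mem_pullRR_of_one φ y hy0 hφ Cy hCy c₁ Cp₁ hCp₁ y₀ hy₀
  have h2 := cusp_family_mem hle q y (jBar N) hy0 (Main.jBar_ne_zero N) hyx hxy Cy E hCy
    (fun P => by rw [hE, add_comm]) hc hq h1
  rw [Main.coe_jBar N] at h2
  exact h2

/-- **Second family, without the `j_q`-power**:
`(j_q - j^q) * φ y₀ * j^(c-q) ∈ L(c E)`. -/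
theorem cusp_conj_mem' [NeZero N] [NeZero M]
    (hle : modularFunctionFieldBar N ≤ modularFunctionFieldBar N₂) (q : ℕ)
    (y : FN N) (hy0 : y ≠ 0)
    (hxy : ∀ P : Place Kbar (FN N), (q : ℤ) * min 0 (P.ord (jBar N)) ≤ P.ord y)
    (hyx : ∀ P : Place Kbar (FN N), (q : ℤ) * min 0 (P.ord y) ≤ P.ord (jBar N))
    (E : Divisor Kbar (FN N))
    (hE : ∀ P, E P = max 0 (-(P.ord (jBar N))) + max 0 (-(P.ord y)))
    (φ : FN M →ₐ[Kbar] FN N₂) (hφ : ((φ (jBar M) : FN N₂) : Om) = (y : Om))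
    {c₁ c : ℕ} (hc : c₁ ≤ c) (hq : q ≤ c)
    (Cp₁ : Divisor Kbar (FN 1)) (hCp₁ : ∀ P, Cp₁ P = max 0 (-(P.ord (jBar 1))))
    (y₀ : FN M) (hy₀ : (y₀ : Om) ∈ pullRR 1 M (c₁ • Cp₁)) :
    ((y : Om) - jK ^ q) * ((φ y₀ : FN N₂) : Om) * jK ^ (c - q) ∈ pullRR N N₂ (c • E) := by
  obtain ⟨Cp, hCp, -⟩ := Char0.exists_poleDivisor_jBar N
  obtain ⟨Cy, hCy⟩ := exists_poleDivisor (jBar N) y hxy Cp hCp
  have h1 := map_mem_pullRR_of_one φ y hy0 hφ Cy hCy c₁ Cp₁ hCp₁ y₀ hy₀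
  have h1' : ((φ y₀ : FN N₂) : Om) ∈ pullRR N N₂ (c • Cy) :=
    pullRR_pole_le Cy Cy (fun P => le_rfl) (fun P => by rw [hCy]; exact le_max_left _ _) hc h1
  have h2 := cusp_mul_mem hle q y (jBar N) hy0 (Main.jBar_ne_zero N) hyx hxy Cy E hCy
    (fun P => by rw [hE, add_comm]) hq h1'
  rw [Main.coe_jBar N] at h2
  exact h2

/-- `(2a)`: `L_{F_M}(c₁ (j)_∞) ⊆ L(c E)` for `c₁ ≤ c`. -/
theorem incl_mem_pullRR_E [NeZero N] [NeZero M]
    (hleM : modularFunctionFieldBar M ≤ modularFunctionFieldBar N₂) (y : FN N)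
    (E : Divisor Kbar (FN N))
    (hE : ∀ P, E P = max 0 (-(P.ord (jBar N))) + max 0 (-(P.ord y)))
    {c₁ c : ℕ} (hc : c₁ ≤ c)
    (Cp₁ : Divisor Kbar (FN 1)) (hCp₁ : ∀ P, Cp₁ P = max 0 (-(P.ord (jBar 1))))
    {h : Om} (hh : h ∈ pullRR 1 M (c₁ • Cp₁)) : h ∈ pullRR N N₂ (c • E) := by
  obtain ⟨Cp, hCp, -⟩ := Char0.exists_poleDivisor_jBar N
  have h1 := pullRR_one_le hleM Cp hCp c₁ Cp₁ hCp₁ hh
  exact pullRR_pole_le Cp E (fun P => by
    rw [hCp, hE]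
    have := le_max_left 0 (-(P.ord y))
    omega) (fun P => by rw [hCp]; exact le_max_left _ _) hc h1

/-- `(2a)`, conjugate: `φ (L_{F_M}(c₁ (j)_∞)) ⊆ L(c E)` for `c₁ ≤ c` and `φ j = j_q`. -/
theorem map_mem_pullRR_E [NeZero N] [NeZero M] (q : ℕ) (y : FN N) (hy0 : y ≠ 0)
    (hxy : ∀ P : Place Kbar (FN N), (q : ℤ) * min 0 (P.ord (jBar N)) ≤ P.ord y)
    (E : Divisor Kbar (FN N))
    (hE : ∀ P, E P = max 0 (-(P.ord (jBar N))) + max 0 (-(P.ord y)))
    (φ : FN M →ₐ[Kbar] FN N₂) (hφ : ((φ (jBar M) : FN N₂) : Om) = (y : Om))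
    {c₁ c : ℕ} (hc : c₁ ≤ c)
    (Cp₁ : Divisor Kbar (FN 1)) (hCp₁ : ∀ P, Cp₁ P = max 0 (-(P.ord (jBar 1))))
    (y₀ : FN M) (hy₀ : (y₀ : Om) ∈ pullRR 1 M (c₁ • Cp₁)) :
    ((φ y₀ : FN N₂) : Om) ∈ pullRR N N₂ (c • E) := by
  obtain ⟨Cp, hCp, -⟩ := Char0.exists_poleDivisor_jBar N
  obtain ⟨Cy, hCy⟩ := exists_poleDivisor (jBar N) y hxy Cp hCp
  have h1 := map_mem_pullRR_of_one φ y hy0 hφ Cy hCy c₁ Cp₁ hCp₁ y₀ hy₀
  exact pullRR_pole_le Cy E (fun P => by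
    rw [hCy, hE]
    have := le_max_left 0 (-(P.ord (jBar N)))
    omega) (fun P => by rw [hCy]; exact le_max_left _ _) hc h1

end Assembled

end Fermat.Agent.S34.CuspPole
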