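import Mathlib
import Fermat.Agent.S34.CuspRegInst

/-!
# S34 (P6) — [CR] by-products for [NODE]: graded surjectivity and the node count (helper86)

In `Plan` vocabulary, from `Setup2` (+ `RiemannK`, and `RiemannE`, `NumStmt` for the count):

* `exists_families` : the two families `(ω_c a, 0)`, `(0, ω_c a)` of `B̄(c)`, `a ∈ WJ c`,
  `ω_c = (j̄ - j̄^(q²)) j̄^(q (c - q))`;
* `graded_onto`     : `W(c+1) = B̄(c+1) + W(c)` for `c ≥ c₀`;
* `count_gap`       : `12 dim B̄(c) + (q - 1) ψ(M) = 12 dim W(c)` for `c ≥ c₀`;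
* `Bbar_mono`, `Bbar_subset_WW`.
-/

set_option autoImplicit false
set_option maxHeartbeats 400000

noncomputable section

namespace Fermat.Agent.S34.CuspReg

open ModularCurve AlgebraicCurve Fermat.Agent.S24 Fermat.Agent.S18.Content Fermat.Agent.S18.Plan
  Fermat.Agent.S18 Module

variable {A : ValuationSubring Kbar} {N q M : ℕ} [NeZero N] [NeZero q] {hqN : q ∣ N}
  {O : Subring Om} {ρ : O →+* Plan.R2 A}

theorem isE_nonneg {E : Divisor Kbar (FN N)} (hE : Plan.IsE N q hqN E)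
    (P : Place Kbar (FN N)) : 0 ≤ E P := by
  rw [hE P]
  exact add_nonneg (le_max_left _ _) (le_max_left _ _)

/-- `B̄(c) ⊆ B̄(c')` for `c ≤ c'`. -/
theorem Bbar_mono {E : Divisor Kbar (FN N)} (hE : Plan.IsE N q hqN E) {c c' : ℕ} (hcc : c ≤ c') :
    Plan.Bbar N q M O ρ E c ⊆ Plan.Bbar N q M O ρ E c' := by
  rintro y ⟨g, hg, rfl⟩
  refine ⟨g, Main.pullRR_mono (fun P => ?_) hg, rfl⟩
  rw [Finsupp.smul_apply, Finsupp.smul_apply, nsmul_eq_mul, nsmul_eq_mul]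
  exact mul_le_mul_of_nonneg_right (by exact_mod_cast hcc) (isE_nonneg hE P)

/-- `B̄(c) ⊆ W(c)`. -/
theorem Bbar_subset_WW (hS : Plan.Setup2 A N q M hqN O ρ) {E : Divisor Kbar (FN N)}
    (hE : Plan.IsE N q hqN E) (c : ℕ) : Plan.Bbar N q M O ρ E c ⊆ Plan.WW A q M c := by
  rintro y ⟨g, hg, rfl⟩
  exact hS.incl E hE c g hg

/-- The two families of `B̄(c)` (core form). -/
theorem exists_families_core [NeZero (M * q)] (hNdvd : N ∣ M * q)
    (hS : Plan.Setup2 A N q M hqN O ρ) (E : Divisor Kbar (FN N)) (hE : Plan.IsE N q hqN E) :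
    ∃ c₁ : ℕ, ∀ c : ℕ, c₁ ≤ c → ∀ a : Omk A, a ∈ WJ (kk A) (Fk A M) c →
      (((jk A - jk A ^ (q ^ 2)) * jk A ^ (q * (c - q)) * a, (0 : Omk A)) : Plan.R2 A)
          ∈ Plan.Bbar N q M O ρ E c ∧
      (((0 : Omk A), (jk A - jk A ^ (q ^ 2)) * jk A ^ (q * (c - q)) * a) : Plan.R2 A)
          ∈ Plan.Bbar N q M O ρ E c := by
  have hle : modularFunctionFieldBar N ≤ modularFunctionFieldBar (M * q) :=
    RR0.modularFunctionFieldBar_le hNdvd
  obtain ⟨Cj, hCj, -⟩ := (Char0.char0Stmt N).2.2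
  obtain ⟨Cq, hCqdef⟩ : ∃ Cq : Divisor Kbar (FN N), Cq = E - Cj := ⟨_, rfl⟩
  have hCq : Plan.IsPoleJq N q hqN Cq := by
    intro P
    rw [hCqdef, Finsupp.sub_apply, hE P, hCj P]
    ring
  have hEP : ∀ P, E P = Cj P + Cq P := by
    intro P
    rw [hE P, hCj P, hCq P]
  obtain ⟨m₁, hl1⟩ := hS.lift₁
  obtain ⟨m₂, hl2⟩ := hS.lift₂
  obtain ⟨z, hz, hρz⟩ := hS.exists_z Cq hCq
  obtain ⟨x, hx, hρx⟩ := hS.exists_x Cj hCj
  obtain ⟨hjO, hρj⟩ := hS.ρ_j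
  obtain ⟨hjqO, hρjq⟩ := hS.ρ_jq
  have hjmem : (jK : Om) ∈ pullRR N (M * q) Cj := by
    rw [← Main.coe_jBar N]
    refine coe_mem_pullRR_of_pole hle (Main.jBar_ne_zero N) fun P => ?_
    rw [hCj P]; exact le_max_right _ _
  have hjq0 : jBarLevel N q hqN ≠ 0 := by
    intro h
    have h1 := congrArg (fun y : FN N => (y : Om)) h
    simp only [coe_jBarLevel_eq] at h1
    have h2 : ρ ⟨_, hjqO⟩ = 0 := by
      have : (⟨_, hjqO⟩ : O) = 0 := Subtype.ext h1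
      rw [this, map_zero]
    rw [hρjq] at h2
    exact Main.jqModC_ne_zero' (kk A) (congrArg Prod.snd h2)
  have hjqmem : (qExpand Kbar q jK : Om) ∈ pullRR N (M * q) Cq := by
    rw [← coe_jBarLevel_eq (hqN := hqN)]
    refine coe_mem_pullRR_of_pole hle hjq0 fun P => ?_
    rw [hCq P]; exact le_max_right _ _
  have hsmul : ∀ (c : ℕ) (P : Place Kbar (FN N)) (B : Divisor Kbar (FN N)),
      (c • B) P = (c : ℤ) * B P := by
    intro c P B
    rw [Finsupp.smul_apply, nsmul_eq_mul]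
  refine ⟨max (max m₁ m₂) q, fun c hc a ha => ⟨?_, ?_⟩⟩
  · -- family 1
    have hc1 : m₁ ≤ c := (le_max_left _ _).trans ((le_max_left _ _).trans hc)
    have hcq : q ≤ c := (le_max_right _ _).trans hc
    obtain ⟨g, hg, hρg⟩ := hl1 Cj hCj c hc1 a ha
    refine ⟨z * g * (⟨_, hjqO⟩ : O) ^ (c - q), ?_, ?_⟩
    · push_cast
      have hpow : (qExpand Kbar q jK : Om) ^ (c - q) ∈ pullRR N (M * q) ((c - q) • Cq) :=
        Main.pow_mem_pullRR (c - q) (fun P => hsmul _ P Cq) hjqmem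
      have h12 : (z : Om) * (g : Om) ∈ pullRR N (M * q) (q • Cq + c • Cj) :=
        mul_mem_pullRR_add (fun P => by rw [Finsupp.add_apply]) hz hg
      refine mul_mem_pullRR_add (fun P => ?_) h12 hpow
      rw [Finsupp.add_apply, hsmul, hsmul, hsmul, hsmul, hEP P]
      have : ((c - q : ℕ) : ℤ) = (c : ℤ) - (q : ℤ) := by
        push_cast [hcq]; ring
      rw [this]
      apply le_of_eq
      ring
    · rw [map_mul, map_mul, map_pow, hρz, hρg, hρjq]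
      refine Prod.ext ?_ ?_
      · simp only [Prod.fst_mul, Prod.pow_fst]
        rw [← pow_mul]
        ring
      · simp only [Prod.snd_mul, Prod.pow_snd]
        ring
  · -- family 2
    have hc2 : m₂ ≤ c := (le_max_right _ _).trans ((le_max_left _ _).trans hc)
    have hcq : q ≤ c := (le_max_right _ _).trans hc
    obtain ⟨g, hg, hρg⟩ := hl2 Cq hCq c hc2 a ha
    refine ⟨x * g * (⟨_, hjO⟩ : O) ^ (c - q), ?_, ?_⟩
    · push_cast
      have hpow : (jK : Om) ^ (c - q) ∈ pullRR N (M * q) ((c - q) • Cj) :=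
        Main.pow_mem_pullRR (c - q) (fun P => hsmul _ P Cj) hjmem
      have h12 : (x : Om) * (g : Om) ∈ pullRR N (M * q) (q • Cj + c • Cq) :=
        mul_mem_pullRR_add (fun P => by rw [Finsupp.add_apply]) hx hg
      refine mul_mem_pullRR_add (fun P => ?_) h12 hpow
      rw [Finsupp.add_apply, hsmul, hsmul, hsmul, hsmul, hEP P]
      have : ((c - q : ℕ) : ℤ) = (c : ℤ) - (q : ℤ) := by
        push_cast [hcq]; ring
      rw [this]
      apply le_of_eq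
      ring
    · rw [map_mul, map_mul, map_pow, hρx, hρj]
      refine Prod.ext ?_ ?_
      · simp only [Prod.fst_mul, Prod.pow_fst]
        ring
      · simp only [Prod.snd_mul, Prod.pow_snd]
        rw [hρg, ← pow_mul]
        ring

/-- `(R)` from `Plan.RiemannK`. -/
theorem hR_of_riemannK (hRK : Plan.RiemannK A M) :
    ∃ m₀ : ℕ, ∀ i, m₀ ≤ i → Module.Finite (kk A) (WJ (kk A) (Fk A M) i) ∧
      finrank (kk A) (WJ (kk A) (Fk A M) (i + 1))
        = finrank (kk A) (WJ (kk A) (Fk A M) i) + dedekindPsi M := by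
  obtain ⟨m₀, hRKm⟩ := hRK
  refine ⟨m₀, fun i hi => ⟨(hRKm i hi).1, ?_⟩⟩
  have h1 := (hRKm i hi).2
  have h2 := (hRKm (i + 1) (hi.trans (Nat.le_succ i))).2
  have h3 : (finrank (kk A) (WJ (kk A) (Fk A M) (i + 1)) : ℤ)
      = (finrank (kk A) (WJ (kk A) (Fk A M) i) : ℤ) + (dedekindPsi M : ℤ) := by
    push_cast at h2
    linarith
  exact_mod_cast h3

/-- **Graded surjectivity** (core form): `W(c+1) = B̄(c+1) + W(c)` for `c ≥ c₀`. -/
theorem graded_onto_core [NeZero (M * q)] (hq : q.Prime) (hNdvd : N ∣ M * q)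
    (hS : Plan.Setup2 A N q M hqN O ρ) (hRK : Plan.RiemannK A M)
    (E : Divisor Kbar (FN N)) (hE : Plan.IsE N q hqN E) :
    ∃ c₀ : ℕ, ∀ c : ℕ, c₀ ≤ c → ∀ x : Plan.R2 A, x ∈ Plan.WW A q M (c + 1) →
      ∃ b ∈ Plan.Bbar N q M O ρ E (c + 1), ∃ w ∈ Plan.WW A q M c, x = b + w := by
  obtain ⟨c₁, hfam⟩ := exists_families_core hNdvd hS E hE
  obtain ⟨m₀, hR⟩ := hR_of_riemannK hRK
  refine ⟨max c₁ (m₀ + q + 1), fun c hc x hx => ?_⟩
  have hc1 : c₁ ≤ c + 1 := (le_max_left _ _).trans (hc.trans (Nat.le_succ c))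
  have hc2 : m₀ + q + 1 ≤ c + 1 := (le_max_right _ _).trans (hc.trans (Nat.le_succ c))
  obtain ⟨a₁, ha₁, h₁⟩ := exists_sub_omega_mul_mem (κ := kk A) (L := Fk A M)
    (jqModC_mem_full (kk A) M) q hq.two_le (dedekindPsi M) m₀ hR (c + 1) hc2 hx.1
  obtain ⟨a₂, ha₂, h₂⟩ := exists_sub_omega_mul_mem (κ := kk A) (L := Fk A M)
    (jqModC_mem_full (kk A) M) q hq.two_le (dedekindPsi M) m₀ hR (c + 1) hc2 hx.2
  rw [Nat.add_sub_cancel] at h₁ h₂
  obtain ⟨g₁, hg₁, hρ₁⟩ := (hfam (c + 1) hc1 a₁ ha₁).1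
  obtain ⟨g₂, hg₂, hρ₂⟩ := (hfam (c + 1) hc1 a₂ ha₂).2
  refine ⟨ρ (g₁ + g₂), ⟨g₁ + g₂, ?_, rfl⟩, x - ρ (g₁ + g₂), ⟨?_, ?_⟩, ?_⟩
  · push_cast
    exact Submodule.add_mem _ hg₁ hg₂
  · rw [map_add, hρ₁, hρ₂]
    simpa using h₁
  · rw [map_add, hρ₁, hρ₂]
    simpa using h₂
  · abel

/-- **The node count** (core form): `12 dim B̄(c) + (q - 1) ψ(M) = 12 dim W(c)` for `c ≥ c₀`. -/
theorem count_gap_core (hq : q.Prime) (hqM : ¬ q ∣ M)
    (hS : Plan.Setup2 A N q M hqN O ρ) (hRE : Plan.RiemannE N q M hqN)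
    (hRK : Plan.RiemannK A M) (hNum : Plan.NumStmt q M)
    (E : Divisor Kbar (FN N)) (hE : Plan.IsE N q hqN E) :
    ∃ c₀ : ℕ, ∀ c : ℕ, c₀ ≤ c →
      Module.Finite (kk A) (redSp2 hS (pullRR N (M * q) (c • E))) ∧
      Module.Finite (kk A) (Wp (kk A) (Fk A M) q c) ∧
      12 * finrank (kk A) (redSp2 hS (pullRR N (M * q) (c • E))) + (q - 1) * dedekindPsi M
        = 12 * finrank (kk A) (Wp (kk A) (Fk A M) q c) := by
  obtain ⟨cE, hREc⟩ := hRE E hE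
  obtain ⟨m₀, hR⟩ := hR_of_riemannK hRK
  obtain ⟨m₀', hRKm⟩ := hRK
  obtain ⟨hψ, hcusp⟩ := hNum hq hqM
  refine ⟨max cE m₀', fun c hc => ?_⟩
  have hcE : cE ≤ c := (le_max_left _ _).trans hc
  have hcm : m₀' ≤ c * (q + 1) :=
    ((le_max_right _ _).trans hc).trans (Nat.le_mul_of_pos_right c (Nat.succ_pos q))
  obtain ⟨hf1, h1⟩ := hREc c hcE
  have hW : ∀ w ∈ pullRR N (M * q) (c • E), w ∈ modularFunctionFieldBar (M * q) :=
    fun w hw => hw.1
  obtain ⟨hfin, e1⟩ := finrank_redSp2 hS hW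
  obtain ⟨hfinW, e2⟩ := finrank_Wp (κ := kk A) (L := Fk A M) (dedekindPsi M) m₀ hR q c
  refine ⟨hfin, hfinW, ?_⟩
  rw [e1, e2]
  have h2 := (hRKm (c * (q + 1)) hcm).2
  have hq1 : 1 ≤ q := hq.one_lt.le
  have h3 : (12 * finrank Kbar (pullRR N (M * q) (c • E)) + (q - 1) * dedekindPsi M : ℕ)
      = ((12 * (2 * finrank (kk A) (WJ (kk A) (Fk A M) (c * (q + 1)))) : ℕ) : ℤ) := by
    rw [hψ, hcusp] at h1
    push_cast [hq1] at h1 h2 ⊢
    linarith
  exact_mod_cast h3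

omit [NeZero N] [NeZero q] in
/-- Level bookkeeping from `Plan.Levels`. -/
theorem levels_facts {N' : ℕ} (hL : Plan.Levels q N' N M) :
    M * q ≠ 0 ∧ ¬ q ∣ M ∧ N ∣ M * q := by
  have hq := hL.prime
  have haux : Plan.aux q ≠ 0 := by
    unfold Plan.aux
    split_ifs <;> norm_num
  have hM0 : M ≠ 0 := by
    rw [hL.M_eq]
    exact mul_ne_zero haux hL.N'_pos.ne'
  refine ⟨mul_ne_zero hM0 hq.ne_zero, ?_, ?_⟩
  · rw [hL.M_eq]
    intro hd
    rcases (Nat.Prime.dvd_mul hq).mp hd with h | h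
    · unfold Plan.aux at h
      by_cases h2 : q = 2
      · rw [if_pos h2, h2] at h
        omega
      · rw [if_neg h2] at h
        have h4 : q ∣ 2 := Nat.Prime.dvd_of_dvd_pow hq (show q ∣ 2 ^ 2 from h)
        exact h2 ((Nat.prime_dvd_prime_iff_eq hq Nat.prime_two).mp h4)
    · exact hL.not_dvd h
  · rw [hL.N_eq, hL.M_eq]
    exact Nat.mul_dvd_mul_right (Dvd.intro_left _ rfl) q

/-- The two families of `B̄(c)`. -/
theorem exists_families {N' : ℕ} (hL : Plan.Levels q N' N M)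
    (hS : Plan.Setup2 A N q M hqN O ρ) (E : Divisor Kbar (FN N)) (hE : Plan.IsE N q hqN E) :
    ∃ c₁ : ℕ, ∀ c : ℕ, c₁ ≤ c → ∀ a : Omk A, a ∈ WJ (kk A) (Fk A M) c →
      (((jk A - jk A ^ (q ^ 2)) * jk A ^ (q * (c - q)) * a, (0 : Omk A)) : Plan.R2 A)
          ∈ Plan.Bbar N q M O ρ E c ∧
      (((0 : Omk A), (jk A - jk A ^ (q ^ 2)) * jk A ^ (q * (c - q)) * a) : Plan.R2 A)
          ∈ Plan.Bbar N q M O ρ E c := by
  obtain ⟨h0, -, hNdvd⟩ := levels_facts hL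
  have : NeZero (M * q) := ⟨h0⟩
  exact exists_families_core hNdvd hS E hE

/-- **Graded surjectivity**: `W(c+1) = B̄(c+1) + W(c)` for `c ≥ c₀`. -/
theorem graded_onto {N' : ℕ} (hL : Plan.Levels q N' N M)
    (hS : Plan.Setup2 A N q M hqN O ρ) (hRK : Plan.RiemannK A M)
    (E : Divisor Kbar (FN N)) (hE : Plan.IsE N q hqN E) :
    ∃ c₀ : ℕ, ∀ c : ℕ, c₀ ≤ c → ∀ x : Plan.R2 A, x ∈ Plan.WW A q M (c + 1) →
      ∃ b ∈ Plan.Bbar N q M O ρ E (c + 1), ∃ w ∈ Plan.WW A q M c, x = b + w := by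
  obtain ⟨h0, -, hNdvd⟩ := levels_facts hL
  have : NeZero (M * q) := ⟨h0⟩
  exact graded_onto_core hL.prime hNdvd hS hRK E hE

/-- **The node count**: `12 dim B̄(c) + (q - 1) ψ(M) = 12 dim W(c)` for `c ≥ c₀`. -/
theorem count_gap {N' : ℕ} (hL : Plan.Levels q N' N M)
    (hS : Plan.Setup2 A N q M hqN O ρ) (hRE : Plan.RiemannE N q M hqN)
    (hRK : Plan.RiemannK A M) (hNum : Plan.NumStmt q M)
    (E : Divisor Kbar (FN N)) (hE : Plan.IsE N q hqN E) :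
    ∃ c₀ : ℕ, ∀ c : ℕ, c₀ ≤ c →
      Module.Finite (kk A) (redSp2 hS (pullRR N (M * q) (c • E))) ∧
      Module.Finite (kk A) (Wp (kk A) (Fk A M) q c) ∧
      12 * finrank (kk A) (redSp2 hS (pullRR N (M * q) (c • E))) + (q - 1) * dedekindPsi M
        = 12 * finrank (kk A) (Wp (kk A) (Fk A M) q c) :=
  count_gap_core hL.prime (levels_facts hL).2.1 hS hRE hRK hNum E hE

end Fermat.Agent.S34.CuspReg

end
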