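import Mathlib
import Fermat.Agent.S34.PlanTop
import Fermat.Agent.S34.DescInst
import Fermat.Agent.S34.LiftInst
import Fermat.Agent.S34.NodeInst
import Fermat.Agent.S34.CuspRegInst
import Fermat.Agent.S34.CuspRegRK
import Fermat.Agent.S34.RiemannE
import Fermat.Agent.S34.PoleBound
import Fermat.Agent.S34.Num
import Fermat.Agent.S34.FrobInst
import Fermat.Agent.S34.TauFinal
import Fermat.Agent.S34.CharInst

/-!
# S34 / P6 — every Plan block as a function of `Levels` + `Setup2` only (owner: helper77)

Named instances, for the consumers of the P6 machinery outside S34 (the (F) chain of S35: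
`FPlan.fDiv_of_val` needs `hLift` and `hDesc`; `K0Inst`-type files need `CuspReg`/`NodeStmt`).
With `hL : Plan.Levels q N' N M`, `hqN : q ∣ N`, `A` over `q` and ANY two-component reduction
`hS : Plan.Setup2 A N q M hqN O ρ`:

* `cuspReg`, `nodeStmt`, `liftStmt`, `tauStmt` : the blocks [CR], [NODE], [LIFT], [TAU];
* `descW` : `DescInst.DescW A N q M` (no `Setup2` needed);
* `unipDiv` : `Plan.UnipDiv A N q`;
* `levels_mul` : `Plan.Levels q N' (N' * q) (Plan.aux q * N')` for a prime `q ∤ N'` (the spelling
  of the levels in `S35/FPlan`).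
-/

set_option autoImplicit false

noncomputable section

namespace Fermat.Agent.S34.FromSetup

open ModularCurve AlgebraicCurve Fermat.Agent.S24 Fermat.Agent.S18.Content Fermat.Agent.S18.Plan
open Fermat.Agent.S34

set_option synthInstance.maxHeartbeats 400000

/-- The Plan levels attached to a prime `q ∤ N'`: bad level `N' * q`, good level `aux q * N'`. -/
theorem levels_mul (N' q : ℕ) (hq : q.Prime) (hN' : 0 < N') (hqN' : ¬ q ∣ N') :
    Plan.Levels q N' (N' * q) (Plan.aux q * N') :=
  ⟨hq, hN', hqN', rfl, rfl⟩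

variable {q N' N M : ℕ} [NeZero N] [NeZero q] (hL : Plan.Levels q N' N M) (hqN : q ∣ N)
  (A : ValuationSubring Kbar) (hA : A.LiesOverPrime q)
  {O : Subring Om} {ρ : O →+* Plan.R2 A} (hS : Plan.Setup2 A N q M hqN O ρ)

include hL hA hS in
/-- **[CR]** from `Levels` + `Setup2`. -/
theorem cuspReg : Plan.CuspReg A N q M hqN O ρ :=
  CuspReg.cuspReg hL hS (RiemannE.riemannE hqN hL) (CuspReg.riemannK hL A hA) (Num.numStmt q M)

include hL hA hS in
/-- **[NODE]** from `Levels` + `Setup2`. -/
theorem nodeStmt : Plan.NodeStmt A N q M hqN O ρ :=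
  NodeInst.nodeStmt hL hS (cuspReg hL hqN A hA hS) (FrobInst.frobRoot A hL hA)
    (RiemannE.riemannE hqN hL) (CuspReg.riemannK hL A hA) (Num.numStmt q M)

include hL hA hS in
/-- **[LIFT]** from `Levels` + `Setup2`. -/
theorem liftStmt : Plan.LiftStmt A N q M hqN O ρ :=
  LiftInst.liftStmt hL hqN A hA hS (cuspReg hL hqN A hA hS) (nodeStmt hL hqN A hA hS)
    (PoleBound.poleStmt hqN hL)

include hL hA hS in
/-- **[TAU]** from `Levels` + `Setup2`. -/
theorem tauStmt : Plan.TauStmt A N q M hqN O ρ :=
  TauFinal.tauStmt hL hqN A hA hS (cuspReg hL hqN A hA hS) (nodeStmt hL hqN A hA hS)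

omit [NeZero q] in
include hL hA in
/-- **[DESC]** at the Plan levels, unconditionally. -/
theorem descW : DescInst.DescW A N q M :=
  DescInst.descW hL A hA (CharInst.hscale hL A hA) (CharInst.charStmt hL A hA)

include hL hA hS in
/-- **(U), divisor form**, from `Levels` + `Setup2`. -/
theorem unipDiv : Plan.UnipDiv A N q := by
  obtain ⟨E, hE⟩ := PlanTop.exists_isE N q hqN
  exact DescInst.unipDiv_of hL hqN A hA (CharInst.hscale hL A hA) (CharInst.charStmt hL A hA)
    E hE hS (tauStmt hL hqN A hA hS) (liftStmt hL hqN A hA hS)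

end Fermat.Agent.S34.FromSetup

end
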