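/-
P6 [GAL] (helper68), item (I10) of the owner table: **`Top.UnipStmt` from `Plan.UnipDiv`**.

`Plan.UnipDiv A N q` (for `τ` in the inertia group of `A`, `deg D = 0`, `n • D` principal with
`q ∤ n`: `(τ - 1)² D` is principal) for every valuation subring `A` of `Q̄` over `q` gives
`Top.UnipStmt N p q` for every `p` prime to `q`.
-/
import Mathlib
import Fermat.Agent.S34.GalTop
import Fermat.Agent.S34.Plan

set_option autoImplicit false
set_option linter.style.haveILetI false
set_option linter.unusedSectionVars false

noncomputable section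

namespace Fermat.Agent.S34.GalPlan

open ModularCurve AlgebraicCurve Fermat.Agent.S24 Fermat.Agent.S18.Content Fermat.Agent.S18.Plan

set_option synthInstance.maxHeartbeats 400000
set_option maxHeartbeats 1600000

/-- An element of the decomposition group acting trivially on the residue field lies in the
inertia group (as a subgroup of the full Galois group). -/
theorem mem_inertia_of_sigmaBar {K L : Type*} [Field K] [Field L] [Algebra K L]
    (A : ValuationSubring L) (s : A.decompositionSubgroup K)
    (hs : Fermat.Agent.S37.Gal.sigmaBar A s = RingHom.id _) :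
    (s : L ≃ₐ[K] L) ∈ A.inertiaSubgroupIn K := by
  refine ⟨s, ?_, rfl⟩
  show MulSemiringAction.toRingAut (A.decompositionSubgroup K)
      (IsLocalRing.ResidueField A) s = 1
  ext x
  have h := congrArg (fun φ : IsLocalRing.ResidueField A →+* IsLocalRing.ResidueField A => φ x) hs
  exact h

/-- `Plan.UnipDiv` gives the divisor-level statement `GalTop.DivUnip`. -/
theorem divUnip_of_unipDiv (A : ValuationSubring Kbar) (N q : ℕ) [NeZero N]
    (h : Fermat.Agent.S34.Plan.UnipDiv A N q) : Fermat.Agent.S34.GalTop.DivUnip A N q := by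
  intro s hs m hqm D hD f hf hDf
  have hm : 0 < m := Nat.pos_of_ne_zero (fun h0 => hqm (h0 ▸ dvd_zero q))
  exact h (s : Kbar ≃ₐ[ℚ] Kbar) (mem_inertia_of_sigmaBar A s hs) D m hD hm hqm ⟨f, hf, hDf⟩

/-- **(I10)** `Top.UnipStmt N p q` from `Plan.UnipDiv A N q` for all `A` over `q`. -/
theorem unipStmt_of_unipDiv (N p q : ℕ) [NeZero N] (hq : q.Prime) (hqp : ¬ q ∣ p)
    (h : ∀ A : ValuationSubring Kbar, A.LiesOverPrime q → Fermat.Agent.S34.Plan.UnipDiv A N q) :
    Fermat.Agent.S34.Top.UnipStmt N p q :=
  Fermat.Agent.S34.GalTop.unipStmt_of_divUnip N p q hq hqp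
    (fun A hA => divUnip_of_unipDiv A N q (h A hA))

end Fermat.Agent.S34.GalPlan

end
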