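/-
P6 [GAL], third file (helper68): **reductions of the Kummer ratios under inertia**.

`A` a valuation subring of an algebraic extension `L / K`, `s` in its decomposition group.

* `apply_div_mem`, `div_apply_mem` : `s c / c` and `c / s c` lie in `A` for every `c ≠ 0`
  (the decomposition group preserves the valuation; finite-orbit argument);
* `red_ratio`  : for a series `y` with `c • y` a unit of the content valuation and `s̄ = id`:
  `u := s y / y` lies in `Ocal` and `red u` is the constant `res (c / s c) ≠ 0`;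
* `red_unip`   : under the same hypotheses `w := s s y · y / (s y)²` lies in `Ocal` and
  `red w = 1`.

These are the two facts "`Red u` is a pair of nonzero constants" and "`Red w = (1,1)`" of the
`τ`-trick for (U), one valuation at a time (apply them to `f` and to `σ_AL f`).
-/
import Mathlib
import Fermat.Agent.S37.Gal

set_option autoImplicit false
set_option linter.unusedSectionVars false

noncomputable section

namespace Fermat.Agent.S34.GalRed

open ModularCurve Fermat.Agent.S18.Content Fermat.Agent.S37.Gal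

set_option synthInstance.maxHeartbeats 400000
set_option maxHeartbeats 400000

variable {K L : Type*} [Field K] [Field L] [Algebra K L] (A : ValuationSubring L)
  (s : A.decompositionSubgroup K)

/-! ### The decomposition group preserves the valuation -/

theorem apply_mem {x : L} (hx : x ∈ A) : (s : L ≃ₐ[K] L) x ∈ A :=
  (sigmaA A s ⟨x, hx⟩).2

theorem symm_apply_mem {x : L} (hx : x ∈ A) : (s : L ≃ₐ[K] L).symm x ∈ A := by
  have h := apply_mem A s⁻¹ hx
  exact h

theorem apply_mem_nonunits {x : L} (hx : x ∈ A.nonunits) : (s : L ≃ₐ[K] L) x ∈ A.nonunits := by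
  rw [ValuationSubring.mem_nonunits_iff_or] at hx ⊢
  rcases hx with rfl | hx
  · left; exact map_zero _
  · right
    intro h
    apply hx
    rw [← map_inv₀] at h
    have h2 := symm_apply_mem A s h
    rwa [AlgEquiv.symm_apply_apply] at h2

/-- The orbit of an algebraic element under powers of an automorphism is finite. -/
theorem exists_pow_apply_eq [Algebra.IsAlgebraic K L] (σ : L ≃ₐ[K] L) (x : L) :
    ∃ k : ℕ, 0 < k ∧ (σ ^ k) x = x := by
  have hint : IsIntegral K x := (Algebra.IsAlgebraic.isAlgebraic x).isIntegral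
  have hfin : ((minpoly K x).rootSet L).Finite := Polynomial.rootSet_finite _ _
  have : Finite ↥((minpoly K x).rootSet L) := hfin.to_subtype
  let f : ℕ → ↥((minpoly K x).rootSet L) := fun i =>
    ⟨(σ ^ i) x, Polynomial.mem_rootSet.2 ⟨minpoly.ne_zero hint, by
      have h := Polynomial.aeval_algHom_apply ((σ ^ i : L ≃ₐ[K] L) : L →ₐ[K] L) x (minpoly K x)
      rw [minpoly.aeval, map_zero] at h
      exact h⟩⟩
  obtain ⟨i, j, hij, h⟩ := Finite.exists_ne_map_eq_of_infinite f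
  have h' : (σ ^ i) x = (σ ^ j) x := congrArg Subtype.val h
  wlog hlt : i < j generalizing i j
  · exact this j i hij.symm h.symm h'.symm (lt_of_le_of_ne (not_lt.mp hlt) hij.symm)
  refine ⟨j - i, Nat.sub_pos_of_lt hlt, ?_⟩
  have e : σ ^ j = σ ^ i * σ ^ (j - i) := by
    rw [← pow_add, Nat.add_sub_cancel' hlt.le]
  rw [e, AlgEquiv.mul_apply] at h'
  exact ((σ ^ i).injective h').symm

variable [Algebra.IsAlgebraic K L]

/-- `c / s c ∈ A`. -/
theorem div_apply_mem (c : L) (hc : c ≠ 0) : c / (s : L ≃ₐ[K] L) c ∈ A := by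
  set σ : L ≃ₐ[K] L := (s : L ≃ₐ[K] L) with hσ
  by_contra hcon
  have hσc : σ c ≠ 0 := by
    rw [Ne, map_eq_zero_iff σ σ.injective]; exact hc
  -- `t := σ c / c` is a nonunit
  have ht : σ c / c ∈ A.nonunits := by
    have h1 : (c / σ c)⁻¹ ∈ A.nonunits := by
      rw [ValuationSubring.inv_mem_nonunits_iff]
      exact Or.inr hcon
    rwa [inv_div] at h1
  have hall : ∀ k : ℕ, (σ ^ (k + 1)) c / c ∈ A.nonunits := by
    intro k
    induction k with
    | zero => simpa using ht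
    | succ k ih =>
      have h1 : σ ((σ ^ (k + 1)) c / c) ∈ A.nonunits := apply_mem_nonunits A s ih
      have h2 : (σ ^ (k + 1 + 1)) c / c = σ ((σ ^ (k + 1)) c / c) * (σ c / c) := by
        rw [map_div₀, pow_succ' σ (k + 1), AlgEquiv.mul_apply]
        field_simp
      rw [h2]
      exact A.nonunits.mul_mem h1 ht
  obtain ⟨k, hk, hkc⟩ := exists_pow_apply_eq σ c
  obtain ⟨k', rfl⟩ : ∃ k', k = k' + 1 := ⟨k - 1, by omega⟩
  have h3 := hall k'
  rw [hkc, div_self hc, ValuationSubring.mem_nonunits_iff, map_one] at h3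
  exact lt_irrefl _ h3

/-- `s c / c ∈ A`. -/
theorem apply_div_mem (c : L) (hc : c ≠ 0) : (s : L ≃ₐ[K] L) c / c ∈ A := by
  have h := div_apply_mem A s⁻¹ ((s : L ≃ₐ[K] L) c) (by
    rw [Ne, map_eq_zero_iff _ (s : L ≃ₐ[K] L).injective]; exact hc)
  have e : ((s⁻¹ : A.decompositionSubgroup K) : L ≃ₐ[K] L) ((s : L ≃ₐ[K] L) c) = c :=
    (s : L ≃ₐ[K] L).symm_apply_apply c
  rwa [e] at h

/-! ### Reductions of the Kummer ratios -/

section Red

variable (hs : sigmaBar A s = RingHom.id _)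
include hs

/-- `red (s y) = red y` for `y ∈ Ocal` when `s̄ = id`. -/
theorem red_coeffMap_eq (y : LaurentSeries L) (hy : y ∈ Ocal A) :
    red A ⟨coeffMap ((s : L ≃ₐ[K] L) : L →+* L) y, coeffMap_mem_Ocal A s hy⟩ = red A ⟨y, hy⟩ := by
  rw [red_coeffMap A s y hy, hs, coeffMap_id]

/-- **`Red u` is a nonzero constant**: if `c • y` is a unit of the content valuation, then
`u := s y / y ∈ Ocal` and `red u = res (c / s c)`, a nonzero constant. -/
theorem red_ratio (y : LaurentSeries L) (c : L) (hc : c ≠ 0)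
    (hO : HahnSeries.C c * y ∈ Ocal A) (hred : red A ⟨_, hO⟩ ≠ 0) :
    ∃ (hu : coeffMap ((s : L ≃ₐ[K] L) : L →+* L) y * y⁻¹ ∈ Ocal A),
      red A ⟨_, hu⟩ =
        HahnSeries.C (IsLocalRing.residue A ⟨c / (s : L ≃ₐ[K] L) c, div_apply_mem A s c hc⟩) ∧
      red A ⟨_, hu⟩ ≠ 0 := by
  set σ : L ≃ₐ[K] L := (s : L ≃ₐ[K] L) with hσ
  set φ : LaurentSeries L →+* LaurentSeries L := coeffMap (σ : L →+* L) with hφ
  set y₁ : Ocal A := ⟨_, hO⟩ with hy₁
  have hσc : σ c ≠ 0 := by
    rw [Ne, map_eq_zero_iff σ σ.injective]; exact hc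
  have hCc : (HahnSeries.C c : LaurentSeries L) ≠ 0 := by
    rw [Ne, map_eq_zero_iff _ HahnSeries.C_injective]; exact hc
  have hCσc : (HahnSeries.C (σ c) : LaurentSeries L) ≠ 0 := by
    rw [Ne, map_eq_zero_iff _ HahnSeries.C_injective]; exact hσc
  have hy₁0 : (y₁ : LaurentSeries L) ≠ 0 := ne_zero_of_red_ne_zero A y₁ hred
  have hy0 : y ≠ 0 := by
    rintro rfl
    exact hy₁0 (mul_zero _)
  -- `φ y₁ ∈ Ocal`, `red = red y₁`
  have hφO : φ (y₁ : LaurentSeries L) ∈ Ocal A := coeffMap_mem_Ocal A s y₁.2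
  have hφred : red A ⟨_, hφO⟩ = red A y₁ := red_coeffMap_eq A s hs _ y₁.2
  -- `v := φ y₁ * y₁⁻¹`, `red v = 1`
  have hinvO := inv_mem_Ocal A y₁ hred
  have hvO : φ (y₁ : LaurentSeries L) * (y₁ : LaurentSeries L)⁻¹ ∈ Ocal A :=
    (Ocal A).mul_mem hφO hinvO
  have hvred : red A ⟨_, hvO⟩ = 1 := by
    have e : (⟨_, hvO⟩ : Ocal A) = ⟨_, hφO⟩ * ⟨_, hinvO⟩ := rfl
    rw [e, map_mul, hφred, red_inv A y₁ hred, mul_inv_cancel₀ hred]
  -- `φ y * y⁻¹ = C (c / σ c) * v`
  have hφC : φ (HahnSeries.C c) = HahnSeries.C (σ c) := by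
    rw [hφ, HahnSeries.C_apply, coeffMap_single, ← HahnSeries.C_apply]
    rfl
  have e1 : φ y * y⁻¹ =
      HahnSeries.C (c / σ c) * (φ (y₁ : LaurentSeries L) * (y₁ : LaurentSeries L)⁻¹) := by
    have h1 : (y₁ : LaurentSeries L) = HahnSeries.C c * y := rfl
    rw [h1, map_mul, hφC, mul_inv, div_eq_mul_inv, map_mul, map_inv₀]
    field_simp
  have hmem := div_apply_mem A s c hc
  have huO : φ y * y⁻¹ ∈ Ocal A := by
    rw [e1]
    exact (Ocal A).mul_mem (C_mem_Ocal A hmem) hvO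
  have hured : red A ⟨_, huO⟩ =
      HahnSeries.C (IsLocalRing.residue A ⟨c / σ c, hmem⟩) := by
    have e2 : (⟨_, huO⟩ : Ocal A) = ⟨HahnSeries.C (c / σ c), C_mem_Ocal A hmem⟩ * ⟨_, hvO⟩ :=
      Subtype.ext e1
    rw [e2, map_mul, hvred, mul_one, red_C]
  refine ⟨huO, hured, ?_⟩
  rw [hured, Ne, map_eq_zero_iff _ HahnSeries.C_injective]
  -- `c / σ c` is a unit of `A`
  intro h0
  have h1 : (⟨c / σ c, hmem⟩ : A) ∈ IsLocalRing.maximalIdeal A :=
    (IsLocalRing.residue_eq_zero_iff _).mp h0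
  have h2 : c / σ c ∈ A.nonunits := ValuationSubring.coe_mem_nonunits_iff.mpr h1
  rw [ValuationSubring.mem_nonunits_iff_or] at h2
  rcases h2 with h2 | h2
  · exact div_ne_zero hc hσc h2
  · apply h2
    rw [inv_div]
    exact apply_div_mem A s c hc

/-- **`Red w = 1`**: if `c • y` is a unit of the content valuation, then
`w := s s y · y · ((s y)⁻¹)² ∈ Ocal` and `red w = 1`. -/
theorem red_unip (y : LaurentSeries L) (c : L) (hc : c ≠ 0)
    (hO : HahnSeries.C c * y ∈ Ocal A) (hred : red A ⟨_, hO⟩ ≠ 0) :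
    ∃ (hw : coeffMap ((s : L ≃ₐ[K] L) : L →+* L) (coeffMap ((s : L ≃ₐ[K] L) : L →+* L) y) * y *
        ((coeffMap ((s : L ≃ₐ[K] L) : L →+* L) y)⁻¹) ^ 2 ∈ Ocal A),
      red A ⟨_, hw⟩ = 1 := by
  set φ : LaurentSeries L →+* LaurentSeries L :=
    coeffMap (((s : L ≃ₐ[K] L)) : L →+* L) with hφ
  obtain ⟨huO, -, hu0⟩ := red_ratio A s hs y c hc hO hred
  set u : Ocal A := ⟨_, huO⟩ with hu
  have hy0 : y ≠ 0 := by
    rintro rfl
    apply hred
    have : (⟨_, hO⟩ : Ocal A) = 0 := Subtype.ext (mul_zero _)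
    rw [this, map_zero]
  have hφy0 : φ y ≠ 0 := by
    rw [Ne, map_eq_zero_iff φ (coeffMap_injective_of_injective _ (s : L ≃ₐ[K] L).injective)]
    exact hy0
  have hφuO : φ (u : LaurentSeries L) ∈ Ocal A := coeffMap_mem_Ocal A s u.2
  have hφured : red A ⟨_, hφuO⟩ = red A u := red_coeffMap_eq A s hs _ u.2
  have hinvO := inv_mem_Ocal A u hu0
  have hwO : φ (u : LaurentSeries L) * (u : LaurentSeries L)⁻¹ ∈ Ocal A :=
    (Ocal A).mul_mem hφuO hinvO
  have hwred : red A ⟨_, hwO⟩ = 1 := by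
    have e : (⟨_, hwO⟩ : Ocal A) = ⟨_, hφuO⟩ * ⟨_, hinvO⟩ := rfl
    rw [e, map_mul, hφured, red_inv A u hu0, mul_inv_cancel₀ hu0]
  have e1 : φ (φ y) * y * ((φ y)⁻¹) ^ 2 = φ (u : LaurentSeries L) * (u : LaurentSeries L)⁻¹ := by
    have h1 : (u : LaurentSeries L) = φ y * y⁻¹ := rfl
    rw [h1, map_mul, map_inv₀, mul_inv, inv_inv]
    field_simp
  refine ⟨by rw [e1]; exact hwO, ?_⟩
  rw [red_congr A e1 (by rw [e1]; exact hwO) hwO]
  exact hwred

end Red

end Fermat.Agent.S34.GalRed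

end
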