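/-
P6 [GAL], second file (helper68; path GalTransport.lean): **Galois transport of pull-back Riemann–Roch spaces**.

For `σ ∈ Gal(Q̄/ℚ)` acting coefficientwise on `Q̄((q))` and `g := arithmeticGalois … σ` the induced
semilinear automorphism of `F_N`:

* `coeffMap_mem_pullRR`   : `σ (pullRR N N₂ B) ⊆ pullRR N N₂ (g • B)`;
* `coeffMap_mem_pullRR_iff` : `σ y ∈ pullRR N N₂ (g • B) ↔ y ∈ pullRR N N₂ B`;
* `smul_poleDivisor`      : `g • B = B` for the pole divisor `B` of a `g`-fixed function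
                            (e.g. of `j`, `j(q^d)`).

Used by the `τ`-trick of (U): `L(τ D + c E) = τ L(D + c E)`.
-/
import Mathlib
import Fermat.Agent.S18.Plan

set_option autoImplicit false
set_option linter.unusedSectionVars false

noncomputable section

namespace Fermat.Agent.S34.GalTransport

open ModularCurve AlgebraicCurve Fermat.Agent.S24 Fermat.Agent.S18.Content Fermat.Agent.S18.Plan

open scoped Pointwise

set_option synthInstance.maxHeartbeats 400000
set_option maxHeartbeats 400000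

/-! ### Integrality is transported by ring homomorphisms -/

section Integral

variable {Ω : Type*} [CommRing Ω]

/-- If `z` is integral over the subring `R` and the ring endomorphism `φ` maps `R` into `R'`,
then `φ z` is integral over `R'`. -/
theorem isIntegral_map_of_subring (φ : Ω →+* Ω) (R R' : Subring Ω) (hφ : ∀ x ∈ R, φ x ∈ R')
    {z : Ω} (hz : IsIntegral R z) : IsIntegral R' (φ z) := by
  obtain ⟨p, hp, hpz⟩ := hz
  let ψ : R →+* R' := (φ.comp R.subtype).codRestrict R' (fun x => hφ x x.2)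
  refine ⟨p.map ψ, hp.map ψ, ?_⟩
  have hcomp : (algebraMap R' Ω).comp ψ = φ.comp (algebraMap R Ω) := by
    ext x
    rfl
  rw [Polynomial.eval₂_map, hcomp, ← Polynomial.hom_eval₂, hpz, map_zero]

end Integral

/-! ### The transport -/

section Transport

variable (N N₂ : ℕ) [NeZero N] (σ : Kbar ≃ₐ[ℚ] Kbar)

/-- The semilinear automorphism of `F_N` induced by `σ`. -/
abbrev gal : SemilinearAut Kbar (FN N) :=
  arithmeticGalois (modularFunctionFieldFull N) σ

theorem coe_gal_smul (y : FN N) :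
    ((gal N σ • y : FN N) : Om) = coeffMap ((σ : Kbar ≃ₐ[ℚ] Kbar) : Kbar →+* Kbar) (y : Om) :=
  rfl

/-- `σ` maps the place ring of `P` into the place ring of `g • P`. -/
theorem coeffMap_mem_placeRing (P : Place Kbar (FN N)) {x : Om} (hx : x ∈ placeRing P) :
    coeffMap ((σ : Kbar ≃ₐ[ℚ] Kbar) : Kbar →+* Kbar) x ∈ placeRing (gal N σ • P) := by
  obtain ⟨y, hy, rfl⟩ := hx
  refine ⟨gal N σ • y, ?_, rfl⟩
  show gal N σ • y ∈ (gal N σ • P).toValuationSubring
  rw [SemilinearAut.smul_toValuationSubring]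
  exact ValuationSubring.smul_mem_pointwise_smul _ _ _ hy

/-- **Galois transport of `pullRR`.** -/
theorem coeffMap_mem_pullRR {B : Divisor Kbar (FN N)} {y : Om} (hy : y ∈ pullRR N N₂ B) :
    coeffMap ((σ : Kbar ≃ₐ[ℚ] Kbar) : Kbar →+* Kbar) y ∈ pullRR N N₂ (gal N σ • B) := by
  refine ⟨coeffMap_mem_laurentBaseChange σ hy.1, fun P t ht hB => ?_⟩
  set g := gal N σ with hg
  have hP : g • (g⁻¹ • P) = P := smul_inv_smul g P
  have ht' : g⁻¹ • t ≠ 0 := by
    rw [Ne, smul_eq_zero_iff_eq]; exact ht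
  have hB' : B (g⁻¹ • P) ≤ (g⁻¹ • P).ord (g⁻¹ • t) := by
    have h1 : (g • B) P = B (g⁻¹ • P) := SemilinearAut.divisor_smul_apply g B P
    have h2 := SemilinearAut.ord_smul g (g⁻¹ • P) (g⁻¹ • t)
    rw [hP, smul_inv_smul] at h2
    rw [← h1, ← h2]
    exact hB
  have h3 := hy.2 (g⁻¹ • P) (g⁻¹ • t) ht' hB'
  have h4 := isIntegral_map_of_subring
    (coeffMap ((σ : Kbar ≃ₐ[ℚ] Kbar) : Kbar →+* Kbar)) (placeRing (g⁻¹ • P))
    (placeRing P) (fun x hx => by
      have := coeffMap_mem_placeRing N σ (g⁻¹ • P) hx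
      rwa [← hg, hP] at this) h3
  rw [map_mul] at h4
  have h5 : coeffMap ((σ : Kbar ≃ₐ[ℚ] Kbar) : Kbar →+* Kbar) ((g⁻¹ • t : FN N) : Om) =
      (t : Om) := by
    rw [← coe_gal_smul N σ (g⁻¹ • t), ← hg, smul_inv_smul]
  rwa [h5] at h4

/-- `σ y ∈ pullRR N N₂ (g • B) ↔ y ∈ pullRR N N₂ B`. -/
theorem coeffMap_mem_pullRR_iff {B : Divisor Kbar (FN N)} {y : Om} :
    coeffMap ((σ : Kbar ≃ₐ[ℚ] Kbar) : Kbar →+* Kbar) y ∈ pullRR N N₂ (gal N σ • B) ↔
      y ∈ pullRR N N₂ B := by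
  refine ⟨fun h => ?_, coeffMap_mem_pullRR N N₂ σ⟩
  have h1 := coeffMap_mem_pullRR N N₂ σ⁻¹ h
  have e1 : gal N σ⁻¹ • gal N σ • B = B := by
    rw [gal, gal, map_inv, inv_smul_smul]
  have e2 : coeffMap (((σ⁻¹ : Kbar ≃ₐ[ℚ] Kbar)) : Kbar →+* Kbar)
      (coeffMap ((σ : Kbar ≃ₐ[ℚ] Kbar) : Kbar →+* Kbar) y) = y := by
    rw [coeffMap_coeffMap,
      coeffMap_congr (g := RingHom.id Kbar) (RingHom.ext fun a => σ.symm_apply_apply a) y,
      coeffMap_id]
  rwa [e1, e2] at h1

/-- The pole divisor of a `g`-fixed function is `g`-fixed. -/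
theorem smul_poleDivisor (y : FN N) (hy : gal N σ • y = y) (B : Divisor Kbar (FN N))
    (hB : ∀ P, B P = max 0 (-(P.ord y))) : gal N σ • B = B := by
  ext P
  rw [SemilinearAut.divisor_smul_apply, hB, hB]
  have h := SemilinearAut.ord_smul (gal N σ) ((gal N σ)⁻¹ • P) y
  rw [smul_inv_smul, hy] at h
  rw [h]

/-- The divisor of a `g`-fixed function is `g`-fixed. -/
theorem smul_divisor_of_fixed (y : FN N) (hy : gal N σ • y = y) (B : Divisor Kbar (FN N))
    (hB : ∀ P, B P = P.ord y) : gal N σ • B = B := by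
  ext P
  rw [SemilinearAut.divisor_smul_apply, hB, hB]
  have h := SemilinearAut.ord_smul (gal N σ) ((gal N σ)⁻¹ • P) y
  rw [smul_inv_smul, hy] at h
  rw [h]

end Transport

end Fermat.Agent.S34.GalTransport

end
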