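import Mathlib

/-!
# S34 — "a subspace inside a union of `n` lines lies in one line" (helper77)

Step (3) of the P6 design: if every element `(a, b)` of a `k`-subspace satisfies
`a(z) ^ n = c * b(θ z) ^ n` (from the power trick `(a, b) ^ n * Red u ∈ B̄`), then there is ONE
`n`-th root `ζ` of `c` with `a(z) = ζ * b(θ z)` on the whole subspace.  Stated for two linear
functionals `lam mu : V →ₗ[k] k` on an arbitrary `k`-module (apply it to the two evaluations
restricted to the subspace).  No hypothesis on the field `k` when `mu ≠ 0`.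

* `exists_root_of_pow_eq`       : `mu ≠ 0` (any field);
* `exists_root_of_pow_eq'`      : `k` algebraically closed (no hypothesis on `mu`);
* `eq_one_of_mul_mem`           : the `τ`-trick bookkeeping of step (4): if `lam'' = ζ'' • mu''`
  on `V''`, `lam' = ζ' • mu'` on `V'`, the functionals are multiplicative for a product
  `V'' → V' → V'` and do not vanish identically, then `ζ'' = 1`.
-/

set_option autoImplicit false

namespace Fermat.Agent.S34.OneLine

variable {k V : Type*} [Field k] [AddCommGroup V] [Module k V]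

/-- **One line.**  If `lam v ^ n = c * mu v ^ n` for all `v`, `c ≠ 0`, `0 < n` and `mu ≠ 0`,
then `lam = ζ • mu` for an `n`-th root `ζ` of `c`. -/
theorem exists_root_of_pow_eq {n : ℕ} (hn : 0 < n) (lam mu : V →ₗ[k] k) {c : k} (hc : c ≠ 0)
    (h : ∀ v, lam v ^ n = c * mu v ^ n) (hmu : mu ≠ 0) :
    ∃ ζ : k, ζ ^ n = c ∧ ∀ v, lam v = ζ * mu v := by
  obtain ⟨v₀, hv₀⟩ : ∃ v₀, mu v₀ ≠ 0 := by
    by_contra hne
    exact hmu (LinearMap.ext fun v => not_not.mp fun hv => hne ⟨v, hv⟩)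
  have hw : mu ((mu v₀)⁻¹ • v₀) = 1 := by
    rw [map_smul, smul_eq_mul, inv_mul_cancel₀ hv₀]
  generalize (mu v₀)⁻¹ • v₀ = w₀ at hw
  have hζ : lam w₀ ^ n = c := by
    have := h w₀
    rwa [hw, one_pow, mul_one] at this
  have hker : ∀ u, mu u = 0 → lam u = 0 := by
    intro u hu
    by_contra hlu
    have h1 := h (w₀ + (-(lam w₀) / lam u) • u)
    rw [map_add, map_smul, map_add, map_smul, hu, smul_zero, add_zero, hw, one_pow, mul_one,
      smul_eq_mul, div_mul_cancel₀ _ hlu, add_neg_cancel, zero_pow hn.ne'] at h1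
    exact hc h1.symm
  refine ⟨lam w₀, hζ, fun v => ?_⟩
  have h2 := hker (v - mu v • w₀) (by rw [map_sub, map_smul, hw, smul_eq_mul, mul_one, sub_self])
  rw [map_sub, map_smul, smul_eq_mul, sub_eq_zero] at h2
  rw [h2, mul_comm]

/-- **One line**, algebraically closed field: no hypothesis on `mu`. -/
theorem exists_root_of_pow_eq' [IsAlgClosed k] {n : ℕ} (hn : 0 < n) (lam mu : V →ₗ[k] k) {c : k}
    (hc : c ≠ 0) (h : ∀ v, lam v ^ n = c * mu v ^ n) :
    ∃ ζ : k, ζ ^ n = c ∧ ∀ v, lam v = ζ * mu v := by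
  by_cases hmu : mu = 0
  · obtain ⟨ζ, hζ⟩ := IsAlgClosed.exists_pow_nat_eq c hn
    refine ⟨ζ, hζ, fun v => ?_⟩
    have h1 := h v
    rw [hmu, LinearMap.zero_apply, zero_pow hn.ne', mul_zero] at h1
    rw [hmu, LinearMap.zero_apply, mul_zero]
    exact pow_eq_zero_iff hn.ne' |>.mp h1
  · exact exists_root_of_pow_eq hn lam mu hc h hmu

/-- **Step (4) bookkeeping.**  `V'' · V' ⊆ V'` with multiplicative functionals: if
`lam'' = ζ'' • mu''` on `V''` and `lam' = ζ' • mu'` on `V'` with `ζ' ≠ 0`, and some element of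
`V''` and some element of `V'` are not killed by `mu''`, resp. `mu'`, then `ζ'' = 1`. -/
theorem eq_one_of_mul_mem {V' V'' : Type*} [AddCommGroup V'] [Module k V'] [AddCommGroup V'']
    [Module k V''] (m : V'' → V' → V') (lam' mu' : V' →ₗ[k] k) (lam'' mu'' : V'' →ₗ[k] k)
    (hlam : ∀ a b, lam' (m a b) = lam'' a * lam' b) (hmu : ∀ a b, mu' (m a b) = mu'' a * mu' b)
    {ζ' ζ'' : k} (hζ' : ζ' ≠ 0) (h' : ∀ b, lam' b = ζ' * mu' b) (h'' : ∀ a, lam'' a = ζ'' * mu'' a)
    (hne' : ∃ b, mu' b ≠ 0) (hne'' : ∃ a, mu'' a ≠ 0) : ζ'' = 1 := by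
  obtain ⟨b, hb⟩ := hne'
  obtain ⟨a, ha⟩ := hne''
  have h1 := h' (m a b)
  rw [hlam, hmu, h'' a, h' b] at h1
  have h2 : ζ'' * (ζ' * (mu'' a * mu' b)) = 1 * (ζ' * (mu'' a * mu' b)) := by
    rw [one_mul]
    linear_combination h1
  exact mul_right_cancel₀ (mul_ne_zero hζ' (mul_ne_zero ha hb)) h2

end Fermat.Agent.S34.OneLine
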