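/-
S34 / [ORTHO2] (helper5): orthonormal bases for a finite extension of a valued field when the
top residue ring is NOT a field.

Setting: fields `F ⊆ F'`, a valuation subring `O ⊆ F` with a "reduction" ring hom `red : O → κ`
(`κ` a field, `red` kills the nonunits of `O`), a SUBRING `O' ⊆ F'` with `O ⊆ O'` and a ring hom
`red' : O' → R'` into a commutative `κ`-algebra `R'` extending `red`, and a finite family
`w : ι → O'` whose reductions are `κ`-linearly independent in `R'`.

* `linearIndependent_of_red` : `w` is `F`-linearly independent;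
* `coeff_mem_of_mem`, `red'_eq_sum` : if `Σ cᵢ wᵢ ∈ O'` then all `cᵢ ∈ O`, and the reduction is
  `Σ red(cᵢ) • red'(wᵢ)`; `sum_mem` : the converse;
* `basisOf` (`card ι = [F' : F]`) : `w` is an `F`-basis of `F'`; `repr_mem`;
* `exists_normalize` : every `g ≠ 0` of `F'` is `c⁻¹ • g₀` with `c ∈ Fˣ`, `g₀ ∈ O'`, `red' g₀ ≠ 0`;
* `mem_of_isIntegral` (`R'` reduced) : `O'` is integrally closed in `F'`;
* `isIntegral` : every element of `O'` is integral over `O`.
-/
import Mathlib

set_option autoImplicit false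

namespace Fermat.Agent.S34.Ortho2

open Polynomial

variable {F F' : Type*} [Field F] [Field F'] [Algebra F F']
  {κ R' : Type*} [Field κ] [CommRing R'] [Algebra κ R']

/-- A valuation subring `O` of `F` with reduction `red : O → κ`, a subring `O' ⊇ O` of `F' ⊇ F`
with a compatible reduction `red' : O' → R'` into a commutative `κ`-algebra. -/
structure Setup (O : ValuationSubring F) (O' : Subring F') (red : O →+* κ)
    (red' : O' →+* R') : Prop where
  /-- `O ⊆ O'`. -/
  incl : ∀ x : O, algebraMap F F' (x : F) ∈ O'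
  /-- `red` kills the nonunits of `O`. -/
  red_nonunit : ∀ x : O, ¬ IsUnit x → red x = 0
  /-- `red'` extends `red`. -/
  compat : ∀ x : O, red' ⟨algebraMap F F' (x : F), incl x⟩ = algebraMap κ R' (red x)

namespace Setup

variable {O : ValuationSubring F} {O' : Subring F'} {red : O →+* κ}
  {red' : O' →+* R'} (S : Setup O O' red red')

include S

/-- The inclusion `O → O'`. -/
def inclHom : O →+* O' where
  toFun x := ⟨algebraMap F F' (x : F), S.incl x⟩
  map_one' := by ext; simp
  map_mul' x y := by ext; simp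
  map_zero' := by ext; simp
  map_add' x y := by ext; simp

@[simp] theorem coe_inclHom (x : O) : ((S.inclHom x : O') : F') = algebraMap F F' (x : F) := rfl

theorem red'_inclHom (x : O) : red' (S.inclHom x) = algebraMap κ R' (red x) := S.compat x

omit [Algebra F F'] [Algebra κ R'] S in
/-- Among finitely many elements of `F`, not all zero, one divides all the others in `O`. -/
theorem exists_max {ι : Type*} [Finite ι] (c : ι → F) (i₀ : ι) (h0 : c i₀ ≠ 0) :
    ∃ j, c j ≠ 0 ∧ (∀ i, c i / c j ∈ O) ∧ (c i₀ / c j ∈ O) := by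
  classical
  cases nonempty_fintype ι
  obtain ⟨j, -, hj⟩ := Finset.exists_max_image Finset.univ (fun i => O.valuation (c i))
    ⟨i₀, Finset.mem_univ _⟩
  have hj0 : c j ≠ 0 := by
    intro h
    have h1 := hj i₀ (Finset.mem_univ _)
    rw [h, map_zero] at h1
    exact h0 ((map_eq_zero _).mp (le_antisymm h1 zero_le))
  have key : ∀ i, c i / c j ∈ O := by
    intro i
    rw [← O.valuation_le_one_iff, map_div₀]
    exact div_le_one_of_le₀ (hj i (Finset.mem_univ _)) zero_le
  exact ⟨j, hj0, key, key i₀⟩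

omit [Algebra F F'] [Algebra κ R'] S in
/-- An element of `F` outside `O` has its inverse in `O`, a non-unit. -/
theorem inv_nonunit {c : F} (hc : c ∉ O) :
    ∃ h : c⁻¹ ∈ O, ¬ IsUnit (⟨c⁻¹, h⟩ : O) := by
  have hinv : c⁻¹ ∈ O := (O.mem_or_inv_mem c).resolve_left hc
  refine ⟨hinv, ?_⟩
  rintro ⟨u, hu⟩
  apply hc
  have h1 : ((u⁻¹ : Oˣ) : O) * ⟨c⁻¹, hinv⟩ = 1 := by rw [← hu]; simp
  have h2 : (((u⁻¹ : Oˣ) : O) : F) * c⁻¹ = 1 := by
    have := congrArg (fun z : O => (z : F)) h1
    simpa using this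
  have hc0 : c ≠ 0 := by
    rintro rfl
    exact hc O.zero_mem
  have h3 : (((u⁻¹ : Oˣ) : O) : F) = c := by
    field_simp at h2
    exact h2
  rw [← h3]
  exact ((u⁻¹ : Oˣ) : O).2

/-- `O`-combinations of elements of `O'` lie in `O'`. -/
theorem sum_mem {ι : Type*} [Fintype ι] (w : ι → O') (c : ι → O) :
    ∑ i, (c i : F) • ((w i : O') : F') ∈ O' := by
  have : ∑ i, (c i : F) • ((w i : O') : F') = ((∑ i, S.inclHom (c i) * w i : O') : F') := by
    rw [AddSubmonoidClass.coe_finsetSum]
    exact Finset.sum_congr rfl fun i _ => by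
      rw [MulMemClass.coe_mul, coe_inclHom, Algebra.smul_def]
  rw [this]
  exact (∑ i, S.inclHom (c i) * w i : O').2

/-- The reduction of an `O`-combination. -/
theorem red'_sum {ι : Type*} [Fintype ι] (w : ι → O') (c : ι → O) :
    red' ⟨_, S.sum_mem w c⟩ = ∑ i, red (c i) • red' (w i) := by
  have : (⟨_, S.sum_mem w c⟩ : O') = ∑ i, S.inclHom (c i) * w i := by
    apply Subtype.ext
    rw [AddSubmonoidClass.coe_finsetSum]
    exact Finset.sum_congr rfl fun i _ => by
      rw [MulMemClass.coe_mul, coe_inclHom, Algebra.smul_def]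
  rw [this, map_sum]
  refine Finset.sum_congr rfl fun i _ => ?_
  rw [map_mul, S.red'_inclHom, Algebra.smul_def]

section Family

variable {ι : Type*} [Fintype ι] (w : ι → O')
  (hw : LinearIndependent κ (fun i => red' (w i)))

include hw

/-- A normalised combination has nonzero reduction: if all `cᵢ ∈ O` and some `cⱼ = 1`, then
`red' (Σ cᵢ wᵢ) ≠ 0`. -/
theorem red'_sum_ne_zero (c : ι → O) (j : ι) (hj : c j = 1) :
    red' ⟨_, S.sum_mem w c⟩ ≠ 0 := by
  rw [S.red'_sum w c]
  intro h
  have := (Fintype.linearIndependent_iff.mp hw) _ h j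
  rw [hj, map_one] at this
  exact one_ne_zero this

/-- **(O2)** Lifts of a `κ`-independent family are linearly independent over `F`. -/
theorem linearIndependent_of_red :
    LinearIndependent F (fun i => ((w i : O') : F')) := by
  classical
  rw [Fintype.linearIndependent_iff]
  intro c hc
  by_contra hne
  obtain ⟨i₀, hi₀⟩ := not_forall.mp hne
  obtain ⟨j, hj0, hj, -⟩ := exists_max (O := O) c i₀ hi₀
  have h1 : (⟨c j / c j, hj j⟩ : O) = 1 := by
    ext; simp [div_self hj0]
  have hne0 := S.red'_sum_ne_zero w hw (fun i => ⟨c i / c j, hj i⟩) j h1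
  apply hne0
  have h0 : (⟨_, S.sum_mem w (fun i => ⟨c i / c j, hj i⟩)⟩ : O') = 0 := by
    apply Subtype.ext
    show (∑ i, (c i / c j) • ((w i : O') : F')) = 0
    have h2 : (∑ i, (c i / c j) • ((w i : O') : F')) = (c j)⁻¹ • ∑ i, c i • ((w i : O') : F') := by
      rw [Finset.smul_sum]
      refine Finset.sum_congr rfl fun i _ => ?_
      rw [smul_smul, div_eq_inv_mul]
    rw [h2, hc, smul_zero]
  rw [h0, map_zero]

/-- **(O2)** If `Σ cᵢ wᵢ ∈ O'`, then all `cᵢ ∈ O`. -/
theorem coeff_mem_of_mem (c : ι → F) (x : O')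
    (hx : (x : F') = ∑ i, c i • ((w i : O') : F')) (i : ι) : c i ∈ O := by
  classical
  by_contra hi
  have hi0 : c i ≠ 0 := by
    rintro h
    exact hi (h ▸ O.zero_mem)
  obtain ⟨j, hj0, hj, hij⟩ := exists_max (O := O) c i hi0
  -- `c j ∉ O`
  have hjO : c j ∉ O := by
    intro h
    apply hi
    have : c i = c i / c j * c j := by field_simp
    rw [this]
    exact O.mul_mem _ _ hij h
  obtain ⟨hinv, hnu⟩ := inv_nonunit (O := O) hjO
  have h1 : (⟨c j / c j, hj j⟩ : O) = 1 := by
    ext; simp [div_self hj0]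
  have hne0 := S.red'_sum_ne_zero w hw (fun i => ⟨c i / c j, hj i⟩) j h1
  apply hne0
  have hrel : (⟨_, S.sum_mem w (fun i => ⟨c i / c j, hj i⟩)⟩ : O') =
      x * S.inclHom ⟨(c j)⁻¹, hinv⟩ := by
    apply Subtype.ext
    show (∑ i, (c i / c j) • ((w i : O') : F')) = (x : F') * algebraMap F F' (c j)⁻¹
    rw [hx, Finset.sum_mul]
    refine Finset.sum_congr rfl fun i _ => ?_
    rw [Algebra.smul_def, Algebra.smul_def, div_eq_mul_inv, map_mul]
    ring
  rw [hrel, map_mul, S.red'_inclHom, S.red_nonunit _ hnu, map_zero, mul_zero]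

/-- **(O2)** The reduction of `x = Σ cᵢ wᵢ ∈ O'` is `Σ red(cᵢ) • red'(wᵢ)`. -/
theorem red'_eq_sum (c : ι → F) (x : O')
    (hx : (x : F') = ∑ i, c i • ((w i : O') : F')) :
    red' x = ∑ i, red ⟨c i, S.coeff_mem_of_mem w hw c x hx i⟩ • red' (w i) := by
  rw [← S.red'_sum w (fun i => ⟨c i, S.coeff_mem_of_mem w hw c x hx i⟩)]
  congr 1
  exact Subtype.ext hx

/-- **Normalisation**, span form: a nonzero `F`-combination of the `wᵢ` is `cⱼ` times an element
of `O'` with nonzero reduction. -/
theorem exists_normalize_sum (c : ι → F) (i₀ : ι) (h0 : c i₀ ≠ 0) :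
    ∃ j, c j ≠ 0 ∧ ∃ h : (c j)⁻¹ • ∑ i, c i • ((w i : O') : F') ∈ O', red' ⟨_, h⟩ ≠ 0 := by
  classical
  obtain ⟨j, hj0, hj, -⟩ := exists_max (O := O) c i₀ h0
  have h1 : (⟨c j / c j, hj j⟩ : O) = 1 := by
    ext; simp [div_self hj0]
  have hne0 := S.red'_sum_ne_zero w hw (fun i => ⟨c i / c j, hj i⟩) j h1
  have h2 : (c j)⁻¹ • ∑ i, c i • ((w i : O') : F') = ∑ i, (c i / c j) • ((w i : O') : F') := by
    rw [Finset.smul_sum]
    refine Finset.sum_congr rfl fun i _ => ?_
    rw [smul_smul, div_eq_inv_mul]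
  have hmem : (c j)⁻¹ • ∑ i, c i • ((w i : O') : F') ∈ O' := by
    rw [h2]
    exact S.sum_mem w (fun i => ⟨c i / c j, hj i⟩)
  refine ⟨j, hj0, hmem, ?_⟩
  have e : (⟨_, hmem⟩ : O') = ⟨_, S.sum_mem w (fun i => ⟨c i / c j, hj i⟩)⟩ := Subtype.ext h2
  rw [e]
  exact hne0

section Basis

variable [Nonempty ι] (hcard : Fintype.card ι = Module.finrank F F')

include hcard

/-- **(O2)** The `F`-basis of `F'` given by `w`, when `card ι = [F' : F]`. -/
noncomputable def basisOf : Module.Basis ι F F' :=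
  basisOfLinearIndependentOfCardEqFinrank (S.linearIndependent_of_red w hw) hcard

@[simp] theorem basisOf_apply (i : ι) : S.basisOf w hw hcard i = ((w i : O') : F') := by
  simp [basisOf]

/-- **(O2)** Coordinates of elements of `O'` in the basis `w` lie in `O`. -/
theorem repr_mem (x : O') (i : ι) : (S.basisOf w hw hcard).repr (x : F') i ∈ O := by
  refine S.coeff_mem_of_mem w hw (fun i => (S.basisOf w hw hcard).repr (x : F') i) x ?_ i
  conv_lhs => rw [← (S.basisOf w hw hcard).sum_repr (x : F')]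
  exact Finset.sum_congr rfl fun i _ => by rw [basisOf_apply]

/-- **(O2)** `x ∈ O'` iff all its coordinates in the basis `w` lie in `O`. -/
theorem mem_iff_repr_mem (x : F') : x ∈ O' ↔ ∀ i, (S.basisOf w hw hcard).repr x i ∈ O := by
  constructor
  · intro hx i
    exact S.repr_mem w hw hcard ⟨x, hx⟩ i
  · intro h
    have h1 := S.sum_mem w (fun i => ⟨(S.basisOf w hw hcard).repr x i, h i⟩)
    have h2 : ∑ i, (S.basisOf w hw hcard).repr x i • ((w i : O') : F') = x := by
      conv_rhs => rw [← (S.basisOf w hw hcard).sum_repr x]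
      exact Finset.sum_congr rfl fun i _ => by rw [basisOf_apply]
    rw [← h2]
    exact h1

/-- The reduction of `x ∈ O'` in terms of its coordinates. -/
theorem red'_eq_sum_repr (x : O') :
    red' x = ∑ i, red ⟨(S.basisOf w hw hcard).repr (x : F') i, S.repr_mem w hw hcard x i⟩ •
      red' (w i) := by
  refine S.red'_eq_sum w hw (fun i => (S.basisOf w hw hcard).repr (x : F') i) x ?_
  conv_lhs => rw [← (S.basisOf w hw hcard).sum_repr (x : F')]
  exact Finset.sum_congr rfl fun i _ => by rw [basisOf_apply]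

/-- **Normalisation.** Every `g ≠ 0` of `F'` becomes, after scaling by some `c ∈ Fˣ`, an element
of `O'` with nonzero reduction. -/
theorem exists_normalize (g : F') (hg : g ≠ 0) :
    ∃ c : F, c ≠ 0 ∧ ∃ h : c • g ∈ O', red' ⟨c • g, h⟩ ≠ 0 := by
  set b := S.basisOf w hw hcard with hb
  have hsum : ∑ i, b.repr g i • ((w i : O') : F') = g := by
    conv_rhs => rw [← b.sum_repr g]
    exact Finset.sum_congr rfl fun i _ => by rw [hb, basisOf_apply]
  have hex : ∃ i₀, b.repr g i₀ ≠ 0 := by
    by_contra hcon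
    push Not at hcon
    apply hg
    rw [← hsum]
    exact Finset.sum_eq_zero fun i _ => by rw [hcon i, zero_smul]
  obtain ⟨i₀, hi₀⟩ := hex
  obtain ⟨j, hj0, hmem, hne⟩ := S.exists_normalize_sum w hw (fun i => b.repr g i) i₀ hi₀
  have e : (b.repr g j)⁻¹ • ∑ i, b.repr g i • ((w i : O') : F') = (b.repr g j)⁻¹ • g := by
    rw [hsum]
  have hmem' : (b.repr g j)⁻¹ • g ∈ O' := by rw [← e]; exact hmem
  refine ⟨(b.repr g j)⁻¹, inv_ne_zero hj0, hmem', ?_⟩
  have e' : (⟨_, hmem'⟩ : O') = ⟨_, hmem⟩ := Subtype.ext e.symm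
  rw [e']
  exact hne

/-- **[INTCL]**, raw form: a root in `F'` of a monic polynomial with coefficients in `O'` lies in
`O'`, provided `R'` is reduced. -/
theorem mem_of_monic_root [IsReduced R'] (y : F') (n : ℕ) (a : Fin n → O')
    (hy : y ^ n + ∑ i : Fin n, ((a i : O') : F') * y ^ (i : ℕ) = 0) : y ∈ O' := by
  classical
  set b := S.basisOf w hw hcard with hb
  by_contra hyO
  have hsum : ∑ i, b.repr y i • ((w i : O') : F') = y := by
    conv_rhs => rw [← b.sum_repr y]
    exact Finset.sum_congr rfl fun i _ => by rw [hb, basisOf_apply]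
  -- some coordinate is not in `O`
  have hex : ∃ i₀, b.repr y i₀ ∉ O := by
    by_contra hcon
    push Not at hcon
    exact hyO ((S.mem_iff_repr_mem w hw hcard y).mpr hcon)
  obtain ⟨i₀, hi₀⟩ := hex
  have hi₀0 : b.repr y i₀ ≠ 0 := fun h => hi₀ (h ▸ O.zero_mem)
  obtain ⟨j, hj0, hj, hij⟩ := exists_max (O := O) (fun i => b.repr y i) i₀ hi₀0
  have hjO : b.repr y j ∉ O := by
    intro h
    apply hi₀
    have : b.repr y i₀ = b.repr y i₀ / b.repr y j * b.repr y j := by field_simp
    rw [this]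
    exact O.mul_mem _ _ hij h
  obtain ⟨hinv, hnu⟩ := inv_nonunit (O := O) hjO
  set π : O := ⟨(b.repr y j)⁻¹, hinv⟩ with hπ
  have h1 : (⟨b.repr y j / b.repr y j, hj j⟩ : O) = 1 := by
    ext; simp [div_self hj0]
  set u : O' := ⟨_, S.sum_mem w (fun i => ⟨b.repr y i / b.repr y j, hj i⟩)⟩ with hu
  have hne0 : red' u ≠ 0 := S.red'_sum_ne_zero w hw _ j h1
  have hucoe : (u : F') = algebraMap F F' (π : F) * y := by
    show (∑ i, (b.repr y i / b.repr y j) • ((w i : O') : F')) = _
    have h3 : algebraMap F F' (π : F) * y =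
        algebraMap F F' (π : F) * ∑ i, b.repr y i • ((w i : O') : F') := by rw [hsum]
    rw [h3, Finset.mul_sum]
    refine Finset.sum_congr rfl fun i _ => ?_
    rw [Algebra.smul_def, Algebra.smul_def, div_eq_mul_inv, map_mul]
    show _ = algebraMap F F' (b.repr y j)⁻¹ * _
    ring
  -- the scaled equation in `O'`
  have hrel : u ^ n + ∑ i : Fin n, S.inclHom π ^ (n - (i : ℕ)) * a i * u ^ (i : ℕ) = 0 := by
    apply Subtype.ext
    push_cast
    rw [hucoe]
    have h2 : ∀ i : Fin n, algebraMap F F' (π : F) ^ (n - (i : ℕ)) * ((a i : O') : F') *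
        (algebraMap F F' (π : F) * y) ^ (i : ℕ) =
        algebraMap F F' (π : F) ^ n * (((a i : O') : F') * y ^ (i : ℕ)) := by
      intro i
      have hi : algebraMap F F' (π : F) ^ n =
          algebraMap F F' (π : F) ^ (n - (i : ℕ)) * algebraMap F F' (π : F) ^ (i : ℕ) := by
        rw [← pow_add]
        congr 1
        have := i.2
        omega
      rw [hi, mul_pow]
      ring
    simp only [coe_inclHom]
    rw [Finset.sum_congr rfl fun i _ => h2 i, ← Finset.mul_sum, mul_pow, ← mul_add, hy, mul_zero]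
  have hrel' := congrArg red' hrel
  rw [map_add, map_pow, map_sum, map_zero] at hrel'
  have hz : ∑ i : Fin n, red' (S.inclHom π ^ (n - (i : ℕ)) * a i * u ^ (i : ℕ)) = 0 := by
    refine Finset.sum_eq_zero fun i _ => ?_
    have hi : n - (i : ℕ) ≠ 0 := by have := i.2; omega
    rw [map_mul, map_mul, map_pow, S.red'_inclHom, S.red_nonunit _ hnu, map_zero, zero_pow hi,
      zero_mul, zero_mul]
  rw [hz, add_zero] at hrel'
  exact hne0 (IsReduced.eq_zero _ ⟨n, hrel'⟩)

/-- **[INTCL]** `O'` is integrally closed in `F'`, provided `R'` is reduced. -/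
theorem mem_of_isIntegral [IsReduced R'] (y : F') (hy : IsIntegral ↥O' y) : y ∈ O' := by
  obtain ⟨p, hp, hpy⟩ := hy
  refine S.mem_of_monic_root w hw hcard y p.natDegree (fun i => p.coeff i) ?_
  have h1 := hpy
  rw [Polynomial.eval₂_eq_sum_range, Finset.sum_range_succ, hp.coeff_natDegree, map_one,
    one_mul, add_comm] at h1
  rw [← h1]
  congr 1
  rw [Finset.sum_range]
  rfl

omit [Nonempty ι] hw hcard in
/-- `O'` as an `O`-subalgebra of `F'`. -/
def subalg : Subalgebra ↥O F' :=
  { O' with algebraMap_mem' := fun x => S.incl x }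

omit [Nonempty ι] hw hcard in
theorem mem_subalg (x : F') : x ∈ S.subalg ↔ x ∈ O' := Iff.rfl

/-- `O'` is the `O`-span of the `wᵢ`. -/
theorem toSubmodule_subalg :
    Subalgebra.toSubmodule S.subalg =
      Submodule.span ↥O (Set.range fun i => ((w i : O') : F')) := by
  apply le_antisymm
  · intro x hx
    have hx' : x ∈ O' := hx
    have h2 : ∑ i, (S.basisOf w hw hcard).repr x i • ((w i : O') : F') = x := by
      conv_rhs => rw [← (S.basisOf w hw hcard).sum_repr x]
      exact Finset.sum_congr rfl fun i _ => by rw [basisOf_apply]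
    rw [← h2]
    refine Submodule.sum_mem _ fun i _ => ?_
    have h3 : (S.basisOf w hw hcard).repr x i • ((w i : O') : F') =
        (⟨_, S.repr_mem w hw hcard ⟨x, hx'⟩ i⟩ : O) • ((w i : O') : F') := rfl
    rw [h3]
    exact Submodule.smul_mem _ _ (Submodule.subset_span ⟨i, rfl⟩)
  · rw [Submodule.span_le]
    rintro _ ⟨i, rfl⟩
    exact (w i).2

/-- Every element of `O'` is integral over `O`. -/
theorem isIntegral (g : O') : IsIntegral ↥O (g : F') := by
  refine IsIntegral.of_mem_of_fg S.subalg ?_ _ g.2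
  rw [S.toSubmodule_subalg w hw hcard]
  exact Submodule.fg_span (Set.finite_range _)

end Basis

end Family

end Setup

end Fermat.Agent.S34.Ortho2
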