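/-
S34 / [ORTHO2], part 2 (helper5; the matrix/charpoly proofs follow helper81's draft of the same
statements): matrices and characteristic polynomials in an orthonormal basis with a non-field
residue ring.

In the setting of `S34/Ortho2` (`S : Setup O O' red red'`, `w : ι → O'` with `κ`-independent
reductions, `card ι = [F' : F]`):

* `exists_matrix` : for `g ∈ O'` the matrix of multiplication by `g` in the basis `w` has entries
  in `O`, and its reduction is the matrix of multiplication by `red' g` on the `κ`-span of the
  `red' (w i)`;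
* `exists_charpoly` : the characteristic polynomial of `g` over `F` has coefficients in `O` and
  reduces to the characteristic polynomial of that matrix; `exists_charpoly_basis` : to the
  characteristic polynomial of `red' g` on `R'` if the `red' (w i)` form a `κ`-basis of `R'`;
* `exists_charpoly_of_red_eq_one`, `coeff_charpoly_of_red_eq_one` : it reduces to `(X - 1) ^ d`
  if `red' g = 1`;
* `exists_monic_eval₂_eq_zero` : `g` is a root of a monic polynomial of degree `d` over `O`.
-/
import Mathlib
import Fermat.Agent.S34.Ortho2

set_option autoImplicit false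

namespace Fermat.Agent.S34.Ortho2

open Polynomial

variable {F F' : Type*} [Field F] [Field F'] [Algebra F F']
  {κ R' : Type*} [Field κ] [CommRing R'] [Algebra κ R']

namespace Setup

variable {O : ValuationSubring F} {O' : Subring F'} {red : O →+* κ}
  {red' : O' →+* R'} (S : Setup O O' red red')

include S

section Char

variable {ι : Type*} [Fintype ι] [DecidableEq ι] (w : ι → O')
  (hw : LinearIndependent κ (fun i => red' (w i)))
  [Nonempty ι] (hcard : Fintype.card ι = Module.finrank F F')

include hw hcard

/-- For `g ∈ O'` the matrix of multiplication by `g` in the basis `w` has entries in `O`, and its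
reduction describes multiplication by `red' g` on the `κ`-span of the `red' (w i)`. -/
theorem exists_matrix (g : O') :
    ∃ M : Matrix ι ι O,
      Algebra.leftMulMatrix (S.basisOf w hw hcard) (g : F') = M.map O.subtype ∧
      (∀ j, g * w j = ∑ i, S.inclHom (M i j) * w i) ∧
      ∀ j, red' g * red' (w j) = ∑ i, red (M i j) • red' (w i) := by
  set b := S.basisOf w hw hcard with hb
  let M : Matrix ι ι O := fun i j =>
    ⟨b.repr (((g * w j : O') : F')) i, S.repr_mem w hw hcard (g * w j) i⟩
  have hM : ∀ i j, ((M i j : O) : F) = b.repr ((g : F') * b j) i := by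
    intro i j
    simp only [M, hb, basisOf_apply, MulMemClass.coe_mul]
  have hrel : ∀ j, g * w j = ∑ i, S.inclHom (M i j) * w i := by
    intro j
    apply Subtype.ext
    rw [AddSubmonoidClass.coe_finsetSum]
    have h1 := b.sum_repr (((g * w j : O') : F'))
    rw [← h1]
    refine Finset.sum_congr rfl fun i _ => ?_
    have e1 : ((S.inclHom (M i j) * w i : O') : F') =
        algebraMap F F' ((M i j : O) : F) * ((w i : O') : F') := rfl
    have e2 : ((M i j : O) : F) = b.repr (((g * w j : O') : F')) i := rfl
    have e3 : b i = ((w i : O') : F') := by rw [hb, basisOf_apply]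
    rw [e1, e2, e3, Algebra.smul_def]
  refine ⟨M, ?_, hrel, fun j => ?_⟩
  · ext i j
    rw [Algebra.leftMulMatrix_eq_repr_mul, Matrix.map_apply, ← hM]
    rfl
  · rw [← map_mul, hrel j, map_sum]
    refine Finset.sum_congr rfl fun x _ => ?_
    rw [map_mul, S.red'_inclHom, Algebra.smul_def]

/-- The characteristic polynomial of (multiplication by) `g ∈ O'` over `F` has coefficients in `O`
and reduces to the characteristic polynomial of the matrix of `red' g` on the span of `red' w`. -/
theorem exists_charpoly [Module.Finite F F'] (g : O') :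
    ∃ (M : Matrix ι ι O) (P : O[X]),
      P.Monic ∧ P.natDegree = Fintype.card ι ∧
      LinearMap.charpoly (Algebra.lmul F F' (g : F')) = P.map O.subtype ∧
      P.map red = (M.map red).charpoly ∧
      ∀ j, red' g * red' (w j) = ∑ i, red (M i j) • red' (w i) := by
  obtain ⟨M, h1, -, h3⟩ := S.exists_matrix w hw hcard g
  refine ⟨M, M.charpoly, M.charpoly_monic, ?_, ?_, ?_, h3⟩
  · rw [Matrix.charpoly_natDegree_eq_dim]
  · have e : (Algebra.leftMulMatrix (S.basisOf w hw hcard) (g : F')).charpoly =
        M.charpoly.map O.subtype := by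
      rw [h1, Matrix.charpoly_map]
    rw [← e, Algebra.leftMulMatrix_apply, LinearMap.charpoly_toMatrix]
  · rw [Matrix.charpoly_map]

/-- If the `red' (w i)` form a `κ`-basis of `R'`, the characteristic polynomial of `g ∈ O'` over
`F` has coefficients in `O` and reduces to the characteristic polynomial of (multiplication by)
`red' g` on `R'` over `κ`. -/
theorem exists_charpoly_basis [Module.Finite F F'] [Module.Finite κ R']
    (bb : Module.Basis ι κ R') (hbb : ∀ i, bb i = red' (w i)) (g : O') :
    ∃ P : O[X], P.Monic ∧ P.natDegree = Fintype.card ι ∧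
      LinearMap.charpoly (Algebra.lmul F F' (g : F')) = P.map O.subtype ∧
      LinearMap.charpoly (Algebra.lmul κ R' (red' g)) = P.map red := by
  obtain ⟨M, P, hm, hd, h1, h2, h3⟩ := S.exists_charpoly w hw hcard g
  refine ⟨P, hm, hd, h1, ?_⟩
  have hM : Algebra.leftMulMatrix bb (red' g) = M.map red := by
    ext i j
    rw [Algebra.leftMulMatrix_eq_repr_mul, Matrix.map_apply, hbb j, h3 j]
    have h4 : ∑ x, red (M x j) • red' (w x) = ∑ x, red (M x j) • bb x :=
      Finset.sum_congr rfl fun x _ => by rw [hbb x]
    rw [h4, Module.Basis.repr_sum_self]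
  rw [h2, ← hM, Algebra.leftMulMatrix_apply, LinearMap.charpoly_toMatrix]

/-- If `red' g = 1`, the characteristic polynomial of `g` over `F` has coefficients in `O` and
reduces to `(X - 1) ^ d`, `d = [F' : F]`. -/
theorem exists_charpoly_of_red_eq_one [Module.Finite F F'] (g : O') (hg : red' g = 1) :
    ∃ P : O[X], P.Monic ∧ P.natDegree = Fintype.card ι ∧
      LinearMap.charpoly (Algebra.lmul F F' (g : F')) = P.map O.subtype ∧
      P.map red = (X - C 1) ^ Fintype.card ι := by
  obtain ⟨M, P, hm, hd, h1, h2, h3⟩ := S.exists_charpoly w hw hcard g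
  refine ⟨P, hm, hd, h1, ?_⟩
  have hM : M.map red = 1 := by
    ext i j
    have h4 := h3 j
    rw [hg, one_mul] at h4
    have h5 : ∑ i, (red (M i j) - if i = j then 1 else 0) • red' (w i) = 0 := by
      simp only [sub_smul, Finset.sum_sub_distrib]
      rw [← h4]
      simp
    have := (Fintype.linearIndependent_iff.mp hw) _ h5 i
    rw [Matrix.map_apply, Matrix.one_apply]
    exact sub_eq_zero.mp this
  rw [h2, hM, Matrix.charpoly_one, C_1]

/-- Consumer form: if `red' g = 1`, every coefficient of the characteristic polynomial of `g`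
over `F` lies in `O`, and the coefficient of `X ^ k` reduces to `(-1) ^ (d - k) * C(d, k)`. -/
theorem coeff_charpoly_of_red_eq_one [Module.Finite F F'] (g : O') (hg : red' g = 1) (k : ℕ) :
    ∃ a : O, (LinearMap.charpoly (Algebra.lmul F F' (g : F'))).coeff k = (a : F) ∧
      red a = (-1) ^ (Fintype.card ι - k) * ((Fintype.card ι).choose k : κ) := by
  obtain ⟨P, -, -, h1, h2⟩ := S.exists_charpoly_of_red_eq_one w hw hcard g hg
  refine ⟨P.coeff k, ?_, ?_⟩
  · rw [h1, coeff_map]; rfl
  · have := congrArg (fun Q : κ[X] => Q.coeff k) h2
    simp only [coeff_map] at this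
    rw [this, show (X - C (1 : κ)) = X + C (-1) by rw [C_neg, sub_eq_add_neg],
      coeff_X_add_C_pow]

/-- Every element of `O'` is a root of a monic polynomial of degree `d` with coefficients in
`O`. -/
theorem exists_monic_eval₂_eq_zero [Module.Finite F F'] (g : O') :
    ∃ P : O[X], P.Monic ∧ P.natDegree = Fintype.card ι ∧
      Polynomial.eval₂ ((algebraMap F F').comp O.subtype) (g : F') P = 0 := by
  obtain ⟨M, P, hm, hd, h1, -, -⟩ := S.exists_charpoly w hw hcard g
  refine ⟨P, hm, hd, ?_⟩
  have h2 : Polynomial.aeval (g : F') (LinearMap.charpoly (Algebra.lmul F F' (g : F'))) = 0 := by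
    have h3 := LinearMap.aeval_self_charpoly (Algebra.lmul F F' (g : F'))
    rw [Polynomial.aeval_algHom_apply] at h3
    have h4 := congrArg (fun φ : F' →ₗ[F] F' => φ 1) h3
    simpa using h4
  rw [h1, Polynomial.aeval_def, Polynomial.eval₂_map] at h2
  exact h2

end Char

end Setup

end Fermat.Agent.S34.Ortho2
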