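import Mathlib
import Fermat.Agent.S18.SurjFree
import Fermat.Agent.S18.RR0
import Fermat.Agent.Lib.FFSep.LSpace
import Fermat.Agent.Lib.Gamma0Count

/-!
# P6 / S34 — [RR]: exact Riemann counts (helper76)

For a torsion-free level `n` (`4 ∣ n ∨ 9 ∣ n`):

* `finrank_rr_pole`  : `12 · l_{F_n}(c (j)_∞) = 12 c ψ(n) - ψ(n) + 6 cusps(n)` for `c ≥ c₀`
  (characteristic zero);
* `riemann_ge`       : Riemann's inequality `12 · l(B) ≥ 12 deg B - ψ(n) + 6 cusps(n)` for every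
  divisor `B` of `F_n`;
* `riemann_eq`       : **Riemann's equality** `12 · l(B) = 12 deg B - ψ(n) + 6 cusps(n)` for every
  divisor `B` of `F_n` of degree `≥ d₀`;
* `pullRR_self`      : `Plan.pullRR n n B` is the image of `riemannRochSpace B`, and the two
  statements above in `pullRR` form (`riemann_ge_pull`, `riemann_eq_pull`);
* `finrank_WJ_eq`    : for `ℓ ∤ n`, `A` over `ℓ`:
  `12 · dim_k WJ_k(F_{n,k}, c) = 12 c ψ(n) - ψ(n) + 6 cusps(n)` for `c ≥ c₀` (characteristic `ℓ`),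
  together with `redSp (pullRR 1 n (c (j)_∞)) = WJ`;
* numerics: `cuspCount_prime_mul`, `dedekindPsi_prime_mul`, `node_count`:
  `2 (6 cusps(M) - ψ(M)) - (6 cusps(qM) - ψ(qM)) = (q - 1) ψ(M)` for a prime `q ∤ M`.
-/

set_option autoImplicit false

noncomputable section

namespace Fermat.Agent.S34.RRExact

open ModularCurve AlgebraicCurve IntermediateField Fermat.Agent.S24 Fermat.Agent.S18.Content
  Fermat.Agent.S18.Plan
open Fermat.Agent.S18 Fermat.Agent.Lib

/-! ## Numerics -/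

section Numerics

/-- `cusps(q M) = 2 cusps(M)` for a prime `q ∤ M`. -/
theorem cuspCount_prime_mul {q M : ℕ} (hq : q.Prime) (hM : M ≠ 0) (h : ¬ q ∣ M) :
    cuspCount (q * M) = 2 * cuspCount M := by
  unfold ModularCurve.cuspCount
  have hset : Nat.divisors (q * M) = Nat.divisors M ∪ (Nat.divisors M).image (q * ·) := by
    ext d
    simp only [Nat.mem_divisors, Finset.mem_union, Finset.mem_image]
    constructor
    · rintro ⟨hd, -⟩
      by_cases hqd : q ∣ d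
      · right
        obtain ⟨d', rfl⟩ := hqd
        exact ⟨d', ⟨(Nat.mul_dvd_mul_iff_left hq.pos).mp hd, hM⟩, rfl⟩
      · left
        exact ⟨Nat.Coprime.dvd_of_dvd_mul_left
          ((Nat.Prime.coprime_iff_not_dvd hq).mpr hqd).symm hd, hM⟩
    · rintro (⟨hd, -⟩ | ⟨d', ⟨hd, -⟩, rfl⟩)
      · exact ⟨dvd_mul_of_dvd_right hd q, mul_ne_zero hq.ne_zero hM⟩
      · exact ⟨Nat.mul_dvd_mul_left q hd, mul_ne_zero hq.ne_zero hM⟩
  have hdisj : Disjoint (Nat.divisors M) ((Nat.divisors M).image (q * ·)) := by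
    rw [Finset.disjoint_left]
    intro d hd hd'
    obtain ⟨d', -, rfl⟩ := Finset.mem_image.mp hd'
    exact h (dvd_trans (dvd_mul_right q d') (Nat.dvd_of_mem_divisors hd))
  rw [hset, Finset.sum_union hdisj,
    Finset.sum_image (fun a _ b _ hab => Nat.eq_of_mul_eq_mul_left hq.pos hab), two_mul]
  congr 1
  · refine Finset.sum_congr rfl fun d hd => ?_
    have hdM := Nat.dvd_of_mem_divisors hd
    have hqd : Nat.Coprime q d :=
      (Nat.Prime.coprime_iff_not_dvd hq).mpr (fun h' => h (dvd_trans h' hdM))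
    rw [Nat.mul_div_assoc q hdM, Nat.Coprime.gcd_mul_left_cancel_right _ hqd]
  · refine Finset.sum_congr rfl fun d hd => ?_
    have hdM := Nat.dvd_of_mem_divisors hd
    have hqd : Nat.Coprime q (M / d) :=
      (Nat.Prime.coprime_iff_not_dvd hq).mpr (fun h' => h (dvd_trans h' (Nat.div_dvd_of_dvd hdM)))
    rw [Nat.mul_div_mul_left _ _ hq.pos, Nat.Coprime.gcd_mul_left_cancel _ hqd]

/-- `ψ(q M) = (q + 1) ψ(M)` for a prime `q ∤ M`. -/
theorem dedekindPsi_prime_mul {q M : ℕ} (hq : q.Prime) (hM : M ≠ 0) (h : ¬ q ∣ M) :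
    dedekindPsi (q * M) = (q + 1) * dedekindPsi M :=
  Gamma0Count.dedekindPsi_mul_of_not_dvd hq hM h

/-- **The node count**: `12 (2 γ(M) - γ(q M)) = (q - 1) ψ(M)`, where `12 γ(n) = 6 cusps(n) - ψ(n)`
(`γ = 1 - genus`). -/
theorem node_count {q M : ℕ} (hq : q.Prime) (hM : M ≠ 0) (h : ¬ q ∣ M) :
    2 * (6 * (cuspCount M : ℤ) - (dedekindPsi M : ℤ))
        - (6 * (cuspCount (q * M) : ℤ) - (dedekindPsi (q * M) : ℤ))
      = ((q : ℤ) - 1) * (dedekindPsi M : ℤ) := by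
  rw [cuspCount_prime_mul hq hM h, dedekindPsi_prime_mul hq hM h]
  push_cast
  ring

/-- The node count is positive. -/
theorem node_count_pos {q M : ℕ} (hq : q.Prime) (hM : M ≠ 0) (h : ¬ q ∣ M) :
    0 < 2 * (6 * (cuspCount M : ℤ) - (dedekindPsi M : ℤ))
        - (6 * (cuspCount (q * M) : ℤ) - (dedekindPsi (q * M) : ℤ)) := by
  rw [node_count hq hM h]
  have h1 : (1 : ℤ) < (q : ℤ) := by exact_mod_cast hq.one_lt
  have : NeZero M := ⟨hM⟩
  have h2 : (0 : ℤ) < (dedekindPsi M : ℤ) := by exact_mod_cast FibreCount.dedekindPsi_pos M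
  exact mul_pos (by linarith) h2

end Numerics

/-! ## Characteristic zero -/

section Char0

variable (n : ℕ) [NeZero n]

/-- `12 · l_{F_n}(c (j)_∞) = 12 c ψ(n) - ψ(n) + 6 cusps(n)` for `c ≥ c₀`. -/
theorem finrank_rr_pole (hTF : 4 ∣ n ∨ 9 ∣ n) :
    ∃ c₀ : ℕ, ∀ c : ℕ, c₀ ≤ c → ∀ Cp : Divisor Kbar (FN n),
      (∀ P, Cp P = max 0 (-(P.ord (jBar n)))) →
      Module.Finite Kbar (riemannRochSpace (c • Cp)) ∧
        12 * (Module.finrank Kbar (riemannRochSpace (c • Cp)) : ℤ)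
          = 12 * (c : ℤ) * (dedekindPsi n : ℤ) - (dedekindPsi n : ℤ) + 6 * (cuspCount n : ℤ) := by
  obtain ⟨γ, c₀, hγ, hc₀⟩ := RR0.exists_gamma n hTF
  refine ⟨c₀, fun c hc Cp hCp => ?_⟩
  obtain ⟨hfin, hdim⟩ := hc₀ c hc (c • Cp) (fun v => by
    rw [Finsupp.smul_apply, hCp, nsmul_eq_mul])
  refine ⟨hfin, ?_⟩
  rw [hdim]
  linarith

/-- Finite-dimensionality of every Riemann–Roch space of `F_n`. -/
theorem finite_rr (B : Divisor Kbar (FN n)) : Module.Finite Kbar (riemannRochSpace B) := by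
  have := FibreCount.finiteDimensional n
  have := Char0.isSeparable_jBar n
  exact FFSep.finite_riemannRochSpace (FibreCount.transcendental_jBar n) B

/-- **Riemann's theorem at level `n`** (torsion-free): Riemann's inequality for every divisor,
and equality for all divisors of large degree, with `12 (1 - g) = 6 cusps(n) - ψ(n)`. -/
theorem riemann (hTF : 4 ∣ n ∨ 9 ∣ n) :
    (∀ B : Divisor Kbar (FN n),
      12 * Divisor.degree B - (dedekindPsi n : ℤ) + 6 * (cuspCount n : ℤ)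
        ≤ 12 * (Module.finrank Kbar (riemannRochSpace B) : ℤ)) ∧
    ∃ d₀ : ℤ, ∀ B : Divisor Kbar (FN n), d₀ ≤ Divisor.degree B →
      12 * (Module.finrank Kbar (riemannRochSpace B) : ℤ)
        = 12 * Divisor.degree B - (dedekindPsi n : ℤ) + 6 * (cuspCount n : ℤ) := by
  have := FibreCount.finiteDimensional n
  have := Char0.isSeparable_jBar n
  have hxt := FibreCount.transcendental_jBar n
  obtain ⟨γ, c₀, hγ, hc₀⟩ := RR0.exists_gamma n hTF
  obtain ⟨Cp, hCp, hdeg⟩ := Char0.exists_poleDivisor_jBar n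
  have hψ : (0 : ℤ) < (dedekindPsi n : ℤ) := by exact_mod_cast FibreCount.dedekindPsi_pos n
  have hgen : RiemannAbstract.IsGenus (Divisor.degree (K := Kbar) (F := FN n))
      (fun B => (Module.finrank Kbar (riemannRochSpace B) : ℤ)) (1 - γ) := by
    refine RiemannAbstract.isGenus_of_base (FFSep.riemannSetup hxt) Cp (by rw [hdeg]; exact hψ)
      (1 - γ) c₀ (fun c hc => ?_)
    have h1 := (hc₀ c hc (c • Cp) (fun v => by rw [Finsupp.smul_apply, hCp, nsmul_eq_mul])).2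
    show (Module.finrank Kbar (riemannRochSpace (c • Cp)) : ℤ) = _
    rw [h1, hdeg]
    ring
  obtain ⟨d₀, hd₀⟩ := hgen.exists_forall_eq (FFSep.riemannSetup hxt)
  refine ⟨fun B => ?_, d₀, fun B hB => ?_⟩
  · have h1 := hgen.1 B
    linarith
  · have h1 := hd₀ B hB
    linarith

/-- Riemann's inequality at level `n`. -/
theorem riemann_ge (hTF : 4 ∣ n ∨ 9 ∣ n) (B : Divisor Kbar (FN n)) :
    12 * Divisor.degree B - (dedekindPsi n : ℤ) + 6 * (cuspCount n : ℤ)
      ≤ 12 * (Module.finrank Kbar (riemannRochSpace B) : ℤ) :=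
  (riemann n hTF).1 B

/-- **Riemann's equality at level `n`** for all divisors of large degree. -/
theorem riemann_eq (hTF : 4 ∣ n ∨ 9 ∣ n) :
    ∃ d₀ : ℤ, ∀ B : Divisor Kbar (FN n), d₀ ≤ Divisor.degree B →
      Module.Finite Kbar (riemannRochSpace B) ∧
      12 * (Module.finrank Kbar (riemannRochSpace B) : ℤ)
        = 12 * Divisor.degree B - (dedekindPsi n : ℤ) + 6 * (cuspCount n : ℤ) := by
  obtain ⟨d₀, hd₀⟩ := (riemann n hTF).2
  exact ⟨d₀, fun B hB => ⟨finite_rr n B, hd₀ B hB⟩⟩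

end Char0

/-! ## The `pullRR` form -/

section Pull

variable (n : ℕ)

/-- `Plan.pullRR n n B` is the image in `Q̄((q))` of the Riemann–Roch space `L_{F_n}(B)`. -/
theorem pullRR_self (B : Divisor Kbar (FN n)) :
    pullRR n n B = (riemannRochSpace B).map (RR0.inclLin n) := by
  apply le_antisymm
  · rintro g ⟨hg, hint⟩
    refine ⟨⟨g, hg⟩, ?_, rfl⟩
    set y : FN n := ⟨g, hg⟩ with hy
    show y ∈ riemannRochSpace B
    rw [mem_riemannRochSpace_iff]
    intro v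
    by_cases hy0 : y = 0
    · exact Or.inl hy0
    right
    obtain ⟨t, ht, hvt⟩ := PullLocal.exists_ord_eq v (B v)
    have h1 : IsIntegral (placeRing v) ((t : Om) * g) := hint v t ht hvt.ge
    have h2 : IsIntegral (v.toValuationSubring.toSubring.map (algebraMap (FN n) Om))
        (algebraMap (FN n) Om (t * y)) := by
      rw [map_mul]
      exact h1
    obtain ⟨p, hp, hpz⟩ := RR0.isIntegral_of_map (algebraMap (FN n) Om)
      (algebraMap (FN n) Om).injective _ _ h2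
    have h4 : IsIntegral v.toValuationSubring (t * y) := ⟨p, hp, hpz⟩
    obtain ⟨z, hz⟩ := IsIntegrallyClosed.isIntegral_iff.mp h4
    have h5 : t * y ∈ v.toValuationSubring := by
      rw [← hz]
      exact z.2
    rw [FFPlaces.mem_iff_ord_nonneg v (mul_ne_zero ht hy0), v.ord_mul ht hy0, hvt] at h5
    linarith
  · rintro _ ⟨f, hf, rfl⟩
    exact PullPlan.coe_mem_pullRR (le_refl (modularFunctionFieldBar n)) hf

/-- `finrank (pullRR n n B) = l_{F_n}(B)`. -/
theorem finrank_pullRR_self (B : Divisor Kbar (FN n)) :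
    Module.finrank Kbar (pullRR n n B) = Module.finrank Kbar (riemannRochSpace B) := by
  rw [pullRR_self]
  exact (Submodule.equivMapOfInjective (RR0.inclLin n) (RR0.inclLin_injective (N' := n))
    (riemannRochSpace B)).finrank_eq.symm

variable [NeZero n]

/-- Finite-dimensionality of `pullRR n n B`. -/
theorem finite_pullRR_self (B : Divisor Kbar (FN n)) : Module.Finite Kbar (pullRR n n B) := by
  have := finite_rr n B
  rw [pullRR_self]
  exact Module.Finite.equiv (Submodule.equivMapOfInjective (RR0.inclLin n)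
    (RR0.inclLin_injective (N' := n)) (riemannRochSpace B))

/-- Riemann's inequality at level `n`, `pullRR` form. -/
theorem riemann_ge_pull (hTF : 4 ∣ n ∨ 9 ∣ n) (B : Divisor Kbar (FN n)) :
    12 * Divisor.degree B - (dedekindPsi n : ℤ) + 6 * (cuspCount n : ℤ)
      ≤ 12 * (Module.finrank Kbar (pullRR n n B) : ℤ) := by
  rw [finrank_pullRR_self]
  exact riemann_ge n hTF B

/-- **Riemann's equality at level `n`**, `pullRR` form. -/
theorem riemann_eq_pull (hTF : 4 ∣ n ∨ 9 ∣ n) :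
    ∃ d₀ : ℤ, ∀ B : Divisor Kbar (FN n), d₀ ≤ Divisor.degree B →
      Module.Finite Kbar (pullRR n n B) ∧
      12 * (Module.finrank Kbar (pullRR n n B) : ℤ)
        = 12 * Divisor.degree B - (dedekindPsi n : ℤ) + 6 * (cuspCount n : ℤ) := by
  obtain ⟨d₀, hd₀⟩ := riemann_eq n hTF
  refine ⟨d₀, fun B hB => ⟨finite_pullRR_self n B, ?_⟩⟩
  rw [finrank_pullRR_self]
  exact (hd₀ B hB).2

end Pull

/-! ## The divisor `E = (j)_∞ + (σ j)_∞` -/

section Sigma

variable {K F : Type*} [Field K] [Field F] [Algebra K F]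

/-- An automorphism `σ` of `F / K` identifies `F / K(x)` with `F / K(σ x)`. -/
theorem finrank_adjoin_algEquiv (σ : F ≃ₐ[K] F) (x : F) :
    Module.finrank K⟮σ x⟯ F = Module.finrank K⟮x⟯ F := by
  have hmap : K⟮x⟯.map (σ : F →ₐ[K] F) = K⟮σ x⟯ := by
    rw [IntermediateField.adjoin_map, Set.image_singleton]
    rfl
  let e₁ : K⟮x⟯ ≃+* K⟮σ x⟯ :=
    ((K⟮x⟯.equivMap (σ : F →ₐ[K] F)).trans (IntermediateField.equivOfEq hmap)).toRingEquiv
  exact (Algebra.finrank_eq_of_equiv_equiv e₁ σ.toRingEquiv (by ext r; rfl)).symm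

variable (n : ℕ) [NeZero n]

/-- The pole divisor of `σ j` on `F_n` has degree `ψ(n)`, for every automorphism `σ` of
`F_n / Q̄`. -/
theorem degree_poleDivisor_algEquiv (σ : FN n ≃ₐ[Kbar] FN n) (C : Divisor Kbar (FN n))
    (hC : ∀ P, C P = max 0 (-(P.ord (σ (jBar n))))) :
    Divisor.degree C = (dedekindPsi n : ℤ) := by
  have hfr : Module.finrank Kbar⟮σ (jBar n)⟯ (FN n) = dedekindPsi n := by
    rw [finrank_adjoin_algEquiv, FibreCount.finrank_eq n]
  have : Module.Free Kbar⟮σ (jBar n)⟯ (FN n) := Module.Free.of_divisionRing _ _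
  have : FiniteDimensional Kbar⟮σ (jBar n)⟯ (FN n) :=
    Module.finite_of_finrank_pos (by rw [hfr]; exact FibreCount.dedekindPsi_pos n)
  have : CharZero Kbar⟮σ (jBar n)⟯ :=
    charZero_of_injective_algebraMap (algebraMap Kbar Kbar⟮σ (jBar n)⟯).injective
  have : Algebra.IsAlgebraic Kbar⟮σ (jBar n)⟯ (FN n) := Algebra.IsAlgebraic.of_finite _ _
  have : Algebra.IsSeparable Kbar⟮σ (jBar n)⟯ (FN n) :=
    Algebra.IsAlgebraic.isSeparable_of_perfectField
  have hyt : Transcendental Kbar (σ (jBar n)) := fun h =>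
    FibreCount.transcendental_jBar n
      ((isAlgebraic_algHom_iff (σ : FN n →ₐ[Kbar] FN n) σ.injective).mp h)
  rw [FFPoles.degree_poleDivisor hyt C hC, hfr]

/-- **Riemann's equality for `D + c E`**, `E = (j)_∞ + (σ j)_∞`, `deg D = 0`, `c ≥ c₀`:
`12 · l(D + c E) = 24 c ψ(n) - ψ(n) + 6 cusps(n)`. -/
theorem riemann_eq_E (hTF : 4 ∣ n ∨ 9 ∣ n) (σ : FN n ≃ₐ[Kbar] FN n) :
    ∃ c₀ : ℕ, ∀ c : ℕ, c₀ ≤ c → ∀ Cp Cq D : Divisor Kbar (FN n),
      (∀ P, Cp P = max 0 (-(P.ord (jBar n)))) →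
      (∀ P, Cq P = max 0 (-(P.ord (σ (jBar n))))) → Divisor.degree D = 0 →
      Module.Finite Kbar (riemannRochSpace (D + c • (Cp + Cq))) ∧
      12 * (Module.finrank Kbar (riemannRochSpace (D + c • (Cp + Cq))) : ℤ)
        = 24 * (c : ℤ) * (dedekindPsi n : ℤ) - (dedekindPsi n : ℤ) + 6 * (cuspCount n : ℤ) := by
  obtain ⟨d₀, hd₀⟩ := riemann_eq n hTF
  refine ⟨d₀.toNat, fun c hc Cp Cq D hCp hCq hD => ?_⟩
  have hψ : (1 : ℤ) ≤ (dedekindPsi n : ℤ) := by exact_mod_cast FibreCount.dedekindPsi_pos n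
  have hdeg : Divisor.degree (D + c • (Cp + Cq)) = 2 * (c : ℤ) * (dedekindPsi n : ℤ) := by
    rw [map_add, map_nsmul, map_add, hD, SurjFree.degree_poleDivisor n Cp hCp,
      degree_poleDivisor_algEquiv n σ Cq hCq, nsmul_eq_mul]
    ring
  have hc' : d₀ ≤ (c : ℤ) := by
    have := Int.self_le_toNat d₀
    have : ((d₀.toNat : ℕ) : ℤ) ≤ (c : ℤ) := by exact_mod_cast hc
    omega
  have hge : d₀ ≤ Divisor.degree (D + c • (Cp + Cq)) := by
    rw [hdeg]
    have hc0 : (0 : ℤ) ≤ (c : ℤ) := Nat.cast_nonneg c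
    nlinarith
  obtain ⟨hfin, hdim⟩ := hd₀ _ hge
  refine ⟨hfin, ?_⟩
  rw [hdim, hdeg]
  ring

end Sigma

/-! ## Characteristic `ℓ` -/

section CharL

set_option synthInstance.maxHeartbeats 400000 in
set_option maxHeartbeats 1000000 in
/-- **The exact count in characteristic `ℓ`** at a torsion-free level `n` prime to `ℓ`: for `c`
large, `12 · dim_k WJ_k(F_{n,k}, c) = 12 c ψ(n) - ψ(n) + 6 cusps(n)`, and `WJ_k(F_{n,k}, c)` is the
reduction of `L_{F_n}(c (j)_∞) ∩ Ocal`. -/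
theorem finrank_WJ_eq (n : ℕ) [NeZero n] (ℓ : ℕ) [Fact ℓ.Prime] (hℓ : ¬ ℓ ∣ n)
    (hTF : 4 ∣ n ∨ 9 ∣ n) (A : ValuationSubring Kbar) (hA : A.LiesOverPrime ℓ) :
    ∃ c₀ : ℕ, ∀ c : ℕ, c₀ ≤ c →
      Module.Finite (kk A) (WJ (kk A) (Fk A n) c) ∧
      12 * (Module.finrank (kk A) (WJ (kk A) (Fk A n) c) : ℤ)
        = 12 * (c : ℤ) * (dedekindPsi n : ℤ) - (dedekindPsi n : ℤ) + 6 * (cuspCount n : ℤ) ∧
      ∀ Cp₁ : Divisor Kbar (FN 1), (∀ P, Cp₁ P = max 0 (-(P.ord (jBar 1)))) →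
        redSp A (pullRR 1 n (c • Cp₁)) = WJ (kk A) (Fk A n) c := by
  obtain ⟨c₀, hc₀⟩ := SurjFree.rrl_of_dvd A n ℓ hℓ hTF hA
  refine ⟨c₀, fun c hc => ?_⟩
  obtain ⟨hfin, hbound⟩ := hc₀ c hc
  have key : ∀ Cp₁ : Divisor Kbar (FN 1), (∀ P, Cp₁ P = max 0 (-(P.ord (jBar 1)))) →
      redSp A (pullRR 1 n (c • Cp₁)) = WJ (kk A) (Fk A n) c ∧
        Module.finrank Kbar (pullRR 1 n (c • Cp₁))
          = Module.finrank (kk A) (WJ (kk A) (Fk A n) c) := fun Cp₁ hCp₁ =>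
    SurjFree.redSp_pullRR_eq0 A 1 n (FibreCount.dedekindPsi_pos 1)
      (CharStmt.charStmt 1 n (one_dvd n) ℓ hℓ A hA) (InclFree.inclF0_one A)
      (Red.redStmt n ℓ hℓ A hA) (CharStmt.fk_le A (one_dvd n)) (RR0.rr0 1 n (one_dvd n) hTF)
      Cp₁ c hCp₁ (SurjFree.degree_poleDivisor 1 Cp₁ hCp₁) hfin hbound
  refine ⟨hfin, ?_, fun Cp₁ hCp₁ => (key Cp₁ hCp₁).1⟩
  obtain ⟨Cp₁, hCp₁, hdeg⟩ := Char0.exists_poleDivisor_jBar 1
  have hrr := (RR0.rr0 1 n (one_dvd n) hTF (c • Cp₁)).2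
  rw [(key Cp₁ hCp₁).2, map_nsmul, hdeg, dedekindPsi_one, nsmul_eq_mul] at hrr
  push_cast at hrr
  linarith

end CharL

end Fermat.Agent.S34.RRExact

end
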