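import Mathlib
import Fermat.Agent.S34.RRExact
import Fermat.Agent.Lib.FFRel

/-!
# P6 / S34 — [RR]: Riemann's equality for pull-back spaces (helper76)

For `N ∣ N'`:

* `pullRR_eq_pullback` : `Plan.pullRR N N' B` is the image of `L_{F_{N'}}(π^* B)`, `π^* B` the
  Prelude pull-back divisor (`Divisor.pullback`) along `F_N ⊆ F_{N'}`;
* `exists_pullback` : the same without instances in the statement: there is a divisor `B'` of
  `F_{N'}` with `ψ(N) deg B' = ψ(N') deg B` and `pullRR N N' B = L(B')`;
* `riemann_eq_pullRR` : for `N'` torsion-free, **Riemann's equality**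
  `12 ψ(N) dim pullRR N N' B = 12 ψ(N') deg B + ψ(N) (6 cusps(N') - ψ(N'))` for every divisor `B`
  of `F_N` of degree `≥ d₀` (the equality case of `S18.Plan.RR0 N N'`);
* `finrank_pullRR_add_eq` : hence `dim pullRR N N' (D + B) = dim pullRR N N' B` for `deg D = 0`
  and `deg B ≥ d₀`.
-/

set_option autoImplicit false
set_option linter.style.haveILetI false

noncomputable section

namespace Fermat.Agent.S34.RRPull

open ModularCurve AlgebraicCurve IntermediateField Fermat.Agent.S24 Fermat.Agent.S18.Content
  Fermat.Agent.S18.Plan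
open Fermat.Agent.S18 Fermat.Agent.Lib Fermat.Agent.S18.RR0 Fermat.Agent.Lib.FFRel
open IsDedekindDomain

variable {N N' : ℕ} [NeZero N] [NeZero N']

set_option synthInstance.maxHeartbeats 400000 in
set_option maxHeartbeats 1000000 in
/-- **General pull-back**: for `N ∣ N'`, `pullRR N N' B` is the image in `Q̄((q))` of the
Riemann–Roch space of the pull-back divisor `π^* B` on `F_{N'}`. -/
theorem pullRR_eq_pullback (hdiv : N ∣ N') (B : Divisor Kbar (FN N)) :
    letI : Algebra (FN N) (FN N') := levelAlgebra hdiv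
    haveI : IsScalarTower Kbar (FN N) (FN N') := levelScalarTower hdiv
    haveI : FiniteDimensional (FN N) (FN N') := finiteDimensional_level hdiv
    haveI : Algebra.IsIntegral (FN N) (FN N') := Algebra.IsIntegral.of_finite (FN N) (FN N')
    haveI : HasPrincipalDivisors Kbar (FN N') := FFRel.hasPrincipalDivisors Kbar (FN N')
    pullRR N N' B = (riemannRochSpace (Divisor.pullback (FN N') B)).map (inclLin N') := by
  letI : Algebra (FN N) (FN N') := levelAlgebra hdiv
  haveI : IsScalarTower Kbar (FN N) (FN N') := levelScalarTower hdiv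
  haveI : FiniteDimensional (FN N) (FN N') := finiteDimensional_level hdiv
  haveI : Algebra.IsIntegral (FN N) (FN N') := Algebra.IsIntegral.of_finite (FN N) (FN N')
  haveI : HasPrincipalDivisors Kbar (FN N') := FFRel.hasPrincipalDivisors Kbar (FN N')
  show pullRR N N' B = (riemannRochSpace (Divisor.pullback (FN N') B)).map (inclLin N')
  have hord : ∀ (v : Place Kbar (FN N')) (f : FN N), v.ord (algebraMap (FN N) (FN N') f)
      = Place.ramificationIndex (F := FN N) v * (v.restrict (FN N)).ord f :=
    fun v f => v.ord_restrict f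
  apply le_antisymm
  · rintro g ⟨hg, hint⟩
    refine ⟨⟨g, hg⟩, ?_, inclLin_apply _⟩
    rw [SetLike.mem_coe, mem_riemannRochSpace_iff]
    intro v
    by_cases hy0 : (⟨g, hg⟩ : FN N') = 0
    · exact Or.inl hy0
    right
    obtain ⟨t, ht, hvt⟩ := PullLocal.exists_ord_eq (v.restrict (FN N)) (B (v.restrict (FN N)))
    have h1 := hint (v.restrict (FN N)) t ht hvt.ge
    have h2 : algebraMap (FN N) (FN N') t * (⟨g, hg⟩ : FN N') ∈ v.toValuationSubring :=
      mem_of_isIntegral_placeRing hdiv v (v.restrict (FN N))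
        (fun f hf => (v.mem_restrict_iff).mp hf) t ⟨g, hg⟩ h1
    have hne0 : algebraMap (FN N) (FN N') t ≠ 0 := by
      rw [Ne, map_eq_zero]
      exact ht
    have h3 := (FFPlaces.mem_iff_ord_nonneg v (mul_ne_zero hne0 hy0)).mp h2
    rw [v.ord_mul hne0 hy0, hord, hvt] at h3
    rw [Divisor.pullback_apply]
    linarith
  · rintro _ ⟨y, hy, rfl⟩
    rw [SetLike.mem_coe, mem_riemannRochSpace_iff] at hy
    refine ⟨y.2, fun P t ht hB => ?_⟩
    rw [inclLin_apply]
    -- `t * y` is integral over `O_P`
    have hint : IsIntegral P.toValuationSubring (algebraMap (FN N) (FN N') t * y) := by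
      by_cases hy0 : y = 0
      · rw [hy0, mul_zero]
        exact isIntegral_zero
      have hne0 : algebraMap (FN N) (FN N') t ≠ 0 := by
        rw [Ne, map_eq_zero]
        exact ht
      have hmem : algebraMap (FN N) (FN N') t * y ∈
          (algebraMap (relRing (FN N') P) (FN N')).range := by
        refine HeightOneSpectrum.mem_integers_of_valuation_le_one (FN N') _ (fun Q => ?_)
        have hw : (placeOfPrime (FN N') P Q).restrict (FN N) = P :=
          restrict_placeOfPrime (FN N') P Q
        have h1 := (hy (placeOfPrime (FN N') P Q)).resolve_left hy0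
        rw [Divisor.pullback_apply, hw] at h1
        have h2 : 0 ≤ (placeOfPrime (FN N') P Q).ord (algebraMap (FN N) (FN N') t * y) := by
          rw [(placeOfPrime (FN N') P Q).ord_mul hne0 hy0, hord, hw]
          have he : (0 : ℤ) ≤ (Place.ramificationIndex (F := FN N)
              (placeOfPrime (FN N') P Q) : ℤ) := Nat.cast_nonneg _
          nlinarith
        have h3 := (FFPlaces.mem_iff_ord_nonneg (placeOfPrime (FN N') P Q)
          (mul_ne_zero hne0 hy0)).mpr h2
        rw [placeOfPrime_toValuationSubring, Valuation.mem_valuationSubring_iff] at h3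
        exact h3
      obtain ⟨b, hb⟩ := hmem
      rw [← hb]
      exact b.2
    have hS : ∀ r : P.toValuationSubring,
        algebraMap (FN N') Om (algebraMap P.toValuationSubring (FN N') r) ∈ placeRing P := by
      intro r
      have h1 : algebraMap P.toValuationSubring (FN N') r
          = algebraMap (FN N) (FN N') (r : FN N) := rfl
      rw [h1]
      refine ⟨(r : FN N), r.2, ?_⟩
      rw [IntermediateField.algebraMap_apply, IntermediateField.algebraMap_apply]
      exact (coe_levelAlgebraMap hdiv (r : FN N)).symm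
    have h4 : IsIntegral (placeRing P)
        (algebraMap (FN N') Om (algebraMap (FN N) (FN N') t * y)) :=
      isIntegral_subring_of_algebra (algebraMap (FN N') Om) (placeRing P) hS hint
    have e : algebraMap (FN N') Om (algebraMap (FN N) (FN N') t * y) = (t : Om) * (y : Om) := by
      rw [map_mul, IntermediateField.algebraMap_apply, IntermediateField.algebraMap_apply,
        coe_levelAlgebraMap hdiv t]
    rw [e] at h4
    exact h4

set_option synthInstance.maxHeartbeats 400000 in
set_option maxHeartbeats 1000000 in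
/-- The pull-back in existential form (no instances in the statement): for `N ∣ N'` and a divisor
`B` of `F_N` there is a divisor `B'` of `F_{N'}` with `ψ(N) deg B' = ψ(N') deg B` and
`pullRR N N' B = L_{F_{N'}}(B')`. -/
theorem exists_pullback (hdiv : N ∣ N') (B : Divisor Kbar (FN N)) :
    ∃ B' : Divisor Kbar (FN N'),
      (dedekindPsi N : ℤ) * Divisor.degree B' = (dedekindPsi N' : ℤ) * Divisor.degree B ∧
      pullRR N N' B = (riemannRochSpace B').map (inclLin N') := by
  letI : Algebra (FN N) (FN N') := levelAlgebra hdiv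
  haveI : IsScalarTower Kbar (FN N) (FN N') := levelScalarTower hdiv
  haveI : FiniteDimensional (FN N) (FN N') := finiteDimensional_level hdiv
  haveI : Algebra.IsIntegral (FN N) (FN N') := Algebra.IsIntegral.of_finite (FN N) (FN N')
  haveI : HasPrincipalDivisors Kbar (FN N') := FFRel.hasPrincipalDivisors Kbar (FN N')
  haveI : FundamentalIdentity Kbar (FN N) (FN N') :=
    FFRel.fundamentalIdentity Kbar (FN N) (FN N')
  refine ⟨Divisor.pullback (FN N') B, ?_, pullRR_eq_pullback hdiv B⟩
  rw [Divisor.degree_pullback, ← mul_assoc]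
  congr 1
  have h := finrank_level_mul hdiv
  rw [mul_comm]
  exact_mod_cast h

/-- `pullRR N N' B` is finite dimensional (`N ∣ N'`). -/
theorem finite_pullRR (hdiv : N ∣ N') (B : Divisor Kbar (FN N)) :
    Module.Finite Kbar (pullRR N N' B) := by
  obtain ⟨B', -, hB'⟩ := exists_pullback hdiv B
  have := RRExact.finite_rr N' B'
  rw [hB']
  exact Module.Finite.equiv (Submodule.equivMapOfInjective (inclLin N')
    (inclLin_injective (N' := N')) (riemannRochSpace B'))

/-- **Riemann's equality for pull-back spaces**: for `N ∣ N'`, `N'` torsion-free, and every divisor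
`B` of `F_N` of degree `≥ d₀`:
`12 ψ(N) dim pullRR N N' B = 12 ψ(N') deg B + ψ(N) (6 cusps(N') - ψ(N'))`
(the equality case of `S18.Plan.RR0 N N'`). -/
theorem riemann_eq_pullRR (hdiv : N ∣ N') (hTF : 4 ∣ N' ∨ 9 ∣ N') :
    ∃ d₀ : ℤ, ∀ B : Divisor Kbar (FN N), d₀ ≤ Divisor.degree B →
      Module.Finite Kbar (pullRR N N' B) ∧
      12 * (dedekindPsi N : ℤ) * (Module.finrank Kbar (pullRR N N' B) : ℤ)
        = 12 * (dedekindPsi N' : ℤ) * Divisor.degree B
          + (dedekindPsi N : ℤ) * (6 * (cuspCount N' : ℤ) - (dedekindPsi N' : ℤ)) := by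
  obtain ⟨d₀, hd₀⟩ := RRExact.riemann_eq N' hTF
  refine ⟨max d₀ 0, fun B hB => ⟨finite_pullRR hdiv B, ?_⟩⟩
  obtain ⟨B', hdeg, hB'⟩ := exists_pullback hdiv B
  have hψ : (0 : ℤ) < (dedekindPsi N : ℤ) := by exact_mod_cast FibreCount.dedekindPsi_pos N
  have hψle : (dedekindPsi N : ℤ) ≤ (dedekindPsi N' : ℤ) := by
    have h1 : dedekindPsi N ∣ dedekindPsi N' := by
      letI : Algebra (FN N) (FN N') := levelAlgebra hdiv
      exact Dvd.intro_left _ (finrank_level_mul hdiv)
    exact_mod_cast Nat.le_of_dvd (FibreCount.dedekindPsi_pos N') h1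
  have hB0 : (0 : ℤ) ≤ Divisor.degree B := le_trans (le_max_right _ _) hB
  have hBd : d₀ ≤ Divisor.degree B := le_trans (le_max_left _ _) hB
  -- `deg B' ≥ deg B ≥ d₀`
  have hdeg' : d₀ ≤ Divisor.degree B' := by
    have h1 : (dedekindPsi N : ℤ) * Divisor.degree B ≤ (dedekindPsi N : ℤ) * Divisor.degree B' := by
      rw [hdeg]
      exact mul_le_mul_of_nonneg_right hψle hB0
    exact le_trans hBd (le_of_mul_le_mul_left h1 hψ)
  have hfr : Module.finrank Kbar (pullRR N N' B) = Module.finrank Kbar (riemannRochSpace B') := by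
    rw [hB']
    exact (Submodule.equivMapOfInjective (inclLin N') (inclLin_injective (N' := N'))
      (riemannRochSpace B')).finrank_eq.symm
  have h2 := (hd₀ B' hdeg').2
  rw [hfr]
  linear_combination (dedekindPsi N : ℤ) * h2 + 12 * hdeg

/-- Hence `dim pullRR N N' (D + B) = dim pullRR N N' B` for `deg D = 0` and `deg B ≥ d₀`. -/
theorem finrank_pullRR_add_eq (hdiv : N ∣ N') (hTF : 4 ∣ N' ∨ 9 ∣ N') :
    ∃ d₀ : ℤ, ∀ B : Divisor Kbar (FN N), d₀ ≤ Divisor.degree B →
      ∀ D : Divisor Kbar (FN N), Divisor.degree D = 0 →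
        Module.finrank Kbar (pullRR N N' (D + B)) = Module.finrank Kbar (pullRR N N' B) := by
  obtain ⟨d₀, hd₀⟩ := riemann_eq_pullRR hdiv hTF
  refine ⟨d₀, fun B hB D hD => ?_⟩
  have hψ : (0 : ℤ) < (dedekindPsi N : ℤ) := by exact_mod_cast FibreCount.dedekindPsi_pos N
  have hdeg : Divisor.degree (D + B) = Divisor.degree B := by rw [map_add, hD, zero_add]
  have h1 := (hd₀ (D + B) (by rw [hdeg]; exact hB)).2
  have h2 := (hd₀ B hB).2
  rw [hdeg] at h1
  have h3 : 12 * (dedekindPsi N : ℤ) * (Module.finrank Kbar (pullRR N N' (D + B)) : ℤ)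
      = 12 * (dedekindPsi N : ℤ) * (Module.finrank Kbar (pullRR N N' B) : ℤ) := by
    rw [h1, h2]
  have h4 : (Module.finrank Kbar (pullRR N N' (D + B)) : ℤ)
      = (Module.finrank Kbar (pullRR N N' B) : ℤ) :=
    mul_left_cancel₀ (by positivity : (12 * (dedekindPsi N : ℤ)) ≠ 0) h3
  exact_mod_cast h4

end Fermat.Agent.S34.RRPull

end
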