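import Mathlib
import Fermat.Agent.S18.RR0
import Fermat.Agent.Lib.FFSep.LSpace
import Fermat.Agent.Lib.RiemannAbstract

/-!
# S34 — Riemann's theorem on `F_n` with the Hurwitz constant (helper77)

For a torsion-free level `n` (`4 ∣ n` or `9 ∣ n`), on `F_n = Q̄(X₀(n))`:

* `L(B)` is finite dimensional for every divisor `B`;
* `deg B + γ ≤ l(B)` for every `B` (Riemann's inequality);
* `l(B) = deg B + γ` for every `B` of degree `≥ d₀` (Riemann's EQUALITY — for arbitrary divisors,
  not only the multiples of `(j)_∞`);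
* `12 γ = 6 c'(n) - ψ(n)` (`γ = 1 - g`, Hurwitz).

This is `Lib/RiemannAbstract` (`isGenus_of_base`, `IsGenus.exists_forall_eq`) applied to the exact
Dedekind–Weber formula `RR0.exists_gamma` at the multiples of `(j)_∞`.  In P6 it gives
`l(D + c E) = l(c E) = c deg E + γ` for `deg D = 0`, `E = (j)_∞ + (j_q)_∞`, `c ≫ 0`.
-/

set_option autoImplicit false

namespace Fermat.Agent.S34.RiemannLevel

open IntermediateField ModularCurve AlgebraicCurve Fermat.Agent.S24 Fermat.Agent.S18
open Fermat.Agent.Lib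

set_option synthInstance.maxHeartbeats 400000

set_option maxHeartbeats 1000000 in
/-- **Riemann's theorem on `F_n`** (`n` torsion-free), with the Hurwitz value of the constant. -/
theorem riemann_level (n : ℕ) [NeZero n] (hTF : 4 ∣ n ∨ 9 ∣ n) :
    ∃ γ d₀ : ℤ, 12 * γ = 6 * (cuspCount n : ℤ) - (dedekindPsi n : ℤ) ∧
      (∀ B : Divisor Kbar (FN n), Module.Finite Kbar (riemannRochSpace B)) ∧
      (∀ B : Divisor Kbar (FN n),
        Divisor.degree B + γ ≤ (Module.finrank Kbar (riemannRochSpace B) : ℤ)) ∧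
      ∀ B : Divisor Kbar (FN n), d₀ ≤ Divisor.degree B →
        (Module.finrank Kbar (riemannRochSpace B) : ℤ) = Divisor.degree B + γ := by
  classical
  have : FiniteDimensional Kbar⟮jBar n⟯ (FN n) := FibreCount.finiteDimensional n
  have : Algebra.IsSeparable Kbar⟮jBar n⟯ (FN n) := Char0.isSeparable_jBar n
  have hxt := FibreCount.transcendental_jBar n
  obtain ⟨γ, c₀, hγ, hbase⟩ := RR0.exists_gamma n hTF
  obtain ⟨C, hC⟩ := FFPoles.exists_poleDivisor (F := FN n) hxt
  have hdegC : Divisor.degree C = (dedekindPsi n : ℤ) := by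
    rw [FFPoles.degree_poleDivisor hxt C hC, FibreCount.finrank_eq]
  have hψ : (0 : ℤ) < (dedekindPsi n : ℤ) := by exact_mod_cast FibreCount.dedekindPsi_pos n
  have S := FFSep.riemannSetup (F := FN n) hxt
  have hb : ∀ c : ℕ, c₀ ≤ c →
      (Module.finrank Kbar (riemannRochSpace (c • C)) : ℤ)
        = c * Divisor.degree C + 1 - (1 - γ) := by
    intro c hc
    have h1 := (hbase c hc (c • C) (fun v => by
      rw [Finsupp.smul_apply, hC v, nsmul_eq_mul])).2
    rw [h1, hdegC]
    ring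
  have hG := RiemannAbstract.isGenus_of_base S C (by rw [hdegC]; exact hψ) (1 - γ) c₀ hb
  obtain ⟨d₀, hd₀⟩ := hG.exists_forall_eq S
  refine ⟨γ, d₀, hγ, fun B => FFSep.finite_riemannRochSpace hxt B, fun B => ?_, fun B hB => ?_⟩
  · have := hG.1 B
    linarith
  · have := hd₀ B hB
    linarith

/-- Corollary in the shape used by P6: for `deg D = 0` and `deg E > 0`,
`l(D + c E) = l(c E) = c deg E + γ` for all `c ≥ c₁`. -/
theorem finrank_add_nsmul (n : ℕ) [NeZero n] (hTF : 4 ∣ n ∨ 9 ∣ n) (E : Divisor Kbar (FN n))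
    (hE : 0 < Divisor.degree E) :
    ∃ (γ : ℤ) (c₁ : ℕ), 12 * γ = 6 * (cuspCount n : ℤ) - (dedekindPsi n : ℤ) ∧
      ∀ c : ℕ, c₁ ≤ c → ∀ D : Divisor Kbar (FN n), Divisor.degree D = 0 →
        (Module.finrank Kbar (riemannRochSpace (D + c • E)) : ℤ)
          = c * Divisor.degree E + γ := by
  obtain ⟨γ, d₀, hγ, -, -, heq⟩ := riemann_level n hTF
  refine ⟨γ, d₀.toNat, hγ, fun c hc D hD => ?_⟩
  have hdeg : Divisor.degree (D + c • E) = c * Divisor.degree E := by
    rw [map_add, map_nsmul, hD, zero_add, nsmul_eq_mul]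
  have h1 : d₀ ≤ Divisor.degree (D + c • E) := by
    rw [hdeg]
    have h2 : d₀ ≤ (d₀.toNat : ℤ) := Int.self_le_toNat d₀
    have h3 : ((d₀.toNat : ℕ) : ℤ) ≤ (c : ℤ) := by exact_mod_cast hc
    have h4 : (c : ℤ) ≤ c * Divisor.degree E := by
      have : (0 : ℤ) ≤ c := Int.natCast_nonneg c
      nlinarith
    omega
  rw [heq _ h1, hdeg]

end Fermat.Agent.S34.RiemannLevel
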