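/-
P6 / S34, leaf [SWAP-PULL] (helper39): equivariance of the pull-back Riemann–Roch spaces
`S18.Plan.pullRR N N₂ B` under an automorphism `σ` of the top field `F_{N₂}` which restricts to an
automorphism `w` of the base field `F_N` (the Atkin–Lehner involution):

  `g ∈ pullRR N N₂ B  →  σ g ∈ pullRR N N₂ (w • B)`      (`swap_pullRR`),

and its instance for `N = N' * q ≤ M * q`, `σ ∘ α = β`, `σ ∘ β = α`
(`w • (j)_∞ = (j_q)_∞`, `w • (j_q)_∞ = (j)_∞`, `w • E = E`), in the vocabulary of `S34/Plan.lean`: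
`exists_w_swap`, `swap_poleJ`, `swap_poleJq`, `swap_E`, `swap_add_E` and their `Plan.Levels` forms.
-/
import Mathlib
import Fermat.Agent.S34.Plan
import Fermat.Agent.S34.ALInvol
import Fermat.Agent.S18.PullStep

set_option autoImplicit false
set_option maxHeartbeats 400000

noncomputable section

namespace Fermat.Agent.S34.SwapPull

open ModularCurve AlgebraicCurve Fermat.Agent.S24 Fermat.Agent.S18 Fermat.Agent.S18.Plan
  Fermat.Agent.S18.Content

/-! ### Abstract: pull-back spaces under an automorphism of the tower -/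

section Abstract

open scoped Pointwise

variable {K F F' : Type*} [Field K] [Field F] [Field F'] [Algebra K F] [Algebra F F']

/-- Integrality over the local ring of a place is transported by a ring endomorphism of the top
field which restricts to an automorphism `w` of the base field: over `O_P` becomes over
`O_{w • P}`. -/
theorem isIntegral_swap (w : F ≃ₐ[K] F) (ψ : F' →+* F')
    (hψ : ∀ t : F, ψ (algebraMap F F' t) = algebraMap F F' (w t))
    (P : Place K F) {y : F'} (hy : IsIntegral ↥P.toValuationSubring y) :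
    IsIntegral ↥(w • P).toValuationSubring (ψ y) := by
  refine IsIntegral.map_of_comp_eq
    (Place.smulRingEquiv w P.toValuationSubring :
      ↥P.toValuationSubring →+* ↥(w • P.toValuationSubring)) ψ ?_ hy
  ext r
  exact (hψ (r : F)).symm

variable [Algebra K F'] [IsScalarTower K F F']

/-- **Swap, abstract form**: `g ∈ pullRR B → ψ g ∈ pullRR (w • B)`. -/
theorem swap_mem_pullRR (w : F ≃ₐ[K] F) (ψ : F' →+* F')
    (hψ : ∀ t : F, ψ (algebraMap F F' t) = algebraMap F F' (w t))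
    {B : Divisor K F} {g : F'} (hg : g ∈ PullLocal.pullRR F' B) :
    ψ g ∈ PullLocal.pullRR F' (w • B) := by
  rw [PullLocal.mem_pullRR]
  intro P t ht hB
  -- the place and the element before the swap
  have hne : w.symm t ≠ 0 := fun h => ht (by simpa using congrArg w h)
  have hord : (w⁻¹ • P).ord (w.symm t) = P.ord t := by
    have h := Place.ord_smul w (w⁻¹ • P) (w.symm t)
    rw [smul_inv_smul, AlgEquiv.apply_symm_apply] at h
    exact h.symm
  have hB' : B (w⁻¹ • P) ≤ (w⁻¹ • P).ord (w.symm t) := by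
    rw [hord, ← Divisor.smul_apply]
    exact hB
  have h1 := isIntegral_swap w ψ hψ (w⁻¹ • P) (hg (w⁻¹ • P) (w.symm t) hne hB')
  have h2 : ψ (w.symm t • g) = t • ψ g := by
    rw [Algebra.smul_def, Algebra.smul_def, map_mul, hψ, AlgEquiv.apply_symm_apply]
  rw [h2] at h1
  have key : ∀ Q : Place K F, Q = P → IsIntegral ↥Q.toValuationSubring (t • ψ g) →
      IsIntegral ↥P.toValuationSubring (t • ψ g) := by
    rintro Q rfl h
    exact h
  exact key _ (smul_inv_smul w P) h1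

end Abstract

/-! ### `S18.Plan.pullRR` under an endomorphism of the top field restricting to the base field -/

section PlanForm

variable {N N₂ : ℕ} (hle : modularFunctionFieldBar N ≤ modularFunctionFieldBar N₂)

/-- `Ext hle → F_{N₂}` (identity on carriers). -/
def toTop : ↥(PullPlan.Ext hle) →+* FN N₂ where
  toFun x := ⟨(x : Om), PullPlan.coe_mem hle x⟩
  map_one' := rfl
  map_mul' _ _ := rfl
  map_zero' := rfl
  map_add' _ _ := rfl

/-- `F_{N₂} → Ext hle` (identity on carriers). -/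
def ofTop : FN N₂ →+* ↥(PullPlan.Ext hle) where
  toFun x := ⟨(x : Om), (IntermediateField.mem_extendScalars hle).mpr x.2⟩
  map_one' := rfl
  map_mul' _ _ := rfl
  map_zero' := rfl
  map_add' _ _ := rfl

theorem coe_toTop (x : ↥(PullPlan.Ext hle)) : ((toTop hle x : FN N₂) : Om) = (x : Om) := rfl

theorem coe_ofTop (x : FN N₂) : ((ofTop hle x : ↥(PullPlan.Ext hle)) : Om) = (x : Om) := rfl

theorem coe_algebraMap_ext (t : FN N) :
    ((algebraMap (FN N) ↥(PullPlan.Ext hle) t : ↥(PullPlan.Ext hle)) : Om) = (t : Om) := by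
  have h1 := IsScalarTower.algebraMap_apply (FN N) ↥(PullPlan.Ext hle) Om t
  rw [IntermediateField.algebraMap_apply (PullPlan.Ext hle)] at h1
  rw [← h1]
  exact IntermediateField.algebraMap_apply (modularFunctionFieldBar N) t

include hle in
/-- **Swap, `pullRR` form.**  Let `σ` be a ring endomorphism of `F_{N₂}` and `w` an automorphism of
`F_N ⊆ F_{N₂}` with `σ|F_N = w`.  Then `g ∈ pullRR N N₂ B → σ g ∈ pullRR N N₂ (w • B)`
(`w • B` is the Prelude action of `Aut(F_N/Q̄)` on divisors). -/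
theorem swap_pullRR (σ : FN N₂ →+* FN N₂) (w : FN N ≃ₐ[Kbar] FN N)
    (hσw : ∀ (t : FN N) (h : (t : Om) ∈ modularFunctionFieldBar N₂),
      ((σ ⟨(t : Om), h⟩ : FN N₂) : Om) = ((w t : FN N) : Om))
    {B : Divisor Kbar (FN N)} (g : FN N₂) (hg : (g : Om) ∈ Plan.pullRR N N₂ B) :
    ((σ g : FN N₂) : Om) ∈ Plan.pullRR N N₂ (w • B) := by
  have h1 : ofTop hle g ∈ PullLocal.pullRR ↥(PullPlan.Ext hle) B := by
    rw [← PullPlan.mem_pullRR_iff hle B (ofTop hle g), coe_ofTop]
    exact hg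
  have hψ : ∀ t : FN N, ((ofTop hle).comp (σ.comp (toTop hle)))
      (algebraMap (FN N) ↥(PullPlan.Ext hle) t) = algebraMap (FN N) ↥(PullPlan.Ext hle) (w t) := by
    intro t
    apply Subtype.ext
    rw [RingHom.comp_apply, RingHom.comp_apply, coe_ofTop, coe_algebraMap_ext]
    have e : toTop hle (algebraMap (FN N) ↥(PullPlan.Ext hle) t) = ⟨(t : Om), hle t.2⟩ :=
      Subtype.ext ((coe_toTop hle _).trans (coe_algebraMap_ext hle t))
    rw [e]
    exact hσw t (hle t.2)
  have h2 := swap_mem_pullRR w ((ofTop hle).comp (σ.comp (toTop hle))) hψ h1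
  rw [← PullPlan.mem_pullRR_iff hle (w • B), RingHom.comp_apply, RingHom.comp_apply,
    coe_ofTop] at h2
  have e : toTop hle (ofTop hle g) = g := Subtype.ext ((coe_toTop hle _).trans (coe_ofTop hle g))
  rw [e] at h2
  exact h2

end PlanForm

/-! ### Plan vocabulary: the pole divisors of `j`, `j_q` and `E` under `w` -/

section Corollaries

variable {N N₂ q : ℕ} [NeZero N] [NeZero q] (hqN : q ∣ N)
  (w : FN N ≃ₐ[Kbar] FN N)
  (hwj : w (jBar N) = jBarLevel N q hqN) (hwjq : w (jBarLevel N q hqN) = jBar N)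

include hwj in
theorem ord_jBarLevel (P : Place Kbar (FN N)) :
    P.ord (jBarLevel N q hqN) = (w⁻¹ • P).ord (jBar N) := by
  have h := Place.ord_smul w (w⁻¹ • P) (jBar N)
  rw [smul_inv_smul, hwj] at h
  exact h

include hwjq in
theorem ord_jBar (P : Place Kbar (FN N)) :
    P.ord (jBar N) = (w⁻¹ • P).ord (jBarLevel N q hqN) := by
  have h := Place.ord_smul w (w⁻¹ • P) (jBarLevel N q hqN)
  rw [smul_inv_smul, hwjq] at h
  exact h

include hwj in
/-- `w • (j)_∞ = (j_q)_∞`. -/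
theorem smul_poleJ {Cj Cq : Divisor Kbar (FN N)} (hCj : Plan.IsPoleJ N Cj)
    (hCq : Plan.IsPoleJq N q hqN Cq) : w • Cj = Cq := by
  refine Finsupp.ext fun P => ?_
  rw [Divisor.smul_apply, hCj, hCq, ord_jBarLevel hqN w hwj P]

include hwjq in
/-- `w • (j_q)_∞ = (j)_∞`. -/
theorem smul_poleJq {Cj Cq : Divisor Kbar (FN N)} (hCj : Plan.IsPoleJ N Cj)
    (hCq : Plan.IsPoleJq N q hqN Cq) : w • Cq = Cj := by
  refine Finsupp.ext fun P => ?_
  rw [Divisor.smul_apply, hCj, hCq, ord_jBar hqN w hwjq P]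

include hwj hwjq in
/-- `w • E = E`. -/
theorem smul_E {E : Divisor Kbar (FN N)} (hE : Plan.IsE N q hqN E) : w • E = E := by
  refine Finsupp.ext fun P => ?_
  rw [Divisor.smul_apply, hE, hE, ord_jBarLevel hqN w hwj P, ord_jBar hqN w hwjq P, add_comm]

omit [NeZero N] in
theorem smul_nsmul_divisor (m : ℕ) (D : Divisor Kbar (FN N)) : w • (m • D) = m • (w • D) :=
  map_nsmul (DistribSMul.toAddMonoidHom (Divisor Kbar (FN N)) w) m D

variable (hle : modularFunctionFieldBar N ≤ modularFunctionFieldBar N₂)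
  (σ : FN N₂ →+* FN N₂)
  (hσw : ∀ (t : FN N) (h : (t : Om) ∈ modularFunctionFieldBar N₂),
      ((σ ⟨(t : Om), h⟩ : FN N₂) : Om) = ((w t : FN N) : Om))

include hle hσw hwj in
/-- `g ∈ L(m (j)_∞) → σ g ∈ L(m (j_q)_∞)`. -/
theorem swap_poleJ {Cj Cq : Divisor Kbar (FN N)} (hCj : Plan.IsPoleJ N Cj)
    (hCq : Plan.IsPoleJq N q hqN Cq) (m : ℕ) (g : FN N₂)
    (hg : (g : Om) ∈ Plan.pullRR N N₂ (m • Cj)) :
    ((σ g : FN N₂) : Om) ∈ Plan.pullRR N N₂ (m • Cq) := by
  have h := swap_pullRR hle σ w hσw g hg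
  rwa [smul_nsmul_divisor, smul_poleJ hqN w hwj hCj hCq] at h

include hle hσw hwjq in
/-- `g ∈ L(m (j_q)_∞) → σ g ∈ L(m (j)_∞)`. -/
theorem swap_poleJq {Cj Cq : Divisor Kbar (FN N)} (hCj : Plan.IsPoleJ N Cj)
    (hCq : Plan.IsPoleJq N q hqN Cq) (m : ℕ) (g : FN N₂)
    (hg : (g : Om) ∈ Plan.pullRR N N₂ (m • Cq)) :
    ((σ g : FN N₂) : Om) ∈ Plan.pullRR N N₂ (m • Cj) := by
  have h := swap_pullRR hle σ w hσw g hg
  rwa [smul_nsmul_divisor, smul_poleJq hqN w hwjq hCj hCq] at h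

include hle hσw hwj hwjq in
/-- `g ∈ L(D + cE) → σ g ∈ L(w • D + cE)`. -/
theorem swap_add_E {E : Divisor Kbar (FN N)} (hE : Plan.IsE N q hqN E)
    (D : Divisor Kbar (FN N)) (c : ℕ) (g : FN N₂)
    (hg : (g : Om) ∈ Plan.pullRR N N₂ (D + c • E)) :
    ((σ g : FN N₂) : Om) ∈ Plan.pullRR N N₂ (w • D + c • E) := by
  have h := swap_pullRR hle σ w hσw g hg
  rwa [smul_add, smul_nsmul_divisor, smul_E hqN w hwj hwjq hE] at h

include hle hσw hwj hwjq in
/-- `g ∈ L(cE) → σ g ∈ L(cE)`. -/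
theorem swap_E {E : Divisor Kbar (FN N)} (hE : Plan.IsE N q hqN E) (c : ℕ) (g : FN N₂)
    (hg : (g : Om) ∈ Plan.pullRR N N₂ (c • E)) :
    ((σ g : FN N₂) : Om) ∈ Plan.pullRR N N₂ (c • E) := by
  have h := swap_pullRR hle σ w hσw g hg
  rwa [smul_nsmul_divisor, smul_E hqN w hwj hwjq hE] at h

end Corollaries

/-! ### The Atkin–Lehner instance: base level `N' * q`, top level `M * q` -/

section Instance

open Fermat.Agent.Lib Fermat.Agent.S37.Kron.AtkinLehner

theorem coe_jBar (n : ℕ) [NeZero n] : ((jBar n : FN n) : Om) = coeffEmb Kbar jq := rfl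

theorem coe_jBarLevel (n d : ℕ) [NeZero n] [NeZero d] (hd : d ∣ n) :
    ((jBarLevel n d hd : FN n) : Om) = coeffEmb Kbar (qExpand ℚ d jq) := rfl

variable (N' M q : ℕ) [NeZero N'] [NeZero M] [NeZero q] [NeZero (N' * q)]

omit [NeZero M] in
theorem jBar_eq_alpha :
    jBar (N' * q) = heckeAlphaBar Kbar N' q (jBar N') := by
  apply Subtype.ext
  rw [coe_heckeAlphaBar, coe_jBar, coe_jBar]

omit [NeZero M] in
theorem jBarLevel_eq_beta (hqN : q ∣ N' * q) :
    jBarLevel (N' * q) q hqN = heckeBetaBar Kbar N' q (jBar N') := by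
  apply Subtype.ext
  rw [coe_heckeBetaBar, coe_jBar, coe_jBarLevel]
  exact coeffMap_qExpand (algebraMap ℚ Kbar) q jq

omit [NeZero M] in
/-- The Atkin–Lehner involution `w` of `F_{N' q}` with its action on `j`, `j_q`. -/
theorem exists_w (hq : q.Prime) (hc : Nat.Coprime N' q) (hqN : q ∣ N' * q) :
    ∃ w : FN (N' * q) ≃ₐ[Kbar] FN (N' * q),
      (∀ f, w (heckeAlphaBar Kbar N' q f) = heckeBetaBar Kbar N' q f) ∧
      (∀ f, w (heckeBetaBar Kbar N' q f) = heckeAlphaBar Kbar N' q f) ∧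
      (∀ x, w (w x) = x) ∧
      w (jBar (N' * q)) = jBarLevel (N' * q) q hqN ∧
      w (jBarLevel (N' * q) q hqN) = jBar (N' * q) := by
  obtain ⟨w, hα, hβ, hww⟩ := ALInvol.exists_atkinLehner_invol N' q hq hc
  refine ⟨w, hα, hβ, hww, ?_, ?_⟩
  · rw [jBar_eq_alpha, hα, jBarLevel_eq_beta]
  · rw [jBarLevel_eq_beta, hβ, jBar_eq_alpha]

variable {N' M q}

omit [NeZero (N' * q)] in
/-- **Compatibility**: an automorphism `σ` of `F_{M q}` exchanging the two degeneracy maps of
level `(M, q)` restricts on `F_{N' q}` (`N' ∣ M`) to any automorphism `w` exchanging the two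
degeneracy maps of level `(N', q)`. -/
theorem compat (hq : q.Prime) (hNM : N' ∣ M)
    (hle : modularFunctionFieldBar (N' * q) ≤ modularFunctionFieldBar (M * q))
    (σ : FN (M * q) ≃ₐ[Kbar] FN (M * q))
    (hα : ∀ f, σ (heckeAlphaBar Kbar M q f) = heckeBetaBar Kbar M q f)
    (hβ : ∀ f, σ (heckeBetaBar Kbar M q f) = heckeAlphaBar Kbar M q f)
    (w : FN (N' * q) ≃ₐ[Kbar] FN (N' * q))
    (hwα : ∀ f, w (heckeAlphaBar Kbar N' q f) = heckeBetaBar Kbar N' q f)
    (hwβ : ∀ f, w (heckeBetaBar Kbar N' q f) = heckeAlphaBar Kbar N' q f) (t : FN (N' * q)) :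
    σ (IntermediateField.inclusion hle t) = IntermediateField.inclusion hle (w t) := by
  have h3 : ((σ : FN (M * q) ≃ₐ[Kbar] FN (M * q)) : FN (M * q) →+* FN (M * q)).comp
      (IntermediateField.inclusion hle : FN (N' * q) →+* FN (M * q)) =
      (IntermediateField.inclusion hle : FN (N' * q) →+* FN (M * q)).comp
        ((w : FN (N' * q) ≃ₐ[Kbar] FN (N' * q)) : FN (N' * q) →+* FN (N' * q)) := by
    refine FFBridge.ringHom_ext (N' * q) _ _ (fun c => ?_) (fun e _ he => ?_)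
    · show σ (IntermediateField.inclusion hle (algebraMap _ _ c)) =
        IntermediateField.inclusion hle (w (algebraMap _ _ c))
      simp only [AlgHom.commutes, AlgEquiv.commutes]
    · show σ (IntermediateField.inclusion hle ⟨FFBridge.gen e, FFBridge.gen_mem he⟩) =
        IntermediateField.inclusion hle (w ⟨FFBridge.gen e, FFBridge.gen_mem he⟩)
      obtain ⟨d, m, hd, hm, rfl⟩ := Nat.dvd_mul.mp he
      have hd0 : d ≠ 0 := fun h0 => NeZero.ne N' (by rw [h0] at hd; exact zero_dvd_iff.mp hd)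
      have : NeZero d := ⟨hd0⟩
      have : NeZero (q * d) := ⟨Nat.mul_ne_zero (NeZero.ne q) hd0⟩
      have hdM : d ∣ M := hd.trans hNM
      rcases (Nat.dvd_prime hq).mp hm with hm1 | hmq
      · -- `e = d`
        have e1 : (⟨FFBridge.gen (d * m), FFBridge.gen_mem he⟩ : FN (N' * q)) =
            heckeAlphaBar Kbar N' q ⟨FFBridge.gen d, FFBridge.gen_mem hd⟩ := by
          rw [alpha_gen N' q hd]
          apply Subtype.ext
          show FFBridge.gen (d * m) = FFBridge.gen d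
          exact ALInvol.gen_congr (by rw [hm1, mul_one])
        have e2 : IntermediateField.inclusion hle
            (⟨FFBridge.gen (d * m), FFBridge.gen_mem he⟩ : FN (N' * q)) =
            heckeAlphaBar Kbar M q ⟨FFBridge.gen d, FFBridge.gen_mem hdM⟩ := by
          rw [alpha_gen M q hdM]
          apply Subtype.ext
          show FFBridge.gen (d * m) = FFBridge.gen d
          exact ALInvol.gen_congr (by rw [hm1, mul_one])
        rw [e2, hα, e1, hwα, beta_gen M q hdM, beta_gen N' q hd]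
        rfl
      · -- `e = d q`
        have e1 : (⟨FFBridge.gen (d * m), FFBridge.gen_mem he⟩ : FN (N' * q)) =
            heckeBetaBar Kbar N' q ⟨FFBridge.gen d, FFBridge.gen_mem hd⟩ := by
          rw [beta_gen N' q hd]
          apply Subtype.ext
          show FFBridge.gen (d * m) = FFBridge.gen (q * d)
          exact ALInvol.gen_congr (by rw [hmq, mul_comm])
        have e2 : IntermediateField.inclusion hle
            (⟨FFBridge.gen (d * m), FFBridge.gen_mem he⟩ : FN (N' * q)) =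
            heckeBetaBar Kbar M q ⟨FFBridge.gen d, FFBridge.gen_mem hdM⟩ := by
          rw [beta_gen M q hdM]
          apply Subtype.ext
          show FFBridge.gen (d * m) = FFBridge.gen (q * d)
          exact ALInvol.gen_congr (by rw [hmq, mul_comm])
        rw [e2, hβ, e1, hwβ, alpha_gen M q hdM, alpha_gen N' q hd]
        rfl
  exact congrArg (fun φ : FN (N' * q) →+* FN (M * q) => φ t) h3

/-- **The swap at levels `N' * q ≤ M * q`.**  For any automorphism `σ` of `F_{M q}` exchanging the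
two degeneracy maps (`S34/ALInvol`, `S34/Sigma`) there is an involution `w` of `F_{N' q}` with
`w j = j_q`, `w j_q = j`, `σ|F_{N' q} = w`, and `g ∈ pullRR B → σ g ∈ pullRR (w • B)`. -/
theorem exists_w_swap (hq : q.Prime) (hc : Nat.Coprime N' q) (hNM : N' ∣ M)
    (σ : FN (M * q) ≃ₐ[Kbar] FN (M * q))
    (hα : ∀ f, σ (heckeAlphaBar Kbar M q f) = heckeBetaBar Kbar M q f)
    (hβ : ∀ f, σ (heckeBetaBar Kbar M q f) = heckeAlphaBar Kbar M q f)
    (hqN : q ∣ N' * q) :
    ∃ w : FN (N' * q) ≃ₐ[Kbar] FN (N' * q),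
      (∀ x, w (w x) = x) ∧ w (jBar (N' * q)) = jBarLevel (N' * q) q hqN ∧
      w (jBarLevel (N' * q) q hqN) = jBar (N' * q) ∧
      (∀ (t : FN (N' * q)) (h : (t : Om) ∈ modularFunctionFieldBar (M * q)),
        ((σ ⟨(t : Om), h⟩ : FN (M * q)) : Om) = ((w t : FN (N' * q)) : Om)) ∧
      ∀ (B : Divisor Kbar (FN (N' * q))) (g : FN (M * q)),
        (g : Om) ∈ Plan.pullRR (N' * q) (M * q) B →
          ((σ g : FN (M * q)) : Om) ∈ Plan.pullRR (N' * q) (M * q) (w • B) := by
  have : NeZero (M * q) := ⟨Nat.mul_ne_zero (NeZero.ne M) (NeZero.ne q)⟩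
  have hle : modularFunctionFieldBar (N' * q) ≤ modularFunctionFieldBar (M * q) :=
    PullStep.bar_le (Nat.mul_dvd_mul_right hNM q)
  obtain ⟨w, hwα, hwβ, hww, hwj, hwjq⟩ := exists_w N' q hq hc hqN
  have hσw : ∀ (t : FN (N' * q)) (h : (t : Om) ∈ modularFunctionFieldBar (M * q)),
      ((σ ⟨(t : Om), h⟩ : FN (M * q)) : Om) = ((w t : FN (N' * q)) : Om) := by
    intro t h
    have h1 := compat hq hNM hle σ hα hβ w hwα hwβ t
    have e : (⟨(t : Om), h⟩ : FN (M * q)) = IntermediateField.inclusion hle t :=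
      Subtype.ext (IntermediateField.coe_inclusion hle t).symm
    rw [e, h1]
    exact IntermediateField.coe_inclusion hle (w t)
  refine ⟨w, hww, hwj, hwjq, hσw, fun B g hg => ?_⟩
  exact swap_pullRR hle (σ : FN (M * q) →+* FN (M * q)) w hσw g hg

end Instance

/-! ### `Plan.Levels` forms (what `Setup2.incl`, `lift₂`, `exists_x` consume) -/

section LevelsForm

variable {q N' N M : ℕ} [NeZero N] [NeZero q] [NeZero M]

/-- The swap in `Plan.Levels` form, with the involution `w` of `F_N` exposed. -/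
theorem exists_w_swap_levels (hL : Plan.Levels q N' N M) (hqN : q ∣ N)
    (σ : FN (M * q) ≃ₐ[Kbar] FN (M * q))
    (hα : ∀ f, σ (heckeAlphaBar Kbar M q f) = heckeBetaBar Kbar M q f)
    (hβ : ∀ f, σ (heckeBetaBar Kbar M q f) = heckeAlphaBar Kbar M q f) :
    ∃ w : FN N ≃ₐ[Kbar] FN N,
      (∀ x, w (w x) = x) ∧ w (jBar N) = jBarLevel N q hqN ∧ w (jBarLevel N q hqN) = jBar N ∧
      (∀ (t : FN N) (h : (t : Om) ∈ modularFunctionFieldBar (M * q)),
        ((σ ⟨(t : Om), h⟩ : FN (M * q)) : Om) = ((w t : FN N) : Om)) ∧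
      ∀ (B : Divisor Kbar (FN N)) (g : FN (M * q)),
        (g : Om) ∈ Plan.pullRR N (M * q) B →
          ((σ g : FN (M * q)) : Om) ∈ Plan.pullRR N (M * q) (w • B) := by
  obtain ⟨hq, hN', hnd, hN, hM⟩ := hL
  subst hN
  have : NeZero N' := ⟨hN'.ne'⟩
  have hc : Nat.Coprime N' q := ((Nat.Prime.coprime_iff_not_dvd hq).mpr hnd).symm
  have hNM : N' ∣ M := ⟨Plan.aux q, by rw [hM, mul_comm]⟩
  exact exists_w_swap hq hc hNM σ hα hβ hqN

variable (hL : Plan.Levels q N' N M) (hqN : q ∣ N)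
  (σ : FN (M * q) ≃ₐ[Kbar] FN (M * q))
  (hα : ∀ f, σ (heckeAlphaBar Kbar M q f) = heckeBetaBar Kbar M q f)
  (hβ : ∀ f, σ (heckeBetaBar Kbar M q f) = heckeAlphaBar Kbar M q f)

include hL hα hβ in
/-- `g ∈ L(m (j)_∞) → σ g ∈ L(m (j_q)_∞)` (pull-backs to level `M q` of divisors of `F_N`). -/
theorem swap_poleJ_levels {Cj Cq : Divisor Kbar (FN N)} (hCj : Plan.IsPoleJ N Cj)
    (hCq : Plan.IsPoleJq N q hqN Cq) (m : ℕ) (g : FN (M * q))
    (hg : (g : Om) ∈ Plan.pullRR N (M * q) (m • Cj)) :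
    ((σ g : FN (M * q)) : Om) ∈ Plan.pullRR N (M * q) (m • Cq) := by
  obtain ⟨w, -, hwj, -, -, hsw⟩ := exists_w_swap_levels hL hqN σ hα hβ
  have h := hsw _ g hg
  rwa [smul_nsmul_divisor, smul_poleJ hqN w hwj hCj hCq] at h

include hL hα hβ in
/-- `g ∈ L(m (j_q)_∞) → σ g ∈ L(m (j)_∞)`. -/
theorem swap_poleJq_levels {Cj Cq : Divisor Kbar (FN N)} (hCj : Plan.IsPoleJ N Cj)
    (hCq : Plan.IsPoleJq N q hqN Cq) (m : ℕ) (g : FN (M * q))
    (hg : (g : Om) ∈ Plan.pullRR N (M * q) (m • Cq)) :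
    ((σ g : FN (M * q)) : Om) ∈ Plan.pullRR N (M * q) (m • Cj) := by
  obtain ⟨w, -, -, hwjq, -, hsw⟩ := exists_w_swap_levels hL hqN σ hα hβ
  have h := hsw _ g hg
  rwa [smul_nsmul_divisor, smul_poleJq hqN w hwjq hCj hCq] at h

include hL hα hβ in
/-- `g ∈ L(cE) → σ g ∈ L(cE)`, `E = (j)_∞ + (j_q)_∞`. -/
theorem swap_E_levels {E : Divisor Kbar (FN N)} (hE : Plan.IsE N q hqN E) (c : ℕ)
    (g : FN (M * q)) (hg : (g : Om) ∈ Plan.pullRR N (M * q) (c • E)) :
    ((σ g : FN (M * q)) : Om) ∈ Plan.pullRR N (M * q) (c • E) := by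
  obtain ⟨w, -, hwj, hwjq, -, hsw⟩ := exists_w_swap_levels hL hqN σ hα hβ
  have h := hsw _ g hg
  rwa [smul_nsmul_divisor, smul_E hqN w hwj hwjq hE] at h

end LevelsForm

end Fermat.Agent.S34.SwapPull
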