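import Mathlib
import Fermat.Agent.S34.NodeAlg

/-!
# S34 — [TAU-GRADED]: the graded twist / `τ`-trick in abstract form (helper18)

Setting of `S34/NodeAlg.lean`: `k` a field, `B` a commutative `k`-algebra, `Rn ≤ B × B` a
subalgebra which is a *node* (`IsNode Rn Z θ`: `(a, b) ∈ Rn ↔ a(z) = b(θ z)` for all `z ∈ Z`).

Graded data: an exhaustive increasing filtration `Wc c` of `B × B` by finite-dimensional
subspaces, and three families of subspaces `Bc c`, `M' c`, `M'' c ≤ Wc c` with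

* `Bc c ⊆ Rn`, and `Rn ∩ Wc c ⊆ Bc c` for `c ≥ c₀`            (cusp regularity),
* `finrank (Bc c) ≤ finrank (M' c)`, `finrank (M'' c)` for `c ≥ c₀`   (Riemann + (Dim)),
* `(u₁ aⁿ, u₂ bⁿ) ∈ Rn` for `(a, b) ∈ M' c`                     (twist),
* `M'' c · M' c' ⊆ M' (c + c')`                                 (the `τ`-trick).

Conclusion (`tau_core`): `M'' c = Bc c` for all large `c`.

`tau_abs` is the same statement for subspaces of an ambient `Ω₁ × Ω₁`, `B` a subalgebra of `Ω₁`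
(the form used with `Ω₁ = k((T))`, `B = B_κ`).

Variant of `S34/TauAbs.lean` (helper91, `redSp_V''_eq`) with WEAKER dimension hypotheses: only the
inequalities `finrank (Bc c) ≤ finrank (M' c)` and `finrank (Bc c) ≤ finrank (M'' c)` are used
(Riemann's INEQUALITY for `L(D + cE)` and the exact count for `L(cE)` only), and the statement
is about `k`-subspaces only (no reduction data).
-/

set_option autoImplicit false
set_option maxHeartbeats 400000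

namespace Fermat.Agent.S34.TauGraded

open Module Fermat.Agent.S34.NodeAlg

section Core

variable {k B : Type*} [Field k] [CommRing B] [Algebra k B]
  {Rn : Subalgebra k (B × B)} {Z : Finset (B →ₐ[k] k)} {θ : (B →ₐ[k] k) → (B →ₐ[k] k)}

/-- The evaluation map on `B × 0` does not depend on the twist. -/
theorem evalTw_fst (ζ ζ' : (B →ₐ[k] k) → k) (a : B) :
    evalTw Z θ ζ (a, 0) = evalTw Z θ ζ' (a, 0) := by
  funext z
  rw [evalTw_apply, evalTw_apply, map_zero, mul_zero, mul_zero]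

/-- For an exhaustive increasing filtration `Wc`, the twisted evaluation maps are onto on `Wc c`
for all large `c`, uniformly in the twist. -/
theorem exists_level_eval (Z : Finset (B →ₐ[k] k)) (θ : (B →ₐ[k] k) → (B →ₐ[k] k))
    (Wc : ℕ → Submodule k (B × B)) (hWmono : ∀ c c', c ≤ c' → Wc c ≤ Wc c')
    (hWexh : ∀ x : B × B, ∃ c, x ∈ Wc c) :
    ∃ c₁ : ℕ, ∀ c, c₁ ≤ c → ∀ (ζ : (B →ₐ[k] k) → k) (v : {z : B →ₐ[k] k // z ∈ Z} → k),
      ∃ w ∈ Wc c, evalTw Z θ ζ w = v := by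
  classical
  have h1 : ∀ z₀ : {z : B →ₐ[k] k // z ∈ Z}, ∃ a : B,
      evalTw Z θ (fun _ => 0) (a, 0) = Pi.single z₀ (1 : k) := fun z₀ => exists_evalTw_eq _
  choose a ha using h1
  have h2 : ∀ z₀ : {z : B →ₐ[k] k // z ∈ Z}, ∃ c, (a z₀, (0 : B)) ∈ Wc c := fun z₀ => hWexh _
  choose cz hcz using h2
  refine ⟨Finset.univ.sup cz, fun c hc ζ v => ?_⟩
  refine ⟨∑ z₀, v z₀ • (a z₀, (0 : B)), ?_, ?_⟩
  · refine Submodule.sum_mem _ fun z₀ _ => Submodule.smul_mem _ _ ?_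
    exact hWmono _ _ (le_trans (Finset.le_sup (Finset.mem_univ z₀)) hc) (hcz z₀)
  · rw [map_sum]
    have : ∀ z₀ : {z : B →ₐ[k] k // z ∈ Z},
        evalTw Z θ ζ (v z₀ • (a z₀, (0 : B))) = v z₀ • Pi.single z₀ (1 : k) := by
      intro z₀
      rw [map_smul, evalTw_fst ζ (fun _ => 0), ha]
    rw [Finset.sum_congr rfl fun z₀ _ => this z₀]
    funext z
    rw [Finset.sum_apply]
    simp [Pi.single_apply]

/-- **The graded twist / `τ`-trick.** -/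
theorem tau_core (hR : IsNode Rn Z θ)
    (Wc Bc M' M'' : ℕ → Submodule k (B × B))
    (hWfin : ∀ c, Module.Finite k (Wc c)) (hWmono : ∀ c c', c ≤ c' → Wc c ≤ Wc c')
    (hWexh : ∀ x : B × B, ∃ c, x ∈ Wc c)
    (hBcW : ∀ c, Bc c ≤ Wc c) (hBcR : ∀ c, ∀ x ∈ Bc c, x ∈ Rn)
    (c₀ : ℕ) (hCR : ∀ c, c₀ ≤ c → ∀ x ∈ Rn, x ∈ Wc c → x ∈ Bc c)
    (hM'W : ∀ c, M' c ≤ Wc c) (hM''W : ∀ c, M'' c ≤ Wc c)
    (hM'mono : ∀ c c', c ≤ c' → M' c ≤ M' c')
    (hd' : ∀ c, c₀ ≤ c → finrank k (Bc c) ≤ finrank k (M' c))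
    (hd'' : ∀ c, c₀ ≤ c → finrank k (Bc c) ≤ finrank k (M'' c))
    {n : ℕ} (hn : n ≠ 0) {u₁ u₂ : k} (hu₁ : u₁ ≠ 0) (hu₂ : u₂ ≠ 0)
    (htw : ∀ c, ∀ x ∈ M' c, (u₁ • x.1 ^ n, u₂ • x.2 ^ n) ∈ Rn)
    (hmul : ∀ c c', ∀ x ∈ M'' c, ∀ t ∈ M' c', x * t ∈ M' (c + c')) :
    ∃ c₁, c₀ ≤ c₁ ∧ ∀ c, c₁ ≤ c → M'' c = Bc c := by
  classical
  -- the union of the `M' c`
  have hdir : Directed (· ≤ ·) M' := by
    intro c c'
    exact ⟨max c c', hM'mono _ _ (le_max_left _ _), hM'mono _ _ (le_max_right _ _)⟩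
  have hT' : ∀ x ∈ (⨆ c, M' c), ∃ c, x ∈ M' c := fun x hx =>
    (Submodule.mem_iSup_of_directed M' hdir).1 hx
  obtain ⟨ζ, hζ, hTζ⟩ := exists_twist hR (⨆ c, M' c) hn hu₁ hu₂ (fun x hx => by
    obtain ⟨c, hc⟩ := hT' x hx
    exact htw c x hc)
  have hM'ζ : ∀ c, M' c ≤ twisted Z θ ζ := fun c => le_trans (le_iSup M' c) hTζ
  obtain ⟨c₁', hc₁'⟩ := exists_level_eval Z θ Wc hWmono hWexh
  -- the two counts
  have hBc : ∀ c, c₀ ≤ c → Bc c = twisted Z θ (fun _ => 1) ⊓ Wc c := by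
    intro c hc
    apply le_antisymm
    · intro x hx
      exact ⟨(hR.mem_iff_twisted_one x).1 (hBcR c x hx), hBcW c hx⟩
    · rintro x ⟨hx1, hx2⟩
      exact hCR c hc x ((hR.mem_iff_twisted_one x).2 hx1) hx2
  have hM' : ∀ c, c₀ ≤ c → c₁' ≤ c → M' c = twisted Z θ ζ ⊓ Wc c := by
    intro c hc hc'
    have : Module.Finite k (Wc c) := hWfin c
    have e1 := finrank_twisted_inf (Z := Z) (θ := θ) (ζ := ζ) (Wc c) (hc₁' c hc' ζ)
    have e2 := finrank_twisted_inf (Z := Z) (θ := θ) (ζ := fun _ => 1) (Wc c)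
      (hc₁' c hc' _)
    have e3 := hd' c hc
    rw [hBc c hc] at e3
    have hle : M' c ≤ twisted Z θ ζ ⊓ Wc c := le_inf (hM'ζ c) (hM'W c)
    have hfin : Module.Finite k ↥(twisted Z θ ζ ⊓ Wc c) :=
      Submodule.finiteDimensional_of_le inf_le_right
    exact Submodule.eq_of_le_of_finrank_le hle (by omega)
  refine ⟨max c₀ c₁', le_max_left _ _, fun c hc => ?_⟩
  have hc0 : c₀ ≤ c := le_trans (le_max_left _ _) hc
  -- the colon step
  obtain ⟨b, hb, hb'⟩ := exists_one_mem_twisted (ζ := ζ) hR.injOn hζ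
  obtain ⟨c', hc'⟩ := hWexh ((1 : B), b)
  have ht : ((1 : B), b) ∈ M' (max c' (max c₀ c₁')) := by
    rw [hM' _ (le_trans (le_max_left _ _) (le_max_right _ _))
      (le_trans (le_max_right _ _) (le_max_right _ _))]
    exact ⟨hb, hWmono _ _ (le_max_left _ _) hc'⟩
  have hle : M'' c ≤ Bc c := by
    intro x hx
    refine hCR c hc0 x ?_ (hM''W c hx)
    rw [hR.mem_iff']
    intro z hz
    have h := hM'ζ _ (hmul c _ x hx _ ht) z hz
    rw [Prod.fst_mul, Prod.snd_mul, mul_one, map_mul, hb' z hz, mul_left_comm,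
      mul_inv_cancel₀ (hζ z hz), mul_one] at h
    exact h
  have : Module.Finite k (Wc c) := hWfin c
  have hfin : Module.Finite k ↥(Bc c) := Submodule.finiteDimensional_of_le (hBcW c)
  exact Submodule.eq_of_le_of_finrank_le hle (hd'' c hc0)

end Core

section Ambient

variable {k Ω₁ : Type*} [Field k] [CommRing Ω₁] [Algebra k Ω₁] (B : Subalgebra k Ω₁)

/-- The inclusion `B × B → Ω₁ × Ω₁`. -/
def incl : (↥B × ↥B) →ₗ[k] (Ω₁ × Ω₁) :=
  LinearMap.prodMap B.val.toLinearMap B.val.toLinearMap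

theorem incl_apply (x : ↥B × ↥B) : incl B x = ((x.1 : Ω₁), (x.2 : Ω₁)) := rfl

theorem incl_injective : Function.Injective (incl B) := by
  intro x y h
  have h1 := congrArg Prod.fst h
  have h2 := congrArg Prod.snd h
  simp only [incl_apply] at h1 h2
  exact Prod.ext (Subtype.ext h1) (Subtype.ext h2)

theorem incl_mul (x y : ↥B × ↥B) : incl B (x * y) = incl B x * incl B y := rfl

/-- The trace of a subspace of `Ω₁ × Ω₁` on `B × B`. -/
def pull (X : Submodule k (Ω₁ × Ω₁)) : Submodule k (↥B × ↥B) := X.comap (incl B)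

theorem mem_pull {X : Submodule k (Ω₁ × Ω₁)} {x : ↥B × ↥B} :
    x ∈ pull B X ↔ ((x.1 : Ω₁), (x.2 : Ω₁)) ∈ X := Iff.rfl

theorem pull_mono {X Y : Submodule k (Ω₁ × Ω₁)} (h : X ≤ Y) : pull B X ≤ pull B Y :=
  Submodule.comap_mono h

theorem map_pull {X : Submodule k (Ω₁ × Ω₁)} (hX : ∀ x ∈ X, x.1 ∈ B ∧ x.2 ∈ B) :
    (pull B X).map (incl B) = X := by
  apply le_antisymm
  · rintro _ ⟨x, hx, rfl⟩
    exact hx
  · intro x hx
    obtain ⟨h1, h2⟩ := hX x hx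
    exact ⟨(⟨x.1, h1⟩, ⟨x.2, h2⟩), hx, rfl⟩

theorem finrank_pull {X : Submodule k (Ω₁ × Ω₁)} (hX : ∀ x ∈ X, x.1 ∈ B ∧ x.2 ∈ B) :
    finrank k ↥(pull B X) = finrank k ↥X := by
  have e := (Submodule.equivMapOfInjective (incl B) (incl_injective B) (pull B X)).finrank_eq
  rw [e, map_pull B hX]

theorem finite_pull {X : Submodule k (Ω₁ × Ω₁)} [Module.Finite k ↥X] :
    Module.Finite k ↥(pull B X) := by
  have hle : (pull B X).map (incl B) ≤ X := by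
    rintro _ ⟨x, hx, rfl⟩
    exact hx
  have : Module.Finite k ↥((pull B X).map (incl B)) := Submodule.finiteDimensional_of_le hle
  exact Module.Finite.equiv
    (Submodule.equivMapOfInjective (incl B) (incl_injective B) (pull B X)).symm

/-- **The graded twist / `τ`-trick, ambient form.** -/
theorem tau_abs {Rn : Subalgebra k (↥B × ↥B)} {Z : Finset (↥B →ₐ[k] k)}
    {θ : (↥B →ₐ[k] k) → (↥B →ₐ[k] k)} (hR : IsNode Rn Z θ)
    (Wc Bc M' M'' : ℕ → Submodule k (Ω₁ × Ω₁))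
    (hWfin : ∀ c, Module.Finite k (Wc c)) (hWmono : ∀ c c', c ≤ c' → Wc c ≤ Wc c')
    (hWB : ∀ c, ∀ x ∈ Wc c, x.1 ∈ B ∧ x.2 ∈ B)
    (hWexh : ∀ a b : ↥B, ∃ c, ((a : Ω₁), (b : Ω₁)) ∈ Wc c)
    (hBcW : ∀ c, Bc c ≤ Wc c)
    (hBcR : ∀ c, ∀ a b : ↥B, ((a : Ω₁), (b : Ω₁)) ∈ Bc c → (a, b) ∈ Rn)
    (c₀ : ℕ)
    (hCR : ∀ c, c₀ ≤ c → ∀ a b : ↥B, (a, b) ∈ Rn → ((a : Ω₁), (b : Ω₁)) ∈ Wc c →
      ((a : Ω₁), (b : Ω₁)) ∈ Bc c)
    (hM'W : ∀ c, M' c ≤ Wc c) (hM''W : ∀ c, M'' c ≤ Wc c)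
    (hM'mono : ∀ c c', c ≤ c' → M' c ≤ M' c')
    (hd' : ∀ c, c₀ ≤ c → finrank k (Bc c) ≤ finrank k (M' c))
    (hd'' : ∀ c, c₀ ≤ c → finrank k (Bc c) ≤ finrank k (M'' c))
    {n : ℕ} (hn : n ≠ 0) {u₁ u₂ : k} (hu₁ : u₁ ≠ 0) (hu₂ : u₂ ≠ 0)
    (htw : ∀ c, ∀ a b : ↥B, ((a : Ω₁), (b : Ω₁)) ∈ M' c → (u₁ • a ^ n, u₂ • b ^ n) ∈ Rn)
    (hmul : ∀ c c', ∀ x ∈ M'' c, ∀ t ∈ M' c', x * t ∈ M' (c + c')) :
    ∃ c₁, c₀ ≤ c₁ ∧ ∀ c, c₁ ≤ c → M'' c = Bc c := by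
  have hBcB : ∀ c, ∀ x ∈ Bc c, x.1 ∈ B ∧ x.2 ∈ B := fun c x hx => hWB c x (hBcW c hx)
  have hM'B : ∀ c, ∀ x ∈ M' c, x.1 ∈ B ∧ x.2 ∈ B := fun c x hx => hWB c x (hM'W c hx)
  have hM''B : ∀ c, ∀ x ∈ M'' c, x.1 ∈ B ∧ x.2 ∈ B := fun c x hx => hWB c x (hM''W c hx)
  obtain ⟨c₁, hc₁, h⟩ := tau_core hR (fun c => pull B (Wc c)) (fun c => pull B (Bc c))
    (fun c => pull B (M' c)) (fun c => pull B (M'' c))
    (fun c => by have := hWfin c; exact finite_pull B)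
    (fun c c' hcc => pull_mono B (hWmono c c' hcc))
    (fun x => hWexh x.1 x.2)
    (fun c => pull_mono B (hBcW c))
    (fun c x hx => hBcR c x.1 x.2 hx)
    c₀
    (fun c hc x hx hxW => hCR c hc x.1 x.2 hx hxW)
    (fun c => pull_mono B (hM'W c)) (fun c => pull_mono B (hM''W c))
    (fun c c' hcc => pull_mono B (hM'mono c c' hcc))
    (fun c hc => by rw [finrank_pull B (hBcB c), finrank_pull B (hM'B c)]; exact hd' c hc)
    (fun c hc => by rw [finrank_pull B (hBcB c), finrank_pull B (hM''B c)]; exact hd'' c hc)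
    hn hu₁ hu₂
    (fun c x hx => htw c x.1 x.2 hx)
    (fun c c' x hx t ht => hmul c c' _ hx _ ht)
  refine ⟨c₁, hc₁, fun c hc => ?_⟩
  rw [← map_pull B (hM''B c), ← map_pull B (hBcB c), h c hc]

end Ambient

end Fermat.Agent.S34.TauGraded
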