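import Mathlib
import Fermat.Agent.S34.TauGal
import Fermat.Agent.S34.TauAdapt
import Fermat.Agent.S34.DescInst
import Fermat.Agent.S34.RiemannE

/-!
# S34 — `[TAU]` instance (I7): `Plan.TauStmt` (helper89)

`tauStmt : Plan.TauStmt A N q M hqN O ρ` from `Plan.Levels`, the two-component reduction
`Plan.Setup2`, cusp regularity `Plan.CuspReg`, the node statement `Plan.NodeStmt` and
`Plan.RiemannK` (only the finiteness of the spaces `WJ m` is used).

Proof: the Galois half `TauGal.exists_tau_data` (the functions `u = τf/f`, `w = τu/u`, the power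
trick and the `τ`-trick inclusion; helper89) feeds the graded twist theorem in Plan vocabulary
`TauAdapt.md_eq_bbar` (helper91); the Riemann input `l(cE) ≤ l(D + cE)` is
`RiemannE.finrank_le_add` (helper7).
-/

set_option autoImplicit false

noncomputable section

namespace Fermat.Agent.S34.TauInst

open ModularCurve AlgebraicCurve Fermat.Agent.S24 Fermat.Agent.S18.Content Fermat.Agent.S18.Plan
open Fermat.Agent.S18

set_option synthInstance.maxHeartbeats 400000
set_option maxHeartbeats 800000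

/-- **[TAU], instance (I7).**  For `τ` in the inertia group of `A` and `D₀` of degree `0` with
`n • D₀` principal, the divisor `D'' = (τ - 1)² D₀` satisfies `n • D'' = div w` with `ρ w = 1`
and `M(D'')(c) = B̄(c)` for `c` large. -/
theorem tauStmt {q N' N M : ℕ} [NeZero N] [NeZero q] (hL : Plan.Levels q N' N M) (hqN : q ∣ N)
    {A : ValuationSubring Kbar} {O : Subring Om} {ρ : O →+* Plan.R2 A}
    (hS : Plan.Setup2 A N q M hqN O ρ) (hCR : Plan.CuspReg A N q M hqN O ρ)
    (hNode : Plan.NodeStmt A N q M hqN O ρ) (hRK : Plan.RiemannK A M) :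
    Plan.TauStmt A N q M hqN O ρ := by
  have : NeZero (M * q) := DescInst.levels_neZero_top hL
  refine TauGal.tauStmt_of (PullStep.bar_le (DescInst.levels_dvd hL)) hS ?_
  intro E hE D' D'' hD' hD'' n hn u w c₁ c₂ hc₁ hc₂ hρu hρw hp' hp'' hτ
  obtain ⟨ι, _, _, e₁, e₂, hnodes⟩ := hNode E hE
  obtain ⟨c₀, hc₀⟩ := RiemannE.finrank_le_add hqN hL E hE
  exact TauAdapt.md_eq_bbar hS hCR (RiemannE.rr0 hL) (TauAdapt.finite_WJ_of_riemannK A M hRK)
    E hE e₁ e₂ hnodes D' D'' ⟨c₀, fun c hc => hc₀ c hc D' hD'⟩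
    ⟨c₀, fun c hc => hc₀ c hc D'' hD''⟩ n hn u w c₁ c₂ hc₁ hc₂ hρu hρw hp' hp'' hτ

end Fermat.Agent.S34.TauInst
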