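import Mathlib
import Fermat.Agent.S34.NodeAlg

/-!
# S34 — `[TWTAU-ABS]`: the graded twist / `τ`-trick wrapper (helper89)

Abstract form of steps (3) and (4) of the P6 design, on top of `S34/NodeAlg.lean` (helper91).

Setting: `R ⊆ B × B` a node ring along `Z` (`NodeAlg.IsNode R Z θ`), and an exhausting, monotone
filtration `W c` of `B × B` by finite-dimensional `k`-subspaces.  `M₁ c`, `M₂ c` are two families
of subspaces (the reductions of `L(D' + cE)°` and `L(D'' + cE)°`).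

* `exists_level_eval`  : the evaluation map `evalTw Z θ ζ` is onto on `W c` for `c` large;
* `exists_card_eq`     : `finrank (R ⊓ W c) + |Z| = finrank (W c)` for `c` large;
* `exists_twist_eq`    : **(3)** if `M₁` is monotone, `M₁ c ≤ W c`, `(u₁ aⁿ, u₂ bⁿ) ∈ R` for
                         `(a, b) ∈ M₁ c`, and `finrank (R ⊓ W c) ≤ finrank (M₁ c)` for `c` large,
                         then `M₁ c = T_ζ ⊓ W c` for `c` large, for one `ζ` with `ζ_z ≠ 0`;
* `mem_of_tau`         : **(4)** if moreover `M₂ c * M₁ c' ⊆ M₁ (c + c')`, then `M₂ c ⊆ R`;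
* `eq_of_tau`          : … and `M₂ c = R ⊓ W c` as soon as `M₂ c ≤ W c` and
                         `finrank (R ⊓ W c) ≤ finrank (M₂ c)`;
* `mem_map_of_tau`, `eq_map_of_tau` : the same statements transported along an injective
                         algebra homomorphism `ι : B × B →ₐ[k] S` (subspaces of `S`).
-/

set_option autoImplicit false

namespace Fermat.Agent.S34.TwistAbs

open Module Fermat.Agent.S34.NodeAlg

variable {k B : Type*} [Field k] [CommRing B] [Algebra k B]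
variable {R : Subalgebra k (B × B)} {Z : Finset (B →ₐ[k] k)}
  {θ : (B →ₐ[k] k) → (B →ₐ[k] k)}

/-- For an exhausting monotone filtration `W`, the evaluation map `evalTw Z θ ζ` is onto on
`W c` for all large `c`. -/
theorem exists_level_eval (W : ℕ → Submodule k (B × B)) (hWmono : Monotone W)
    (hWex : ∀ x : B × B, ∃ c, x ∈ W c) (Z : Finset (B →ₐ[k] k))
    (θ : (B →ₐ[k] k) → (B →ₐ[k] k)) (ζ : (B →ₐ[k] k) → k) :
    ∃ c₀ : ℕ, ∀ c, c₀ ≤ c → ∀ v : {z : B →ₐ[k] k // z ∈ Z} → k,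
      ∃ w ∈ W c, evalTw Z θ ζ w = v := by
  classical
  have h1 : ∀ z : {z : B →ₐ[k] k // z ∈ Z}, ∃ w : B × B,
      evalTw Z θ ζ w = Pi.single z (1 : k) := fun z => evalTw_surjective _
  choose w hw using h1
  choose d hd using fun z => hWex (w z)
  refine ⟨Finset.univ.sup d, fun c hc v => ⟨∑ z, v z • w z, ?_, ?_⟩⟩
  · refine Submodule.sum_mem _ fun z _ => Submodule.smul_mem _ _ ?_
    exact hWmono ((Finset.le_sup (Finset.mem_univ z)).trans hc) (hd z)
  · rw [map_sum]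
    funext z'
    simp only [map_smul, hw, Finset.sum_apply, Pi.smul_apply, smul_eq_mul]
    rw [Finset.sum_eq_single z']
    · rw [Pi.single_eq_same, mul_one]
    · intro z _ hz
      rw [Pi.single_eq_of_ne (Ne.symm hz), mul_zero]
    · intro h
      exact absurd (Finset.mem_univ z') h

/-- The codimension of `T_ζ ⊓ W c` in `W c` is `|Z|` for all large `c`. -/
theorem exists_finrank_twisted (W : ℕ → Submodule k (B × B)) [∀ c, Module.Finite k (W c)]
    (hWmono : Monotone W) (hWex : ∀ x : B × B, ∃ c, x ∈ W c) (Z : Finset (B →ₐ[k] k))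
    (θ : (B →ₐ[k] k) → (B →ₐ[k] k)) (ζ : (B →ₐ[k] k) → k) :
    ∃ c₀ : ℕ, ∀ c, c₀ ≤ c →
      finrank k ↥(twisted Z θ ζ ⊓ W c) + Z.card = finrank k ↥(W c) := by
  obtain ⟨c₀, hc₀⟩ := exists_level_eval W hWmono hWex Z θ ζ
  exact ⟨c₀, fun c hc => finrank_twisted_inf (W c) (hc₀ c hc)⟩

/-- **The count of `|Z|`**: `finrank (R ⊓ W c) + |Z| = finrank (W c)` for all large `c`. -/
theorem exists_card_eq (hR : IsNode R Z θ) (W : ℕ → Submodule k (B × B))
    [∀ c, Module.Finite k (W c)] (hWmono : Monotone W) (hWex : ∀ x : B × B, ∃ c, x ∈ W c) :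
    ∃ c₀ : ℕ, ∀ c, c₀ ≤ c →
      finrank k ↥(Subalgebra.toSubmodule R ⊓ W c) + Z.card = finrank k ↥(W c) := by
  rw [hR.toSubmodule_eq]
  exact exists_finrank_twisted W hWmono hWex Z θ _

section Twist

variable (hR : IsNode R Z θ) (W : ℕ → Submodule k (B × B)) [∀ c, Module.Finite k (W c)]
  (hWmono : Monotone W) (hWex : ∀ x : B × B, ∃ c, x ∈ W c)
  (M₁ : ℕ → Submodule k (B × B)) (hM₁mono : Monotone M₁) (hM₁W : ∀ c, M₁ c ≤ W c)
  {n : ℕ} (hn : n ≠ 0) {u₁ u₂ : k} (hu₁ : u₁ ≠ 0) (hu₂ : u₂ ≠ 0)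
  (hpow : ∀ c, ∀ x ∈ M₁ c, (u₁ • x.1 ^ n, u₂ • x.2 ^ n) ∈ R)
  (c₁ : ℕ)
  (hdim : ∀ c, c₁ ≤ c → finrank k ↥(Subalgebra.toSubmodule R ⊓ W c) ≤ finrank k ↥(M₁ c))

include hR hWmono hWex hM₁mono hM₁W hn hu₁ hu₂ hpow hdim in
/-- **(3) Twisted modules, graded form.**  A monotone family `M₁ c ≤ W c` whose elements satisfy
`(u₁ aⁿ, u₂ bⁿ) ∈ R`, and which is as large as `R ⊓ W c` for `c` large, is the trace on `W c` of
one twisted module `T_ζ` for `c` large. -/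
theorem exists_twist_eq :
    ∃ ζ : (B →ₐ[k] k) → k, (∀ z ∈ Z, ζ z ≠ 0) ∧ (∀ c, M₁ c ≤ twisted Z θ ζ) ∧
      ∃ c₂ : ℕ, ∀ c, c₂ ≤ c → M₁ c = twisted Z θ ζ ⊓ W c := by
  have hdir : Directed (· ≤ ·) M₁ := hM₁mono.directed_le
  obtain ⟨ζ, hζ, hT⟩ := exists_twist hR (⨆ c, M₁ c) hn hu₁ hu₂ (fun x hx => by
    obtain ⟨c, hc⟩ := (Submodule.mem_iSup_of_directed M₁ hdir).1 hx
    exact hpow c x hc)
  have hle : ∀ c, M₁ c ≤ twisted Z θ ζ := fun c => (le_iSup M₁ c).trans hT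
  obtain ⟨a, ha⟩ := exists_finrank_twisted W hWmono hWex Z θ ζ
  obtain ⟨b, hb⟩ := exists_card_eq hR W hWmono hWex
  refine ⟨ζ, hζ, hle, max c₁ (max a b), fun c hc => ?_⟩
  have hc₁ : c₁ ≤ c := (le_max_left _ _).trans hc
  have hca : a ≤ c := ((le_max_left _ _).trans (le_max_right _ _)).trans hc
  have hcb : b ≤ c := ((le_max_right _ _).trans (le_max_right _ _)).trans hc
  have hfin : Module.Finite k ↥(twisted Z θ ζ ⊓ W c) :=
    Submodule.finiteDimensional_of_le inf_le_right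
  refine Submodule.eq_of_le_of_finrank_le (le_inf (hle c) (hM₁W c)) ?_
  have h1 := ha c hca
  have h2 := hb c hcb
  have h3 := hdim c hc₁
  omega

variable (M₂ : ℕ → Submodule k (B × B))
  (hmul : ∀ c c', ∀ x ∈ M₂ c, ∀ t ∈ M₁ c', x * t ∈ M₁ (c + c'))

include hR hWmono hWex hM₁mono hM₁W hn hu₁ hu₂ hpow hdim hmul in
/-- **(4) The `τ`-trick, graded form.**  If moreover `M₂ c * M₁ c' ⊆ M₁ (c + c')`, then every
`M₂ c` lies in `R`. -/
theorem mem_of_tau (c : ℕ) : ∀ x ∈ M₂ c, x ∈ R := by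
  obtain ⟨ζ, hζ, hle, c₂, hc₂⟩ :=
    exists_twist_eq hR W hWmono hWex M₁ hM₁mono hM₁W hn hu₁ hu₂ hpow c₁ hdim
  intro x hx
  refine mem_of_mul_twisted hR hζ x fun t ht => ?_
  obtain ⟨c', hc'⟩ := hWex t
  have ht' : t ∈ M₁ (max c' c₂) := by
    rw [hc₂ _ (le_max_right _ _)]
    exact ⟨ht, hWmono (le_max_left _ _) hc'⟩
  exact hle _ (hmul c _ x hx t ht')

include hR hWmono hWex hM₁mono hM₁W hn hu₁ hu₂ hpow hdim hmul in
/-- … in submodule form. -/
theorem le_of_tau (c : ℕ) (hM₂W : M₂ c ≤ W c) : M₂ c ≤ Subalgebra.toSubmodule R ⊓ W c :=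
  le_inf (fun x hx => mem_of_tau hR W hWmono hWex M₁ hM₁mono hM₁W hn hu₁ hu₂ hpow c₁ hdim M₂
    hmul c x hx) hM₂W

include hR hWmono hWex hM₁mono hM₁W hn hu₁ hu₂ hpow hdim hmul in
/-- **(3)+(4)**: `M₂ c = R ⊓ W c` as soon as `M₂ c ≤ W c` and `M₂ c` is as large as `R ⊓ W c`. -/
theorem eq_of_tau (c : ℕ) (hM₂W : M₂ c ≤ W c)
    (hdim₂ : finrank k ↥(Subalgebra.toSubmodule R ⊓ W c) ≤ finrank k ↥(M₂ c)) :
    M₂ c = Subalgebra.toSubmodule R ⊓ W c := by
  have hfin : Module.Finite k ↥(Subalgebra.toSubmodule R ⊓ W c) :=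
    Submodule.finiteDimensional_of_le inf_le_right
  exact Submodule.eq_of_le_of_finrank_le
    (le_of_tau hR W hWmono hWex M₁ hM₁mono hM₁W hn hu₁ hu₂ hpow c₁ hdim M₂ hmul c hM₂W) hdim₂

end Twist

/-! ## Transport along an injective algebra homomorphism -/

section Transport

variable {S : Type*} [CommRing S] [Algebra k S] (ι : (B × B) →ₐ[k] S)
  (hι : Function.Injective ι)

include hι in
theorem comap_le_of_le_map {N : Submodule k S} {W : Submodule k (B × B)}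
    (h : N ≤ W.map ι.toLinearMap) : N.comap ι.toLinearMap ≤ W := by
  intro x hx
  obtain ⟨w, hw, hwx⟩ := h (Submodule.mem_comap.1 hx)
  have : w = x := hι hwx
  rw [← this]
  exact hw

include hι in
theorem finrank_comap_eq {N : Submodule k S} {W : Submodule k (B × B)}
    (h : N ≤ W.map ι.toLinearMap) : finrank k ↥(N.comap ι.toLinearMap) = finrank k ↥N := by
  have hinj : Function.Injective ι.toLinearMap := hι
  have hmap : (N.comap ι.toLinearMap).map ι.toLinearMap = N := by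
    rw [Submodule.map_comap_eq, inf_eq_right]
    exact h.trans (LinearMap.map_le_range)
  have e := (Submodule.equivMapOfInjective ι.toLinearMap hinj (N.comap ι.toLinearMap)).finrank_eq
  rw [e, hmap]

variable (hR : IsNode R Z θ) (W : ℕ → Submodule k (B × B)) [∀ c, Module.Finite k (W c)]
  (hWmono : Monotone W) (hWex : ∀ x : B × B, ∃ c, x ∈ W c)
  (N₁ : ℕ → Submodule k S) (hN₁mono : Monotone N₁) (hN₁W : ∀ c, N₁ c ≤ (W c).map ι.toLinearMap)
  {n : ℕ} (hn : n ≠ 0) {u₁ u₂ : k} (hu₁ : u₁ ≠ 0) (hu₂ : u₂ ≠ 0)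
  (hpow : ∀ c, ∀ x : B × B, ι x ∈ N₁ c → (u₁ • x.1 ^ n, u₂ • x.2 ^ n) ∈ R)
  (c₁ : ℕ)
  (hdim : ∀ c, c₁ ≤ c → finrank k ↥(Subalgebra.toSubmodule R ⊓ W c) ≤ finrank k ↥(N₁ c))
  (N₂ : ℕ → Submodule k S)
  (hmul : ∀ c c', ∀ x ∈ N₂ c, ∀ t ∈ N₁ c', x * t ∈ N₁ (c + c'))

include hι hR hWmono hWex hN₁mono hN₁W hn hu₁ hu₂ hpow hdim hmul in
/-- **(4), transported**: the subspaces `N₂ c ≤ ι (W c)` of `S` lie in `ι (R ⊓ W c)`. -/
theorem le_map_of_tau (c : ℕ) (hN₂W : N₂ c ≤ (W c).map ι.toLinearMap) :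
    N₂ c ≤ (Subalgebra.toSubmodule R ⊓ W c).map ι.toLinearMap := by
  intro y hy
  obtain ⟨x, hxW, rfl⟩ := hN₂W hy
  refine ⟨x, ⟨?_, hxW⟩, rfl⟩
  refine mem_of_tau hR W hWmono hWex (fun c => (N₁ c).comap ι.toLinearMap)
    (fun a b hab => Submodule.comap_mono (hN₁mono hab))
    (fun c => comap_le_of_le_map ι hι (hN₁W c)) hn hu₁ hu₂
    (fun c x hx => hpow c x hx) c₁
    (fun c hc => by rw [finrank_comap_eq ι hι (hN₁W c)]; exact hdim c hc)
    (fun c => (N₂ c).comap ι.toLinearMap)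
    (fun c c' x hx t ht => by
      show ι (x * t) ∈ N₁ (c + c')
      rw [map_mul]
      exact hmul c c' _ hx _ ht) c x hy

include hι hR hWmono hWex hN₁mono hN₁W hn hu₁ hu₂ hpow hdim hmul in
/-- **(3)+(4), transported**: `N₂ c = ι (R ⊓ W c)` as soon as `N₂ c ≤ ι (W c)` and `N₂ c` is as
large as `R ⊓ W c`. -/
theorem eq_map_of_tau (c : ℕ) (hN₂W : N₂ c ≤ (W c).map ι.toLinearMap)
    (hdim₂ : finrank k ↥(Subalgebra.toSubmodule R ⊓ W c) ≤ finrank k ↥(N₂ c)) :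
    N₂ c = (Subalgebra.toSubmodule R ⊓ W c).map ι.toLinearMap := by
  have hinj : Function.Injective ι.toLinearMap := hι
  have hfin : Module.Finite k ↥(Subalgebra.toSubmodule R ⊓ W c) :=
    Submodule.finiteDimensional_of_le inf_le_right
  have hfin' : Module.Finite k ↥((Subalgebra.toSubmodule R ⊓ W c).map ι.toLinearMap) :=
    Module.Finite.map _ _
  refine Submodule.eq_of_le_of_finrank_le
    (le_map_of_tau ι hι hR W hWmono hWex N₁ hN₁mono hN₁W hn hu₁ hu₂ hpow c₁ hdim N₂ hmul c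
      hN₂W) ?_
  rw [← (Submodule.equivMapOfInjective ι.toLinearMap hinj
    (Subalgebra.toSubmodule R ⊓ W c)).finrank_eq]
  exact hdim₂

end Transport

end Fermat.Agent.S34.TwistAbs
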