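import Mathlib
import Fermat.Agent.S34.Val
import Fermat.Agent.S34.ValArch
import Fermat.Agent.S34.Sigma
import Fermat.Agent.S37.IntDescent

/-!
# S34 / P6 — [VAL-ARCH], instance layer in the vocabulary of `S34/Val` (owner: helper48)

`σ` an Atkin–Lehner involution of `F_{Mq}` (`Val.IsAL M q σ`), `A` over the prime `q`,
`(O2, Red) = (Val.O2 A M q σ, Val.Red A M q σ)`.

* `exists_e`  : the element `e = z / (z + σ z)`, `z = j - j_q^q`, with `Red e = (1, 0)`;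
* `jointScale_of_scale` : the field `scale` of `Plan.Setup2` for `(O2, Red)` is the hypothesis
  `ValArch.JointScale`;
* `scaleProp` : **(V1')** at the level `M * q` (`= CharBad.ScaleProp A (M * q)`, the hypothesis
  `hscale` of `Desc.desc_of`, `DescInst.descW`, `ValInertia`);
* `redInto`   : **(HB)** `red (F_{Mq} ∩ Ocal) ⊆ F_{M,k}` (`= CharBad.RedInto A (M * q) M`) from
  the first half of the field `range` of `Plan.Setup2`;
* `exists_pow_mul_mem_O2` : every `y ∈ F_{Mq} ∩ Ocal` has `y * e ^ s ∈ O2` with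
  `(Red (y * e ^ s)).1 = red y`.
-/

set_option autoImplicit false
set_option linter.unusedSectionVars false
set_option maxHeartbeats 400000
set_option synthInstance.maxHeartbeats 400000

noncomputable section

namespace Fermat.Agent.S34.ValArchInst

open ModularCurve AlgebraicCurve Fermat.Agent.S24 Fermat.Agent.S18.Content Fermat.Agent.S18.Plan
open Fermat.Agent.S34.Plan Fermat.Agent.S34

variable (A : ValuationSubring Kbar) {M q : ℕ} [NeZero M] [NeZero q]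
variable {σ : FN (M * q) ≃ₐ[Kbar] FN (M * q)}

/-- `j̄ - j̄^(q²) ≠ 0`. -/
theorem u_ne_zero (hq : q.Prime) : jqModC (kk A) - jqModC (kk A) ^ (q ^ 2) ≠ 0 := by
  intro h0
  have htr := Fermat.Agent.S37.IntDescent.transcendental_jk A
  rw [transcendental_iff] at htr
  have hp : (Polynomial.X ^ (q ^ 2) - Polynomial.X : Polynomial (kk A)) ≠ 0 :=
    FiniteField.X_pow_card_sub_X_ne_zero (kk A) (Nat.one_lt_pow (by norm_num) hq.one_lt)
  apply hp
  apply htr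
  rw [map_sub, map_pow, Polynomial.aeval_X, ← neg_sub, h0, neg_zero]

/-- `σ z = j_q - j^q` for any Atkin–Lehner involution `σ`. -/
theorem sigma_zEl (hσ : Val.IsAL M q σ) :
    σ (Sigma.zEl M q) = Sigma.jQ M q - jBar (M * q) ^ q := by
  have h1 : σ (jBar (M * q)) = Sigma.jQ M q := by
    rw [← Sigma.alpha_jBar (M := M) (q := q), hσ.alpha]; rfl
  have h2 : σ (Sigma.jQ M q) = jBar (M * q) := by
    rw [Sigma.jQ, hσ.beta, Sigma.alpha_jBar]
  rw [Sigma.zEl, map_sub, map_pow, h1, h2]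

/-- `σ z` lies in `Ocal` and reduces to `0`. -/
theorem red_sigma_zEl (hσ : Val.IsAL M q σ) (hq : q.Prime) (hA : A.LiesOverPrime q) :
    ∃ hc : ((σ (Sigma.zEl M q) : FN (M * q)) : Om) ∈ Ocal A, red A ⟨_, hc⟩ = 0 := by
  rw [sigma_zEl hσ]
  obtain ⟨hc, hred⟩ := Sigma.red_jQ (M := M) A hq hA
  have hj := Fermat.Agent.S37.EvalBasic.jBar_mem_Ocal A (M * q)
  have hz : ((Sigma.jQ M q - jBar (M * q) ^ q : FN (M * q)) : Om) ∈ Ocal A :=
    (Ocal A).sub_mem hc ((Ocal A).pow_mem hj q)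
  refine ⟨hz, ?_⟩
  have e : (⟨_, hz⟩ : Ocal A) = ⟨_, hc⟩ - ⟨_, hj⟩ ^ q := rfl
  rw [e, map_sub, map_pow, hred, Fermat.Agent.S37.EvalBasic.red_jBar, sub_self]

/-- **The element `e = z / (z + σ z)`**: `red e = 1`, `red (σ e) = 0`. -/
theorem exists_e (hσ : Val.IsAL M q σ) (hq : q.Prime) (hA : A.LiesOverPrime q) :
    ∃ (e : FN (M * q)) (he : ((e : FN (M * q)) : Om) ∈ Ocal A)
      (hσe : ((σ e : FN (M * q)) : Om) ∈ Ocal A),
      red A ⟨_, he⟩ = 1 ∧ red A ⟨_, hσe⟩ = 0 := by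
  obtain ⟨hz, hzr⟩ := Sigma.red_zEl (M := M) A hq hA
  obtain ⟨hσz, hσzr⟩ := red_sigma_zEl A hσ hq hA
  have hu := u_ne_zero A hq
  -- `s = z + σ z`
  have hs : ((Sigma.zEl M q + σ (Sigma.zEl M q) : FN (M * q)) : Om) ∈ Ocal A :=
    (Ocal A).add_mem hz hσz
  have hsr : red A ⟨_, hs⟩ = jqModC (kk A) - jqModC (kk A) ^ (q ^ 2) := by
    have e : (⟨_, hs⟩ : Ocal A) = ⟨_, hz⟩ + ⟨_, hσz⟩ := rfl
    rw [e, map_add, hzr, hσzr, add_zero]
  have hsr' : red A ⟨_, hs⟩ ≠ 0 := by rw [hsr]; exact hu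
  have hsinv : (((Sigma.zEl M q + σ (Sigma.zEl M q) : FN (M * q)) : Om))⁻¹ ∈ Ocal A :=
    inv_mem_Ocal A ⟨_, hs⟩ hsr'
  have hsinvr : red A ⟨_, hsinv⟩ = (jqModC (kk A) - jqModC (kk A) ^ (q ^ 2))⁻¹ := by
    rw [red_inv A ⟨_, hs⟩ hsr', hsr]
  have hσs : σ (Sigma.zEl M q + σ (Sigma.zEl M q)) = Sigma.zEl M q + σ (Sigma.zEl M q) := by
    rw [map_add, hσ.invol, add_comm]
  refine ⟨Sigma.zEl M q * (Sigma.zEl M q + σ (Sigma.zEl M q))⁻¹, ?_, ?_, ?_, ?_⟩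
  · exact (Ocal A).mul_mem hz hsinv
  · rw [map_mul, map_inv₀, hσs]
    exact (Ocal A).mul_mem hσz hsinv
  · have e : (⟨_, (Ocal A).mul_mem hz hsinv⟩ : Ocal A) = ⟨_, hz⟩ * ⟨_, hsinv⟩ := rfl
    have h := congrArg (red A) e
    rw [map_mul, hzr, hsinvr, mul_inv_cancel₀ hu] at h
    exact h
  · have hmem : ((σ (Sigma.zEl M q) * (Sigma.zEl M q + σ (Sigma.zEl M q))⁻¹ : FN (M * q)) : Om)
        ∈ Ocal A := (Ocal A).mul_mem hσz hsinv
    have hE : ((σ (Sigma.zEl M q * (Sigma.zEl M q + σ (Sigma.zEl M q))⁻¹) : FN (M * q)) : Om) =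
        ((σ (Sigma.zEl M q) * (Sigma.zEl M q + σ (Sigma.zEl M q))⁻¹ : FN (M * q)) : Om) := by
      rw [map_mul, map_inv₀, hσs]
    rw [red_congr A hE _ hmem]
    have e : (⟨_, hmem⟩ : Ocal A) = ⟨_, hσz⟩ * ⟨_, hsinv⟩ := rfl
    rw [e, map_mul, hσzr, zero_mul]

variable {A}

/-- The field `scale` of `Plan.Setup2` for `(Val.O2, Val.Red)` gives `ValArch.JointScale`. -/
theorem jointScale_of_scale
    (hscale : ∀ g : Om, g ∈ modularFunctionFieldBar (M * q) → g ≠ 0 →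
      ∃ c : Kbar, c ≠ 0 ∧ ∃ h : HahnSeries.C c * g ∈ Val.O2 A M q σ,
        Val.Red A M q σ ⟨_, h⟩ ≠ 0) :
    ValArch.JointScale A (modularFunctionFieldBar (M * q)) σ := by
  intro y hy
  have hy0 : ((y : FN (M * q)) : Om) ≠ 0 := fun h0 => hy (Subtype.ext h0)
  obtain ⟨c, hc, h, hR⟩ := hscale (y : Om) y.2 hy0
  obtain ⟨hF, h1, h2⟩ := Val.mem_O2.mp h
  have hE : (⟨HahnSeries.C c * ((y : FN (M * q)) : Om), hF⟩ : FN (M * q)) =
      algebraMap Kbar (FN (M * q)) c * y :=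
    Subtype.ext (by
      show HahnSeries.C c * ((y : FN (M * q)) : Om) =
        ((algebraMap Kbar (FN (M * q)) c : FN (M * q)) : Om) * ((y : FN (M * q)) : Om)
      rw [Val.coe_algebraMap_FN])
  have hE2 : ((σ ⟨HahnSeries.C c * ((y : FN (M * q)) : Om), hF⟩ : FN (M * q)) : Om) =
      HahnSeries.C c * ((σ y : FN (M * q)) : Om) := by
    rw [hE, map_mul, AlgEquiv.commutes]
    show ((algebraMap Kbar (FN (M * q)) c : FN (M * q)) : Om) * ((σ y : FN (M * q)) : Om) = _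
    rw [Val.coe_algebraMap_FN]
  have h2' : HahnSeries.C c * ((σ y : FN (M * q)) : Om) ∈ Ocal A := by rw [← hE2]; exact h2
  refine ⟨c, hc, h1, h2', ?_⟩
  by_contra hcon
  push Not at hcon
  apply hR
  refine Prod.ext ?_ ?_
  · rw [Val.fst_eq A M q σ ⟨_, h⟩ h1]; exact hcon.1
  · rw [Val.snd_eq A M q σ ⟨_, h⟩ hF h2, red_congr A hE2 h2 h2']; exact hcon.2

/-- **(V1')** at the level `M * q`: every non-zero element of `F_{Mq}` is a constant times a unit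
of `Ocal` (`= CharBad.ScaleProp A (M * q)`). -/
theorem scaleProp (hσ : Val.IsAL M q σ) (hq : q.Prime) (hA : A.LiesOverPrime q)
    (hscale : ∀ g : Om, g ∈ modularFunctionFieldBar (M * q) → g ≠ 0 →
      ∃ c : Kbar, c ≠ 0 ∧ ∃ h : HahnSeries.C c * g ∈ Val.O2 A M q σ,
        Val.Red A M q σ ⟨_, h⟩ ≠ 0) :
    ∀ y : Om, y ∈ modularFunctionFieldBar (M * q) → y ≠ 0 →
      ∃ c : Kbar, c ≠ 0 ∧ ∃ h : HahnSeries.C c * y ∈ Ocal A, red A ⟨_, h⟩ ≠ 0 := by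
  have : Fact q.Prime := ⟨hq⟩
  obtain ⟨e, he, hσe, he1, hσe0⟩ := exists_e A hσ hq hA
  exact ValArch.scaleProp_of_scale₁
    (ValArch.scale₁ (jointScale_of_scale hscale) (ValArch.rankOne_algClosure A q hA) e he he1
      hσe hσe0 (hσ.invol e))

/-- Every `y ∈ F_{Mq} ∩ Ocal` has a multiple `y * e ^ s ∈ O2` with the same first reduction. -/
theorem exists_mem_O2 (hσ : Val.IsAL M q σ) (hq : q.Prime) (hA : A.LiesOverPrime q)
    (hscale : ∀ g : Om, g ∈ modularFunctionFieldBar (M * q) → g ≠ 0 →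
      ∃ c : Kbar, c ≠ 0 ∧ ∃ h : HahnSeries.C c * g ∈ Val.O2 A M q σ,
        Val.Red A M q σ ⟨_, h⟩ ≠ 0)
    (y : Ocal A) (hy : (y : Om) ∈ modularFunctionFieldBar (M * q)) :
    ∃ g : Val.O2 A M q σ, (Val.Red A M q σ g).1 = red A y := by
  have : Fact q.Prime := ⟨hq⟩
  obtain ⟨e, he, hσe, he1, hσe0⟩ := exists_e A hσ hq hA
  obtain ⟨s, h₁, h₂, hr⟩ := ValArch.exists_pow_mul_mem (jointScale_of_scale hscale)
    (ValArch.rankOne_algClosure A q hA) e he he1 hσe hσe0 (hσ.invol e)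
    (⟨(y : Om), hy⟩ : FN (M * q)) y.2
  have hmem : (((⟨(y : Om), hy⟩ : FN (M * q)) * e ^ s : FN (M * q)) : Om) ∈ Val.O2 A M q σ :=
    Val.mem_O2.mpr ⟨(_ : FN (M * q)).2, h₁, h₂⟩
  refine ⟨⟨_, hmem⟩, ?_⟩
  rw [Val.fst_eq A M q σ ⟨_, hmem⟩ h₁, hr]

/-- **(HB)** at the level `M * q`: the reductions of `F_{Mq} ∩ Ocal` lie in `F_{M,k}`
(`= CharBad.RedInto A (M * q) M`), from the first half of the field `range` of `Plan.Setup2`. -/
theorem redInto (hσ : Val.IsAL M q σ) (hq : q.Prime) (hA : A.LiesOverPrime q)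
    (hscale : ∀ g : Om, g ∈ modularFunctionFieldBar (M * q) → g ≠ 0 →
      ∃ c : Kbar, c ≠ 0 ∧ ∃ h : HahnSeries.C c * g ∈ Val.O2 A M q σ,
        Val.Red A M q σ ⟨_, h⟩ ≠ 0)
    (hrange : ∀ g : Val.O2 A M q σ, (Val.Red A M q σ g).1 ∈ Fk A M) :
    ∀ y : Ocal A, (y : Om) ∈ modularFunctionFieldBar (M * q) → red A y ∈ Fk A M := by
  intro y hy
  obtain ⟨g, hg⟩ := exists_mem_O2 hσ hq hA hscale y hy
  rw [← hg]
  exact hrange g

/-- (V1') and (HB) at the level `M * q` from a `Plan.Setup2` structure on `(Val.O2, Val.Red)`. -/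
theorem scaleProp_redInto_of_setup2 {N : ℕ} [NeZero N] {hqN : q ∣ N} (hσ : Val.IsAL M q σ)
    (hq : q.Prime) (hA : A.LiesOverPrime q)
    (hS : Plan.Setup2 A N q M hqN (Val.O2 A M q σ) (Val.Red A M q σ)) :
    (∀ y : Om, y ∈ modularFunctionFieldBar (M * q) → y ≠ 0 →
      ∃ c : Kbar, c ≠ 0 ∧ ∃ h : HahnSeries.C c * y ∈ Ocal A, red A ⟨_, h⟩ ≠ 0) ∧
    (∀ y : Ocal A, (y : Om) ∈ modularFunctionFieldBar (M * q) → red A y ∈ Fk A M) :=
  ⟨scaleProp hσ hq hA hS.scale, redInto hσ hq hA hS.scale (fun g => (hS.range g).1)⟩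

end Fermat.Agent.S34.ValArchInst

end
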