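import Mathlib
import Fermat.Agent.S34.Val
import Fermat.Agent.S34.Sigma
import Fermat.Agent.S34.Num
import Fermat.Agent.S34.Ortho2
import Fermat.Agent.S34.ValIndep
import Fermat.Agent.S18.PullStep
import Fermat.Agent.S18.Red
import Fermat.Agent.S18.CharStmt
import Fermat.Agent.S18.ConstWPlan

/-!
# S34 / P6 — [VAL-FAM]: the concrete family `w = {e, (1 - e) j_q^i}` of `O2` (helper58)

`σ = Sigma.sigma M q h` (Atkin–Lehner), `O = Val.O2 A M q σ`, `ρ = Val.Red A M q σ`,
`z = j - j_q^q`, `x = σ z = j_q - j^q`, `e = z / (z + x)`.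

* `eEl`, `wEl`         : the elements of the field `F_{Mq}`;
* `w`                  : the family `Fin (q + 1) → O2`, `w 0 = e`, `w (i+1) = (1 - e) j_q^i`;
* `Red_w_zero`, `Red_w_succ` : `ρ (w 0) = (1, 0)`, `ρ (w (i+1)) = (0, j̄^i)`;
* `range_w`            : the values of `ρ` on `w` lie in `F_{M,k} × F_{M,k}`;
* `hind_w`             : `κ`-independence of the reductions (`S34/ValIndep.hind`);
* `linearIndependent_w`, `span_w` : `w` is an `F_M`-basis of `F_{Mq}`;
* `coe_eEl`, `eEl_mem_level` : `e` is an explicit element of `Q̄(j, j_q)`, hence of every `F_{mq}`.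
-/

set_option autoImplicit false
set_option maxHeartbeats 400000

noncomputable section

namespace Fermat.Agent.S34.ValFam

open ModularCurve AlgebraicCurve Fermat.Agent.S24 Fermat.Agent.S18.Content Fermat.Agent.S18.Plan
open Fermat.Agent.S34.Plan Fermat.Agent.S34

variable (A : ValuationSubring Kbar) {M q : ℕ} [NeZero M] [NeZero q]

/-- `Sigma.sigma` satisfies the Atkin–Lehner hypotheses of `S34/Val`. -/
theorem isAL (h : Nat.Coprime M q) (hq : q.Prime) : Val.IsAL M q (Sigma.sigma M q h) :=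
  ⟨Sigma.sigma_alpha h, Sigma.sigma_beta h, Sigma.sigma_sigma h hq⟩

/-! ## The elements of the field `F_{Mq}` -/

variable (M q) in
/-- `x = σ z = j_q - j^q`. -/
def xEl (h : Nat.Coprime M q) : FN (M * q) := Sigma.sigma M q h (Sigma.zEl M q)

variable (M q) in
/-- `e = z / (z + x)`. -/
def eEl (h : Nat.Coprime M q) : FN (M * q) := Sigma.zEl M q / (Sigma.zEl M q + xEl M q h)

variable (M q) in
/-- The family `e, (1 - e), (1 - e) j_q, …, (1 - e) j_q^(q-1)` of `F_{Mq}`. -/
def wEl (h : Nat.Coprime M q) : Fin (q + 1) → FN (M * q) :=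
  Fin.cons (eEl M q h) (fun i : Fin q => (1 - eEl M q h) * Sigma.jQ M q ^ (i : ℕ))

/-! ## `j̄ - j̄^(q²) ≠ 0` -/

theorem u_ne_zero (k : Type) [Field k] {n : ℕ} (hn : 1 < n) : jqModC k - jqModC k ^ n ≠ 0 := by
  intro h0
  have ht := Fermat.Agent.S18.ConstWPlan.transcendental_jqModC k
  have hP : (Polynomial.X - Polynomial.X ^ n : Polynomial k) ≠ 0 := by
    intro hP
    have := congrArg (fun p : Polynomial k => p.coeff 1) hP
    simp only [Polynomial.coeff_sub, Polynomial.coeff_X_one, Polynomial.coeff_X_pow,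
      Polynomial.coeff_zero] at this
    rw [if_neg (by omega)] at this
    simp at this
  apply ht
  refine ⟨_, hP, ?_⟩
  simpa using h0

/-! ## The elements of `O2` -/

section Elements

variable (h : Nat.Coprime M q) (hq : q.Prime) (hA : A.LiesOverPrime q)

include hq hA

/-- `z ∈ O2` with `Red z = (j̄ - j̄^(q²), 0)`. -/
theorem exists_z :
    ∃ hz : ((Sigma.zEl M q : FN (M * q)) : Om) ∈ Val.O2 A M q (Sigma.sigma M q h),
      Val.Red A M q (Sigma.sigma M q h) ⟨_, hz⟩ = (jk A - jk A ^ (q ^ 2), 0) := by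
  obtain ⟨hc1, hr1⟩ := Sigma.red_zEl (M := M) A hq hA
  obtain ⟨hc2, hr2⟩ := Sigma.red_sigma_zEl (M := M) A h hq hA
  obtain ⟨hg, e⟩ := Val.Red_of_mem A M q (Sigma.sigma M q h) (Sigma.zEl M q).2 hc1 hc2
  exact ⟨hg, e.trans (Prod.ext hr1 hr2)⟩

/-- `x = σ z ∈ O2` with `Red x = (0, j̄ - j̄^(q²))`. -/
theorem exists_x :
    ∃ hx : ((xEl M q h : FN (M * q)) : Om) ∈ Val.O2 A M q (Sigma.sigma M q h),
      Val.Red A M q (Sigma.sigma M q h) ⟨_, hx⟩ = (0, jk A - jk A ^ (q ^ 2)) := by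
  obtain ⟨hc1, hr1⟩ := Sigma.red_zEl (M := M) A hq hA
  obtain ⟨hc2, hr2⟩ := Sigma.red_sigma_zEl (M := M) A h hq hA
  have hc3 : ((Sigma.sigma M q h ⟨((xEl M q h : FN (M * q)) : Om), (xEl M q h).2⟩ :
      FN (M * q)) : Om) ∈ Ocal A := by
    show ((Sigma.sigma M q h (xEl M q h) : FN (M * q)) : Om) ∈ Ocal A
    rw [xEl, Sigma.sigma_sigma h hq]
    exact hc1
  obtain ⟨hg, e⟩ := Val.Red_of_mem A M q (Sigma.sigma M q h) (xEl M q h).2 hc2 hc3
  refine ⟨hg, e.trans (Prod.ext hr2 ?_)⟩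
  show red A ⟨_, hc3⟩ = _
  rw [← hr1]
  exact red_congr A (congrArg (fun y : FN (M * q) => (y : Om))
    (show Sigma.sigma M q h (xEl M q h) = Sigma.zEl M q from
      Sigma.sigma_sigma h hq _)) _ _

/-- `e = z / (z + x) ∈ O2` with `Red e = (1, 0)`. -/
theorem exists_e :
    ∃ he : ((eEl M q h : FN (M * q)) : Om) ∈ Val.O2 A M q (Sigma.sigma M q h),
      Val.Red A M q (Sigma.sigma M q h) ⟨_, he⟩ = (1, 0) := by
  obtain ⟨hz, ez⟩ := exists_z A h hq hA
  obtain ⟨hx, ex⟩ := exists_x A h hq hA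
  have hu : jk A - jk A ^ (q ^ 2) ≠ 0 :=
    u_ne_zero (kk A) (by nlinarith [hq.two_le])
  have es : Val.Red A M q (Sigma.sigma M q h) (⟨_, hz⟩ + ⟨_, hx⟩) =
      (jk A - jk A ^ (q ^ 2), jk A - jk A ^ (q ^ 2)) := by
    rw [map_add, ez, ex]
    exact Prod.ext (add_zero _) (zero_add _)
  have hinv := Val.inv_mem A M q (Sigma.sigma M q h) (⟨_, hz⟩ + ⟨_, hx⟩)
    (by rw [es]; exact hu) (by rw [es]; exact hu)
  have hs0 : (((⟨_, hz⟩ + ⟨_, hx⟩ : Val.O2 A M q (Sigma.sigma M q h))) : Om) ≠ 0 := by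
    intro h0
    have h1 : (⟨_, hz⟩ + ⟨_, hx⟩ : Val.O2 A M q (Sigma.sigma M q h)) = 0 := Subtype.ext h0
    rw [h1, map_zero] at es
    exact hu (congrArg Prod.fst es).symm
  have hmul : (⟨_, hz⟩ + ⟨_, hx⟩ : Val.O2 A M q (Sigma.sigma M q h)) * ⟨_, hinv⟩ = 1 :=
    Subtype.ext (mul_inv_cancel₀ hs0)
  have et : (jk A - jk A ^ (q ^ 2), jk A - jk A ^ (q ^ 2)) *
      Val.Red A M q (Sigma.sigma M q h) ⟨_, hinv⟩ = 1 := by
    rw [← es, ← map_mul, hmul, map_one]
  have hcoe : ((eEl M q h : FN (M * q)) : Om) =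
      (((⟨_, hz⟩ : Val.O2 A M q (Sigma.sigma M q h)) * ⟨_, hinv⟩ :
        Val.O2 A M q (Sigma.sigma M q h)) : Om) := by
    show ((Sigma.zEl M q / (Sigma.zEl M q + xEl M q h) : FN (M * q)) : Om) =
      ((Sigma.zEl M q : FN (M * q)) : Om) *
        (((Sigma.zEl M q : FN (M * q)) : Om) + ((xEl M q h : FN (M * q)) : Om))⁻¹
    rw [div_eq_mul_inv]
    rfl
  have he : ((eEl M q h : FN (M * q)) : Om) ∈ Val.O2 A M q (Sigma.sigma M q h) := by
    rw [hcoe]; exact Subtype.mem _
  refine ⟨he, ?_⟩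
  have e1 : (⟨_, he⟩ : Val.O2 A M q (Sigma.sigma M q h)) = ⟨_, hz⟩ * ⟨_, hinv⟩ :=
    Subtype.ext hcoe
  rw [e1, map_mul, ez]
  have e2 := congrArg Prod.fst et
  exact Prod.ext e2 (zero_mul _)

/-- `e` as an element of `O2`. -/
def eO : Val.O2 A M q (Sigma.sigma M q h) := ⟨_, (exists_e A h hq hA).choose⟩

theorem coe_eO : ((eO A h hq hA : Val.O2 A M q (Sigma.sigma M q h)) : Om) =
    ((eEl M q h : FN (M * q)) : Om) := rfl

theorem Red_eO : Val.Red A M q (Sigma.sigma M q h) (eO A h hq hA) = (1, 0) :=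
  (exists_e A h hq hA).choose_spec

omit hq hA in
theorem coe_jQ : ((Sigma.jQ M q : FN (M * q)) : Om) = qExpand Kbar q jK := by
  rw [Sigma.jQ, coe_heckeBetaBar, Fermat.Agent.S18.Main.coe_jBar]

omit hA in
/-- `j_q ∈ O2` with second component of `Red` equal to `j̄`. -/
theorem exists_jq :
    ∃ hj : ((Sigma.jQ M q : FN (M * q)) : Om) ∈ Val.O2 A M q (Sigma.sigma M q h),
      Val.Red A M q (Sigma.sigma M q h) ⟨_, hj⟩ = (qExpand (kk A) q (jk A), jk A) := by
  obtain ⟨hh, e⟩ := (isAL h hq).Red_jq A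
  have hc := coe_jQ (M := M) (q := q)
  exact ⟨hc ▸ hh, by
    have e1 : (⟨((Sigma.jQ M q : FN (M * q)) : Om), hc ▸ hh⟩ :
        Val.O2 A M q (Sigma.sigma M q h)) = ⟨_, hh⟩ := Subtype.ext hc
    rw [e1, e]⟩

omit hA in
/-- `j_q` as an element of `O2`. -/
def jqO : Val.O2 A M q (Sigma.sigma M q h) := ⟨_, (exists_jq A h hq).choose⟩

omit hA in
theorem Red_jqO : Val.Red A M q (Sigma.sigma M q h) (jqO A h hq) =
    (qExpand (kk A) q (jk A), jk A) :=
  (exists_jq A h hq).choose_spec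

/-- **The family** `w 0 = e`, `w (i + 1) = (1 - e) j_q^i` of `O2`. -/
def w : Fin (q + 1) → Val.O2 A M q (Sigma.sigma M q h) :=
  Fin.cons (eO A h hq hA) (fun i : Fin q => (1 - eO A h hq hA) * jqO A h hq ^ (i : ℕ))

theorem w_zero : w A h hq hA 0 = eO A h hq hA := rfl

theorem w_succ (i : Fin q) :
    w A h hq hA i.succ = (1 - eO A h hq hA) * jqO A h hq ^ (i : ℕ) := by
  rw [w, Fin.cons_succ]

theorem coe_w (i : Fin (q + 1)) :
    ((w A h hq hA i : Val.O2 A M q (Sigma.sigma M q h)) : Om) =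
      ((wEl M q h i : FN (M * q)) : Om) := by
  refine Fin.cases ?_ (fun i => ?_) i
  · rfl
  · rw [w_succ, wEl, Fin.cons_succ]
    rfl

/-- `Red (w 0) = (1, 0)`. -/
theorem Red_w_zero : Val.Red A M q (Sigma.sigma M q h) (w A h hq hA 0) = (1, 0) :=
  Red_eO A h hq hA

/-- `Red (w (i + 1)) = (0, j̄^i)`. -/
theorem Red_w_succ (i : Fin q) :
    Val.Red A M q (Sigma.sigma M q h) (w A h hq hA i.succ) = (0, jk A ^ (i : ℕ)) := by
  rw [w_succ, map_mul, map_sub, map_one, map_pow, Red_eO, Red_jqO]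
  refine Prod.ext ?_ ?_
  · show ((1 : Omk A) - 1) * _ = 0
    rw [sub_self, zero_mul]
  · show ((1 : Omk A) - 0) * jk A ^ (i : ℕ) = jk A ^ (i : ℕ)
    rw [sub_zero, one_mul]

/-- **(hwr)** the values of `Red` on the family lie in `F_{M,k} × F_{M,k}`. -/
theorem range_w (i : Fin (q + 1)) :
    (Val.Red A M q (Sigma.sigma M q h) (w A h hq hA i)).1 ∈ Fk A M ∧
      (Val.Red A M q (Sigma.sigma M q h) (w A h hq hA i)).2 ∈ Fk A M := by
  refine Fin.cases ?_ (fun i => ?_) i
  · rw [Red_w_zero]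
    exact ⟨(Fk A M).one_mem, (Fk A M).zero_mem⟩
  · rw [Red_w_succ]
    exact ⟨(Fk A M).zero_mem, (Fk A M).pow_mem (jqModC_mem_full (kk A) M) (i : ℕ)⟩

end Elements

/-! ## `w` is an `F_M`-basis of `F_{Mq}` -/

section Span

open Module

variable (h : Nat.Coprime M q) (hq : q.Prime) (hA : A.LiesOverPrime q)

omit [NeZero M] [NeZero q] in
theorem dvd_top : M ∣ M * q := Dvd.intro _ rfl

include h hq in
/-- `[F_{Mq} : F_M] = q + 1`. -/
theorem finrank_top :
    finrank (FN M) ↥(Fermat.Agent.S18.PullPlan.Ext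
      (Fermat.Agent.S18.PullStep.bar_le (dvd_top (M := M) (q := q)))) = q + 1 := by
  have hqM : ¬ q ∣ M := (Nat.Prime.coprime_iff_not_dvd hq).mp h.symm
  have h1 := Fermat.Agent.S18.PullStep.finrank_ext_mul (dvd_top (M := M) (q := q))
  rw [Num.dedekindPsi_mul_prime hq hqM] at h1
  exact Nat.eq_of_mul_eq_mul_right (Fermat.Agent.S18.FibreCount.dedekindPsi_pos M) h1

/-- **`F_M`-linear independence** of the family `w`, from the independence of its reductions
(hypothesis `hind` in the shape of `S34/ValIndep`) and the valuation property at level `M`. -/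
theorem linearIndependent_w (hR : RedStmt A M)
    (hind : ∀ a : Fin (q + 1) → Omk A,
      ∑ i, (a i, qExpand (kk A) q (a i)) *
        Val.Red A M q (Sigma.sigma M q h) (w A h hq hA i) = 0 → ∀ i, a i = 0)
    (c : Fin (q + 1) → Om) (hc : ∀ i, c i ∈ modularFunctionFieldBar M)
    (hsum : ∑ i, c i * ((w A h hq hA i : Val.O2 A M q (Sigma.sigma M q h)) : Om) = 0) :
    ∀ i, c i = 0 := by
  by_contra hne
  obtain ⟨i₀, hi₀⟩ := not_forall.mp hne
  have hv := Fermat.Agent.S18.CharStmt.valProp_of_redStmt A hR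
  obtain ⟨j, hj0, hj, -⟩ := Ortho2.Setup.exists_max
    (O := Fermat.Agent.S18.CharStmt.valO (Ocal A) (modularFunctionFieldBar M) hv)
    (fun i => (⟨c i, hc i⟩ : FN M)) i₀ (fun h0 => hi₀ (congrArg Subtype.val h0))
  have hcj : c j ≠ 0 := fun h0 => hj0 (Subtype.ext h0)
  have hdM : ∀ i, c i / c j ∈ modularFunctionFieldBar M := fun i =>
    (modularFunctionFieldBar M).div_mem (hc i) (hc j)
  have hdO : ∀ i, c i / c j ∈ Ocal A := fun i => hj i
  have hV5 := fun i => (isAL h hq).Red_level A (hdM i) (hdO i)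
  have hzero : ∑ i, (⟨c i / c j, (hV5 i).choose⟩ : Val.O2 A M q (Sigma.sigma M q h)) *
      w A h hq hA i = 0 := by
    apply Subtype.ext
    rw [AddSubmonoidClass.coe_finsetSum]
    have : ∀ i, (((⟨c i / c j, (hV5 i).choose⟩ : Val.O2 A M q (Sigma.sigma M q h)) *
        w A h hq hA i : Val.O2 A M q (Sigma.sigma M q h)) : Om) =
        (c i * ((w A h hq hA i : Val.O2 A M q (Sigma.sigma M q h)) : Om)) / c j := by
      intro i
      show c i / c j * _ = _
      rw [div_mul_eq_mul_div]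
    rw [Finset.sum_congr rfl (fun i _ => this i), ← Finset.sum_div, hsum, zero_div]
    rfl
  have hred := congrArg (Val.Red A M q (Sigma.sigma M q h)) hzero
  rw [map_sum, map_zero] at hred
  have hred' : ∑ i, (red A ⟨c i / c j, hdO i⟩, qExpand (kk A) q (red A ⟨c i / c j, hdO i⟩)) *
      Val.Red A M q (Sigma.sigma M q h) (w A h hq hA i) = 0 := by
    rw [← hred]
    refine Finset.sum_congr rfl (fun i _ => ?_)
    rw [map_mul, (hV5 i).choose_spec]
  have hall := hind _ hred' j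
  have h1 : red A ⟨c j / c j, hdO j⟩ = 1 := by
    rw [red_congr A (div_self hcj) (hdO j) (Ocal A).one_mem]
    exact map_one (red A)
  rw [h1] at hall
  exact one_ne_zero hall

/-- **(hspan)** every element of `F_{Mq}` is an `F_M`-combination of the family `w`. -/
theorem span_w (hR : RedStmt A M)
    (hind : ∀ a : Fin (q + 1) → Omk A,
      ∑ i, (a i, qExpand (kk A) q (a i)) *
        Val.Red A M q (Sigma.sigma M q h) (w A h hq hA i) = 0 → ∀ i, a i = 0) :
    ∀ g : Om, g ∈ modularFunctionFieldBar (M * q) →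
      ∃ c : Fin (q + 1) → Om, (∀ i, c i ∈ modularFunctionFieldBar M) ∧
        g = ∑ i, c i * ((w A h hq hA i : Val.O2 A M q (Sigma.sigma M q h)) : Om) := by
  intro g hg
  have hle := Fermat.Agent.S18.PullStep.bar_le (dvd_top (M := M) (q := q))
  have := Fermat.Agent.S18.PullStep.finiteDimensional_ext (dvd_top (M := M) (q := q))
  let b : Fin (q + 1) → ↥(Fermat.Agent.S18.PullPlan.Ext hle) := fun i =>
    ⟨((w A h hq hA i : Val.O2 A M q (Sigma.sigma M q h)) : Om),
      Val.mem_field A M q (Sigma.sigma M q h) (w A h hq hA i)⟩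
  have hli : LinearIndependent (FN M) b := by
    rw [Fintype.linearIndependent_iff]
    intro c hsum i
    have h0 := linearIndependent_w A h hq hA hR hind (fun i => ((c i : FN M) : Om))
      (fun i => (c i).2) (by
        have := congrArg (fun x : ↥(Fermat.Agent.S18.PullPlan.Ext hle) => (x : Om)) hsum
        simp only [AddSubmonoidClass.coe_finsetSum] at this
        exact this) i
    exact Subtype.ext h0
  have hspan := hli.span_eq_top_of_card_eq_finrank' (by
    rw [Fintype.card_fin, finrank_top h hq])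
  have hmem : (⟨g, hg⟩ : ↥(Fermat.Agent.S18.PullPlan.Ext hle)) ∈
      Submodule.span (FN M) (Set.range b) := by
    rw [hspan]; exact Submodule.mem_top
  obtain ⟨c, hc⟩ := (Submodule.mem_span_range_iff_exists_fun (FN M)).mp hmem
  refine ⟨fun i => ((c i : FN M) : Om), fun i => (c i).2, ?_⟩
  have := congrArg (fun x : ↥(Fermat.Agent.S18.PullPlan.Ext hle) => (x : Om)) hc
  simp only [AddSubmonoidClass.coe_finsetSum] at this
  exact this.symm

/-- **(hind)** for the family `w` (`S34/ValIndep.hind`). -/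
theorem hind_w : ∀ a : Fin (q + 1) → Omk A,
    ∑ i, (a i, qExpand (kk A) q (a i)) *
      Val.Red A M q (Sigma.sigma M q h) (w A h hq hA i) = 0 → ∀ i, a i = 0 :=
  ValIndep.hind A q (Val.Red A M q (Sigma.sigma M q h)) (w A h hq hA)
    (Red_w_zero A h hq hA) (Red_w_succ A h hq hA)

omit [NeZero q] in
/-- The content valuation statement at the good level `M` (S18). -/
theorem redStmt_level (h : Nat.Coprime M q) (hq : q.Prime) (hA : A.LiesOverPrime q) :
    RedStmt A M :=
  haveI : Fact q.Prime := ⟨hq⟩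
  Fermat.Agent.S18.Red.redStmt M q ((Nat.Prime.coprime_iff_not_dvd hq).mp h.symm) A hA

/-- **`F_M`-linear independence of `w`** (unconditional). -/
theorem linearIndependent_w' (c : Fin (q + 1) → Om) (hc : ∀ i, c i ∈ modularFunctionFieldBar M)
    (hsum : ∑ i, c i * ((w A h hq hA i : Val.O2 A M q (Sigma.sigma M q h)) : Om) = 0) :
    ∀ i, c i = 0 :=
  linearIndependent_w A h hq hA (redStmt_level A h hq hA) (hind_w A h hq hA) c hc hsum

/-- **(hspan)** (unconditional): every element of `F_{Mq}` is an `F_M`-combination of `w`. -/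
theorem span_w' : ∀ g : Om, g ∈ modularFunctionFieldBar (M * q) →
    ∃ c : Fin (q + 1) → Om, (∀ i, c i ∈ modularFunctionFieldBar M) ∧
      g = ∑ i, c i * ((w A h hq hA i : Val.O2 A M q (Sigma.sigma M q h)) : Om) :=
  span_w A h hq hA (redStmt_level A h hq hA) (hind_w A h hq hA)

end Span

/-! ## `e` is an explicit element of `Q̄(j, j_q)` -/

section Explicit

variable (h : Nat.Coprime M q)

/-- The value of `e` in `Q̄((T))`: `e = z / (z + x)`, `z = j - j_q^q`, `x = j_q - j^q`. -/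
theorem coe_eEl : ((eEl M q h : FN (M * q)) : Om) =
    (jK - qExpand Kbar q jK ^ q) /
      ((jK - qExpand Kbar q jK ^ q) + (qExpand Kbar q jK - jK ^ q)) := by
  have hz : ((Sigma.zEl M q : FN (M * q)) : Om) = jK - qExpand Kbar q jK ^ q := by
    show ((jBar (M * q) : FN (M * q)) : Om) - ((Sigma.jQ M q : FN (M * q)) : Om) ^ q = _
    rw [coe_jQ, Fermat.Agent.S18.Main.coe_jBar]
  have hx : ((xEl M q h : FN (M * q)) : Om) = qExpand Kbar q jK - jK ^ q := by
    rw [xEl, Sigma.sigma_zEl]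
    show ((Sigma.jQ M q : FN (M * q)) : Om) - ((jBar (M * q) : FN (M * q)) : Om) ^ q = _
    rw [coe_jQ, Fermat.Agent.S18.Main.coe_jBar]
  show ((Sigma.zEl M q : FN (M * q)) : Om) /
    (((Sigma.zEl M q : FN (M * q)) : Om) + ((xEl M q h : FN (M * q)) : Om)) = _
  rw [hz, hx]

/-- `e` lies in `F_{mq}` for every level `m`. -/
theorem eEl_mem_level (m : ℕ) [NeZero m] :
    ((eEl M q h : FN (M * q)) : Om) ∈ modularFunctionFieldBar (m * q) := by
  rw [coe_eEl]
  have hj : (jK : Om) ∈ modularFunctionFieldBar (m * q) :=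
    Val.mem_top m q (Val.jK_mem_level m)
  have hjq : qExpand Kbar q jK ∈ modularFunctionFieldBar (m * q) :=
    Val.qExpand_mem_top m q (Val.jK_mem_level m)
  have hz := (modularFunctionFieldBar (m * q)).sub_mem hj
    ((modularFunctionFieldBar (m * q)).pow_mem hjq q)
  have hx := (modularFunctionFieldBar (m * q)).sub_mem hjq
    ((modularFunctionFieldBar (m * q)).pow_mem hj q)
  exact (modularFunctionFieldBar (m * q)).div_mem hz
    ((modularFunctionFieldBar (m * q)).add_mem hz hx)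

end Explicit

end Fermat.Agent.S34.ValFam
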