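import Mathlib
import Fermat.Agent.S34.Val
import Fermat.Agent.S34.ValDSR
import Fermat.Agent.S34.ValInertia
import Fermat.Agent.S34.ValArch
import Fermat.Agent.S34.ValLiftInst
import Fermat.Agent.S34.InclInt
import Fermat.Agent.S34.FkFrob
import Fermat.Agent.S34.Sigma
import Fermat.Agent.S34.ValIndep
import Fermat.Agent.S34.ValFam
import Fermat.Agent.S18.Red

/-!
# S34 / P6 — (T1) [VAL]: `Plan.ValStmt` at the P6 levels (helper78)

The 19 fields of `Plan.Setup2` for the concrete two-component reduction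
`(Val.O2 A M q σ, Val.Red A M q σ)`, `σ = Sigma.sigma M q h` the Atkin–Lehner involution of
`F_{Mq}`, wired from the hypothesis-form files:

* `Val.*`                 : `mem_field`, `mem_Ocal`, `fst_eq`, `C_mem_iff`, `ρ_C`, `inv_mem`;
* `ValDSR.*`              : `dim`, `scale`, `range` (family `ValFam.w`, `ValIndep.hind`);
* `InclInt.incl_of_hO`    : `incl`;
* `ValLiftInst.*`         : `lift₁`, `lift₂`, `exists_z`, `exists_x`, `ρ_j`, `ρ_jq`;
* `ValInertia.*`          : `inertia`, `inertia_ratio` (with `ValArch.scale₁`).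

Exports: `setup2_of_fam` (any `σ` with `Val.IsAL`), `setup2` (for `Sigma.sigma`), `valStmt`.
-/

set_option autoImplicit false
set_option synthInstance.maxHeartbeats 400000
set_option maxHeartbeats 1000000

noncomputable section

namespace Fermat.Agent.S34.ValFinal

open ModularCurve AlgebraicCurve Fermat.Agent.S24 Fermat.Agent.S18.Content Fermat.Agent.S18.Plan
open Fermat.Agent.S34.Plan Fermat.Agent.S34

section Levels

variable {q N' N M : ℕ}

/-- `M` and `q` are coprime at the P6 levels. -/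
theorem coprime_of_levels (hL : Levels q N' N M) : Nat.Coprime M q :=
  Nat.Coprime.symm
    ((Nat.Prime.coprime_iff_not_dvd hL.prime).mpr (InclPull.not_dvd_of_levels hL))

/-- `M ≠ 0` at the P6 levels. -/
theorem neZero_of_levels (hL : Levels q N' N M) : NeZero M := by
  refine ⟨?_⟩
  rw [hL.M_eq]
  unfold aux
  have := hL.N'_pos
  split_ifs <;> omega

end Levels

variable (A : ValuationSubring Kbar) {q N' N M : ℕ} [NeZero N] [NeZero q] [NeZero M]
  (hqN : q ∣ N) {σ : FN (M * q) ≃ₐ[Kbar] FN (M * q)}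

/-- **`Plan.Setup2`** for `(Val.O2 A M q σ, Val.Red A M q σ)`, any `σ` with `Val.IsAL M q σ`
commuting with the decomposition group, from a family `w` of `q + 1` elements with
`Red (w 0) = (1, 0)`, `Red (w (i + 1)) = (0, j̄^i)` spanning `F_{Mq}` over `F_M`. -/
theorem setup2_of_fam (hL : Levels q N' N M) (hA : A.LiesOverPrime q) (hσ : Val.IsAL M q σ)
    (hστ : ∀ (s : A.decompositionSubgroup ℚ) (x : FN (M * q)),
      σ (Fermat.Agent.S37.Gal.gK A (M * q) s • x) = Fermat.Agent.S37.Gal.gK A (M * q) s • σ x)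
    (w : Fin (q + 1) → Val.O2 A M q σ)
    (hw0 : Val.Red A M q σ (w 0) = (1, 0))
    (hws : ∀ i : Fin q, Val.Red A M q σ (w i.succ) = (0, jk A ^ (i : ℕ)))
    (hwr : ∀ i, (Val.Red A M q σ (w i)).1 ∈ Fk A M ∧ (Val.Red A M q σ (w i)).2 ∈ Fk A M)
    (hspan : ∀ g : Om, g ∈ modularFunctionFieldBar (M * q) →
      ∃ c : Fin (q + 1) → Om, (∀ i, c i ∈ modularFunctionFieldBar M) ∧
        g = ∑ i, c i * (w i : Om)) :
    Setup2 A N q M hqN (Val.O2 A M q σ) (Val.Red A M q σ) := by
  have hq : q.Prime := hL.prime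
  have : Fact q.Prime := ⟨hq⟩
  have hqM : ¬ q ∣ M := InclPull.not_dvd_of_levels hL
  have hRed : RedStmt A M := Fermat.Agent.S18.Red.redStmt M q hqM A hA
  have hV5 : ∀ h : Om, h ∈ modularFunctionFieldBar M → ∀ hO : h ∈ Ocal A,
      ∃ hh : h ∈ Val.O2 A M q σ,
        Val.Red A M q σ ⟨h, hh⟩ = (red A ⟨h, hO⟩, qExpand (kk A) q (red A ⟨h, hO⟩)) :=
    fun h hM hO => hσ.Red_level A hM hO
  have hind : ∀ a : Fin (q + 1) → Omk A, (∀ i, a i ∈ Fk A M) →
      ∑ i, (a i, qExpand (kk A) q (a i)) * Val.Red A M q σ (w i) = 0 → ∀ i, a i = 0 :=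
    fun a _ => ValIndep.hind A q (Val.Red A M q σ) w hw0 hws a
  have hdim := ValDSR.dim_of w hRed hV5 hspan hind
  have hscale := ValDSR.scale_of w hRed hV5 hspan hind
  have hrange := ValDSR.range_of w hRed hV5 hspan hind (Val.mem_field A M q σ) hwr
    (FkFrob.qExpand_mem_Fk A q M hq hA)
  have hcoeff := fun g : Val.O2 A M q σ =>
    ValDSR.coeff_mem_of w hRed hV5 hspan hind g (Val.mem_field A M q σ g)
  -- the `(hO)/(hρ)` spelling of `ValInertia` / `InclInt`
  have hO : ∀ g : Om, g ∈ Val.O2 A M q σ ↔ ∃ hg : g ∈ modularFunctionFieldBar (M * q),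
      g ∈ Ocal A ∧ ((σ ⟨g, hg⟩ : FN (M * q)) : Om) ∈ Ocal A := fun g => Val.mem_O2
  have hρ : ∀ (g : Val.O2 A M q σ) (hg : (g : Om) ∈ modularFunctionFieldBar (M * q))
      (h1 : (g : Om) ∈ Ocal A) (h2 : ((σ ⟨(g : Om), hg⟩ : FN (M * q)) : Om) ∈ Ocal A),
      Val.Red A M q σ g = (red A ⟨(g : Om), h1⟩, red A ⟨_, h2⟩) :=
    fun g hg h1 h2 => Prod.ext (Val.fst_eq A M q σ g h1) (Val.snd_eq A M q σ g hg h2)
  have hOM : ∀ y : Om, y ∈ modularFunctionFieldBar M → y ∈ Ocal A → y ∈ Val.O2 A M q σ :=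
    fun y hM hyO => (hV5 y hM hyO).1
  -- one-valuation scaling at level `M * q`
  have hscale₁ : ∀ y : Om, y ∈ modularFunctionFieldBar (M * q) → y ≠ 0 →
      ∃ c : Kbar, c ≠ 0 ∧ ∃ h : HahnSeries.C c * y ∈ Ocal A, red A ⟨_, h⟩ ≠ 0 := by
    have hJ : ValArch.JointScale A (modularFunctionFieldBar (M * q)) σ := by
      intro y hy
      obtain ⟨c, hc, hmem, hne⟩ := hscale (y : Om) y.2 (fun h => hy (Subtype.ext h))
      obtain ⟨hF, h1, h2⟩ := Val.mem_O2.mp hmem
      have e : (⟨HahnSeries.C c * (y : Om), hF⟩ : FN (M * q)) =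
          algebraMap Kbar (FN (M * q)) c * y :=
        Subtype.ext (ValArch.coe_const_mul c y).symm
      have e2 : ((σ ⟨HahnSeries.C c * (y : Om), hF⟩ : FN (M * q)) : Om) =
          HahnSeries.C c * ((σ y : FN (M * q)) : Om) := by
        rw [e, ValArch.sigma_const_mul, ValArch.coe_const_mul]
      have h2' : HahnSeries.C c * ((σ y : FN (M * q)) : Om) ∈ Ocal A := by
        rw [← e2]; exact h2
      refine ⟨c, hc, h1, h2', ?_⟩
      by_contra hcon
      rw [not_or, not_not, not_not] at hcon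
      apply hne
      rw [hρ ⟨_, hmem⟩ hF h1 h2]
      refine Prod.ext hcon.1 ?_
      show red A ⟨_, h2⟩ = 0
      rw [red_congr A e2 h2 h2']
      exact hcon.2
    have hR : ValArch.RankOne A := ValArch.rankOne_algClosure A q hA
    -- the element `e = w 0`
    obtain ⟨heF, he1, he2⟩ := Val.mem_O2.mp (w 0).2
    have hw0' := hρ (w 0) heF he1 he2
    rw [hw0] at hw0'
    have hS : ValArch.Scale₁ A (modularFunctionFieldBar (M * q)) :=
      ValArch.scale₁ hJ hR ⟨((w 0 : Val.O2 A M q σ) : Om), heF⟩ he1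
        (congrArg Prod.fst hw0').symm he2 (congrArg Prod.snd hw0').symm (hσ.invol _)
    exact ValArch.scaleProp_of_scale₁ hS
  exact
    { mem_field := Val.mem_field A M q σ
      mem_Ocal := Val.mem_Ocal A M q σ
      fst_eq := Val.fst_eq A M q σ
      C_mem_iff := Val.C_mem_iff A M q σ
      ρ_C := Val.Red_C A M q σ
      scale := hscale
      dim := hdim
      range := hrange
      inv_mem := Val.inv_mem A M q σ
      incl := InclInt.incl_of_hO A hL hqN hA (PoleBound.poleStmt hqN hL) σ hσ.beta hσ.invol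
        (Val.O2 A M q σ) (Val.Red A M q σ) hO hρ hOM w hcoeff hrange
      lift₁ := ValLiftInst.lift₁ A hL hA hσ
      lift₂ := ValLiftInst.lift₂ A hqN hL hA hσ
      exists_z := ValLiftInst.exists_z A hqN hL hA hσ
      exists_x := ValLiftInst.exists_x A hqN hL hA hσ
      ρ_j := ValLiftInst.ρ_j A hL hA hσ
      ρ_jq := ValLiftInst.ρ_jq A hL hA hσ
      inertia := ValInertia.inertia A (M * q) σ _ _ hO hρ hστ
      inertia_ratio := ValInertia.inertia_ratio A (M * q) σ _ _ hO hρ hστ hscale₁ }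

omit [NeZero N] in
/-- `Sigma.sigma` commutes with the decomposition group (the hypothesis `hστ` of
`ValInertia`). -/
theorem hστ_sigma (h : Nat.Coprime M q) (hq : q.Prime) (s : A.decompositionSubgroup ℚ)
    (x : FN (M * q)) :
    Sigma.sigma M q h (Fermat.Agent.S37.Gal.gK A (M * q) s • x) =
      Fermat.Agent.S37.Gal.gK A (M * q) s • Sigma.sigma M q h x :=
  (Sigma.galois_smul_sigma h hq (s : Kbar ≃ₐ[ℚ] Kbar) x).symm

/-- **`Plan.Setup2`** for the concrete pair `(Val.O2 A M q σ, Val.Red A M q σ)`,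
`σ = Sigma.sigma M q h`. -/
theorem setup2 (hL : Levels q N' N M) (hA : A.LiesOverPrime q) (h : Nat.Coprime M q) :
    Setup2 A N q M hqN (Val.O2 A M q (Sigma.sigma M q h))
      (Val.Red A M q (Sigma.sigma M q h)) :=
  setup2_of_fam A hqN hL hA (ValFam.isAL h hL.prime) (hστ_sigma A h hL.prime)
    (ValFam.w A h hL.prime hA) (ValFam.Red_w_zero A h hL.prime hA)
    (ValFam.Red_w_succ A h hL.prime hA) (ValFam.range_w A h hL.prime hA)
    (ValFam.span_w' A h hL.prime hA)

end Fermat.Agent.S34.ValFinal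

namespace Fermat.Agent.S34.ValFinal

open ModularCurve AlgebraicCurve Fermat.Agent.S24 Fermat.Agent.S18.Content Fermat.Agent.S18.Plan
open Fermat.Agent.S34.Plan Fermat.Agent.S34

/-- **(T1) [VAL]**: the two-component reduction exists at the P6 levels. -/
theorem valStmt (A : ValuationSubring Kbar) {q N' N M : ℕ} [NeZero N] [NeZero q] (hqN : q ∣ N)
    (hL : Levels q N' N M) (hA : A.LiesOverPrime q) : ValStmt A N q M hqN := by
  have : NeZero M := neZero_of_levels hL
  exact ⟨_, _, setup2 A hqN hL hA (coprime_of_levels hL)⟩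

end Fermat.Agent.S34.ValFinal

end
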