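import Mathlib
import Fermat.Agent.S34.Val
import Fermat.Agent.S34.Ortho2
import Fermat.Agent.S34.Ortho2Char
import Fermat.Agent.S34.DimTransfer
import Fermat.Agent.S34.FrobCoeff
import Fermat.Agent.S34.Incl
import Fermat.Agent.S18.CharStmt
import Fermat.Agent.S18.RedGlue
import Fermat.Agent.S28.Tower.Basic

/-!
# S34 / P6 — [VAL] part 2: the orthonormal basis of `F_{Mq} / F_M` (helper49)

Instantiation of `S34/Ortho2` at `F = F_M ⊆ F' = F_{Mq}`, `O = F_M ∩ Ocal`, `O' = O2F`,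
`κ = F_{M,k}`, `R' = k((T)) × k((T))` with the `κ`-algebra structure `a ↦ (a, a(T^q))`, and the
family `w = (e, (1 - e) j_q^i)_{i < q}`, `Red e = (1, 0)`.
-/

set_option autoImplicit false
set_option maxHeartbeats 400000
set_option linter.unusedSectionVars false

noncomputable section

namespace Fermat.Agent.S34.Val

open ModularCurve AlgebraicCurve Fermat.Agent.S24 Fermat.Agent.S18.Content Fermat.Agent.S18.Plan
open Fermat.Agent.S34.Plan Fermat.Agent.S18

section Tw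

variable (A : ValuationSubring Kbar) (M q : ℕ) [NeZero q]

/-- `k((T)) × k((T))`, to be given the `F_{M,k}`-algebra structure `a ↦ (a, a(T^q))`. -/
def Rtw (_A : ValuationSubring Kbar) (_q : ℕ) : Type := R2 _A

instance : CommRing (Rtw A q) := inferInstanceAs (CommRing (R2 A))

/-- `a ↦ (a, a(T^q))`. -/
def twHom : ↥(Fk A M) →+* Rtw A q :=
  (algebraMap ↥(Fk A M) (Omk A)).prod ((qExpand (kk A) q).comp (algebraMap ↥(Fk A M) (Omk A)))

instance algTw : Algebra ↥(Fk A M) (Rtw A q) := (twHom A M q).toAlgebra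

theorem twHom_apply (a : ↥(Fk A M)) :
    twHom A M q a = (((a : Omk A), qExpand (kk A) q (a : Omk A)) : R2 A) := rfl

theorem tw_smul_fst (a : ↥(Fk A M)) (x : Rtw A q) :
    (show R2 A from a • x).1 = (a : Omk A) * (show R2 A from x).1 := rfl

theorem tw_smul_snd (a : ↥(Fk A M)) (x : Rtw A q) :
    (show R2 A from a • x).2 = qExpand (kk A) q (a : Omk A) * (show R2 A from x).2 := rfl

end Tw

section Ortho

variable {A : ValuationSubring Kbar} {M q : ℕ} [NeZero M] [NeZero q]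
variable {σ : FN (M * q) ≃ₐ[Kbar] FN (M * q)}

/-- `F_{Mq}` as an algebra over `F_M` (inclusion). -/
@[reducible] def algTop (M q : ℕ) [NeZero M] [NeZero q] : Algebra (FN M) (FN (M * q)) :=
  (heckeAlphaBar Kbar M q).toRingHom.toAlgebra

attribute [local instance] algTop

theorem coe_algebraMap_top (x : FN M) :
    ((algebraMap (FN M) (FN (M * q)) x : FN (M * q)) : Om) = (x : Om) :=
  coe_heckeAlphaBar M q x

/-- `O_M = F_M ∩ Ocal` as a valuation subring of `F_M`. -/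
abbrev OMv (hRed : RedStmt A M) : ValuationSubring (FN M) :=
  CharStmt.valO (Ocal A) (modularFunctionFieldBar M) (CharStmt.valProp_of_redStmt A hRed)

/-- The reduction `O_M → F_{M,k}`. -/
abbrev redM (hRed : RedStmt A M) : OMv hRed →+* ↥(Fk A M) :=
  CharStmt.redO (Ocal A) (red A) (modularFunctionFieldBar M) (Fk A M)
    (CharStmt.valProp_of_redStmt A hRed) hRed.2.1

theorem coe_redM (hRed : RedStmt A M) (x : OMv hRed) :
    ((redM hRed x : ↥(Fk A M)) : Omk A) = red A ⟨((x : FN M) : Om), x.2⟩ := rfl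

/-- `RedF` with values in the twisted algebra. -/
def RedT (A : ValuationSubring Kbar) (M q : ℕ) (σ : FN (M * q) ≃ₐ[Kbar] FN (M * q)) :
    O2F A M q σ →+* Rtw A q := RedF A M q σ

theorem RedT_apply (g : O2F A M q σ) : RedT A M q σ g = (show R2 A from RedF A M q σ g) := rfl

/-- The `Ortho2` setup. -/
theorem setup (hRed : RedStmt A M) (hσ : IsAL M q σ) :
    Ortho2.Setup (OMv hRed) (O2F A M q σ) (redM hRed) (RedT A M q σ) where
  incl := fun x => by
    refine mem_O2F.mpr ⟨?_, ?_⟩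
    · rw [coe_algebraMap_top]; exact x.2
    · show ((σ (heckeAlphaBar Kbar M q (x : FN M)) : FN (M * q)) : Om) ∈ Ocal A
      rw [hσ.alpha, coe_heckeBetaBar]
      exact Fermat.Agent.Lib.KroneckerCong.qExpand_mem_Ocal A q x.2
  red_nonunit := fun x hx =>
    CharStmt.redO_nonunit (Ocal A) (red A) (modularFunctionFieldBar M) (Fk A M)
      (fun y hy => inv_mem_Ocal A y hy) _ _ x hx
  compat := fun x => by
    show RedF A M q σ _ = twHom A M q (redM hRed x)
    rw [RedF_apply, twHom_apply, coe_redM]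
    refine Prod.ext ?_ ?_
    · exact red_congr A (coe_algebraMap_top (x : FN M)) _ _
    · show red A ⟨((σ (heckeAlphaBar Kbar M q (x : FN M)) : FN (M * q)) : Om), _⟩ = _
      rw [← Fermat.Agent.Lib.KroneckerCong.red_qExpand A q ⟨((x : FN M) : Om), x.2⟩]
      refine red_congr A ?_ _ _
      rw [hσ.alpha, coe_heckeBetaBar]

end Ortho

/-! ## The idempotent-like element `e` and the family `w` -/

section Family

variable {A : ValuationSubring Kbar} {M q : ℕ} [NeZero M] [NeZero q]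
variable {σ : FN (M * q) ≃ₐ[Kbar] FN (M * q)}

/-- `RedF` on `α(F_M ∩ Ocal)`. -/
theorem IsAL.RedF_alpha (hσ : IsAL M q σ) (x : FN M) (hx : (x : Om) ∈ Ocal A) :
    ∃ h : heckeAlphaBar Kbar M q x ∈ O2F A M q σ,
      RedF A M q σ ⟨_, h⟩ = (red A ⟨(x : Om), hx⟩, qExpand (kk A) q (red A ⟨(x : Om), hx⟩)) := by
  have h1 : ((heckeAlphaBar Kbar M q x : FN (M * q)) : Om) = (x : Om) := coe_heckeAlphaBar M q x
  have h2 : ((σ (heckeAlphaBar Kbar M q x) : FN (M * q)) : Om) = qExpand Kbar q (x : Om) := by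
    rw [hσ.alpha, coe_heckeBetaBar]
  have hq := Fermat.Agent.Lib.KroneckerCong.qExpand_mem_Ocal A q hx
  refine ⟨mem_O2F.mpr ⟨by rw [h1]; exact hx, by rw [h2]; exact hq⟩, ?_⟩
  rw [RedF_apply]
  refine Prod.ext (red_congr A h1 _ _) ?_
  rw [← Fermat.Agent.Lib.KroneckerCong.red_qExpand A q ⟨(x : Om), hx⟩]
  exact red_congr A h2 _ _

/-- `RedF` on `β(F_M ∩ Ocal)`. -/
theorem IsAL.RedF_beta (hσ : IsAL M q σ) (x : FN M) (hx : (x : Om) ∈ Ocal A) :
    ∃ h : heckeBetaBar Kbar M q x ∈ O2F A M q σ,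
      RedF A M q σ ⟨_, h⟩ = (qExpand (kk A) q (red A ⟨(x : Om), hx⟩), red A ⟨(x : Om), hx⟩) := by
  have h1 : ((heckeBetaBar Kbar M q x : FN (M * q)) : Om) = qExpand Kbar q (x : Om) :=
    coe_heckeBetaBar M q x
  have h2 : ((σ (heckeBetaBar Kbar M q x) : FN (M * q)) : Om) = (x : Om) := by
    rw [hσ.beta, coe_heckeAlphaBar]
  have hq := Fermat.Agent.Lib.KroneckerCong.qExpand_mem_Ocal A q hx
  refine ⟨mem_O2F.mpr ⟨by rw [h1]; exact hq, by rw [h2]; exact hx⟩, ?_⟩
  rw [RedF_apply]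
  refine Prod.ext ?_ (red_congr A h2 _ _)
  rw [← Fermat.Agent.Lib.KroneckerCong.red_qExpand A q ⟨(x : Om), hx⟩]
  exact red_congr A h1 _ _

/-- Units for both valuations are units of `O2F`. -/
theorem inv_mem_O2F (g : O2F A M q σ) (h1 : (RedF A M q σ g).1 ≠ 0)
    (h2 : (RedF A M q σ g).2 ≠ 0) : ((g : FN (M * q)))⁻¹ ∈ O2F A M q σ := by
  rw [RedF_apply] at h1 h2
  refine mem_O2F.mpr ⟨inv_mem_Ocal A ⟨_, g.2.1⟩ h1, ?_⟩
  rw [map_inv₀]
  exact inv_mem_Ocal A ⟨_, g.2.2⟩ h2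

variable [Fact q.Prime] [CharP (kk A) q]

/-- `j̄ ≠ j̄^(q²)`. -/
theorem jk_sub_ne_zero : jk A - jk A ^ (q ^ 2) ≠ 0 := by
  intro h
  have h1 : jk A = jk A ^ (q ^ 2) := sub_eq_zero.mp h
  have h2 := congrArg HahnSeries.order h1
  rw [HahnSeries.order_pow, Fermat.Agent.S28.Tower.order_jqModC] at h2
  have hq : 2 ≤ q := (Fact.out : q.Prime).two_le
  have h3 : (4 : ℤ) ≤ ((q ^ 2 : ℕ) : ℤ) := by
    have : 4 ≤ q ^ 2 := by nlinarith
    exact_mod_cast this
  simp only [nsmul_eq_mul, mul_neg, mul_one] at h2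
  omega

/-- `j` as an element of `O2F`, with `RedF j = (j̄, j̄^q)`. -/
theorem IsAL.exists_jT (hσ : IsAL M q σ) :
    ∃ jT : O2F A M q σ, ((jT : FN (M * q)) : Om) = jK ∧
      RedF A M q σ jT = (jk A, jk A ^ q) := by
  have hj : ((jBar M : FN M) : Om) ∈ Ocal A := by
    rw [Main.coe_jBar]; exact Main.jK_mem_Ocal A
  obtain ⟨h, e⟩ := hσ.RedF_alpha (jBar M) hj
  refine ⟨⟨_, h⟩, ?_, ?_⟩
  · show ((heckeAlphaBar Kbar M q (jBar M) : FN (M * q)) : Om) = jK
    rw [coe_heckeAlphaBar, Main.coe_jBar]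
  · rw [e, red_congr A (Main.coe_jBar M) hj (Main.jK_mem_Ocal A), Main.red_jK, qExpand_jk]

/-- `j(T^q)` as an element of `O2F`, with `RedF j_q = (j̄^q, j̄)`. -/
theorem IsAL.exists_jqT (hσ : IsAL M q σ) :
    ∃ jqT : O2F A M q σ, ((jqT : FN (M * q)) : Om) = qExpand Kbar q jK ∧
      RedF A M q σ jqT = (jk A ^ q, jk A) := by
  have hj : ((jBar M : FN M) : Om) ∈ Ocal A := by
    rw [Main.coe_jBar]; exact Main.jK_mem_Ocal A
  obtain ⟨h, e⟩ := hσ.RedF_beta (jBar M) hj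
  refine ⟨⟨_, h⟩, ?_, ?_⟩
  · show ((heckeBetaBar Kbar M q (jBar M) : FN (M * q)) : Om) = qExpand Kbar q jK
    rw [coe_heckeBetaBar, Main.coe_jBar]
  · rw [e, red_congr A (Main.coe_jBar M) hj (Main.jK_mem_Ocal A), Main.red_jK, qExpand_jk]

/-- **(V0)** the element `e = z / (z + x)` with `RedF e = (1, 0)`. -/
theorem IsAL.exists_e (hσ : IsAL M q σ) :
    ∃ e : O2F A M q σ, RedF A M q σ e = (1, 0) := by
  obtain ⟨jT, -, hjT⟩ := hσ.exists_jT (A := A)
  obtain ⟨jqT, -, hjqT⟩ := hσ.exists_jqT (A := A)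
  set u : Omk A := jk A - jk A ^ (q ^ 2) with hu
  have hu0 : u ≠ 0 := jk_sub_ne_zero
  have hz : RedF A M q σ (jT - jqT ^ q) = (u, 0) := by
    rw [map_sub, map_pow, hjT, hjqT]
    refine Prod.ext ?_ ?_
    · show jk A - (jk A ^ q) ^ q = u
      rw [hu, ← pow_mul, sq]
    · show jk A ^ q - jk A ^ q = 0
      exact sub_self _
  have hx : RedF A M q σ (jqT - jT ^ q) = (0, u) := by
    rw [map_sub, map_pow, hjT, hjqT]
    refine Prod.ext ?_ ?_
    · show jk A ^ q - jk A ^ q = 0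
      exact sub_self _
    · show jk A - (jk A ^ q) ^ q = u
      rw [hu, ← pow_mul, sq]
  have hs : RedF A M q σ ((jT - jqT ^ q) + (jqT - jT ^ q)) = (u, u) := by
    rw [map_add, hz, hx]
    exact Prod.ext (add_zero u) (zero_add u)
  have hinv := inv_mem_O2F ((jT - jqT ^ q) + (jqT - jT ^ q))
    (by rw [hs]; exact hu0) (by rw [hs]; exact hu0)
  have hs0 : ((((jT - jqT ^ q) + (jqT - jT ^ q) : O2F A M q σ) : FN (M * q))) ≠ 0 := by
    intro h0
    have : ((jT - jqT ^ q) + (jqT - jT ^ q) : O2F A M q σ) = 0 := Subtype.ext h0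
    rw [this, map_zero] at hs
    exact hu0 (congrArg Prod.fst hs).symm
  refine ⟨(jT - jqT ^ q) * ⟨_, hinv⟩, ?_⟩
  have hmul : ((jT - jqT ^ q) * ⟨_, hinv⟩ : O2F A M q σ) * ((jT - jqT ^ q) + (jqT - jT ^ q)) =
      jT - jqT ^ q := by
    apply Subtype.ext
    push_cast
    rw [mul_assoc, inv_mul_cancel₀ (by simpa using hs0), mul_one]
  have h3 := congrArg (RedF A M q σ) hmul
  rw [map_mul, hs, hz] at h3
  have h31 : (RedF A M q σ ((jT - jqT ^ q) * ⟨_, hinv⟩)).1 * u = u := congrArg Prod.fst h3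
  have h32 : (RedF A M q σ ((jT - jqT ^ q) * ⟨_, hinv⟩)).2 * u = 0 := congrArg Prod.snd h3
  refine Prod.ext ?_ ?_
  · exact mul_right_cancel₀ hu0 (h31.trans (one_mul u).symm)
  · exact (mul_eq_zero.mp h32).resolve_right hu0

end Family

/-! ## The orthonormal family -/

section Basis

variable {A : ValuationSubring Kbar} {M q : ℕ} [NeZero M] [NeZero q]
variable {σ : FN (M * q) ≃ₐ[Kbar] FN (M * q)}

attribute [local instance] algTop

/-- The family `w = (e, (1 - e) j_q^i)_{i < q}`. -/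
def wFam (e jqT : O2F A M q σ) : Fin (q + 1) → O2F A M q σ :=
  Fin.cons e (fun i : Fin q => (1 - e) * jqT ^ (i : ℕ))

theorem RedF_wFam_zero (e jqT : O2F A M q σ) (he : RedF A M q σ e = (1, 0)) :
    RedF A M q σ (wFam e jqT 0) = (1, 0) := he

theorem RedF_wFam_succ (e jqT : O2F A M q σ) (he : RedF A M q σ e = (1, 0))
    (hjq : RedF A M q σ jqT = (jk A ^ q, jk A)) (i : Fin q) :
    RedF A M q σ (wFam e jqT i.succ) = (0, jk A ^ (i : ℕ)) := by
  have e1 : wFam e jqT i.succ = (1 - e) * jqT ^ (i : ℕ) := by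
    simp [wFam]
  rw [e1, map_mul, map_sub, map_one, map_pow, he, hjq]
  refine Prod.ext ?_ ?_
  · show ((1 : Omk A) - 1) * (jk A ^ q) ^ (i : ℕ) = 0
    rw [sub_self, zero_mul]
  · show ((1 : Omk A) - 0) * jk A ^ (i : ℕ) = jk A ^ (i : ℕ)
    rw [sub_zero, one_mul]

/-- First projection of the twisted algebra. -/
def fstT (A : ValuationSubring Kbar) (q : ℕ) : Rtw A q →+* Omk A := RingHom.fst (Omk A) (Omk A)

/-- Second projection of the twisted algebra. -/
def sndT (A : ValuationSubring Kbar) (q : ℕ) : Rtw A q →+* Omk A := RingHom.snd (Omk A) (Omk A)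

theorem fstT_smul (a : ↥(Fk A M)) (x : Rtw A q) : fstT A q (a • x) = (a : Omk A) * fstT A q x :=
  rfl

theorem sndT_smul (a : ↥(Fk A M)) (x : Rtw A q) :
    sndT A q (a • x) = qExpand (kk A) q (a : Omk A) * sndT A q x := rfl

theorem ext_T {x y : Rtw A q} (h1 : fstT A q x = fstT A q y) (h2 : sndT A q x = sndT A q y) :
    x = y := Prod.ext h1 h2

/-- The reductions of the family `w` are independent over `F_{M,k}` (acting by
`a ↦ (a, a(T^q))`). -/
theorem linearIndependent_wFam (e jqT : O2F A M q σ) (he : RedF A M q σ e = (1, 0))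
    (hjq : RedF A M q σ jqT = (jk A ^ q, jk A)) :
    LinearIndependent ↥(Fk A M) (fun i => RedT A M q σ (wFam e jqT i)) := by
  rw [Fintype.linearIndependent_iff]
  intro g hg
  have hw0 : RedT A M q σ (wFam e jqT 0) = (show R2 A from ((1, 0) : R2 A)) :=
    RedF_wFam_zero e jqT he
  have hws : ∀ i : Fin q, RedT A M q σ (wFam e jqT i.succ) =
      (show R2 A from ((0, jk A ^ (i : ℕ)) : R2 A)) := fun i => RedF_wFam_succ e jqT he hjq i
  -- first component
  have h1 := congrArg (fstT A q) hg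
  rw [map_sum, map_zero, Fin.sum_univ_succ] at h1
  have h1' : ((g 0 : ↥(Fk A M)) : Omk A) = 0 := by
    have e0 : fstT A q (g 0 • RedT A M q σ (wFam e jqT 0)) = ((g 0 : ↥(Fk A M)) : Omk A) := by
      rw [fstT_smul, hw0]
      exact mul_one _
    have es : ∀ i : Fin q, fstT A q (g i.succ • RedT A M q σ (wFam e jqT i.succ)) = 0 := by
      intro i
      rw [fstT_smul, hws]
      exact mul_zero _
    rw [e0, Finset.sum_eq_zero (fun i _ => es i), add_zero] at h1
    exact h1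
  -- second component
  have h2 := congrArg (sndT A q) hg
  rw [map_sum, map_zero, Fin.sum_univ_succ] at h2
  have h2' : ∑ i : Fin q, qExpand (kk A) q ((g i.succ : ↥(Fk A M)) : Omk A) * jk A ^ (i : ℕ) = 0 := by
    have e0 : sndT A q (g 0 • RedT A M q σ (wFam e jqT 0)) = 0 := by
      rw [sndT_smul, hw0]
      exact mul_zero _
    have es : ∀ i : Fin q, sndT A q (g i.succ • RedT A M q σ (wFam e jqT i.succ)) =
        qExpand (kk A) q ((g i.succ : ↥(Fk A M)) : Omk A) * jk A ^ (i : ℕ) := by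
      intro i
      rw [sndT_smul, hws]
      rfl
    rw [e0, zero_add, Finset.sum_congr rfl (fun i _ => es i)] at h2
    exact h2
  have h3 := Fermat.Agent.S28.Tower.eq_zero_of_sum_mul_jq_pow (NeZero.ne q)
    (fun i : Fin q => qExpand (kk A) q ((g i.succ : ↥(Fk A M)) : Omk A))
    (fun i => ⟨_, by rw [Fermat.Agent.S28.expand_eq_qExpand]⟩) h2'
  intro i
  refine Fin.cases ?_ (fun i => ?_) i
  · exact Subtype.ext h1'
  · apply Subtype.ext
    exact qExpand_injective (R := kk A) (N := q) ((h3 i).trans (map_zero _).symm)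

/-- `[F_{Mq} : F_M] = q + 1`. -/
theorem finrank_top [Fact q.Prime] (hqM : ¬ q ∣ M) :
    Module.finrank (FN M) (FN (M * q)) = q + 1 := by
  have : NeZero (M * q) := ⟨Nat.mul_ne_zero (NeZero.ne M) (NeZero.ne q)⟩
  have hle : modularFunctionFieldBar M ≤ modularFunctionFieldBar (M * q) :=
    CharStmt.bar_le (dvd_mul_right M q)
  have h1 := CharStmt.psi_mul_finrank hle
  let e : FN (M * q) ≃ₗ[FN M] ↥(IntermediateField.extendScalars hle) :=
    { toFun := fun x => ⟨(x : Om), x.2⟩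
      invFun := fun y => ⟨(y : Om), y.2⟩
      map_add' := fun _ _ => rfl
      map_smul' := fun c x => Subtype.ext (by
        show ((c • x : FN (M * q)) : Om) = _
        rw [Algebra.smul_def, MulMemClass.coe_mul, coe_algebraMap_top]
        rfl)
      left_inv := fun _ => rfl
      right_inv := fun _ => rfl }
  rw [← e.finrank_eq] at h1
  have h2 : dedekindPsi (M * q) = (q + 1) * dedekindPsi M := by
    rw [mul_comm M q]
    exact Fermat.Agent.Lib.Gamma0Count.dedekindPsi_mul_of_not_dvd (Fact.out) (NeZero.ne M) hqM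
  have h3 := FibreCount.dedekindPsi_pos M
  rw [h2, mul_comm] at h1
  exact Nat.eq_of_mul_eq_mul_right h3 h1

end Basis

/-! ## Consequences: scaling, range, integrality -/

section Cons

variable {A : ValuationSubring Kbar} {M q : ℕ} [NeZero M] [NeZero q]
variable {σ : FN (M * q) ≃ₐ[Kbar] FN (M * q)} [Fact q.Prime] [CharP (kk A) q]

attribute [local instance] algTop

/-- Transfer of membership/reduction from `O2F` to `O2`. -/
theorem Red_of_eq {x : Om} {g : FN (M * q)} (hx : x = (g : Om)) (hg : g ∈ O2F A M q σ) :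
    ∃ h : x ∈ O2 A M q σ, Red A M q σ ⟨x, h⟩ = RedF A M q σ ⟨g, hg⟩ := by
  subst hx
  exact ⟨coe_mem_O2 A M q σ hg, Red_mk A M q σ g hg _⟩

/-- The data of the orthonormal basis, packaged. -/
theorem IsAL.exists_basis (hσ : IsAL M q σ) (hqM : ¬ q ∣ M) :
    ∃ (w : Fin (q + 1) → O2F A M q σ),
      LinearIndependent ↥(Fk A M) (fun i => RedT A M q σ (w i)) ∧
      Fintype.card (Fin (q + 1)) = Module.finrank (FN M) (FN (M * q)) ∧
      RedF A M q σ (w 0) = (1, 0) ∧
      ∀ i : Fin q, RedF A M q σ (w i.succ) = (0, jk A ^ (i : ℕ)) := by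
  obtain ⟨e, he⟩ := hσ.exists_e (A := A)
  obtain ⟨jqT, -, hjq⟩ := hσ.exists_jqT (A := A)
  refine ⟨wFam e jqT, linearIndependent_wFam e jqT he hjq, ?_, RedF_wFam_zero e jqT he,
    RedF_wFam_succ e jqT he hjq⟩
  rw [Fintype.card_fin, finrank_top hqM]

/-- **(V1), joint scaling on `F_{Mq}`**: every nonzero element is a constant times an element
of `O2F` with nonzero reduction. -/
theorem IsAL.scaleF (hσ : IsAL M q σ) (hRed : RedStmt A M) (hqM : ¬ q ∣ M)
    (g : FN (M * q)) (hg : g ≠ 0) :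
    ∃ c : Kbar, c ≠ 0 ∧ ∃ h : algebraMap Kbar (FN (M * q)) c * g ∈ O2F A M q σ,
      RedF A M q σ ⟨_, h⟩ ≠ 0 := by
  obtain ⟨w, hw, hcard, -, -⟩ := hσ.exists_basis (A := A) hqM
  have S := setup hRed hσ
  obtain ⟨c, hc0, hmem, hne⟩ := S.exists_normalize w hw hcard g hg
  have hcM : ((c : FN M) : Om)⁻¹ ∈ modularFunctionFieldBar M :=
    (modularFunctionFieldBar M).inv_mem c.2
  have hc0' : ((c : FN M) : Om) ≠ 0 := fun h0 => hc0 (Subtype.ext h0)
  obtain ⟨d, hd0, hu, hured⟩ := hRed.1 _ hcM (inv_ne_zero hc0')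
  have huM : HahnSeries.C d * ((c : FN M) : Om)⁻¹ ∈ modularFunctionFieldBar M :=
    mul_mem (C_mem_field M d) hcM
  obtain ⟨hα, eα⟩ := hσ.RedF_alpha (⟨_, huM⟩ : FN M) hu
  have e1 : algebraMap Kbar (FN (M * q)) d * g =
      heckeAlphaBar Kbar M q ⟨_, huM⟩ * (c • g) := by
    apply Subtype.ext
    rw [MulMemClass.coe_mul, MulMemClass.coe_mul, coe_algebraMap_FN, coe_heckeAlphaBar,
      Algebra.smul_def, MulMemClass.coe_mul, coe_algebraMap_top]
    field_simp
  have hP : heckeAlphaBar Kbar M q ⟨_, huM⟩ * (c • g) ∈ O2F A M q σ :=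
    (O2F A M q σ).mul_mem hα hmem
  have hPne : RedF A M q σ ⟨_, hP⟩ ≠ 0 := by
    have e2 : (⟨_, hP⟩ : O2F A M q σ) = ⟨_, hα⟩ * ⟨_, hmem⟩ := rfl
    rw [e2, map_mul, eα]
    intro h0
    apply hne
    have h01 : red A ⟨_, hu⟩ * (RedF A M q σ ⟨_, hmem⟩).1 = 0 := congrArg Prod.fst h0
    have h02 : qExpand (kk A) q (red A ⟨_, hu⟩) * (RedF A M q σ ⟨_, hmem⟩).2 = 0 :=
      congrArg Prod.snd h0
    have hq0 : qExpand (kk A) q (red A ⟨_, hu⟩) ≠ 0 := fun h =>
      hured (qExpand_injective (R := kk A) (N := q) (h.trans (map_zero _).symm))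
    exact Prod.ext ((mul_eq_zero.mp h01).resolve_left hured) ((mul_eq_zero.mp h02).resolve_left hq0)
  refine ⟨d, hd0, ?_⟩
  rw [e1]
  exact ⟨hP, hPne⟩

/-- **`Setup2.scale`**. -/
theorem IsAL.scale (hσ : IsAL M q σ) (hRed : RedStmt A M) (hqM : ¬ q ∣ M) :
    ∀ g : Om, g ∈ modularFunctionFieldBar (M * q) → g ≠ 0 →
      ∃ c : Kbar, c ≠ 0 ∧ ∃ h : HahnSeries.C c * g ∈ O2 A M q σ, Red A M q σ ⟨_, h⟩ ≠ 0 := by
  intro g hgF hg0
  obtain ⟨c, hc, h, hne⟩ := hσ.scaleF hRed hqM ⟨g, hgF⟩ (fun h0 => hg0 (congrArg Subtype.val h0))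
  have e1 : HahnSeries.C c * g =
      ((algebraMap Kbar (FN (M * q)) c * ⟨g, hgF⟩ : FN (M * q)) : Om) := by
    rw [MulMemClass.coe_mul, coe_algebraMap_FN]
  obtain ⟨h', e'⟩ := Red_of_eq e1 h
  exact ⟨c, hc, h', by rw [e']; exact hne⟩

/-- `a(T^q) ∈ F_{M,k}` for `a ∈ F_{M,k}` (characteristic `q`). -/
theorem qExpand_mem_Fk {a : Omk A} (ha : a ∈ Fk A M) : qExpand (kk A) q a ∈ Fk A M := by
  obtain ⟨a', ha', h⟩ := FrobCoeff.exists_root_Fk A q M ha
  rw [qExpandAlgHomC_apply] at h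
  rw [← h]
  exact pow_mem ha' q

/-- **(V2)** `RedF` takes values in `F_{M,k} × F_{M,k}`. -/
theorem IsAL.rangeF (hσ : IsAL M q σ) (hRed : RedStmt A M) (hqM : ¬ q ∣ M)
    (g : O2F A M q σ) :
    (RedF A M q σ g).1 ∈ Fk A M ∧ (RedF A M q σ g).2 ∈ Fk A M := by
  obtain ⟨w, hw, hcard, hw0, hws⟩ := hσ.exists_basis (A := A) hqM
  have S := setup hRed hσ
  have h := S.red'_eq_sum_repr w hw hcard g
  have hw0' : RedT A M q σ (w 0) = (show R2 A from ((1, 0) : R2 A)) := hw0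
  have hws' : ∀ i : Fin q, RedT A M q σ (w i.succ) =
      (show R2 A from ((0, jk A ^ (i : ℕ)) : R2 A)) := hws
  constructor
  · have h1 := congrArg (fstT A q) h
    rw [map_sum] at h1
    show fstT A q (RedT A M q σ g) ∈ Fk A M
    rw [h1]
    refine sum_mem fun i _ => ?_
    rw [fstT_smul]
    refine mul_mem (Subtype.property _) ?_
    refine Fin.cases ?_ (fun i => ?_) i
    · rw [hw0']; exact one_mem _
    · rw [hws']; exact zero_mem _
  · have h1 := congrArg (sndT A q) h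
    rw [map_sum] at h1
    show sndT A q (RedT A M q σ g) ∈ Fk A M
    rw [h1]
    refine sum_mem fun i _ => ?_
    rw [sndT_smul]
    refine mul_mem (qExpand_mem_Fk (Subtype.property _)) ?_
    refine Fin.cases ?_ (fun i => ?_) i
    · rw [hw0']; exact zero_mem _
    · rw [hws']; exact pow_mem (jqModC_mem_full (kk A) M) _

/-- **`Setup2.range`**. -/
theorem IsAL.range (hσ : IsAL M q σ) (hRed : RedStmt A M) (hqM : ¬ q ∣ M)
    (g : O2 A M q σ) : (Red A M q σ g).1 ∈ Fk A M ∧ (Red A M q σ g).2 ∈ Fk A M := by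
  obtain ⟨g', rfl⟩ := exists_eq_toO2 A M q σ g
  rw [Red_toO2]
  exact hσ.rangeF hRed hqM g'

end Cons

end Fermat.Agent.S34.Val
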