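import Mathlib
import Fermat.Agent.S34.ValOrtho

/-!
# S34 / P6 — [VAL] part 3: integrality over `O_M` and `(Dim)` (helper49)

* `IsAL.isIntegral` : every element of `O2` is integral over `O_M = F_M ∩ Ocal` (`Incl.OM A M`)
  — the hypothesis `hint` of `InclInst.incl_of_sigma`;
* `IsAL.dim`        : the field `dim` of `Plan.Setup2` for `(O2, Red)`, from `(Dim)` at level `M`
  (`S18.Plan.RedStmt`), the orthonormal basis of `F_{Mq} / F_M` and
  `DimTransfer.exists_orthonormal_of_le_span`.
-/

set_option autoImplicit false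
set_option maxHeartbeats 400000
set_option linter.unusedSectionVars false

noncomputable section

namespace Fermat.Agent.S34.Val

open ModularCurve AlgebraicCurve Fermat.Agent.S24 Fermat.Agent.S18.Content Fermat.Agent.S18.Plan
open Fermat.Agent.S34.Plan Fermat.Agent.S18

variable {A : ValuationSubring Kbar} {M q : ℕ} [NeZero M] [NeZero q]
variable {σ : FN (M * q) ≃ₐ[Kbar] FN (M * q)}

/-- The inclusion `O_M → OM A M`. -/
def toOM (hRed : RedStmt A M) : OMv hRed →+* Incl.OM A M where
  toFun := fun x => ⟨((x : FN M) : Om), ⟨x.2, (x : FN M).2⟩⟩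
  map_one' := rfl
  map_mul' := fun _ _ => rfl
  map_zero' := rfl
  map_add' := fun _ _ => rfl

theorem coe_toOM (hRed : RedStmt A M) (x : OMv hRed) :
    ((toOM hRed x : Incl.OM A M) : Om) = ((x : FN M) : Om) := rfl

attribute [local instance] algTop

theorem comp_toOM (hRed : RedStmt A M) :
    (algebraMap (FN (M * q)) Om).comp
      ((algebraMap (FN M) (FN (M * q))).comp (OMv hRed).subtype) =
      (algebraMap (Incl.OM A M) Om).comp (toOM hRed) := by
  refine RingHom.ext fun x => ?_
  rw [RingHom.comp_apply, RingHom.comp_apply, RingHom.comp_apply,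
    IntermediateField.algebraMap_apply, Algebra.algebraMap_ofSubsemiring_apply, coe_toOM]
  exact coe_algebraMap_top (M := M) (q := q) ((OMv hRed).subtype x)

variable [Fact q.Prime] [CharP (kk A) q]

/-- **(V4)** `O2F` is integral over `O_M = F_M ∩ Ocal`. -/
theorem IsAL.isIntegralF (hσ : IsAL M q σ) (hRed : RedStmt A M) (hqM : ¬ q ∣ M)
    (g : O2F A M q σ) : IsIntegral (Incl.OM A M) ((g : FN (M * q)) : Om) := by
  classical
  obtain ⟨w, hw, hcard, -, -⟩ := hσ.exists_basis (A := A) hqM
  have S := setup hRed hσ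
  have hfin : Module.Finite (FN M) (FN (M * q)) :=
    Module.finite_of_finrank_pos (by rw [finrank_top hqM]; omega)
  obtain ⟨P, hP, -, hev⟩ := S.exists_monic_eval₂_eq_zero w hw hcard g
  refine ⟨P.map (toOM hRed), hP.map (toOM hRed), ?_⟩
  rw [Polynomial.eval₂_map, ← comp_toOM (q := q) hRed]
  have h2 := congrArg (algebraMap (FN (M * q)) Om) hev
  rw [Polynomial.hom_eval₂, map_zero, IntermediateField.algebraMap_apply] at h2
  exact h2

/-- **`hint`**: `O2` is integral over `O_M`. -/
theorem IsAL.isIntegral (hσ : IsAL M q σ) (hRed : RedStmt A M) (hqM : ¬ q ∣ M)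
    (g : O2 A M q σ) : IsIntegral (Incl.OM A M) (g : Om) := by
  obtain ⟨g', rfl⟩ := exists_eq_toO2 A M q σ g
  exact hσ.isIntegralF hRed hqM g'

omit [NeZero M] [Fact q.Prime] [CharP (kk A) q] in
theorem qExpand_smul (c : kk A) (x : Omk A) :
    qExpand (kk A) q (c • x) = c • qExpand (kk A) q x := by
  rw [← HahnSeries.C_mul_eq_smul, map_mul, qExpand_C, HahnSeries.C_mul_eq_smul]

omit [NeZero M] [NeZero q] [Fact q.Prime] [CharP (kk A) q] in
theorem smul_mul_Omk (c : kk A) (x y : Omk A) : c • (x * y) = (c • x) * y := by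
  rw [← HahnSeries.C_mul_eq_smul, ← HahnSeries.C_mul_eq_smul, mul_assoc]

set_option maxHeartbeats 1600000 in
/-- **`Setup2.dim`**: (Dim) for the two-component reduction. -/
theorem IsAL.dim (hσ : IsAL M q σ) (hRed : RedStmt A M) (hqM : ¬ q ∣ M) :
    ∀ W : Submodule Kbar Om, (∀ w ∈ W, w ∈ modularFunctionFieldBar (M * q)) →
      Module.Finite Kbar W →
      ∃ (r : ℕ) (b : Fin r → O2 A M q σ),
        Submodule.span Kbar (Set.range fun i => (b i : Om)) = W ∧
        LinearIndependent (kk A) (fun i => Red A M q σ (b i)) := by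
  classical
  intro W hWF hfin
  obtain ⟨w, hw, hcard, hw0, hws⟩ := hσ.exists_basis (A := A) hqM
  have S := setup hRed hσ
  -- coordinates in the basis `w`
  let coord : Om → Fin (q + 1) → Om := fun g i =>
    if h : g ∈ modularFunctionFieldBar (M * q) then
      (((S.basisOf w hw hcard).repr ⟨g, h⟩ i : FN M) : Om) else 0
  have hcoordM : ∀ g i, coord g i ∈ modularFunctionFieldBar M := by
    intro g i
    by_cases h : g ∈ modularFunctionFieldBar (M * q)
    · simp only [coord, dif_pos h]
      exact ((S.basisOf w hw hcard).repr ⟨g, h⟩ i).2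
    · simp only [coord, dif_neg h]
      exact zero_mem _
  have hexp : ∀ g, g ∈ modularFunctionFieldBar (M * q) →
      g = ∑ i, coord g i * ((w i : FN (M * q)) : Om) := by
    intro g h
    have h1 := (S.basisOf w hw hcard).sum_repr ⟨g, h⟩
    have h2 : (((∑ i, (S.basisOf w hw hcard).repr ⟨g, h⟩ i • (S.basisOf w hw hcard) i :
        FN (M * q))) : Om) = g := by rw [h1]
    rw [AddSubmonoidClass.coe_finsetSum] at h2
    conv_lhs => rw [← h2]
    refine Finset.sum_congr rfl fun i _ => ?_
    simp only [coord, dif_pos h]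
    rw [Ortho2.Setup.basisOf_apply, Algebra.smul_def, MulMemClass.coe_mul, coe_algebraMap_top]
  obtain ⟨s, hs⟩ : W.FG := (Submodule.fg_top W).mp (Module.finite_def.mp hfin)
  obtain ⟨V, hVdef⟩ : ∃ V : Submodule Kbar Om, V = Submodule.span Kbar
      (((s ×ˢ (Finset.univ : Finset (Fin (q + 1)))).image fun p => coord p.1 p.2 : Finset Om) :
        Set Om) := ⟨_, rfl⟩
  have hVfin : Module.Finite Kbar V := by rw [hVdef]; exact Module.Finite.span_finset Kbar _
  have hVM : ∀ v ∈ V, v ∈ modularFunctionFieldBar M := by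
    intro v hv
    have hle : V ≤ RedGlue.levelSub M := by
      rw [hVdef, Submodule.span_le]
      intro x hx
      rw [Finset.coe_image] at hx
      obtain ⟨p, -, rfl⟩ := hx
      exact hcoordM p.1 p.2
    exact RedGlue.mem_levelSub.mp (hle hv)
  obtain ⟨m, v, hvspan, hvli⟩ := hRed.2.2.2.1 V hVM hVfin
  have hvM : ∀ l, ((v l : Ocal A) : Om) ∈ modularFunctionFieldBar M := fun l =>
    hVM _ (by rw [← hvspan]; exact Submodule.subset_span ⟨l, rfl⟩)
  choose hvO hvRed using fun l => hσ.Red_level A (hvM l) (v l).2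
  let u : Fin (q + 1) × Fin m → O2 A M q σ := fun p => ⟨_, hvO p.2⟩ * toO2 A M q σ (w p.1)
  have hu_coe : ∀ p, ((u p : O2 A M q σ) : Om) =
      ((v p.2 : Ocal A) : Om) * ((w p.1 : FN (M * q)) : Om) := fun p => rfl
  have hu_red : ∀ p, Red A M q σ (u p) =
      (red A (v p.2), qExpand (kk A) q (red A (v p.2))) * RedF A M q σ (w p.1) := by
    intro p
    show Red A M q σ (⟨_, hvO p.2⟩ * toO2 A M q σ (w p.1)) = _
    rw [map_mul, hvRed, Red_toO2]
  have hu : LinearIndependent (kk A) (fun p => Red A M q σ (u p)) := by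
    rw [Fintype.linearIndependent_iff]
    intro lam hlam
    have h1 := congrArg Prod.fst hlam
    have h2 := congrArg Prod.snd hlam
    rw [Prod.fst_sum, Fintype.sum_prod_type, Fin.sum_univ_succ] at h1
    rw [Prod.snd_sum, Fintype.sum_prod_type, Fin.sum_univ_succ] at h2
    have h1' : ∑ l, lam (0, l) • red A (v l) = 0 := by
      have e0 : ∀ l, (lam (0, l) • Red A M q σ (u (0, l))).1 = lam (0, l) • red A (v l) := by
        intro l
        rw [Prod.smul_fst, hu_red, hw0]
        show lam (0, l) • (red A (v l) * 1) = _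
        rw [mul_one]
      have es : ∀ (i : Fin q) (l : Fin m), (lam (i.succ, l) • Red A M q σ (u (i.succ, l))).1 = 0 := by
        intro i l
        rw [Prod.smul_fst, hu_red, hws]
        show lam (i.succ, l) • (red A (v l) * 0) = 0
        rw [mul_zero, smul_zero]
      rw [Finset.sum_congr rfl (fun l _ => e0 l),
        Finset.sum_eq_zero (fun i _ => Finset.sum_eq_zero (fun l _ => es i l)), add_zero] at h1
      exact h1
    have h2' : ∑ i : Fin q,
        qExpand (kk A) q (∑ l, lam (i.succ, l) • red A (v l)) * jk A ^ (i : ℕ) = 0 := by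
      have e0 : ∀ l, (lam (0, l) • Red A M q σ (u (0, l))).2 = 0 := by
        intro l
        rw [Prod.smul_snd, hu_red, hw0]
        show lam (0, l) • (qExpand (kk A) q (red A (v l)) * 0) = 0
        rw [mul_zero, smul_zero]
      have es : ∀ (i : Fin q), ∑ l, (lam (i.succ, l) • Red A M q σ (u (i.succ, l))).2 =
          qExpand (kk A) q (∑ l, lam (i.succ, l) • red A (v l)) * jk A ^ (i : ℕ) := by
        intro i
        rw [map_sum, Finset.sum_mul]
        refine Finset.sum_congr rfl fun l _ => ?_
        rw [Prod.smul_snd, hu_red, hws, qExpand_smul, ← smul_mul_Omk]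
        rfl
      rw [Finset.sum_eq_zero (fun l _ => e0 l), zero_add,
        Finset.sum_congr rfl (fun i _ => es i)] at h2
      exact h2
    have h3 := Fermat.Agent.S28.Tower.eq_zero_of_sum_mul_jq_pow (NeZero.ne q)
      (fun i : Fin q => qExpand (kk A) q (∑ l, lam (i.succ, l) • red A (v l)))
      (fun i => ⟨_, by rw [Fermat.Agent.S28.expand_eq_qExpand]⟩) h2'
    rintro ⟨i, l⟩
    refine Fin.cases ?_ (fun i => ?_) i
    · exact Fintype.linearIndependent_iff.mp hvli (fun l => lam (0, l)) h1' l
    · have h4 : ∑ l, lam (i.succ, l) • red A (v l) = 0 :=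
        qExpand_injective (R := kk A) (N := q) ((h3 i).trans (map_zero _).symm)
      exact Fintype.linearIndependent_iff.mp hvli (fun l => lam (i.succ, l)) h4 l
  have hW : W ≤ Submodule.span Kbar (Set.range fun p => ((u p : O2 A M q σ) : Om)) := by
    rw [← hs, Submodule.span_le]
    intro g hg
    have hgW : g ∈ W := by rw [← hs]; exact Submodule.subset_span hg
    have hgF := hWF g hgW
    rw [SetLike.mem_coe, hexp g hgF]
    refine Submodule.sum_mem _ fun i _ => ?_
    have hci : coord g i ∈ Submodule.span Kbar (Set.range fun l => ((v l : Ocal A) : Om)) := by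
      rw [hvspan, hVdef]
      refine Submodule.subset_span ?_
      rw [Finset.coe_image]
      exact ⟨(g, i), by simp [hg], rfl⟩
    obtain ⟨γ, hγ⟩ := (Submodule.mem_span_range_iff_exists_fun Kbar).1 hci
    rw [← hγ, Finset.sum_mul]
    refine Submodule.sum_mem _ fun l _ => ?_
    have e1 : γ l • ((v l : Ocal A) : Om) * ((w i : FN (M * q)) : Om) =
        γ l • ((u (i, l) : O2 A M q σ) : Om) := by
      rw [hu_coe, ← HahnSeries.C_mul_eq_smul, ← HahnSeries.C_mul_eq_smul, mul_assoc]
    rw [e1]
    exact Submodule.smul_mem _ _ (Submodule.subset_span ⟨(i, l), rfl⟩)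
  exact @DimTransfer.exists_orthonormal_of_le_span Kbar Om (kk A) (R2 A) (Fin (q + 1) × Fin m)
    _ _ HahnSeries.instAlgebra _ _
    (@Prod.algebra (kk A) (Omk A) (Omk A) _ _ HahnSeries.instAlgebra _ HahnSeries.instAlgebra) _
    A (IsLocalRing.residue A) (O2 A M q σ) (Red A M q σ)
    (fun a => (C_mem_iff A M q σ a).mpr a.2) IsLocalRing.residue_surjective
    (fun a => by
      rw [IsLocalRing.residue_eq_zero_iff, IsLocalRing.mem_maximalIdeal, mem_nonunits_iff])
    (fun a => Red_C A M q σ a _) u hu W hW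

end Fermat.Agent.S34.Val
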