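import Mathlib
import Fermat.Agent.S18.ContentBase

/-!
# S34 — [VAL1], abstract part (owner: helper27)

* `newton_approx`: Newton's iteration for a polynomial over a subring `S ⊆ R`: a root `θ ∈ R`
  approximated to precision `e` by elements of `S` at which `P'` is invertible in `S` is
  approximated to every precision `e ^ (n + 1)`.
* For a valuation subring `A` of a field `K`, the content ring `Ocal A ⊆ K((T))` and an
  intermediate field `F` of `K((T))/K` with the scaling property `Scale A F`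
  (every non-zero element is a constant times a unit of `Ocal A`):
  - `Apx A F y`: `y` is approximated by elements of `F` modulo `C c · Ocal A` for every `c ≠ 0`;
  - `Apx.exists_unit`: a non-zero algebraic approximable `y` is `C c · u · (1 + C π · ε)` with
    `u ∈ F` a unit of `Ocal A` (`π` a non-zero non-unit of `A`);
  - `approxField`: the algebraic approximable elements form an intermediate field.
-/

set_option autoImplicit false

noncomputable section

namespace Fermat.Agent.S34.ValOne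

open Fermat.Agent.S18.Content

/-! ## Newton's iteration, abstractly -/

section Newton

variable {R : Type*} [CommRing R] (S : Subring R) (P : Polynomial S) (θ e : R)

/-- One Newton step: from precision `e` to precision `e ^ 2`. -/
theorem newton_step (hroot : (P.map S.subtype).eval θ = 0) (x : S) (r : R)
    (hx : θ - (x : R) = e * r) (w : S) (hw : P.derivative.eval x * w = 1) :
    ∃ x' : S, ∃ r' : R, θ - (x' : R) = e ^ 2 * r' := by
  obtain ⟨k, hk⟩ := Polynomial.binomExpansion (P.map S.subtype) (x : R) (θ - x)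
  have h1 : (P.map S.subtype).eval (x : R) = ((P.eval x : S) : R) := by
    rw [Polynomial.eval_map]
    exact Polynomial.eval₂_at_apply S.subtype x
  have h2 : (P.map S.subtype).derivative.eval (x : R) = ((P.derivative.eval x : S) : R) := by
    rw [Polynomial.derivative_map, Polynomial.eval_map]
    exact Polynomial.eval₂_at_apply S.subtype x
  rw [add_sub_cancel, hroot, h1, h2] at hk
  have hw' : ((P.derivative.eval x : S) : R) * (w : R) = 1 := by
    have := congrArg (fun s : S => (s : R)) hw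
    simpa using this
  refine ⟨x - P.eval x * w, -(k * w * r ^ 2), ?_⟩
  push_cast
  linear_combination (-(w : R)) * hk + (-(θ - x)) * hw' + (-(k * w * (θ - x + e * r))) * hx

/-- Newton's iteration: a root `θ` which is approximated to precision `e` by an element of `S` at
which `P'` is invertible in `S` (for every such approximation) is approximated to any precision
`e ^ (n + 1)`. -/
theorem newton_approx (hroot : (P.map S.subtype).eval θ = 0)
    (hunit : ∀ x : S, (∃ r : R, θ - (x : R) = e * r) → ∃ w : S, P.derivative.eval x * w = 1)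
    (x₀ : S) (r₀ : R) (h₀ : θ - (x₀ : R) = e * r₀) (n : ℕ) :
    ∃ x : S, ∃ r : R, θ - (x : R) = e ^ (n + 1) * r := by
  induction n with
  | zero => exact ⟨x₀, r₀, by rw [zero_add, pow_one]; exact h₀⟩
  | succ n ih =>
    obtain ⟨x, r, hx⟩ := ih
    obtain ⟨w, hw⟩ := hunit x ⟨e ^ n * r, by rw [hx]; ring⟩
    obtain ⟨x', r', hx'⟩ := newton_step S P θ (e ^ (n + 1)) hroot x r hx w hw
    exact ⟨x', e ^ n * r', by rw [hx']; ring⟩

end Newton

/-! ## Bounded and approximable series -/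

section Approx

variable {K : Type*} [Field K] (A : ValuationSubring K)

/-- `y ∈ C b · Ocal` for some constant `b ≠ 0`. -/
def Bdd (y : LaurentSeries K) : Prop :=
  ∃ b : K, b ≠ 0 ∧ ∃ r : LaurentSeries K, r ∈ Ocal A ∧ y = HahnSeries.C b * r

/-- `y` is approximated by elements of `F` to every precision `C c · Ocal`. -/
def Apx (F : IntermediateField K (LaurentSeries K)) (y : LaurentSeries K) : Prop :=
  ∀ c : K, c ≠ 0 → ∃ a : LaurentSeries K, a ∈ F ∧ ∃ r : LaurentSeries K, r ∈ Ocal A ∧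
    y - a = HahnSeries.C c * r

variable {A}

theorem C_mul_C_inv {c : K} (hc : c ≠ 0) :
    (HahnSeries.C c : LaurentSeries K) * HahnSeries.C c⁻¹ = 1 := by
  rw [← map_mul, mul_inv_cancel₀ hc, map_one]

theorem C_ne_zero' {c : K} (hc : c ≠ 0) : (HahnSeries.C c : LaurentSeries K) ≠ 0 := fun h => by
  have := C_mul_C_inv (K := K) hc
  rw [h, zero_mul] at this
  exact zero_ne_one this

theorem bdd_of_mem_Ocal {y : LaurentSeries K} (hy : y ∈ Ocal A) : Bdd A y :=
  ⟨1, one_ne_zero, y, hy, by rw [map_one, one_mul]⟩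

theorem bdd_zero : Bdd A (0 : LaurentSeries K) := bdd_of_mem_Ocal (zero_mem _)

theorem Bdd.mul {y y' : LaurentSeries K} (h : Bdd A y) (h' : Bdd A y') : Bdd A (y * y') := by
  obtain ⟨b, hb, r, hr, rfl⟩ := h
  obtain ⟨b', hb', r', hr', rfl⟩ := h'
  exact ⟨b * b', mul_ne_zero hb hb', r * r', mul_mem hr hr', by rw [map_mul]; ring⟩

theorem Bdd.pow {y : LaurentSeries K} (h : Bdd A y) (n : ℕ) : Bdd A (y ^ n) := by
  induction n with
  | zero => rw [pow_zero]; exact bdd_of_mem_Ocal (one_mem _)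
  | succ n ih => rw [pow_succ]; exact ih.mul h

theorem Bdd.add {y y' : LaurentSeries K} (h : Bdd A y) (h' : Bdd A y') : Bdd A (y + y') := by
  obtain ⟨b, hb, r, hr, rfl⟩ := h
  obtain ⟨b', hb', r', hr', rfl⟩ := h'
  rcases A.mem_or_inv_mem (b / b') with hm | hm
  · refine ⟨b', hb', HahnSeries.C (b / b') * r + r', add_mem (mul_mem (C_mem_Ocal A hm) hr) hr', ?_⟩
    rw [mul_add, ← mul_assoc, ← map_mul, mul_div_cancel₀ _ hb']
  · rw [inv_div] at hm
    refine ⟨b, hb, r + HahnSeries.C (b' / b) * r', add_mem hr (mul_mem (C_mem_Ocal A hm) hr'), ?_⟩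
    rw [mul_add, ← mul_assoc, ← map_mul, mul_div_cancel₀ _ hb]

variable {F : IntermediateField K (LaurentSeries K)}

theorem C_mem_field (c : K) : (HahnSeries.C c : LaurentSeries K) ∈ F := by
  rw [← algebraMap_LS_eq_C]
  exact F.algebraMap_mem c

/-- The scaling property of `F`: every non-zero element is a constant times a unit of `Ocal`. -/
def Scale (A : ValuationSubring K) (F : IntermediateField K (LaurentSeries K)) : Prop :=
  ∀ y : LaurentSeries K, y ∈ F → y ≠ 0 →
    ∃ c : K, c ≠ 0 ∧ ∃ h : HahnSeries.C c * y ∈ Ocal A, red A ⟨_, h⟩ ≠ 0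

theorem bdd_of_mem (hs : Scale A F) {y : LaurentSeries K} (hy : y ∈ F) : Bdd A y := by
  by_cases hy0 : y = 0
  · rw [hy0]; exact bdd_zero
  obtain ⟨c, hc, h, -⟩ := hs y hy hy0
  refine ⟨c⁻¹, inv_ne_zero hc, _, h, ?_⟩
  rw [← mul_assoc, mul_comm (HahnSeries.C c⁻¹), C_mul_C_inv hc, one_mul]

theorem apx_of_mem {y : LaurentSeries K} (hy : y ∈ F) : Apx A F y :=
  fun c _ => ⟨y, hy, 0, zero_mem _, by rw [sub_self, mul_zero]⟩

theorem Apx.bdd (hs : Scale A F) {y : LaurentSeries K} (h : Apx A F y) : Bdd A y := by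
  obtain ⟨a, ha, r, hr, e⟩ := h 1 one_ne_zero
  rw [map_one, one_mul] at e
  have : y = a + r := by rw [← e]; ring
  rw [this]
  exact (bdd_of_mem hs ha).add (bdd_of_mem_Ocal hr)

theorem Apx.add {y y' : LaurentSeries K} (h : Apx A F y) (h' : Apx A F y') :
    Apx A F (y + y') := by
  intro c hc
  obtain ⟨a, ha, r, hr, e⟩ := h c hc
  obtain ⟨a', ha', r', hr', e'⟩ := h' c hc
  exact ⟨a + a', add_mem ha ha', r + r', add_mem hr hr', by rw [mul_add, ← e, ← e']; ring⟩

theorem Apx.neg {y : LaurentSeries K} (h : Apx A F y) : Apx A F (-y) := by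
  intro c hc
  obtain ⟨a, ha, r, hr, e⟩ := h c hc
  exact ⟨-a, neg_mem ha, -r, neg_mem hr, by rw [mul_neg, ← e]; ring⟩

theorem Apx.mul (hs : Scale A F) {y y' : LaurentSeries K} (h : Apx A F y) (h' : Apx A F y') :
    Apx A F (y * y') := by
  intro c hc
  obtain ⟨b, hb, ry, hry, ey⟩ := h.bdd hs
  obtain ⟨a', ha', r', hr', e'⟩ := h' (c / b) (div_ne_zero hc hb)
  obtain ⟨b', hb', ra, hra, ea⟩ := bdd_of_mem hs ha'
  obtain ⟨a, ha, r, hr, e⟩ := h (c / b') (div_ne_zero hc hb')
  refine ⟨a * a', mul_mem ha ha', ry * r' + ra * r,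
    add_mem (mul_mem hry hr') (mul_mem hra hr), ?_⟩
  have h1 : y * y' - a * a' = y * (y' - a') + a' * (y - a) := by ring
  have h2 : (HahnSeries.C c : LaurentSeries K) = HahnSeries.C b * HahnSeries.C (c / b) := by
    rw [← map_mul, mul_div_cancel₀ _ hb]
  have h3 : (HahnSeries.C c : LaurentSeries K) = HahnSeries.C b' * HahnSeries.C (c / b') := by
    rw [← map_mul, mul_div_cancel₀ _ hb']
  rw [h1, e', e]
  conv_lhs => rw [ey, ea]
  rw [mul_add]
  conv_rhs => rw [← mul_assoc, ← mul_assoc, h2]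
  congr 1
  · ring
  · rw [← h2, h3]; ring

theorem bdd_aeval (hs : Scale A F) {y : LaurentSeries K} (hy : Bdd A y) (p : Polynomial F) :
    Bdd A (Polynomial.aeval y p) := by
  induction p using Polynomial.induction_on' with
  | add p q hp hq => rw [map_add]; exact hp.add hq
  | monomial n a =>
    rw [Polynomial.aeval_monomial]
    exact (bdd_of_mem hs a.2).mul (hy.pow n)

section Unit

variable {π : K} (hs : Scale A F) (hπ0 : π ≠ 0) (hπA : π ∈ A) (hπ : π⁻¹ ∉ A)

include hs hπ0 hπ in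
/-- A non-zero approximable algebraic element is not infinitely small. -/
theorem Apx.exists_ne {y : LaurentSeries K} (h : Apx A F y) (hy0 : y ≠ 0)
    (halg : IsAlgebraic F y) :
    ∃ c₁ : K, c₁ ≠ 0 ∧ ∀ r : LaurentSeries K, r ∈ Ocal A → y ≠ HahnSeries.C c₁ * r := by
  have hint : IsIntegral F y := halg.isIntegral
  have ha₀ : (minpoly F y).coeff 0 ≠ 0 := minpoly.coeff_zero_ne_zero hint hy0
  have hp : Polynomial.aeval y (minpoly F y) = 0 := minpoly.aeval F y
  have hdiv : (minpoly F y).divX * Polynomial.X + Polynomial.C ((minpoly F y).coeff 0)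
      = minpoly F y := Polynomial.divX_mul_X_add _
  rw [← hdiv, map_add, map_mul, Polynomial.aeval_X, Polynomial.aeval_C] at hp
  obtain ⟨b, hb, rQ, hrQ, eQ⟩ := bdd_aeval hs (h.bdd hs) (minpoly F y).divX
  set a₀ : F := (minpoly F y).coeff 0 with ha₀def
  have ha₀' : (a₀ : LaurentSeries K) ≠ 0 := fun h0 => ha₀ (Subtype.ext h0)
  obtain ⟨c₀, hc₀, hu₀, hred₀⟩ := hs (a₀ : LaurentSeries K) a₀.2 ha₀'
  refine ⟨π / (c₀ * b), div_ne_zero hπ0 (mul_ne_zero hc₀ hb), fun r hr hy => ?_⟩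
  have hU0 : HahnSeries.C c₀ * (a₀ : LaurentSeries K) ≠ 0 :=
    ne_zero_of_red_ne_zero A ⟨_, hu₀⟩ hred₀
  have hinv : (HahnSeries.C c₀ * (a₀ : LaurentSeries K))⁻¹ ∈ Ocal A := inv_mem_Ocal A ⟨_, hu₀⟩ hred₀
  have hconst : (HahnSeries.C c₀ : LaurentSeries K) * HahnSeries.C (π / (c₀ * b)) * HahnSeries.C b
      = HahnSeries.C π := by
    rw [← map_mul, ← map_mul]
    congr 1
    field_simp
  have h1 : HahnSeries.C c₀ * (a₀ : LaurentSeries K) = HahnSeries.C π * (-(r * rQ)) := by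
    have h2 : (a₀ : LaurentSeries K) = algebraMap F (LaurentSeries K) a₀ := rfl
    rw [eQ] at hp
    rw [h2]
    linear_combination (HahnSeries.C c₀ : LaurentSeries K) * hp
      - (HahnSeries.C c₀ * HahnSeries.C b * rQ) * hy - (r * rQ) * hconst
  have h3 : (HahnSeries.C π⁻¹ : LaurentSeries K) =
      (-(r * rQ)) * (HahnSeries.C c₀ * (a₀ : LaurentSeries K))⁻¹ := by
    have h4 : (HahnSeries.C π : LaurentSeries K) * HahnSeries.C π⁻¹ = 1 := C_mul_C_inv hπ0
    have h5 := mul_inv_cancel₀ hU0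
    rw [h1] at h5 ⊢
    linear_combination (-(r * rQ) * (HahnSeries.C π * (-(r * rQ)))⁻¹) * h4
      - (HahnSeries.C π⁻¹ : LaurentSeries K) * h5
  apply hπ
  rw [← C_mem_Ocal_iff A, h3]
  exact mul_mem (neg_mem (mul_mem hr hrQ)) hinv

include hs hπ0 hπA hπ in
/-- A non-zero approximable algebraic element is a constant times a unit of `Ocal` lying in `F`
times a `1`-unit. -/
theorem Apx.exists_unit {y : LaurentSeries K} (h : Apx A F y) (hy0 : y ≠ 0)
    (halg : IsAlgebraic F y) :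
    ∃ c : K, c ≠ 0 ∧ ∃ u : Ocal A, (u : LaurentSeries K) ∈ F ∧ red A u ≠ 0 ∧
      ∃ ε : LaurentSeries K, ε ∈ Ocal A ∧
        y = HahnSeries.C c * ((u : LaurentSeries K) * (1 + HahnSeries.C π * ε)) := by
  obtain ⟨c₁, hc₁, hne⟩ := h.exists_ne hs hπ0 hπ hy0 halg
  obtain ⟨a, ha, r₂, hr₂, e₂⟩ := h (c₁ * π) (mul_ne_zero hc₁ hπ0)
  have hy : y = a + HahnSeries.C (c₁ * π) * r₂ := by rw [← e₂]; ring
  have ha0 : a ≠ 0 := by
    rintro rfl
    rw [zero_add] at hy
    exact hne (HahnSeries.C π * r₂) (mul_mem (C_mem_Ocal A hπA) hr₂) (by rw [hy, map_mul]; ring)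
  obtain ⟨ca, hca, hu, hred⟩ := hs a ha ha0
  have hcc : c₁ * ca ∈ A := by
    by_contra hcon
    have hinv : (c₁ * ca)⁻¹ ∈ A := (A.mem_or_inv_mem _).resolve_left hcon
    apply hne (HahnSeries.C (c₁ * ca)⁻¹ * (HahnSeries.C ca * a) + HahnSeries.C π * r₂)
      (add_mem (mul_mem (C_mem_Ocal A hinv) hu) (mul_mem (C_mem_Ocal A hπA) hr₂))
    have hk : (HahnSeries.C c₁ : LaurentSeries K) * HahnSeries.C (c₁ * ca)⁻¹ * HahnSeries.C ca
        = 1 := by
      rw [← map_mul, ← map_mul, ← map_one (HahnSeries.C : K →+* LaurentSeries K)]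
      congr 1
      field_simp
    rw [hy, map_mul]
    linear_combination (-a) * hk
  have hU0 : HahnSeries.C ca * a ≠ 0 := ne_zero_of_red_ne_zero A ⟨_, hu⟩ hred
  refine ⟨ca⁻¹, inv_ne_zero hca, ⟨HahnSeries.C ca * a, hu⟩, mul_mem (C_mem_field ca) ha, hred,
    HahnSeries.C (c₁ * ca) * r₂ * (HahnSeries.C ca * a)⁻¹,
    mul_mem (mul_mem (C_mem_Ocal A hcc) hr₂) (inv_mem_Ocal A ⟨_, hu⟩ hred), ?_⟩
  have e1 := mul_inv_cancel₀ hU0
  have e2 : (HahnSeries.C ca⁻¹ : LaurentSeries K) * HahnSeries.C ca = 1 := by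
    rw [mul_comm]; exact C_mul_C_inv hca
  have e3 : (HahnSeries.C ca⁻¹ : LaurentSeries K) * (HahnSeries.C π * HahnSeries.C (c₁ * ca))
      = HahnSeries.C (c₁ * π) := by
    rw [← map_mul, ← map_mul]
    congr 1
    field_simp
  show y = HahnSeries.C ca⁻¹ * (HahnSeries.C ca * a *
    (1 + HahnSeries.C π * (HahnSeries.C (c₁ * ca) * r₂ * (HahnSeries.C ca * a)⁻¹)))
  linear_combination hy - a * e2 - r₂ * e3
    - (HahnSeries.C ca⁻¹ * HahnSeries.C π * HahnSeries.C (c₁ * ca) * r₂) * e1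

include hπA hπ in
theorem red_C_pi : red A ⟨HahnSeries.C π, C_mem_Ocal A hπA⟩ = 0 := by
  rw [red_C A hπA]
  have : IsLocalRing.residue A ⟨π, hπA⟩ = 0 := by
    rw [IsLocalRing.residue_eq_zero_iff]
    rw [IsLocalRing.mem_maximalIdeal, mem_nonunits_iff]
    intro hu
    apply hπ
    obtain ⟨v, hv⟩ := hu.exists_right_inv
    have hv' : π * (v : K) = 1 := by
      have := congrArg (fun t : A => (t : K)) hv
      simpa using this
    have : π⁻¹ = (v : K) := inv_eq_of_mul_eq_one_right hv'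
    rw [this]
    exact v.2
  rw [this, map_zero]

include hs hπ0 hπA hπ in
/-- Inverses of approximable algebraic elements are approximable. -/
theorem Apx.inv {y : LaurentSeries K} (h : Apx A F y) (halg : IsAlgebraic F y) :
    Apx A F y⁻¹ := by
  by_cases hy0 : y = 0
  · rw [hy0, inv_zero]; exact apx_of_mem (zero_mem _)
  obtain ⟨c, hc, u, -, hured, ε, hε, ey⟩ := h.exists_unit hs hπ0 hπA hπ hy0 halg
  have hπres := red_C_pi (A := A) hπA hπ
  obtain ⟨U, hUdef⟩ : ∃ U : Ocal A, U = u * (1 + ⟨HahnSeries.C π, C_mem_Ocal A hπA⟩ * ⟨ε, hε⟩) :=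
    ⟨_, rfl⟩
  have hUred : red A U = red A u := by
    rw [hUdef, map_mul, map_add, map_mul, hπres, zero_mul, add_zero, map_one, mul_one]
  have hU : red A U ≠ 0 := by rw [hUred]; exact hured
  have hUinv : (U : LaurentSeries K)⁻¹ ∈ Ocal A := inv_mem_Ocal A U hU
  have hU0 : (U : LaurentSeries K) ≠ 0 := ne_zero_of_red_ne_zero A U hU
  have ey' : y = HahnSeries.C c * (U : LaurentSeries K) := by rw [ey, hUdef]; rfl
  intro c' hc'
  obtain ⟨t₁, ht₁A, ht₁0, ht₂⟩ : ∃ t₁ : K, t₁ ∈ A ∧ t₁ ≠ 0 ∧ π * t₁ / (c * c') ∈ A := by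
    rcases A.mem_or_inv_mem (c' * c) with hm | hm
    · refine ⟨c' * c, hm, mul_ne_zero hc' hc, ?_⟩
      have : π * (c' * c) / (c * c') = π := by field_simp
      rw [this]; exact hπA
    · refine ⟨1, one_mem _, one_ne_zero, ?_⟩
      have : π * 1 / (c * c') = π * (c' * c)⁻¹ := by field_simp
      rw [this]; exact mul_mem hπA hm
  obtain ⟨a, ha, r, hr, e⟩ := h (c * π * t₁) (mul_ne_zero (mul_ne_zero hc hπ0) ht₁0)
  obtain ⟨U', hU'def⟩ : ∃ U' : Ocal A,
      U' = U - ⟨HahnSeries.C π, C_mem_Ocal A hπA⟩ * ⟨HahnSeries.C t₁, C_mem_Ocal A ht₁A⟩ * ⟨r, hr⟩ :=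
    ⟨_, rfl⟩
  have hU'red : red A U' = red A U := by
    rw [hU'def, map_sub, map_mul, map_mul, hπres, zero_mul, zero_mul, sub_zero]
  have hU' : red A U' ≠ 0 := by rw [hU'red]; exact hU
  have hU'inv : (U' : LaurentSeries K)⁻¹ ∈ Ocal A := inv_mem_Ocal A U' hU'
  have hU'0 : (U' : LaurentSeries K) ≠ 0 := ne_zero_of_red_ne_zero A U' hU'
  have hdiff : (U' : LaurentSeries K) = (U : LaurentSeries K) - HahnSeries.C π * HahnSeries.C t₁ * r := by
    rw [hU'def]; rfl
  have ea : a = HahnSeries.C c * (U' : LaurentSeries K) := by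
    have : a = y - HahnSeries.C (c * π * t₁) * r := by rw [← e]; ring
    rw [this, ey', hdiff, map_mul, map_mul]
    ring
  refine ⟨a⁻¹, inv_mem ha, HahnSeries.C (π * t₁ / (c * c')) *
      (-(r * (U : LaurentSeries K)⁻¹ * (U' : LaurentSeries K)⁻¹)),
    mul_mem (C_mem_Ocal A ht₂) (neg_mem (mul_mem (mul_mem hr hUinv) hU'inv)), ?_⟩
  have hUX := mul_inv_cancel₀ hU0
  have hU'X' := mul_inv_cancel₀ hU'0
  have hconst : (HahnSeries.C c' : LaurentSeries K) * HahnSeries.C (π * t₁ / (c * c'))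
      = HahnSeries.C c⁻¹ * HahnSeries.C π * HahnSeries.C t₁ := by
    rw [← map_mul, ← map_mul, ← map_mul]
    congr 1
    field_simp
  have hCinv : (HahnSeries.C c : LaurentSeries K)⁻¹ = HahnSeries.C c⁻¹ := by
    rw [map_inv₀]
  rw [ey', ea, mul_inv, mul_inv, hCinv]
  linear_combination (HahnSeries.C c⁻¹ * (U : LaurentSeries K)⁻¹ * (U' : LaurentSeries K)⁻¹) * hdiff
    - (HahnSeries.C c⁻¹ * (U : LaurentSeries K)⁻¹) * hU'X'
    + (HahnSeries.C c⁻¹ * (U' : LaurentSeries K)⁻¹) * hUX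
    + (r * (U : LaurentSeries K)⁻¹ * (U' : LaurentSeries K)⁻¹) * hconst

/-- The field of algebraic elements approximable by `F`. -/
def approxField : IntermediateField K (LaurentSeries K) where
  carrier := {y | IsAlgebraic F y ∧ Apx A F y}
  mul_mem' := fun h h' => ⟨h.1.mul h'.1, h.2.mul hs h'.2⟩
  one_mem' := ⟨isAlgebraic_one, apx_of_mem (one_mem F)⟩
  add_mem' := fun h h' => ⟨h.1.add h'.1, h.2.add h'.2⟩
  zero_mem' := ⟨isAlgebraic_zero, apx_of_mem (zero_mem F)⟩
  algebraMap_mem' := fun c =>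
    ⟨isAlgebraic_algebraMap (⟨algebraMap K _ c, F.algebraMap_mem c⟩ : F),
      apx_of_mem (F.algebraMap_mem c)⟩
  inv_mem' := fun _ h => ⟨h.1.inv, h.2.inv hs hπ0 hπA hπ h.1⟩

theorem mem_approxField {y : LaurentSeries K} :
    y ∈ approxField hs hπ0 hπA hπ ↔ IsAlgebraic F y ∧ Apx A F y := Iff.rfl

end Unit

end Approx

end Fermat.Agent.S34.ValOne

end
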