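import Mathlib
import Fermat.Agent.S34.ValOneAbs
import Fermat.Agent.S34.CharBad
import Fermat.Agent.S34.FrobCoeff
import Fermat.Agent.S34.Plan
import Fermat.Agent.S37.KronFinal
import Fermat.Agent.S37.HeckeInputs
import Fermat.Agent.S37.Kron.AtkinLehner
import Fermat.Agent.Lib.RankOneQbar
import Fermat.Agent.Lib.FFBridge
import Fermat.Agent.S18.MainLemmas

/-!
# S34 — [VAL1]: the first valuation at a bad level is σ-free (owner: helper27)

`q` prime, `m` a good level (`q ∤ m`), `A` a valuation subring of `Q̄` over `q`.  The field `F_m` is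
dense in `F_{m q}` for the content valuation `Ocal A`:

* `dense`      : every `y ∈ F_{m q}` is congruent to an element of `F_m` modulo `C c · Ocal A`,
                 for every constant `c ≠ 0`;
* `scaleProp`  : `CharBad.ScaleProp A (m * q)`   (V1'), the `hscale` of `S34.Desc.desc_of`;
* `redInto`    : `CharBad.RedInto A (m * q) m`   (HB);
* `charStmt`   : `S18.Plan.CharStmt A N (M * q)` for `Plan.Levels q N' N M`, unconditionally.

Proof: `F_{m q}` is generated by the `gen d` and `gen (q d) = (gen d)(T^q)`, `d ∣ m`.  For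
`u = gen d` the characteristic polynomial of `u` over `F_m(T^q)` (`S37.Conj`, `S37.Kron`) has
coefficients in `F_m ∩ Ocal`, kills `u(T^q)`, and reduces to `(X - ū(T^q)) (X^q - τū)`, of which
`ū(T^q)` is a simple root; Newton's iteration inside `F_m ∩ Ocal` converges to `u(T^q)`
(`ValOneAbs.newton_approx`, rank one of `A`: `Lib.RankOneQbar`).
-/

set_option autoImplicit false
set_option maxHeartbeats 400000

noncomputable section

namespace Fermat.Agent.S34.ValOne

open ModularCurve AlgebraicCurve Fermat.Agent.S24 Fermat.Agent.S18.Content Fermat.Agent.S18.Plan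
open Fermat.Agent.S18 Fermat.Agent.Lib Fermat.Agent.Lib.KroneckerCong Polynomial

set_option synthInstance.maxHeartbeats 400000

/-! ### Non-constant series are not fixed by `T ↦ T^(q²)` -/

theorem qExpand_ne_self {k : Type*} [Field k] (n : ℕ) [NeZero n] (hn : 1 < n) (b : LaurentSeries k)
    (hb : ∃ i : ℤ, i ≠ 0 ∧ b.coeff i ≠ 0) : qExpand k n b ≠ b := by
  intro h
  obtain ⟨i, hi0, hi⟩ := hb
  have key : ∀ (t : ℕ) (i : ℤ), i.natAbs = t → i ≠ 0 → b.coeff i ≠ 0 → False := by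
    intro t
    induction t using Nat.strong_induction_on with
    | _ t ih =>
      intro i hit hi0 hi
      by_cases hdvd : (n : ℤ) ∣ i
      · obtain ⟨i', rfl⟩ := hdvd
        have hi'0 : i' ≠ 0 := fun h0 => hi0 (by rw [h0, mul_zero])
        have h1 : b.coeff i' ≠ 0 := by
          rw [← qExpand_coeff_mul (N := n) b i', h]; exact hi
        refine ih i'.natAbs ?_ i' rfl hi'0 h1
        rw [← hit, Int.natAbs_mul, Int.natAbs_natCast]
        have : 0 < i'.natAbs := Int.natAbs_pos.mpr hi'0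
        nlinarith
      · apply hi
        rw [← h]
        exact qExpand_coeff_of_not_dvd n b hdvd
  exact key _ i rfl hi0 hi

/-! ### The Kronecker root `u(T^q)` is approximable -/

section Kron

variable (A : ValuationSubring Kbar) (m q : ℕ) [NeZero m] [NeZero q]

/-- The subring `F_m ∩ Ocal A` of `Ocal A`. -/
def OS : Subring (Ocal A) :=
  (modularFunctionFieldBar m).toSubfield.toSubring.comap (Ocal A).subtype

omit [NeZero m] in
theorem mem_OS {x : Ocal A} : x ∈ OS A m ↔ (x : Om) ∈ modularFunctionFieldBar m := Iff.rfl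

variable {A} in
theorem red_eval (PR : (Ocal A)[X]) (z : Ocal A) :
    red A (PR.eval z) = (PR.map (red A)).eval (red A z) := by
  rw [Polynomial.eval_map, Polynomial.eval₂_at_apply]

variable {A} in
theorem red_derivative_eval (PR : (Ocal A)[X]) (z : Ocal A) :
    red A (PR.derivative.eval z) = (PR.map (red A)).derivative.eval (red A z) := by
  rw [Polynomial.derivative_map, Polynomial.eval_map, Polynomial.eval₂_at_apply]

theorem derivative_eval_kron {k : Type*} [Field k] (a b : k) (n : ℕ) :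
    ((X - C a) * (X ^ n - C b) : k[X]).derivative.eval a = a ^ n - b := by
  simp [Polynomial.derivative_mul]

/-- For `u ∈ F_m ∩ Ocal` with non-constant reduction, `u(T^q)` is algebraic over `F_m` and
approximable by `F_m`. -/
theorem apx_qExpand (hq : q.Prime) (hqm : ¬ q ∣ m) (hA : A.LiesOverPrime q) (u : FN m)
    (hu : (u : Om) ∈ Ocal A)
    (hnc : ∃ i : ℤ, i ≠ 0 ∧ (red A ⟨(u : Om), hu⟩).coeff i ≠ 0) :
    IsAlgebraic (FN m) (qExpand Kbar q (u : Om)) ∧
      Apx A (modularFunctionFieldBar m) (qExpand Kbar q (u : Om)) := by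
  haveI : Fact q.Prime := ⟨hq⟩
  haveI : CharP (kk A) q := charP_residueField_of_liesOverPrime A q hA
  haveI : IsAlgClosed (kk A) := ResidueAlgClosed.isAlgClosed_residueField A
  have hR : RedStmt A m := Red.redStmt m q hqm A hA
  have hfin : FiniteAlong Kbar (heckeBetaBar Kbar m q) :=
    Fermat.Agent.S37.HeckeInputs.finiteAlong_beta m q
  obtain ⟨ζ, hζ⟩ := Fermat.Agent.S37.KronMain.exists_primitiveRoot_unit q
  obtain ⟨τ, hτdef⟩ : ∃ τ : kk A ≃+* kk A, τ = frobeniusEquiv (kk A) q := ⟨_, rfl⟩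
  have hτ : ∀ x, τ x = x ^ q := fun x => by rw [hτdef]; exact frobeniusEquiv_def (kk A) q x
  have hconj := Fermat.Agent.S37.Conj.conj m q hq hqm
  have hkron := Fermat.Agent.S37.KronMain.kron A m q hq hqm hA hfin τ hτ u hu
  letI := algebraAlong (heckeBetaBar Kbar m q)
  haveI : Module.Finite (FN m) (FN (m * q)) := hfin
  have hc := hconj hfin ζ hζ u
  obtain ⟨Pc, hPc⟩ : ∃ Pc : (FN m)[X],
      Pc = LinearMap.charpoly (LinearMap.mulLeft (FN m) (heckeAlphaBar Kbar m q u)) := ⟨_, rfl⟩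
  rw [← hPc] at hc
  have hk : ∀ i : ℕ, ∃ hc : ((Pc.coeff i : FN m) : Om) ∈ Ocal A,
      red A ⟨_, hc⟩ = ((X - C (qExpand (kk A) q (red A ⟨(u : Om), hu⟩))) *
        (X ^ q - C (coeffMap (τ : kk A →+* kk A) (red A ⟨(u : Om), hu⟩)))).coeff i := by
    intro i
    rw [hPc]
    exact hkron i
  clear hkron
  have hmonic : Pc.Monic := by rw [hPc]; exact LinearMap.charpoly_monic _
  -- the factorisation in characteristic zero
  have h2 : Pc.map (algebraMap (FN m) Om)
      = (X - C (qExpand Kbar q (u : Om))) * phi hζ (u : Om) := by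
    apply Polynomial.map_injective _ (qExpand_injective (R := Kbar) q)
    rw [Polynomial.map_map, hc, Polynomial.map_mul, phi_map, Polynomial.map_sub, map_X, map_C,
      qExpand_qExpand, conjProd, qExpand_congr (sq q)]
    simp only [Fermat.Agent.S37.KronMain.twist_eq_scale]
  have halg : IsAlgebraic (FN m) (qExpand Kbar q (u : Om)) := by
    refine ⟨Pc, hmonic.ne_zero, ?_⟩
    rw [Polynomial.aeval_def, Polynomial.eval₂_eq_eval_map, h2, eval_mul, eval_sub, eval_X, eval_C,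
      sub_self, zero_mul]
  refine ⟨halg, ?_⟩
  -- notation
  obtain ⟨ub, hub⟩ : ∃ ub : Omk A, ub = red A ⟨(u : Om), hu⟩ := ⟨_, rfl⟩
  obtain ⟨θb, hθb⟩ : ∃ θb : Omk A, θb = qExpand (kk A) q ub := ⟨_, rfl⟩
  obtain ⟨bb, hbb⟩ : ∃ bb : Omk A, bb = coeffMap (τ : kk A →+* kk A) ub := ⟨_, rfl⟩
  rw [← hub, ← hθb, ← hbb] at hk
  obtain ⟨θ, hθ⟩ : ∃ θ : Ocal A, θ = ⟨qExpand Kbar q (u : Om), qExpand_mem_Ocal A q hu⟩ := ⟨_, rfl⟩
  have hθcoe : (θ : Om) = qExpand Kbar q (u : Om) := by rw [hθ]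
  have hθred : red A θ = θb := by
    rw [hθ, hθb, hub]
    exact red_qExpand A q ⟨(u : Om), hu⟩
  -- the polynomial over `F_m ∩ Ocal`
  have hl : Pc.map (algebraMap (FN m) Om) ∈
      Polynomial.lifts ((Ocal A).subtype.comp (OS A m).subtype) := by
    rw [Polynomial.lifts_iff_coeff_lifts]
    intro i
    rw [Polynomial.coeff_map]
    obtain ⟨hci, -⟩ := hk i
    exact ⟨⟨⟨_, hci⟩, (Pc.coeff i).2⟩, rfl⟩
  obtain ⟨P, hP⟩ := (Polynomial.mem_lifts _).mp hl
  obtain ⟨PR, hPRdef⟩ : ∃ PR : (Ocal A)[X], PR = P.map (OS A m).subtype := ⟨_, rfl⟩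
  have hPR : PR.map (Ocal A).subtype = Pc.map (algebraMap (FN m) Om) := by
    rw [hPRdef, Polynomial.map_map]; exact hP
  have hroot : (P.map (OS A m).subtype).eval θ = 0 := by
    rw [← hPRdef]
    apply Subtype.ext
    have h1 : ((PR.eval θ : Ocal A) : Om) = (PR.map (Ocal A).subtype).eval (θ : Om) := by
      rw [Polynomial.eval_map]
      exact (Polynomial.eval₂_at_apply (Ocal A).subtype θ).symm
    rw [h1, hPR, h2, hθcoe, eval_mul, eval_sub, eval_X, eval_C, sub_self, zero_mul]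
    rfl
  have hPred : PR.map (red A) = (X - C θb) * (X ^ q - C bb) := by
    apply Polynomial.ext
    intro i
    obtain ⟨hci, hred⟩ := hk i
    rw [← hred, Polynomial.coeff_map]
    congr 1
    apply Subtype.ext
    have h1 := congrArg (fun p : Om[X] => p.coeff i) hPR
    simpa [Polynomial.coeff_map] using h1
  -- the derivative at the root is a unit
  have hbbne : ∃ i : ℤ, i ≠ 0 ∧ bb.coeff i ≠ 0 := by
    obtain ⟨i, hi0, hi⟩ := hnc
    refine ⟨i, hi0, ?_⟩
    rw [hbb, hub, coeffMap_coeff]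
    exact (_root_.map_ne_zero _).mpr hi
  have hne : θb ^ q - bb ≠ 0 := by
    have h1 : θb ^ q = qExpand (kk A) (q * q) bb := by
      rw [pow_char_eq q θb, hθb, coeffMap_comm_qExpand, qExpand_qExpand, hbb]
      congr 1
      refine coeffMap_congr ?_ _
      ext x
      simp [frobenius_def, hτ]
    rw [h1]
    have hqq : 1 < q * q := by
      have := hq.two_le
      nlinarith
    exact sub_ne_zero.mpr (qExpand_ne_self (q * q) hqq bb hbbne)
  have hdval : (PR.map (red A)).derivative.eval θb = θb ^ q - bb := by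
    rw [hPred]; exact derivative_eval_kron θb bb q
  -- a starting point
  have hθbmem : θb ∈ Fk A m := by
    rw [hθb, ← FrobCoeff.coeffMap_frobInv_pow q ub]
    exact pow_mem (FrobCoeff.coeffMap_mem_full _ m (by rw [hub]; exact hR.2.1 ⟨(u : Om), hu⟩ u.2)) q
  obtain ⟨x₀', hx₀F, hx₀red⟩ := hR.2.2.1 θb hθbmem
  obtain ⟨x₀, hx₀⟩ : ∃ x₀ : OS A m, x₀ = ⟨x₀', hx₀F⟩ := ⟨_, rfl⟩
  have hx₀coe : (x₀ : Ocal A) = x₀' := by rw [hx₀]
  obtain ⟨k, hkk⟩ := Polynomial.binomExpansion PR θ (x₀' - θ)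
  rw [add_sub_cancel] at hkk
  have hPRθ : PR.eval θ = 0 := by rw [hPRdef]; exact hroot
  rw [hPRθ, zero_add] at hkk
  obtain ⟨V, hV⟩ : ∃ V : Ocal A, V = PR.derivative.eval θ + k * (x₀' - θ) := ⟨_, rfl⟩
  have hVred : red A V ≠ 0 := by
    rw [hV, map_add, map_mul, map_sub, hx₀red, hθred, sub_self, mul_zero, add_zero,
      red_derivative_eval, hθred, hdval]
    exact hne
  have hVinv : (V : Om)⁻¹ ∈ Ocal A := inv_mem_Ocal A V hVred
  have hV0 : (V : Om) ≠ 0 := ne_zero_of_red_ne_zero A V hVred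
  have hp₀ : PR.eval x₀' = (x₀' - θ) * V := by rw [hkk, hV]; ring
  have hp₀S : ((P.eval x₀ : OS A m) : Ocal A) = PR.eval x₀' := by
    rw [hPRdef, Polynomial.eval_map, ← hx₀coe]
    exact (Polynomial.eval₂_at_apply (OS A m).subtype x₀).symm
  have hp₀red : red A (PR.eval x₀') = 0 := by
    rw [red_eval, hPred, hx₀red, eval_mul, eval_sub, eval_X, eval_C, sub_self, zero_mul]
  by_cases hp0 : PR.eval x₀' = 0
  · -- `θ = x₀ ∈ F_m`
    rw [hp0] at hp₀
    have hV0' : V ≠ 0 := fun h => hV0 (by rw [h]; rfl)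
    have h1 : x₀' - θ = 0 := (mul_eq_zero.mp hp₀.symm).resolve_right hV0'
    have h3 : qExpand Kbar q (u : Om) = (x₀' : Om) := by
      rw [← hθcoe, ← sub_eq_zero.mp h1]
    rw [h3]
    exact apx_of_mem hx₀F
  -- scale `P(x₀)`
  have hp0' : ((PR.eval x₀' : Ocal A) : Om) ≠ 0 := fun h => hp0 (Subtype.ext h)
  have hp₀F : ((PR.eval x₀' : Ocal A) : Om) ∈ modularFunctionFieldBar m := by
    rw [← hp₀S]; exact (P.eval x₀).2
  obtain ⟨c₀, hc₀, hu₁, hred₁⟩ := hR.1 _ hp₀F hp0'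
  have he₀0 : c₀⁻¹ ≠ 0 := inv_ne_zero hc₀
  have hpe : ((PR.eval x₀' : Ocal A) : Om) =
      HahnSeries.C c₀⁻¹ * (HahnSeries.C c₀ * ((PR.eval x₀' : Ocal A) : Om)) := by
    rw [← mul_assoc, mul_comm (HahnSeries.C c₀⁻¹), C_mul_C_inv hc₀, one_mul]
  have hmem' : HahnSeries.C c₀⁻¹ * (HahnSeries.C c₀ * ((PR.eval x₀' : Ocal A) : Om)) ∈ Ocal A := by
    rw [← hpe]; exact (PR.eval x₀').2
  have he₀A : c₀⁻¹ ∈ A := (C_mul_mem_Ocal_iff A c₀⁻¹ ⟨_, hu₁⟩ hred₁).mp hmem'
  have he₀m : (⟨c₀⁻¹, he₀A⟩ : A) ∈ IsLocalRing.maximalIdeal A := by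
    rw [← red_C_mul_eq_zero_iff A he₀A ⟨_, hu₁⟩ hred₁ hmem', ← hp₀red]
    exact red_congr A hpe.symm _ _
  obtain ⟨e, he⟩ : ∃ e : Ocal A, e = ⟨HahnSeries.C c₀⁻¹, C_mem_Ocal A he₀A⟩ := ⟨_, rfl⟩
  have hered : red A e = 0 := by
    rw [he, red_C A he₀A, (IsLocalRing.residue_eq_zero_iff _).mpr he₀m, map_zero]
  obtain ⟨u₁, hu₁def⟩ : ∃ u₁ : Ocal A,
      u₁ = ⟨HahnSeries.C c₀ * ((PR.eval x₀' : Ocal A) : Om), hu₁⟩ := ⟨_, rfl⟩
  obtain ⟨Vi, hVi⟩ : ∃ Vi : Ocal A, Vi = ⟨(V : Om)⁻¹, hVinv⟩ := ⟨_, rfl⟩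
  have hVVi : V * Vi = 1 := by
    apply Subtype.ext
    rw [hVi]
    exact mul_inv_cancel₀ hV0
  have hpe' : PR.eval x₀' = e * u₁ := by
    apply Subtype.ext
    rw [he, hu₁def]
    exact hpe
  have h₀ : θ - (x₀ : Ocal A) = e * (-(u₁ * Vi)) := by
    rw [hx₀coe]
    linear_combination (-(θ - x₀')) * hVVi + Vi * hp₀ - Vi * hpe'
  -- invertibility of the derivative near `θ`
  have hunit : ∀ x : OS A m, (∃ r : Ocal A, θ - (x : Ocal A) = e * r) →
      ∃ w : OS A m, P.derivative.eval x * w = 1 := by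
    rintro x ⟨r, hxr⟩
    have hredx : red A (x : Ocal A) = θb := by
      have h1 := congrArg (red A) hxr
      rw [map_sub, map_mul, hered, zero_mul, hθred] at h1
      exact (sub_eq_zero.mp h1).symm
    have e1 : ((P.derivative.eval x : OS A m) : Ocal A) = PR.derivative.eval (x : Ocal A) := by
      rw [hPRdef, Polynomial.derivative_map, Polynomial.eval_map]
      exact (Polynomial.eval₂_at_apply (OS A m).subtype x).symm
    have hd : red A ((P.derivative.eval x : OS A m) : Ocal A) ≠ 0 := by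
      rw [e1, red_derivative_eval, hredx, hdval]; exact hne
    have hd0 := ne_zero_of_red_ne_zero A _ hd
    refine ⟨⟨⟨(((P.derivative.eval x : OS A m) : Ocal A) : Om)⁻¹, inv_mem_Ocal A _ hd⟩,
      (mem_OS A m).mpr (inv_mem ((mem_OS A m).mp (P.derivative.eval x).2))⟩, ?_⟩
    apply Subtype.ext
    apply Subtype.ext
    exact mul_inv_cancel₀ hd0
  have hN := newton_approx (OS A m) P θ e hroot hunit x₀ (-(u₁ * Vi)) h₀
  -- conclusion, by rank one
  intro c hc
  obtain ⟨n, hn⟩ : ∃ n : ℕ, c₀⁻¹ ^ (n + 1) / c ∈ A := by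
    by_contra hcon
    push Not at hcon
    have h1 : ∀ n : ℕ, c / c₀⁻¹ * (c₀⁻¹)⁻¹ ^ n ∈ A.toSubring := by
      intro n
      have h2 := (A.mem_or_inv_mem (c₀⁻¹ ^ (n + 1) / c)).resolve_left (hcon n)
      have h3 : (c₀⁻¹ ^ (n + 1) / c)⁻¹ = c / c₀⁻¹ * (c₀⁻¹)⁻¹ ^ n := by
        rw [inv_div, pow_succ, inv_pow]
        field_simp
      rw [← h3]
      exact h2
    have h4 : (c₀⁻¹)⁻¹ ∈ A.toSubring :=
      RankOneQbar.completelyIntegrallyClosed_algClosure A q hA (c₀⁻¹)⁻¹ (c / c₀⁻¹)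
        (div_ne_zero hc he₀0) h1
    have h5 : IsUnit (⟨c₀⁻¹, he₀A⟩ : A) :=
      IsUnit.of_mul_eq_one (⟨(c₀⁻¹)⁻¹, h4⟩ : A) (Subtype.ext (mul_inv_cancel₀ he₀0))
    exact (IsLocalRing.mem_maximalIdeal _).mp he₀m h5
  obtain ⟨x, r, hx⟩ := hN n
  refine ⟨((x : Ocal A) : Om), x.2, HahnSeries.C (c₀⁻¹ ^ (n + 1) / c) * (r : Om),
    mul_mem (C_mem_Ocal A hn) r.2, ?_⟩
  have hx' : (θ : Om) - ((x : Ocal A) : Om) = (HahnSeries.C c₀⁻¹) ^ (n + 1) * (r : Om) := by
    have := congrArg (fun t : Ocal A => (t : Om)) hx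
    rw [he] at this
    exact this
  rw [← hθcoe, hx', ← mul_assoc, ← map_mul, mul_div_cancel₀ _ hc, map_pow]

end Kron

/-! ### `F_{m q}` is contained in the approximation field of `F_m` -/

section Field

variable (A : ValuationSubring Kbar) (m q : ℕ) [NeZero m] [NeZero q]

theorem gen_congr' {a b : ℕ} [ha : NeZero a] [hb : NeZero b] (h : a = b) :
    FFBridge.gen a = FFBridge.gen b := by
  subst h
  rfl

theorem gen_eq (d : ℕ) [NeZero d] : FFBridge.gen d = qExpand Kbar d jK := by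
  rw [FFBridge.gen, coeffEmb, coeffMap_comm_qExpand, ← jqModC_rat, coeffMap_jqModC]

theorem gen_mem_Ocal (d : ℕ) [NeZero d] : FFBridge.gen d ∈ Ocal A := by
  rw [gen_eq]
  exact qExpand_mem_Ocal A d (Main.jK_mem_Ocal A)

theorem red_gen (d : ℕ) [NeZero d] :
    red A ⟨FFBridge.gen d, gen_mem_Ocal A d⟩ = qExpand (kk A) d (jk A) := by
  rw [red_congr A (gen_eq d) (gen_mem_Ocal A d) (qExpand_mem_Ocal A d (Main.jK_mem_Ocal A)),
    red_qExpand A d ⟨jK, Main.jK_mem_Ocal A⟩, Main.red_jK]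

theorem red_gen_coeff (d : ℕ) [NeZero d] :
    (red A ⟨FFBridge.gen d, gen_mem_Ocal A d⟩).coeff (-(d : ℤ)) ≠ 0 := by
  rw [red_gen]
  have h := qExpand_coeff_mul (N := d) (jk A) (-1)
  rw [mul_neg_one] at h
  rw [h, coeff_jqModC_neg_one]
  exact one_ne_zero

omit [NeZero q] in
theorem scale_good (hq : q.Prime) (hqm : ¬ q ∣ m) (hA : A.LiesOverPrime q) :
    Scale A (modularFunctionFieldBar m) :=
  haveI : Fact q.Prime := ⟨hq⟩
  (Red.redStmt m q hqm A hA).1

omit [NeZero q] in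
theorem q_ne_zero' (hq : q.Prime) : (q : Kbar) ≠ 0 := Nat.cast_ne_zero.mpr hq.ne_zero

omit [NeZero q] in
theorem q_mem : (q : Kbar) ∈ A := natCast_mem A q

omit [NeZero q] in
theorem q_inv_not_mem (hq : q.Prime) (hA : A.LiesOverPrime q) : ((q : Kbar))⁻¹ ∉ A := by
  intro h
  have h1 := (A.valuation_le_one_iff _).mpr h
  rw [map_inv₀] at h1
  have h2 : A.valuation (q : Kbar) < 1 := A.mem_nonunits_iff.mp hA
  have h0 : A.valuation (q : Kbar) ≠ 0 := (Valuation.ne_zero_iff _).mpr (q_ne_zero' q hq)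
  have h3 : 1 ≤ A.valuation (q : Kbar) := by
    rwa [inv_le_one₀ (zero_lt_iff.mpr h0)] at h1
  exact absurd h2 (not_lt.mpr h3)

/-- `F_{m q}` is contained in the field of algebraic elements approximable by `F_m`. -/
theorem bar_le_approxField (hq : q.Prime) (hqm : ¬ q ∣ m) (hA : A.LiesOverPrime q) :
    modularFunctionFieldBar (m * q) ≤
      approxField (scale_good A m q hq hqm hA) (q_ne_zero' q hq) (q_mem A q)
        (q_inv_not_mem A q hq hA) := by
  rw [FFBridge.modularFunctionFieldBar_eq_adjoin, IntermediateField.adjoin_le_iff]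
  rintro x ⟨e, hne, he, rfl⟩
  haveI := hne
  obtain ⟨d, m', hd, hm', rfl⟩ := Nat.dvd_mul.mp he
  have hd0 : d ≠ 0 := fun h0 => NeZero.ne m (by rw [h0] at hd; exact zero_dvd_iff.mp hd)
  haveI : NeZero d := ⟨hd0⟩
  rcases (Nat.dvd_prime hq).mp hm' with hm1 | hmq
  · have e1 : FFBridge.gen (d * m') = FFBridge.gen d := gen_congr' (by rw [hm1, mul_one])
    rw [SetLike.mem_coe, e1, mem_approxField]
    exact ⟨isAlgebraic_algebraMap (⟨FFBridge.gen d, FFBridge.gen_mem hd⟩ : FN m),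
      apx_of_mem (FFBridge.gen_mem hd)⟩
  · haveI : NeZero (q * d) := ⟨Nat.mul_ne_zero hq.ne_zero hd0⟩
    have e1 : FFBridge.gen (d * m') = qExpand Kbar q (FFBridge.gen d) := by
      rw [Fermat.Agent.S37.Kron.AtkinLehner.qExpand_gen q d]
      exact gen_congr' (by rw [hmq, mul_comm])
    rw [SetLike.mem_coe, e1, mem_approxField]
    exact apx_qExpand A m q hq hqm hA ⟨FFBridge.gen d, FFBridge.gen_mem hd⟩ (gen_mem_Ocal A d)
      ⟨-(d : ℤ), by simpa using hd0, red_gen_coeff A d⟩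

/-- **Density**: `F_m` is dense in `F_{m q}` for the content valuation `Ocal A`. -/
theorem dense (hq : q.Prime) (hqm : ¬ q ∣ m) (hA : A.LiesOverPrime q) {y : Om}
    (hy : y ∈ modularFunctionFieldBar (m * q)) (c : Kbar) (hc : c ≠ 0) :
    ∃ a : Om, a ∈ modularFunctionFieldBar m ∧ ∃ r : Om, r ∈ Ocal A ∧
      y - a = HahnSeries.C c * r :=
  (bar_le_approxField A m q hq hqm hA hy).2 c hc

/-- Every non-zero element of `F_{m q}` is a constant times a unit of `Ocal` lying in `F_m` times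
a `1`-unit. -/
theorem exists_unit (hq : q.Prime) (hqm : ¬ q ∣ m) (hA : A.LiesOverPrime q) {y : Om}
    (hy : y ∈ modularFunctionFieldBar (m * q)) (hy0 : y ≠ 0) :
    ∃ c : Kbar, c ≠ 0 ∧ ∃ u : Ocal A, (u : Om) ∈ modularFunctionFieldBar m ∧ red A u ≠ 0 ∧
      ∃ ε : Om, ε ∈ Ocal A ∧
        y = HahnSeries.C c * ((u : Om) * (1 + HahnSeries.C (q : Kbar) * ε)) :=
  (bar_le_approxField A m q hq hqm hA hy).2.exists_unit (scale_good A m q hq hqm hA)
    (q_ne_zero' q hq) (q_mem A q) (q_inv_not_mem A q hq hA) hy0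
    (bar_le_approxField A m q hq hqm hA hy).1

/-- **(V1')** at the bad level `m * q`, for the first valuation. -/
theorem scaleProp (hq : q.Prime) (hqm : ¬ q ∣ m) (hA : A.LiesOverPrime q) :
    CharBad.ScaleProp A (m * q) := by
  intro y hy hy0
  obtain ⟨c, hc, u, -, hured, ε, hε, ey⟩ := exists_unit A m q hq hqm hA hy hy0
  have hπres := red_C_pi (A := A) (q_mem A q) (q_inv_not_mem A q hq hA)
  obtain ⟨U, hU⟩ : ∃ U : Ocal A,
      U = u * (1 + ⟨HahnSeries.C (q : Kbar), C_mem_Ocal A (q_mem A q)⟩ * ⟨ε, hε⟩) := ⟨_, rfl⟩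
  have hUred : red A U = red A u := by
    rw [hU, map_mul, map_add, map_mul, hπres, zero_mul, add_zero, map_one, mul_one]
  have e1 : HahnSeries.C c⁻¹ * y = (U : Om) := by
    rw [ey, ← mul_assoc, mul_comm (HahnSeries.C c⁻¹), C_mul_C_inv hc, one_mul, hU]
    rfl
  have hmem : HahnSeries.C c⁻¹ * y ∈ Ocal A := by rw [e1]; exact U.2
  refine ⟨c⁻¹, inv_ne_zero hc, hmem, ?_⟩
  rw [red_congr A e1 hmem U.2]
  show red A U ≠ 0
  rw [hUred]
  exact hured

/-- **(HB)** at the bad level `m * q`: reductions lie in `F_{m,k}`. -/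
theorem redInto (hq : q.Prime) (hqm : ¬ q ∣ m) (hA : A.LiesOverPrime q) :
    CharBad.RedInto A (m * q) m := by
  intro y hy
  by_cases hy0 : (y : Om) = 0
  · have : y = 0 := Subtype.ext hy0
    rw [this, map_zero]
    exact zero_mem _
  obtain ⟨c, hc, u, huF, hured, ε, hε, ey⟩ := exists_unit A m q hq hqm hA hy hy0
  haveI : Fact q.Prime := ⟨hq⟩
  have hR : RedStmt A m := Red.redStmt m q hqm A hA
  have hπres := red_C_pi (A := A) (q_mem A q) (q_inv_not_mem A q hq hA)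
  obtain ⟨U, hU⟩ : ∃ U : Ocal A,
      U = u * (1 + ⟨HahnSeries.C (q : Kbar), C_mem_Ocal A (q_mem A q)⟩ * ⟨ε, hε⟩) := ⟨_, rfl⟩
  have hUred : red A U = red A u := by
    rw [hU, map_mul, map_add, map_mul, hπres, zero_mul, add_zero, map_one, mul_one]
  have ey' : (y : Om) = HahnSeries.C c * (U : Om) := by rw [ey, hU]; rfl
  have hmem : HahnSeries.C c * (U : Om) ∈ Ocal A := by rw [← ey']; exact y.2
  have hcA : c ∈ A := (C_mul_mem_Ocal_iff A c U (by rw [hUred]; exact hured)).mp hmem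
  have h1 : red A y = HahnSeries.C (IsLocalRing.residue A ⟨c, hcA⟩) * red A U := by
    rw [← red_C_mul A hcA U hmem]
    exact red_congr A ey' y.2 hmem
  rw [h1, hUred]
  exact mul_mem (C_mem_field _) (hR.2.1 u huF)

end Field

/-! ### The Plan forms -/

section PlanForms

variable {q N' N M : ℕ}

theorem levels_facts (hL : Plan.Levels q N' N M) :
    0 < M ∧ ¬ q ∣ M ∧ N' ∣ M := by
  obtain ⟨hq, hN'pos, hqN', -, hM⟩ := hL
  have haux : 0 < Plan.aux q := by
    unfold Plan.aux; split_ifs <;> norm_num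
  have hqaux : ¬ q ∣ Plan.aux q := by
    unfold Plan.aux
    split_ifs with h
    · rw [h]; norm_num
    · intro hd
      have h2 : q ∣ 2 := Nat.Prime.dvd_of_dvd_pow hq (show q ∣ 2 ^ 2 from hd)
      exact h ((Nat.prime_dvd_prime_iff_eq hq Nat.prime_two).mp h2)
  refine ⟨by rw [hM]; exact Nat.mul_pos haux hN'pos, ?_, by rw [hM]; exact dvd_mul_left _ _⟩
  rw [hM]
  intro h
  rcases (Nat.Prime.dvd_mul hq).mp h with h | h
  · exact hqaux h
  · exact hqN' h

/-- **`hscale`** of `DescInst.descW` / `DescInst.unipDiv_of`, unconditionally. -/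
theorem scale_levels (hL : Plan.Levels q N' N M) (A : ValuationSubring Kbar)
    (hA : A.LiesOverPrime q) :
    ∀ y : Om, y ∈ modularFunctionFieldBar (M * q) → y ≠ 0 →
      ∃ c : Kbar, c ≠ 0 ∧ ∃ h : HahnSeries.C c * y ∈ Ocal A, red A ⟨_, h⟩ ≠ 0 := by
  obtain ⟨hMpos, hqM, -⟩ := levels_facts hL
  haveI : NeZero M := ⟨hMpos.ne'⟩
  haveI : NeZero q := ⟨hL.prime.ne_zero⟩
  exact scaleProp A M q hL.prime hqM hA

/-- **`hChar`** of `DescInst.descW` / `DescInst.unipDiv_of`, unconditionally: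
`S18.Plan.CharStmt A N (M * q)` at the bad pair of `Plan.Levels`. -/
theorem charStmt (hL : Plan.Levels q N' N M) (A : ValuationSubring Kbar)
    (hA : A.LiesOverPrime q) : S18.Plan.CharStmt A N (M * q) := by
  obtain ⟨hMpos, hqM, hN'M⟩ := levels_facts hL
  haveI : NeZero M := ⟨hMpos.ne'⟩
  haveI : NeZero q := ⟨hL.prime.ne_zero⟩
  haveI : NeZero N' := ⟨hL.N'_pos.ne'⟩
  haveI : Fact q.Prime := ⟨hL.prime⟩
  rw [hL.N_eq]
  exact CharBad.charStmt_bad' A q N' M hN'M hqM hA (scaleProp A M q hL.prime hqM hA)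
    (redInto A N' q hL.prime hL.not_dvd hA) (redInto A M q hL.prime hqM hA)

end PlanForms

end Fermat.Agent.S34.ValOne

end
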