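import Mathlib
import Fermat.Agent.S34.Plan

/-!
# S34 / P6 [VAL-SMALL] (helper5): the bookkeeping fields of `Plan.Setup2`, hypothesis form

For the two-component reduction `(O, ρ)`, `O = {g ∈ F_L : g, σ g ∈ Ocal}`,
`ρ g = (red g, red σ g)` (hypotheses `hO`, `hρ`; `σ` a `Q̄`-automorphism of `F_L`): the fields
`mem_field`, `mem_Ocal`, `fst_eq`, `C_mem_iff`, `ρ_C`, `inv_mem` of `Plan.Setup2`.
-/

set_option autoImplicit false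
set_option synthInstance.maxHeartbeats 400000
set_option maxHeartbeats 1000000

noncomputable section

namespace Fermat.Agent.S34.ValSmall

open ModularCurve AlgebraicCurve Fermat.Agent.S24 Fermat.Agent.S18.Content Fermat.Agent.S18.Plan

variable (A : ValuationSubring Kbar) (L : ℕ) (σ : FN L ≃ₐ[Kbar] FN L)
  (O : Subring Om) (ρ : O →+* Plan.R2 A)

/-- **`Plan.Setup2.mem_field`**. -/
theorem mem_field
    (hO : ∀ g : Om, g ∈ O ↔ ∃ hg : g ∈ modularFunctionFieldBar L,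
      g ∈ Ocal A ∧ ((σ ⟨g, hg⟩ : FN L) : Om) ∈ Ocal A) :
    ∀ g : O, (g : Om) ∈ modularFunctionFieldBar L := fun g =>
  ((hO (g : Om)).mp g.2).1

/-- **`Plan.Setup2.mem_Ocal`**. -/
theorem mem_Ocal
    (hO : ∀ g : Om, g ∈ O ↔ ∃ hg : g ∈ modularFunctionFieldBar L,
      g ∈ Ocal A ∧ ((σ ⟨g, hg⟩ : FN L) : Om) ∈ Ocal A) :
    ∀ g : O, (g : Om) ∈ Ocal A := fun g =>
  ((hO (g : Om)).mp g.2).2.1

/-- **`Plan.Setup2.fst_eq`**. -/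
theorem fst_eq
    (hO : ∀ g : Om, g ∈ O ↔ ∃ hg : g ∈ modularFunctionFieldBar L,
      g ∈ Ocal A ∧ ((σ ⟨g, hg⟩ : FN L) : Om) ∈ Ocal A)
    (hρ : ∀ (g : O) (hg : (g : Om) ∈ modularFunctionFieldBar L) (h1 : (g : Om) ∈ Ocal A)
      (h2 : ((σ ⟨(g : Om), hg⟩ : FN L) : Om) ∈ Ocal A),
      ρ g = (red A ⟨(g : Om), h1⟩, red A ⟨_, h2⟩)) :
    ∀ (g : O) (h : (g : Om) ∈ Ocal A), (ρ g).1 = red A ⟨(g : Om), h⟩ := by
  intro g h
  obtain ⟨hg, h1, h2⟩ := (hO (g : Om)).mp g.2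
  rw [hρ g hg h1 h2]

/-- The constant `c` as an element of `F_L`. -/
theorem coe_algebraMap (c : Kbar) :
    ((algebraMap Kbar (FN L) c : FN L) : Om) = HahnSeries.C c := by
  rw [← algebraMap_LS_eq_C]
  rfl

theorem C_mem_field (c : Kbar) : (HahnSeries.C c : Om) ∈ modularFunctionFieldBar L := by
  rw [← coe_algebraMap L c]
  exact (algebraMap Kbar (FN L) c).2

theorem coe_sigma_C (c : Kbar) :
    ((σ ⟨(HahnSeries.C c : Om), C_mem_field L c⟩ : FN L) : Om) = HahnSeries.C c := by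
  have e : (⟨(HahnSeries.C c : Om), C_mem_field L c⟩ : FN L) = algebraMap Kbar (FN L) c :=
    Subtype.ext (coe_algebraMap L c).symm
  rw [e, AlgEquiv.commutes, coe_algebraMap]

/-- **`Plan.Setup2.C_mem_iff`**. -/
theorem C_mem_iff
    (hO : ∀ g : Om, g ∈ O ↔ ∃ hg : g ∈ modularFunctionFieldBar L,
      g ∈ Ocal A ∧ ((σ ⟨g, hg⟩ : FN L) : Om) ∈ Ocal A) :
    ∀ c : Kbar, (HahnSeries.C c : Om) ∈ O ↔ c ∈ A := by
  intro c
  rw [hO]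
  constructor
  · rintro ⟨-, h1, -⟩
    exact (C_mem_Ocal_iff A c).mp h1
  · intro hc
    refine ⟨C_mem_field L c, C_mem_Ocal A hc, ?_⟩
    rw [coe_sigma_C]
    exact C_mem_Ocal A hc

/-- **`Plan.Setup2.ρ_C`**. -/
theorem ρ_C
    (hO : ∀ g : Om, g ∈ O ↔ ∃ hg : g ∈ modularFunctionFieldBar L,
      g ∈ Ocal A ∧ ((σ ⟨g, hg⟩ : FN L) : Om) ∈ Ocal A)
    (hρ : ∀ (g : O) (hg : (g : Om) ∈ modularFunctionFieldBar L) (h1 : (g : Om) ∈ Ocal A)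
      (h2 : ((σ ⟨(g : Om), hg⟩ : FN L) : Om) ∈ Ocal A),
      ρ g = (red A ⟨(g : Om), h1⟩, red A ⟨_, h2⟩)) :
    ∀ (a : A) (h : (HahnSeries.C (a : Kbar) : Om) ∈ O),
      ρ ⟨_, h⟩ = (HahnSeries.C (IsLocalRing.residue A a),
        HahnSeries.C (IsLocalRing.residue A a)) := by
  intro a h
  obtain ⟨hg, h1, h2⟩ := (hO _).mp h
  rw [hρ ⟨_, h⟩ hg h1 h2]
  have e1 : red A ⟨(HahnSeries.C (a : Kbar) : Om), h1⟩ =
      HahnSeries.C (IsLocalRing.residue A a) := by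
    rw [red_congr A rfl h1 (C_mem_Ocal A a.2)]
    exact red_C A a.2
  have e2 : red A ⟨_, h2⟩ = HahnSeries.C (IsLocalRing.residue A a) := by
    rw [red_congr A (coe_sigma_C L σ (a : Kbar)) h2 (C_mem_Ocal A a.2)]
    exact red_C A a.2
  rw [e1, e2]

/-- **`Plan.Setup2.inv_mem`**. -/
theorem inv_mem
    (hO : ∀ g : Om, g ∈ O ↔ ∃ hg : g ∈ modularFunctionFieldBar L,
      g ∈ Ocal A ∧ ((σ ⟨g, hg⟩ : FN L) : Om) ∈ Ocal A)
    (hρ : ∀ (g : O) (hg : (g : Om) ∈ modularFunctionFieldBar L) (h1 : (g : Om) ∈ Ocal A)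
      (h2 : ((σ ⟨(g : Om), hg⟩ : FN L) : Om) ∈ Ocal A),
      ρ g = (red A ⟨(g : Om), h1⟩, red A ⟨_, h2⟩)) :
    ∀ g : O, (ρ g).1 ≠ 0 → (ρ g).2 ≠ 0 → ((g : Om))⁻¹ ∈ O := by
  intro g hg1 hg2
  obtain ⟨hg, h1, h2⟩ := (hO (g : Om)).mp g.2
  rw [hρ g hg h1 h2] at hg1 hg2
  set G : FN L := ⟨(g : Om), hg⟩ with hG
  have hinvF : ((g : Om))⁻¹ ∈ modularFunctionFieldBar L := (G⁻¹).2
  have hσ : ((σ ⟨((g : Om))⁻¹, hinvF⟩ : FN L) : Om) = ((σ G : FN L) : Om)⁻¹ := by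
    have e : (⟨((g : Om))⁻¹, hinvF⟩ : FN L) = G⁻¹ := rfl
    rw [e, map_inv₀]
    rfl
  refine (hO _).mpr ⟨hinvF, inv_mem_Ocal A ⟨_, h1⟩ hg1, ?_⟩
  rw [hσ]
  exact inv_mem_Ocal A ⟨_, h2⟩ hg2

end Fermat.Agent.S34.ValSmall
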